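/-
GATE-P / S56, node [P-LOC], leaf S56-LOC-INF (helper94): **the archimedean term of Greenberg–Wiles**.

In Wiles' formula
  `dim H¹_L(ad⁰ρ̄) - dim H¹_{L^⊥}(ad⁰ρ̄(1)) = h⁰(ℚ, ad⁰) - h⁰(ℚ, ad⁰(1)) + Σ_v (dim L_v - h⁰(G_v, ad⁰))`
the place `v = ∞` contributes `0 - h⁰(G_ℝ, ad⁰ρ̄) = -1` (`p` odd: `H¹(G_ℝ, ·) = 0`, see `GC/Arch`).
This file proves the `-1` from the frozen hypotheses of S56:

* `conj_rootOfUnity` : complex conjugation inverts roots of unity (local twin of the `GJ/Cyc` lemma);
* `det_conj` : `det ρ̄(c) = -1` from the frozen `DetIsCyclotomic` (level `n = 1`);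
* `exists_basis_of_involution` : an involution of determinant `-1` of a plane (`2 ≠ 0`) has an
  eigenbasis with eigenvalues `1, -1`; `toMatrix_of_eigenbasis`;
* `invSub g` / `antiSub g` : trace-zero endomorphisms commuting / anti-commuting with `g`
  (`= (ad⁰)^{c}` resp. `(ad⁰(1))^{c}`, as `χ_p(c) = -1`); `invSub_eq_span`, `finrank_invSub = 1`,
  `finrank_antiSub = 2`;
* for `ρbar : ResidualGaloisRep k` with `DetIsCyclotomic p`, `p` odd:
  `conj_mul_self`, `exists_basis_conj`, `finrank_invariants_ad0 = 1`,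
  `finrank_antiinvariants_ad0 = 2`, and the cardinality forms `natCard_invariants_ad0 = |k|`,
  `natCard_antiinvariants_ad0 = |k|²` for finite `k`.

Prelude + Mathlib only.
-/
import Mathlib
import Fermat.Prelude.Def_GaloisRep_LocalConditions
import Fermat.Prelude.Def_GaloisRep_ComplexConjugation

set_option autoImplicit false

namespace Fermat.Agent.GP.Loc.Arch

open Module

section LinAlg

variable {k : Type*} [Field k] {V : Type*} [AddCommGroup V] [Module k V]

/-- an involution of determinant `-1` of a plane (`2 ≠ 0`) has an eigenbasis with eigenvalues `1`, `-1`. -/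
theorem exists_basis_of_involution (h2 : (2 : k) ≠ 0) (hV : finrank k V = 2) (g : Module.End k V)
    (hg : g * g = 1) (hdet : LinearMap.det g = -1) :
    ∃ b : Basis (Fin 2) k V, g (b 0) = b 0 ∧ g (b 1) = - b 1 := by
  have hgg : ∀ v, g (g v) = v := fun v => by
    have := congrArg (fun f : Module.End k V => f v) hg
    simpa using this
  have hne1 : g ≠ 1 := by
    rintro rfl
    rw [map_one] at hdet
    apply h2
    have : (1 : k) + 1 = 0 := by nth_rewrite 1 [hdet]; ring
    rw [← this]; norm_num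
  have hneN : g ≠ -1 := by
    rintro rfl
    have : LinearMap.det (-1 : Module.End k V) = 1 := by
      have h := LinearMap.det_smul (-1 : k) (1 : Module.End k V)
      rw [hV, map_one] at h
      have e : (-1 : k) • (1 : Module.End k V) = -1 := by simp
      rw [e] at h
      rw [h]; ring
    rw [this] at hdet
    apply h2
    have : (1 : k) + 1 = 0 := by nth_rewrite 1 [hdet]; ring
    rw [← this]; norm_num
  obtain ⟨v, hv⟩ : ∃ v, g v ≠ v := by
    by_contra hcon
    apply hne1
    refine LinearMap.ext fun v => ?_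
    by_contra hv
    exact hcon ⟨v, hv⟩
  obtain ⟨v', hv'⟩ : ∃ v, g v ≠ -v := by
    by_contra hcon
    apply hneN
    refine LinearMap.ext fun v => ?_
    by_contra hv
    exact hcon ⟨v, hv⟩
  set wm : V := g v - v with hwm
  set wp : V := g v' + v' with hwp
  have hwm0 : wm ≠ 0 := sub_ne_zero.mpr hv
  have hwp0 : wp ≠ 0 := by
    intro h
    exact hv' (eq_neg_of_add_eq_zero_left h)
  have hgm : g wm = -wm := by rw [hwm, map_sub, hgg]; abel
  have hgp : g wp = wp := by rw [hwp, map_add, hgg]; abel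
  have hli : LinearIndependent k ![wp, wm] := by
    rw [LinearIndependent.pair_iff]
    intro s t hst
    have h1 : s • wp - t • wm = 0 := by
      have := congrArg g hst
      rw [map_add, map_smul, map_smul, hgp, hgm, map_zero, smul_neg] at this
      rw [sub_eq_add_neg]; exact this
    have hs : (2 * s) • wp = 0 := by
      have : (s • wp + t • wm) + (s • wp - t • wm) = 0 := by rw [hst, h1, add_zero]
      rw [two_mul, add_smul]; rw [← this]; abel
    have hs0 : s = 0 := by
      rcases smul_eq_zero.mp hs with h | h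
      · exact (mul_eq_zero.mp h).resolve_left h2
      · exact absurd h hwp0
    have ht : t • wm = 0 := by rw [hs0, zero_smul, zero_add] at hst; exact hst
    exact ⟨hs0, (smul_eq_zero.mp ht).resolve_right hwm0⟩
  have hcard : Fintype.card (Fin 2) = finrank k V := by rw [hV]; rfl
  refine ⟨basisOfLinearIndependentOfCardEqFinrank hli hcard, ?_, ?_⟩
  · rw [coe_basisOfLinearIndependentOfCardEqFinrank]; simpa using hgp
  · rw [coe_basisOfLinearIndependentOfCardEqFinrank]; simpa using hgm

/-- the trace-zero endomorphisms commuting with `g` (= `g`-invariants of `ad⁰`). -/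
def invSub (g : Module.End k V) : Submodule k (Module.End k V) where
  carrier := {A | LinearMap.trace k V A = 0 ∧ g * A = A * g}
  add_mem' := by
    rintro A B ⟨hA, hA'⟩ ⟨hB, hB'⟩
    exact ⟨by rw [map_add, hA, hB, add_zero], by rw [mul_add, add_mul, hA', hB']⟩
  zero_mem' := ⟨map_zero _, by rw [mul_zero, zero_mul]⟩
  smul_mem' := by
    rintro c A ⟨hA, hA'⟩
    exact ⟨by rw [map_smul, hA, smul_zero], by rw [mul_smul_comm, smul_mul_assoc, hA']⟩

/-- the trace-zero endomorphisms anti-commuting with `g`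
(= `g`-invariants of `ad⁰ ⊗ χ` when `χ(g) = -1`). -/
def antiSub (g : Module.End k V) : Submodule k (Module.End k V) where
  carrier := {A | LinearMap.trace k V A = 0 ∧ g * A = -(A * g)}
  add_mem' := by
    rintro A B ⟨hA, hA'⟩ ⟨hB, hB'⟩
    exact ⟨by rw [map_add, hA, hB, add_zero], by rw [mul_add, add_mul, hA', hB', neg_add]⟩
  zero_mem' := ⟨map_zero _, by rw [mul_zero, zero_mul, neg_zero]⟩
  smul_mem' := by
    rintro c A ⟨hA, hA'⟩
    exact ⟨by rw [map_smul, hA, smul_zero], by rw [mul_smul_comm, smul_mul_assoc, hA', smul_neg]⟩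

theorem mem_invSub {g A : Module.End k V} :
    A ∈ invSub g ↔ LinearMap.trace k V A = 0 ∧ g * A = A * g := Iff.rfl

theorem mem_antiSub {g A : Module.End k V} :
    A ∈ antiSub g ↔ LinearMap.trace k V A = 0 ∧ g * A = -(A * g) := Iff.rfl

/-- the matrix of `g` in an eigenbasis. -/
theorem toMatrix_of_eigenbasis (b : Basis (Fin 2) k V) (g : Module.End k V)
    (h0 : g (b 0) = b 0) (h1 : g (b 1) = - b 1) :
    LinearMap.toMatrix b b g = !![1, 0; 0, -1] := by
  ext i j
  fin_cases i <;> fin_cases j <;> simp [LinearMap.toMatrix_apply, h0, h1]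

section Mat

variable {k : Type*} [Field k]

theorem diag_comm_iff (h2 : (2 : k) ≠ 0) (M : Matrix (Fin 2) (Fin 2) k) :
    !![1, 0; 0, -1] * M = M * !![1, 0; 0, -1] ↔ M 0 1 = 0 ∧ M 1 0 = 0 := by
  rw [Matrix.eta_fin_two M]
  simp only [Matrix.mul_fin_two, Matrix.of_apply, Matrix.cons_val', Matrix.cons_val_zero,
    Matrix.cons_val_one, Matrix.cons_val_fin_one]
  constructor
  · intro h
    have h01 := congrFun (congrFun h 0) 1
    have h10 := congrFun (congrFun h 1) 0
    simp at h01 h10
    constructor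
    · have : (2 : k) * M 0 1 = 0 := by linear_combination h01
      exact (mul_eq_zero.mp this).resolve_left h2
    · have : (2 : k) * M 1 0 = 0 := by linear_combination -h10
      exact (mul_eq_zero.mp this).resolve_left h2
  · rintro ⟨h01, h10⟩
    rw [h01, h10]
    ext i j
    fin_cases i <;> fin_cases j <;> simp

theorem diag_anticomm_iff (h2 : (2 : k) ≠ 0) (M : Matrix (Fin 2) (Fin 2) k) :
    !![1, 0; 0, -1] * M = -(M * !![1, 0; 0, -1]) ↔ M 0 0 = 0 ∧ M 1 1 = 0 := by
  rw [Matrix.eta_fin_two M]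
  simp only [Matrix.mul_fin_two, Matrix.of_apply, Matrix.cons_val', Matrix.cons_val_zero,
    Matrix.cons_val_one, Matrix.cons_val_fin_one]
  constructor
  · intro h
    have h00 := congrFun (congrFun h 0) 0
    have h11 := congrFun (congrFun h 1) 1
    simp at h00 h11
    constructor
    · have : (2 : k) * M 0 0 = 0 := by linear_combination h00
      exact (mul_eq_zero.mp this).resolve_left h2
    · have : (2 : k) * M 1 1 = 0 := by linear_combination -h11
      exact (mul_eq_zero.mp this).resolve_left h2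
  · rintro ⟨h00, h11⟩
    rw [h00, h11]
    ext i j
    fin_cases i <;> fin_cases j <;> simp

end Mat

/-- **`g`-invariants of `ad⁰` = the line `k · g`** (involution of determinant `-1`, `2 ≠ 0`). -/
theorem invSub_eq_span (h2 : (2 : k) ≠ 0) (b : Basis (Fin 2) k V) (g : Module.End k V)
    (h0 : g (b 0) = b 0) (h1 : g (b 1) = - b 1) :
    invSub g = Submodule.span k {g} := by
  have hD := toMatrix_of_eigenbasis b g h0 h1
  ext A
  rw [mem_invSub, Submodule.mem_span_singleton]
  set e := LinearMap.toMatrixAlgEquiv b with he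
  have heg : e g = !![1, 0; 0, -1] := hD
  constructor
  · rintro ⟨htr, hc⟩
    have hc' : e g * e A = e A * e g := by rw [← map_mul, ← map_mul, hc]
    rw [heg, diag_comm_iff h2] at hc'
    have htr' : (e A) 0 0 + (e A) 1 1 = 0 := by
      have := LinearMap.trace_eq_matrix_trace k b A
      rw [htr, Matrix.trace_fin_two] at this
      exact this.symm
    refine ⟨(e A) 0 0, e.injective ?_⟩
    rw [map_smul, heg]
    rw [Matrix.eta_fin_two (e A), hc'.1, hc'.2]
    have h11 : (e A) 1 1 = -(e A) 0 0 := eq_neg_of_add_eq_zero_right htr'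
    rw [h11]
    ext i j
    fin_cases i <;> fin_cases j <;> simp
  · rintro ⟨a, rfl⟩
    refine ⟨?_, by rw [mul_smul_comm, smul_mul_assoc]⟩
    rw [map_smul, LinearMap.trace_eq_matrix_trace k b g, hD, Matrix.trace_fin_two]
    simp

theorem finrank_invSub (h2 : (2 : k) ≠ 0) (b : Basis (Fin 2) k V) (g : Module.End k V)
    (h0 : g (b 0) = b 0) (h1 : g (b 1) = - b 1) :
    finrank k (invSub g) = 1 := by
  rw [invSub_eq_span h2 b g h0 h1]
  apply finrank_span_singleton
  intro hg
  have : g (b 0) = 0 := by rw [hg]; rfl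
  rw [h0] at this
  exact b.ne_zero 0 this

/-- the two off-diagonal coordinates (in an eigenbasis of `g`) of an element of `antiSub g` -/
noncomputable def antiCoord (b : Basis (Fin 2) k V) (g : Module.End k V) : antiSub g →ₗ[k] k × k where
  toFun A := (LinearMap.toMatrix b b A.1 0 1, LinearMap.toMatrix b b A.1 1 0)
  map_add' A B := by simp
  map_smul' c A := by simp

theorem antiCoord_bijective (h2 : (2 : k) ≠ 0) (b : Basis (Fin 2) k V) (g : Module.End k V)
    (h0 : g (b 0) = b 0) (h1 : g (b 1) = - b 1) :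
    Function.Bijective (antiCoord b g) := by
  have hD := toMatrix_of_eigenbasis b g h0 h1
  set e := LinearMap.toMatrixAlgEquiv b with he
  have heg : e g = !![1, 0; 0, -1] := hD
  have key : ∀ A : Module.End k V, A ∈ antiSub g ↔ (e A) 0 0 = 0 ∧ (e A) 1 1 = 0 := by
    intro A
    rw [mem_antiSub]
    constructor
    · rintro ⟨-, hc⟩
      have hc' : e g * e A = -(e A * e g) := by rw [← map_mul, ← map_mul, ← map_neg, hc]
      rwa [heg, diag_anticomm_iff h2] at hc'
    · rintro ⟨h00, h11⟩
      refine ⟨?_, e.injective ?_⟩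
      · have := LinearMap.trace_eq_matrix_trace k b A
        rw [this, Matrix.trace_fin_two]
        show (e A) 0 0 + (e A) 1 1 = 0
        rw [h00, h11, add_zero]
      · rw [map_mul, map_neg, map_mul, heg]
        exact (diag_anticomm_iff h2 (e A)).mpr ⟨h00, h11⟩
  constructor
  · rw [← LinearMap.ker_eq_bot, LinearMap.ker_eq_bot']
    rintro ⟨A, hA⟩ h
    have h01 : (e A) 0 1 = 0 := congrArg Prod.fst h
    have h10 : (e A) 1 0 = 0 := congrArg Prod.snd h
    obtain ⟨h00, h11⟩ := (key A).mp hA
    apply Subtype.ext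
    show A = 0
    apply e.injective
    rw [map_zero, Matrix.eta_fin_two (e A), h00, h01, h10, h11]
    ext i j
    fin_cases i <;> fin_cases j <;> rfl
  · rintro ⟨x, y⟩
    have hmem : e.symm !![0, x; y, 0] ∈ antiSub g := by
      rw [key, AlgEquiv.apply_symm_apply]
      exact ⟨rfl, rfl⟩
    refine ⟨⟨e.symm !![0, x; y, 0], hmem⟩, ?_⟩
    show ((e (e.symm !![0, x; y, 0])) 0 1, (e (e.symm !![0, x; y, 0])) 1 0) = (x, y)
    rw [AlgEquiv.apply_symm_apply]
    rfl

theorem finrank_antiSub (h2 : (2 : k) ≠ 0) (b : Basis (Fin 2) k V) (g : Module.End k V)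
    (h0 : g (b 0) = b 0) (h1 : g (b 1) = - b 1) :
    finrank k (antiSub g) = 2 := by
  rw [(LinearEquiv.ofBijective (antiCoord b g) (antiCoord_bijective h2 b g h0 h1)).finrank_eq,
    Module.finrank_prod, Module.finrank_self]

end LinAlg

section Conj

/-- complex conjugation inverts roots of unity (local twin of
`Fermat.Agent.GJ.Cyc.complexConjugation_rootOfUnity`, re-proved here to keep the closure lean). -/
theorem conj_rootOfUnity (m : ℕ) (hm : m ≠ 0) (ζ : AlgebraicClosure ℚ)
    (hζ : ζ ^ m = 1) : complexConjugation ζ = ζ⁻¹ := by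
  apply complexEmbedding.toRingHom.injective
  show complexEmbedding (complexConjugation ζ) = complexEmbedding ζ⁻¹
  rw [complexEmbedding_complexConjugation, map_inv₀]
  have h1 : (complexEmbedding ζ) ^ m = 1 := by rw [← map_pow, hζ, map_one]
  exact (Complex.inv_eq_conj (Complex.norm_eq_one_of_pow_eq_one h1 hm)).symm

variable {k : Type} [Field k] (p : ℕ) [Fact p.Prime]

/-- **the determinant of `ρ̄(c)` is `-1`** (frozen `DetIsCyclotomic`, level `n = 1`). -/
theorem det_conj (ρbar : ResidualGaloisRep k)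
    (hdet : (GaloisRepAdic.ofResidualGaloisRep ρbar).DetIsCyclotomic p) :
    LinearMap.det (ρbar.ρ complexConjugation) = -1 := by
  obtain ⟨hp0, h⟩ := hdet
  have hpk : (p : k) = 0 := by
    rw [IsLocalRing.maximalIdeal_eq_bot] at hp0
    simpa using hp0
  have hp : p.Prime := Fact.out
  have key := h 1 complexConjugation (p - 1) (by
    intro μ hμ
    rw [pow_one] at hμ
    rw [conj_rootOfUnity p hp.ne_zero μ hμ]
    apply inv_eq_of_mul_eq_one_left
    rw [← pow_succ, Nat.sub_add_cancel hp.one_le, hμ])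
  have hspan : Ideal.span {((p ^ 1 : ℕ) : k)} = ⊥ := by
    rw [pow_one, hpk, Ideal.span_singleton_eq_bot]
  rw [hspan, Ideal.mem_bot, sub_eq_zero] at key
  have : ((p - 1 : ℕ) : k) = -1 := by
    rw [Nat.cast_sub hp.one_le, hpk, Nat.cast_one, zero_sub]
  rw [← this]
  exact key

end Conj

section Rhobar

variable {k : Type} [Field k] (p : ℕ) [Fact p.Prime]

omit [Fact p.Prime] in
theorem natCast_eq_zero_of_detIsCyclotomic (ρbar : ResidualGaloisRep k)
    (hdet : (GaloisRepAdic.ofResidualGaloisRep ρbar).DetIsCyclotomic p) : (p : k) = 0 := by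
  have hp0 := hdet.1
  rw [IsLocalRing.maximalIdeal_eq_bot] at hp0
  simpa using hp0

/-- `2 ≠ 0` in a field where the odd prime `p` vanishes. -/
theorem two_ne_zero_of_natCast_eq_zero (hp2 : p ≠ 2) (hpk : (p : k) = 0) : (2 : k) ≠ 0 := by
  intro h2
  have hp : p.Prime := Fact.out
  obtain ⟨m, hm⟩ := hp.eq_two_or_odd'.resolve_left hp2
  have : (p : k) = 2 * m + 1 := by rw [hm]; push_cast; ring
  rw [hpk, h2, zero_mul, zero_add] at this
  exact zero_ne_one this

theorem conj_mul_self (ρbar : ResidualGaloisRep k) :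
    ρbar.ρ complexConjugation * ρbar.ρ complexConjugation = 1 := by
  rw [← map_mul, complexConjugation_mul_self, map_one]

/-- **`ρ̄(c) ~ diag(1, -1)`**. -/
theorem exists_basis_conj (hp2 : p ≠ 2) (ρbar : ResidualGaloisRep k)
    (hdet : (GaloisRepAdic.ofResidualGaloisRep ρbar).DetIsCyclotomic p) :
    ∃ b : Basis (Fin 2) k ρbar.V, ρbar.ρ complexConjugation (b 0) = b 0 ∧
      ρbar.ρ complexConjugation (b 1) = - b 1 :=
  exists_basis_of_involution
    (two_ne_zero_of_natCast_eq_zero p hp2 (natCast_eq_zero_of_detIsCyclotomic p ρbar hdet))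
    ρbar.finrank_eq _ (conj_mul_self ρbar) (det_conj p ρbar hdet)

/-- **`h⁰(G_ℝ, ad⁰ρ̄) = 1`**. -/
theorem finrank_invariants_ad0 (hp2 : p ≠ 2) (ρbar : ResidualGaloisRep k)
    (hdet : (GaloisRepAdic.ofResidualGaloisRep ρbar).DetIsCyclotomic p) :
    finrank k (invSub (ρbar.ρ complexConjugation)) = 1 := by
  obtain ⟨b, h0, h1⟩ := exists_basis_conj p hp2 ρbar hdet
  exact finrank_invSub
    (two_ne_zero_of_natCast_eq_zero p hp2 (natCast_eq_zero_of_detIsCyclotomic p ρbar hdet))
    b _ h0 h1

/-- **`h⁰(G_ℝ, ad⁰ρ̄(1)) = 2`** (`c` acts on the twist by `χ_p(c) = -1`). -/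
theorem finrank_antiinvariants_ad0 (hp2 : p ≠ 2) (ρbar : ResidualGaloisRep k)
    (hdet : (GaloisRepAdic.ofResidualGaloisRep ρbar).DetIsCyclotomic p) :
    finrank k (antiSub (ρbar.ρ complexConjugation)) = 2 := by
  obtain ⟨b, h0, h1⟩ := exists_basis_conj p hp2 ρbar hdet
  exact finrank_antiSub
    (two_ne_zero_of_natCast_eq_zero p hp2 (natCast_eq_zero_of_detIsCyclotomic p ρbar hdet))
    b _ h0 h1

theorem natCard_invariants_ad0 [Finite k] (hp2 : p ≠ 2) (ρbar : ResidualGaloisRep k)
    (hdet : (GaloisRepAdic.ofResidualGaloisRep ρbar).DetIsCyclotomic p) :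
    Nat.card (invSub (ρbar.ρ complexConjugation)) = Nat.card k := by
  rw [Module.natCard_eq_pow_finrank (K := k), finrank_invariants_ad0 p hp2 ρbar hdet, pow_one]

theorem natCard_antiinvariants_ad0 [Finite k] (hp2 : p ≠ 2) (ρbar : ResidualGaloisRep k)
    (hdet : (GaloisRepAdic.ofResidualGaloisRep ρbar).DetIsCyclotomic p) :
    Nat.card (antiSub (ρbar.ρ complexConjugation)) = Nat.card k ^ 2 := by
  rw [Module.natCard_eq_pow_finrank (K := k), finrank_antiinvariants_ad0 p hp2 ρbar hdet]

end Rhobar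

end Fermat.Agent.GP.Loc.Arch
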