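/-
GATE-P / S56 [P-LOC] leaf S56-LOC-TWQ part (B) (helper67): THE DECOMPOSITION GROUP IS GENERATED BY
FROBENIUS AND INERTIA modulo every finite level, in the function model (`A | q` a valuation subring
of `ℚ̄`, frozen `A.decompositionSubgroup ℚ`, `A.inertiaSubgroupIn ℚ`, `A.IsFrobeniusAt φ q`).

* `exists_pow_of_ringHom` : every ring endomorphism of a finite field of characteristic `q` is
  `y ↦ y ^ q ^ n` (Mathlib `FiniteField.bijective_frobeniusAlgHom_pow`).
* `primeBelow L A`, `mem_primeBelow_iff`, `smul_mem_primeBelow` (`D_A` preserves it),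
  `frob_smul_sub_pow_mem`, `frob_pow_smul_sub_pow_mem`.
* **`exists_restrictNormalHom_eq`** : `L/ℚ` finite Galois in `ℚ̄`, `φ` a Frobenius at `A`,
  `σ ∈ D_A` `⟹ ∃ n : ℕ, ∃ τ ∈ I_A, σ|_L = (φ ^ n * τ)|_L`.
* **`exists_eq_pow_mul_mul`** : `H` open normal in `G_ℚ`, `σ ∈ D_A` `⟹ σ = φ ^ n * τ * h`,
  `τ ∈ I_A`, `h ∈ H`.

Proof: `σ` induces an endomorphism of the finite field `𝓞 L / P`, a power of Frobenius; so
`(φ ^ n)⁻¹ σ` acts trivially on `𝓞 L / P` and lifts to inertia (S13 `exists_mem_inertia_of_inert`).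
-/
import Mathlib
import Fermat.Agent.S13.GlobalLift
import Fermat.Agent.S05.Inertia

set_option autoImplicit false
set_option linter.unusedSectionVars false

open scoped Pointwise NumberField
open Fermat.Agent.Common_helper32 Fermat.Agent.S13.Global Fermat.Agent.S13.GlobalLift

namespace Fermat.Agent.GP.Loc.FrobGen

/-! ### Endomorphisms of finite fields -/

/-- every ring endomorphism of a finite field of characteristic `q` is a power of Frobenius. -/
theorem exists_pow_of_ringHom {k : Type*} [Field k] [Finite k] (q : ℕ) [Fact q.Prime] [CharP k q]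
    (e : k →+* k) : ∃ n : ℕ, ∀ y : k, e y = y ^ q ^ n := by
  let _ := ZMod.algebra k q
  let E : k →ₐ[ZMod q] k :=
    { e with
      commutes' := fun r => by
        have h := RingHom.ext_zmod (e.comp (algebraMap (ZMod q) k)) (algebraMap (ZMod q) k)
        exact DFunLike.congr_fun h r }
  obtain ⟨n, hn⟩ := (FiniteField.bijective_frobeniusAlgHom_pow (ZMod q) k).2 E
  refine ⟨n.1, fun y => ?_⟩
  have h := DFunLike.congr_fun hn y
  simp only [AlgHom.coe_pow, FiniteField.coe_frobeniusAlgHom, pow_iterate, ZMod.card] at h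
  exact h.symm

/-! ### The finite level -/

section Level

variable (L : IntermediateField ℚ Qb) [FiniteDimensional ℚ L] [IsGalois ℚ L]
variable (A : ValuationSubring Qb) {q : ℕ} (hq : q.Prime) (hA : (q : Qb) ∈ A.nonunits)

/-- the prime of `𝓞 L` below `A`. -/
noncomputable def primeBelow : Ideal (𝓞 L) := (centerIdeal A).comap (toZb L)

instance : (primeBelow L A).IsPrime := Ideal.comap_isPrime _ _

omit [FiniteDimensional ℚ L] [IsGalois ℚ L] in
theorem mem_primeBelow_iff (x : 𝓞 L) : x ∈ primeBelow L A ↔ (((x : L) : Qb)) ∈ A.nonunits := by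
  unfold primeBelow
  rw [Ideal.mem_comap, mem_centerIdeal]
  rfl

/-- the decomposition group preserves the maximal ideal of `A`. -/
theorem apply_mem_nonunits_of_mem_decomposition {σ : GQ} (hσ : σ ∈ A.decompositionSubgroup ℚ)
    {x : Qb} (hx : x ∈ A.nonunits) : σ x ∈ A.nonunits := by
  by_cases hx0 : x = 0
  · rw [hx0, map_zero]
    rw [hx0] at hx
    exact hx
  have hσx0 : σ x ≠ 0 := (map_ne_zero _).mpr hx0
  rw [Fermat.Agent.S05.mem_nonunits_iff_inv_notMem hσx0]
  rw [Fermat.Agent.S05.mem_nonunits_iff_inv_notMem hx0] at hx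
  intro h
  apply hx
  have h1 : σ x⁻¹ ∈ A := by rwa [map_inv₀]
  exact Fermat.Agent.S05.mem_of_apply_mem_of_mem_decompositionSubgroup hσ h1

theorem smul_mem_primeBelow {σ : GQ} (hσ : σ ∈ A.decompositionSubgroup ℚ) {x : 𝓞 L}
    (hx : x ∈ primeBelow L A) : AlgEquiv.restrictNormalHom L σ • x ∈ primeBelow L A := by
  rw [mem_primeBelow_iff] at hx ⊢
  have h := congrArg (Subtype.val : Zb → Qb) (toZb_restrictNormalHom_smul L σ x)
  rw [coe_toZb] at h
  show (algebraMap L Qb) ((AlgEquiv.restrictNormalHom L σ • x : 𝓞 L) : L) ∈ A.nonunits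
  rw [h]
  exact apply_mem_nonunits_of_mem_decomposition A hσ hx

include hA in
theorem natCast_mem_primeBelow : ((q : ℕ) : 𝓞 L) ∈ primeBelow L A := by
  rw [mem_primeBelow_iff]
  simpa using hA

include hq hA in
theorem primeBelow_ne_bot : primeBelow L A ≠ ⊥ := by
  intro h0
  have h := natCast_mem_primeBelow L A hA
  rw [h0, Ideal.mem_bot] at h
  exact hq.ne_zero (by exact_mod_cast h)

end Level

/-! ### Frobenius at the finite level -/

section Main

variable (L : IntermediateField ℚ Qb) [FiniteDimensional ℚ L] [IsGalois ℚ L]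
variable (A : ValuationSubring Qb) {q : ℕ} (hq : q.Prime) (hA : (q : Qb) ∈ A.nonunits)
variable {φ : GQ} (hφ : A.IsFrobeniusAt φ q)

include hφ in
theorem frob_smul_sub_pow_mem (x : 𝓞 L) :
    AlgEquiv.restrictNormalHom L φ • x - x ^ q ∈ primeBelow L A := by
  rw [mem_primeBelow_iff]
  have hxA : ((x : L) : Qb) ∈ A := isIntegral_mem_valuationSubring A _ (by
    have := x.2
    exact (isIntegral_algebraMap_iff (algebraMap L Qb).injective).mpr this)
  have h := hφ.smul_residue_eq (IsLocalRing.residue A ⟨((x : L) : Qb), hxA⟩)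
  rw [← IsLocalRing.ResidueField.residue_smul, ← map_pow, ← sub_eq_zero, ← map_sub,
    IsLocalRing.residue_eq_zero_iff, A.valuation_lt_one_iff] at h
  rw [A.mem_nonunits_iff]
  have e : (((AlgEquiv.restrictNormalHom L φ • x - x ^ q : 𝓞 L) : L) : Qb) =
      φ • ((x : L) : Qb) - ((x : L) : Qb) ^ q := by
    push_cast
    congr 1
    exact AlgEquiv.restrictNormal_commutes φ L (x : L)
  rw [e]
  exact h

include hφ in
theorem frob_pow_smul_sub_pow_mem (n : ℕ) (x : 𝓞 L) :
    (AlgEquiv.restrictNormalHom L φ) ^ n • x - x ^ q ^ n ∈ primeBelow L A := by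
  induction n with
  | zero => simp
  | succ n ih =>
    have h1 : (AlgEquiv.restrictNormalHom L φ) ^ (n + 1) • x - x ^ q ^ (n + 1) =
        AlgEquiv.restrictNormalHom L φ • ((AlgEquiv.restrictNormalHom L φ) ^ n • x - x ^ q ^ n) +
          (AlgEquiv.restrictNormalHom L φ • (x ^ q ^ n) - (x ^ q ^ n) ^ q) := by
      rw [pow_succ', mul_smul, smul_sub, ← pow_mul, ← pow_succ]
      ring
    rw [h1]
    exact Ideal.add_mem _ (smul_mem_primeBelow L A hφ.mem_decompositionSubgroup ih)
      (frob_smul_sub_pow_mem L A hφ _)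

include hq hA hφ in
/-- **`D_A = ⟨φ⟩ · I_A` modulo every finite Galois level.**  `φ` a Frobenius element at `A | q`,
`L/ℚ` finite Galois inside `ℚ̄`: every `σ ∈ D_A` agrees on `L` with `φ ^ n * τ` for some `n : ℕ`
and some `τ ∈ I_A`. -/
theorem exists_restrictNormalHom_eq {σ : GQ} (hσ : σ ∈ A.decompositionSubgroup ℚ) :
    ∃ n : ℕ, ∃ τ ∈ A.inertiaSubgroupIn ℚ,
      AlgEquiv.restrictNormalHom L σ = AlgEquiv.restrictNormalHom L (φ ^ n * τ) := by
  have : NumberField L := ⟨⟩
  have hP0 := primeBelow_ne_bot L A hq hA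
  have hmax : (primeBelow L A).IsMaximal := Ideal.IsPrime.isMaximal inferInstance hP0
  let _ : Field (𝓞 L ⧸ primeBelow L A) := Ideal.Quotient.field _
  have : Finite (𝓞 L ⧸ primeBelow L A) := Ideal.finiteQuotientOfFreeOfNeBot _ hP0
  have : Fact q.Prime := ⟨hq⟩
  have hchar : CharP (𝓞 L ⧸ primeBelow L A) q := by
    have h0 : ((q : ℕ) : 𝓞 L ⧸ primeBelow L A) = 0 := by
      have : ((q : ℕ) : 𝓞 L ⧸ primeBelow L A) =
          Ideal.Quotient.mk (primeBelow L A) ((q : ℕ) : 𝓞 L) := by simp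
      rw [this, Ideal.Quotient.eq_zero_iff_mem]
      exact natCast_mem_primeBelow L A hA
    have := CharP.ringChar_of_prime_eq_zero hq h0
    exact this ▸ ringChar.charP _
  set s := AlgEquiv.restrictNormalHom L σ with hs
  set f := AlgEquiv.restrictNormalHom L φ with hf
  let e : (𝓞 L ⧸ primeBelow L A) →+* (𝓞 L ⧸ primeBelow L A) :=
    Ideal.quotientMap (primeBelow L A) (MulSemiringAction.toRingHom (L ≃ₐ[ℚ] L) (𝓞 L) s)
      (fun x hx => smul_mem_primeBelow L A hσ hx)
  obtain ⟨n, hn⟩ := exists_pow_of_ringHom q e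
  have key : ∀ x : 𝓞 L, s • x - x ^ q ^ n ∈ primeBelow L A := by
    intro x
    have h := hn (Ideal.Quotient.mk _ x)
    rw [← map_pow] at h
    rw [← Ideal.Quotient.eq]
    exact h
  have hD : (φ ^ n)⁻¹ ∈ A.decompositionSubgroup ℚ :=
    Subgroup.inv_mem _ (Subgroup.pow_mem _ hφ.mem_decompositionSubgroup n)
  have hτ₀ : ∀ x : 𝓞 L, ((f ^ n)⁻¹ * s) • x - x ∈ primeBelow L A := by
    intro x
    have h1 : ((f ^ n)⁻¹ * s) • x - x = (f ^ n)⁻¹ • (s • x - f ^ n • x) := by
      rw [smul_sub, mul_smul, inv_smul_smul]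
    have h2 : s • x - f ^ n • x ∈ primeBelow L A := by
      have : s • x - f ^ n • x = (s • x - x ^ q ^ n) - (f ^ n • x - x ^ q ^ n) := by ring
      rw [this]
      exact Ideal.sub_mem _ (key x) (frob_pow_smul_sub_pow_mem L A hφ n x)
    have h3 : (f ^ n)⁻¹ = AlgEquiv.restrictNormalHom L (φ ^ n)⁻¹ := by
      rw [map_inv, map_pow]
    rw [h1, h3]
    exact smul_mem_primeBelow L A hD h2
  obtain ⟨τ, hτI, hτ⟩ := exists_mem_inertia_of_inert L A q hq hA (primeBelow L A)
    (mem_primeBelow_iff L A) ((f ^ n)⁻¹ * s) hτ₀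
  refine ⟨n, τ, hτI, ?_⟩
  rw [map_mul, map_pow, hτ, ← hf, mul_inv_cancel_left]

include hq hA hφ in
/-- subgroup form: `H` open normal in `G_ℚ`; every `σ ∈ D_A` is `φ ^ n * τ * h`. -/
theorem exists_eq_pow_mul_mul (H : Subgroup GQ) (hn : H.Normal) (hopen : IsOpen (H : Set GQ))
    {σ : GQ} (hσ : σ ∈ A.decompositionSubgroup ℚ) :
    ∃ n : ℕ, ∃ τ ∈ A.inertiaSubgroupIn ℚ, ∃ h ∈ H, σ = φ ^ n * τ * h := by
  have hfd := finiteDimensional_fixedField H hopen
  have hgal := isGalois_fixedField H hn hopen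
  obtain ⟨n, τ, hτ, h⟩ := exists_restrictNormalHom_eq (IntermediateField.fixedField H) A hq hA hφ hσ
  refine ⟨n, τ, hτ, (φ ^ n * τ)⁻¹ * σ, ?_, by rw [mul_inv_cancel_left]⟩
  rw [← fixingSubgroup_fixedField_of_isOpen H hopen]
  have := normal_algebra' (IntermediateField.fixedField H)
  rw [← IntermediateField.restrictNormalHom_ker (K := ℚ) (L := Qb) (IntermediateField.fixedField H)]
  rw [MonoidHom.mem_ker, map_mul, map_inv]
  exact inv_mul_eq_one.mpr h.symm

end Main

end Fermat.Agent.GP.Loc.FrobGen
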