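/-
GATE-P / S56 [P-LOC] leaf S56-LOC-TWQ part (C1) (helper67): 1-COCYCLES OF A GROUP `G` MAPPING ONTO
THE DECOMPOSITION GROUP `D_A` of a place `A | q` of `ℚ̄` (`r : G →* G_ℚ`, `r.range = D_A`; e.g.
`G = Gal(ℚ̄_q/ℚ_q)`, `r = localGaloisToGlobal q`, or `G = ↥D_A`), with values in a module `V`
killed by a prime `p ≠ q` on which (the preimage of) inertia acts trivially.  Cocycles are
level-constant: `∃ H` open in `G_ℚ`, `c (g * u) = c g` whenever `r u ∈ H`.

With `w ^ p = q`, `ζ` a primitive `p`-th root of unity, `t₀ ∈ G` a TAME GENERATOR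
(`r t₀ ∈ I_A`, `r t₀ w = ζ w`) and `f ∈ G` a FROBENIUS element (`A.IsFrobeniusAt (r f) q`):

* `frob_apply_rootOfUnity` : a Frobenius element at `q` acts on `μ_p` by `μ ↦ μ ^ q`;
* `apply_eq_nsmul`, `exists_apply_eq_nsmul` : `c u = j • c t₀` for `r u ∈ I_A`, `j` depending
  only on `u` (ONE VALUE GENERATES);
* `rho_apply_eq_nsmul`, **`rho_frob_apply`** : `ρ f (c t₀) = q • c t₀` (TAME RELATION);
* **`eq_zero_of_apply_eq_zero`**, **`eq_of_apply_eq`** : `c ↦ (c f, c t₀)` is INJECTIVE on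
  level-constant cocycles; hence `#Z¹ ≤ #V · #ker(ρ f - q)` and
  `#H¹ ≤ #V^G · #ker(ρ f - q)`;
* `eq_coboundary_of_apply_eq` : `c t₀ = 0`, `c f = ρ f m - m ⟹ c = ∂m` (`H¹_ur ↪ V/(f - 1)V`);
* `exists_tame_frob` : `t₀`, `f` exist.

Inputs: `TameKummer` (A) and `FrobGen` (B).  The abstract linear algebra for `ad⁰` (one-dimensional
`ker(Ad ρ̄(f) - 1)` on trace-zero matrices when `ρ̄(f)` has distinct eigenvalues) is helper91's
`GP/Loc/TWLocalH1`.
-/
import Mathlib
import Fermat.Agent.GP.Loc.TameKummer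
import Fermat.Agent.GP.Loc.FrobGen

set_option autoImplicit false
set_option linter.unusedSectionVars false

open scoped Pointwise
open Fermat.Agent.Common_helper32 Fermat.Agent.S13.Global
open Fermat.Agent.GL.Local.InertiaField

namespace Fermat.Agent.GP.Loc.TWLocal

open Fermat.Agent.GP.Loc

/-! ### Frobenius elements and roots of unity -/

section Frob

variable (A : ValuationSubring Qb) {q : ℕ} (hq : q.Prime) (hA : (q : Qb) ∈ A.nonunits)
variable {φ : GQ} (hφ : A.IsFrobeniusAt φ q)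

include hφ in
theorem frob_apply_sub_pow_mem_nonunits {x : Qb} (hx : x ∈ A) : φ x - x ^ q ∈ A.nonunits := by
  have h := hφ.smul_residue_eq (IsLocalRing.residue A ⟨x, hx⟩)
  rw [← IsLocalRing.ResidueField.residue_smul, ← map_pow, ← sub_eq_zero, ← map_sub,
    IsLocalRing.residue_eq_zero_iff, A.valuation_lt_one_iff] at h
  rw [A.mem_nonunits_iff]
  exact h

include hq hA hφ in
/-- a Frobenius element at `q` raises the `p`-th roots of unity (`p ≠ q`) to the `q`-th power. -/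
theorem frob_apply_rootOfUnity {p : ℕ} (hp : p.Prime) (hpq : p ≠ q) {μ : Qb} (hμ : μ ^ p = 1) :
    φ μ = μ ^ q := by
  obtain ⟨hμ0, hμA, hμinv⟩ := unit_of_pow_eq_one A hp.ne_zero hμ
  have hμq0 : μ ^ q ≠ 0 := pow_ne_zero q hμ0
  have h1 : φ μ - μ ^ q ∈ A.nonunits := frob_apply_sub_pow_mem_nonunits A hφ hμA
  have h2 : φ μ / μ ^ q - 1 ∈ A.nonunits := by
    have : φ μ / μ ^ q - 1 = (φ μ - μ ^ q) * (μ⁻¹) ^ q := by
      rw [inv_pow, sub_mul, mul_inv_cancel₀ hμq0, div_eq_mul_inv]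
    rw [this]
    exact Fermat.Agent.S05.mul_mem_nonunits_of_mem h1 (pow_mem hμinv q)
  have h3 : (φ μ / μ ^ q) ^ p = 1 := by
    rw [div_pow, ← map_pow, hμ, map_one, ← pow_mul, mul_comm, pow_mul, hμ, one_pow, div_one]
  have h4 := rootOfUnity_eq_one_of_sub_one_mem_nonunits A hq hA
    (TameKummer.not_dvd_of_ne hq hp hpq) h3 h2
  rwa [div_eq_one_iff_eq hμq0] at h4

end Frob

/-! ### Cocycles on a group mapping onto the decomposition group -/

section Pullback

variable (A : ValuationSubring Qb) {q : ℕ} (hq : q.Prime) (hA : (q : Qb) ∈ A.nonunits)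
variable {p : ℕ} (hp : p.Prime) (hpq : p ≠ q)
variable (w : Qb) (hw : w ^ p = (q : Qb))
variable {G : Type*} [Group G] (r : G →* GQ)
variable {k : Type*} [CommRing k] {V : Type*} [AddCommGroup V] [Module k V]
variable (ρ : Representation k G V)

open Classical in
/-- push-forward of a function on `G` to `G_ℚ` along `r` (zero outside the range). -/
noncomputable def push (c : G → V) : GQ → V := fun σ =>
  if h : ∃ g, r g = σ then c h.choose else 0

variable {c : G → V}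

theorem push_apply (_hc : ∀ g h, c (g * h) = c g + ρ g (c h))
    (hlev : ∃ H : Subgroup GQ, IsOpen (H : Set GQ) ∧ ∀ g u, r u ∈ H → c (g * u) = c g) (g : G) :
    push r c (r g) = c g := by
  have h : ∃ g', r g' = r g := ⟨g, rfl⟩
  unfold push
  rw [dif_pos h]
  obtain ⟨H, -, hH⟩ := hlev
  have h1 : r (g⁻¹ * h.choose) ∈ H := by
    rw [map_mul, map_inv, h.choose_spec, inv_mul_cancel]
    exact H.one_mem
  have h2 := hH g _ h1
  rwa [mul_inv_cancel_left] at h2

theorem cocycle_one (hc : ∀ g h, c (g * h) = c g + ρ g (c h)) : c 1 = 0 := by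
  have h := hc 1 1
  rw [mul_one, map_one, Module.End.one_apply] at h
  exact left_eq_add.mp h

theorem cocycle_conj (hc : ∀ g h, c (g * h) = c g + ρ g (c h)) {g t : G} (ht : ρ t = 1) :
    c (g * t * g⁻¹) = ρ g (c t) := by
  have h1 : c (g * g⁻¹) = c g + ρ g (c g⁻¹) := hc g g⁻¹
  rw [mul_inv_cancel, cocycle_one ρ hc] at h1
  rw [mul_assoc, hc g (t * g⁻¹), hc t g⁻¹, ht, Module.End.one_apply, map_add, ← add_assoc,
    add_right_comm, ← h1, zero_add]

theorem cocycle_pow_eq_zero (hc : ∀ g h, c (g * h) = c g + ρ g (c h)) {f : G} (hf : c f = 0)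
    (n : ℕ) : c (f ^ n) = 0 := by
  induction n with
  | zero => rw [pow_zero]; exact cocycle_one ρ hc
  | succ n ih => rw [pow_succ, hc, ih, hf, map_zero, add_zero]

variable (hr : r.range = A.decompositionSubgroup ℚ)

include hr in
theorem map_mem_decomposition (g : G) : r g ∈ A.decompositionSubgroup ℚ := by
  rw [← hr]
  exact ⟨g, rfl⟩

include hr in
theorem exists_map_eq_of_mem_inertia {τ : GQ} (hτ : τ ∈ A.inertiaSubgroupIn ℚ) :
    ∃ u, r u = τ := by
  have h := Fermat.Agent.S05.mem_decompositionSubgroup_of_mem_inertiaSubgroupIn hτ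
  rw [← hr] at h
  exact h

variable (hc : ∀ g h, c (g * h) = c g + ρ g (c h))
variable (hlev : ∃ H : Subgroup GQ, IsOpen (H : Set GQ) ∧ ∀ g u, r u ∈ H → c (g * u) = c g)
variable (hI : ∀ u, r u ∈ A.inertiaSubgroupIn ℚ → ρ u = 1)

include hr hc hlev hI in
theorem push_add : ∀ σ ∈ A.inertiaSubgroupIn ℚ, ∀ τ ∈ A.inertiaSubgroupIn ℚ,
    push r c (σ * τ) = push r c σ + push r c τ := by
  intro σ hσ τ hτ
  obtain ⟨g, rfl⟩ := exists_map_eq_of_mem_inertia A r hr hσ
  obtain ⟨h, rfl⟩ := exists_map_eq_of_mem_inertia A r hr hτ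
  rw [← map_mul, push_apply r ρ hc hlev, push_apply r ρ hc hlev, push_apply r ρ hc hlev, hc,
    hI g hσ, Module.End.one_apply]

include hr hc hlev in
theorem push_level : ∃ H : Subgroup GQ, IsOpen (H : Set GQ) ∧
    ∀ σ ∈ A.inertiaSubgroupIn ℚ, ∀ h ∈ H, h ∈ A.inertiaSubgroupIn ℚ →
      push r c (σ * h) = push r c σ := by
  obtain ⟨H, hopen, hH⟩ := hlev
  refine ⟨H, hopen, fun σ hσ h hh hhI => ?_⟩
  obtain ⟨g, rfl⟩ := exists_map_eq_of_mem_inertia A r hr hσ
  obtain ⟨u, rfl⟩ := exists_map_eq_of_mem_inertia A r hr hhI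
  rw [← map_mul, push_apply r ρ hc ⟨H, hopen, hH⟩, push_apply r ρ hc ⟨H, hopen, hH⟩]
  exact hH g u hh

variable (hpV : ∀ v : V, p • v = 0)

include hq hA hp hpq hw hr hc hlev hI hpV in
/-- **one value generates**: if `r u, r t₀ ∈ I_A` and `t(r u) = t(r t₀) ^ j` for the Kummer
character `t(τ) = τ w / w` then `c u = j • c t₀`. -/
theorem apply_eq_nsmul {t₀ u : G} (ht₀ : r t₀ ∈ A.inertiaSubgroupIn ℚ)
    (hu : r u ∈ A.inertiaSubgroupIn ℚ) (j : ℕ) (hj : (r u) w / w = ((r t₀) w / w) ^ j) :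
    c u = j • c t₀ := by
  have h := TameKummer.apply_eq_nsmul A hq hA hp hpq w hw hpV (push r c)
    (push_add A r ρ hr hc hlev hI) (push_level A r ρ hr hc hlev) ht₀ hu j hj
  rwa [push_apply r ρ hc hlev, push_apply r ρ hc hlev] at h

include hq hA hp hpq hw hr hc hlev hI hpV in
/-- **tame relation**: if `r g` acts on `μ_p` by `μ ↦ μ ^ a` and `r t₀ ∈ I_A` then
`ρ g (c t₀) = a • c t₀`. -/
theorem rho_apply_eq_nsmul {t₀ : G} (ht₀ : r t₀ ∈ A.inertiaSubgroupIn ℚ) (g : G) (a : ℕ)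
    (ha : ∀ μ : Qb, μ ^ p = 1 → (r g) μ = μ ^ a) : ρ g (c t₀) = a • c t₀ := by
  have h := TameKummer.apply_conj_eq_nsmul A hq hA hp hpq w hw hpV (push r c)
    (push_add A r ρ hr hc hlev hI) (push_level A r ρ hr hc hlev)
    (map_mem_decomposition A r hr g) ht₀ a ha
  rw [← map_inv, ← map_mul, ← map_mul, push_apply r ρ hc hlev, push_apply r ρ hc hlev,
    cocycle_conj ρ hc (hI t₀ ht₀)] at h
  exact h

variable {φ : GQ} (hφ : A.IsFrobeniusAt φ q)

include hq hA hp hpq hw hr hc hlev hI hpV hφ in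
/-- at a Frobenius element: `ρ f (c t₀) = q • c t₀`. -/
theorem rho_frob_apply {t₀ f : G} (ht₀ : r t₀ ∈ A.inertiaSubgroupIn ℚ) (hf : r f = φ) :
    ρ f (c t₀) = q • c t₀ :=
  rho_apply_eq_nsmul A hq hA hp hpq w hw r ρ hr hc hlev hI hpV ht₀ f q (fun μ hμ => by
    rw [hf]
    exact frob_apply_rootOfUnity A hq hA hφ hp hpq hμ)

variable {ζ : Qb} (hζ : IsPrimitiveRoot ζ p)

include hq hA hp hpq hw hr hc hlev hI hpV hζ in
/-- every value of `c` on (the preimage of) inertia is a multiple of `c t₀`, with a multiplier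
depending only on the group element. -/
theorem exists_apply_eq_nsmul {t₀ : G} (ht₀ : r t₀ ∈ A.inertiaSubgroupIn ℚ)
    (ht₀w : (r t₀) w = ζ * w) {u : G} (hu : r u ∈ A.inertiaSubgroupIn ℚ) :
    ∃ j < p, (r u) w = ζ ^ j * w ∧ c u = j • c t₀ := by
  have hw0 := TameKummer.root_ne_zero hq hp w hw
  obtain ⟨j, hjp, hj⟩ := TameKummer.exists_apply_root_eq hq hp w hw hζ (r u)
  refine ⟨j, hjp, hj, ?_⟩
  apply apply_eq_nsmul A hq hA hp hpq w hw r ρ hr hc hlev hI hpV ht₀ hu j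
  rw [hj, ht₀w, mul_div_assoc, div_self hw0, mul_one, mul_div_assoc, div_self hw0, mul_one]

include hq hA hp hpq hw hr hc hlev hI hpV hφ hζ in
/-- **a cocycle vanishing at the tame generator and at Frobenius vanishes.** -/
theorem eq_zero_of_apply_eq_zero {t₀ f : G} (ht₀ : r t₀ ∈ A.inertiaSubgroupIn ℚ)
    (ht₀w : (r t₀) w = ζ * w) (hf : r f = φ) (h1 : c t₀ = 0) (h2 : c f = 0) (g : G) :
    c g = 0 := by
  obtain ⟨H, hopen, hH⟩ := hlev
  have hclosed : IsClosed (H : Set GQ) := Subgroup.isClosed_of_isOpen H hopen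
  have : Finite (GQ ⧸ H) := Subgroup.quotient_finite_of_isOpen H hopen
  have : H.FiniteIndex := Subgroup.finiteIndex_of_finite_quotient
  have hopen₀ : IsOpen (H.normalCore : Set GQ) :=
    Subgroup.isOpen_of_isClosed_of_finiteIndex _ (H.normalCore_isClosed hclosed)
  obtain ⟨n, τ, hτ, h, hh, hσ⟩ := FrobGen.exists_eq_pow_mul_mul A hq hA hφ H.normalCore
    inferInstance hopen₀ (map_mem_decomposition A r hr g)
  obtain ⟨u, rfl⟩ := exists_map_eq_of_mem_inertia A r hr hτ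
  set v : G := (f ^ n * u)⁻¹ * g with hv
  have hrv : r v = h := by
    rw [hv, map_mul, map_inv, map_mul, map_pow, hf, hσ, inv_mul_cancel_left]
  have hg : g = f ^ n * u * v := by rw [hv, mul_inv_cancel_left]
  have hvH : r v ∈ H := by rw [hrv]; exact H.normalCore_le hh
  obtain ⟨j, -, -, hj⟩ := exists_apply_eq_nsmul A hq hA hp hpq w hw r ρ hr hc ⟨H, hopen, hH⟩ hI hpV
    hζ ht₀ ht₀w hτ
  rw [hg, hH _ v hvH, hc, cocycle_pow_eq_zero ρ hc h2, hj, h1, smul_zero, map_zero, add_zero]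

end Pullback

/-! ### Determination of a cocycle by two values -/

section Determination

variable (A : ValuationSubring Qb) {q : ℕ} (hq : q.Prime) (hA : (q : Qb) ∈ A.nonunits)
variable {p : ℕ} (hp : p.Prime) (hpq : p ≠ q)
variable (w : Qb) (hw : w ^ p = (q : Qb))
variable {G : Type*} [Group G] (r : G →* GQ) (hr : r.range = A.decompositionSubgroup ℚ)
variable {k : Type*} [CommRing k] {V : Type*} [AddCommGroup V] [Module k V]
variable (ρ : Representation k G V)
variable (hI : ∀ u, r u ∈ A.inertiaSubgroupIn ℚ → ρ u = 1) (hpV : ∀ v : V, p • v = 0)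
variable {φ : GQ} (hφ : A.IsFrobeniusAt φ q) {ζ : Qb} (hζ : IsPrimitiveRoot ζ p)

include hq hA hp hpq hw hr hI hpV hφ hζ in
/-- **two level-constant cocycles which agree at the tame generator `t₀` and at a Frobenius
element `f` are equal**: `c ↦ (c f, c t₀)` is injective on `Z¹`. -/
theorem eq_of_apply_eq {c c' : G → V}
    (hc : ∀ g h, c (g * h) = c g + ρ g (c h)) (hc' : ∀ g h, c' (g * h) = c' g + ρ g (c' h))
    (hlev : ∃ H : Subgroup GQ, IsOpen (H : Set GQ) ∧ ∀ g u, r u ∈ H → c (g * u) = c g)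
    (hlev' : ∃ H : Subgroup GQ, IsOpen (H : Set GQ) ∧ ∀ g u, r u ∈ H → c' (g * u) = c' g)
    {t₀ f : G} (ht₀ : r t₀ ∈ A.inertiaSubgroupIn ℚ) (ht₀w : (r t₀) w = ζ * w) (hf : r f = φ)
    (h1 : c t₀ = c' t₀) (h2 : c f = c' f) (g : G) : c g = c' g := by
  obtain ⟨H, hopen, hH⟩ := hlev
  obtain ⟨H', hopen', hH'⟩ := hlev'
  have h := eq_zero_of_apply_eq_zero A hq hA hp hpq w hw r ρ hr (c := fun g => c g - c' g)
    (fun g h => by
      show c (g * h) - c' (g * h) = c g - c' g + ρ g (c h - c' h)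
      rw [hc, hc', map_sub]; abel)
    ⟨H ⊓ H', hopen.inter hopen', fun g u hu => by
      show c (g * u) - c' (g * u) = c g - c' g
      rw [hH g u hu.1, hH' g u hu.2]⟩
    hI hpV hφ hζ ht₀ ht₀w hf (sub_eq_zero.mpr h1) (sub_eq_zero.mpr h2) g
  exact sub_eq_zero.mp h

include hq hA hp hpq hw hr hI hpV hφ hζ in
/-- **unramified cocycles are determined by their value at Frobenius**: if `c t₀ = 0` and
`c f = ρ f m - m` with `m` fixed by an open subgroup, then `c` is the coboundary of `m`. -/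
theorem eq_coboundary_of_apply_eq {c : G → V}
    (hc : ∀ g h, c (g * h) = c g + ρ g (c h))
    (hlev : ∃ H : Subgroup GQ, IsOpen (H : Set GQ) ∧ ∀ g u, r u ∈ H → c (g * u) = c g)
    {t₀ f : G} (ht₀ : r t₀ ∈ A.inertiaSubgroupIn ℚ) (ht₀w : (r t₀) w = ζ * w) (hf : r f = φ)
    (m : V) (hm : ∃ H : Subgroup GQ, IsOpen (H : Set GQ) ∧ ∀ u, r u ∈ H → ρ u m = m)
    (h1 : c t₀ = 0) (h2 : c f = ρ f m - m) (g : G) : c g = ρ g m - m := by
  obtain ⟨H', hopen', hH'⟩ := hm
  refine eq_of_apply_eq A hq hA hp hpq w hw r hr ρ hI hpV hφ hζ hc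
    (c' := fun g => ρ g m - m) (fun g h => ?_) hlev ⟨H', hopen', fun g u hu => ?_⟩ ht₀ ht₀w hf
    ?_ h2 g
  · show ρ (g * h) m - m = ρ g m - m + ρ g (ρ h m - m)
    rw [map_mul, Module.End.mul_apply, map_sub]; abel
  · show ρ (g * u) m - m = ρ g m - m
    rw [map_mul, Module.End.mul_apply, hH' u hu]
  · show c t₀ = ρ t₀ m - m
    rw [h1, hI t₀ ht₀, Module.End.one_apply, sub_self]

end Determination

/-! ### Existence of the two test elements -/

section Exists

variable (A : ValuationSubring Qb) {q : ℕ} (hq : q.Prime) (hA : (q : Qb) ∈ A.nonunits)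
variable {p : ℕ} (hp : p.Prime) (hpq : p ≠ q)
variable (w : Qb) (hw : w ^ p = (q : Qb))
variable {G : Type*} [Group G] (r : G →* GQ) (hr : r.range = A.decompositionSubgroup ℚ)

include hq hA hp hpq hw hr in
/-- a tame generator `t₀` and a Frobenius element `f` in `G`. -/
theorem exists_tame_frob {ζ : Qb} (hζ : IsPrimitiveRoot ζ p) :
    ∃ (t₀ f : G) (φ : GQ), r t₀ ∈ A.inertiaSubgroupIn ℚ ∧ (r t₀) w = ζ * w ∧ r f = φ ∧
      A.IsFrobeniusAt φ q := by
  obtain ⟨τ₀, hτ₀, hτ₀w⟩ :=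
    TameKummer.exists_mem_inertia_apply_root A hq hA hp w hw hζ.pow_eq_one hpq
  obtain ⟨t₀, rfl⟩ := exists_map_eq_of_mem_inertia A r hr hτ₀
  obtain ⟨φ, hφ⟩ := exists_isFrobeniusAt_of_liesOver A q hq hA
  have hφD := hφ.mem_decompositionSubgroup
  rw [← hr] at hφD
  obtain ⟨f, hf⟩ := hφD
  exact ⟨t₀, f, φ, hτ₀, hτ₀w, hf, hφ⟩

end Exists

end Fermat.Agent.GP.Loc.TWLocal
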