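/-
GATE-P / S56 [P-LOC] node LOC-TWQ (helper67), part (C2): THE LOCAL BOUND AT AN UNRAMIFIED PRIME
`q ≠ p` IN THE PINNED MODEL `Hlc (levelQ q) M 1`, `M : Rep (ZMod p) (Gq q)` finite, discrete, with
(the preimage of) the inertia group of `padicPlace q` acting trivially; `f : Gq q` any element whose
image in `G_ℚ` is a Frobenius element at `padicPlace q`:

* `card_lcCocycles₁_le`   : `#Z¹ ≤ #M · #ker(f - q)`;
* **`card_Hlc_one_le`**   : `#H¹(G_q, M) ≤ #M^{G_q} · #{v | f v = q • v}`;
* `card_Hlc_one_le'`      : the same with `#Hlc 0` in place of `#invariants`;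
* **`card_Hlc_one_le_of_dvd`** : if `p ∣ q - 1` (Taylor–Wiles prime):
  `#H¹(G_q, M) ≤ #M^{G_q} · #M^{f}`;
* `card_Hlc_one_res_le`   : the same for `M = Rep.res (localGaloisToGlobal q) N`, `N` a global
  representation unramified at `padicPlace q`, `φ : G_ℚ` a Frobenius element;
* `card_lcCocycles₁` (`#Z¹ = #H¹ · #B¹`), `card_eq_card_coboundaries₁_mul` (`#M = #B¹ · #M^G`),
  `natCast_mem_nonunits_padicPlace`.

For `M = ad⁰ρ̄` with `ρ̄(Frob_q)` of distinct eigenvalues `#M^{f} = #k` (helper91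
`TWLocalH1.exists_smul_of_commute_of_trace_eq_zero`), so `#H¹ ≤ #H⁰ · #k`: the Taylor–Wiles local
term.  No local Euler characteristic, no local duality, no `H²`.
Proof: `c ↦ (c f, c t₀)` is injective on `Z¹` (`TWLocal.eq_of_apply_eq`) with `c t₀ ∈ ker(f - q)`
(`TWLocal.rho_frob_apply`), via `range (localGaloisToGlobal q) = D_{padicPlace q}` (helper69
`KR.range_localGaloisToGlobal_eq`) and Krasner (`KR.exists_global_level`) for the levels.
-/
import Mathlib
import Fermat.Agent.GP.Loc.TWLocal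
import Fermat.Agent.GC.Places.Levels
import Fermat.Agent.GC.Local.KrasnerDec
import Fermat.Agent.GC.Prof.Low

set_option autoImplicit false
set_option linter.unusedSectionVars false

open Fermat.Agent.GC.Local.KR Fermat.Agent.GC.Places Fermat.Agent.GC.Prof groupCohomology
open Fermat.Agent.Common_helper32

namespace Fermat.Agent.GP.Loc.TWLocalHlc

open Fermat.Agent.GP.Loc

variable (q : ℕ) [Fact q.Prime]

/-- `padicPlace q` lies over `q`. -/
theorem natCast_mem_nonunits_padicPlace : (q : Qb) ∈ (padicPlace q).nonunits := by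
  have hq : (q : ℕ).Prime := Fact.out
  have hq0 : (q : Qb) ≠ 0 := by exact_mod_cast hq.ne_zero
  rw [Fermat.Agent.S05.mem_nonunits_iff_inv_notMem hq0, mem_padicPlace_iff_norm, map_inv₀,
    map_natCast, norm_inv, norm_natCast_self, inv_inv, not_le]
  exact_mod_cast hq.one_lt

/-! ### A counting lemma -/

theorem card_eq_card_ker_mul_card_range {R A B : Type*} [Ring R] [AddCommGroup A] [Module R A]
    [AddCommGroup B] [Module R B] (f : A →ₗ[R] B) :
    Nat.card A = Nat.card (LinearMap.range f) * Nat.card (LinearMap.ker f) := by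
  have h1 := AddSubgroup.card_eq_card_quotient_mul_card_addSubgroup (LinearMap.ker f).toAddSubgroup
  have h2 : Nat.card (A ⧸ (LinearMap.ker f).toAddSubgroup) = Nat.card (LinearMap.range f) :=
    Nat.card_congr (LinearMap.quotKerEquivRange f).toEquiv
  rw [h1, ← h2]
  rfl

/-! ### The count in the pinned model -/

section Count

variable {p : ℕ} [Fact p.Prime] (hpq : p ≠ q)
variable (M : Rep (ZMod p) (Gq q)) [IsDiscrete (levelQ q) M]

theorem cocycle_of_mem {c : Gq q → M} (hc : c ∈ lcCocycles₁ (levelQ q) M) (g h : Gq q) :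
    c (g * h) = c g + M.ρ g (c h) := by
  rw [(mem_cocycles₁_iff c).mp hc.1 g h, add_comm]

theorem level_of_mem {c : Gq q → M} (hc : c ∈ lcCocycles₁ (levelQ q) M) :
    ∃ H : Subgroup GQ, IsOpen (H : Set GQ) ∧
      ∀ g u, localGaloisToGlobal q u ∈ H → c (g * u) = c g := by
  obtain ⟨U, ⟨E, hE, rfl⟩, hU⟩ := hc.2
  obtain ⟨F, hF, hFE⟩ := exists_global_level q E
  exact ⟨F.fixingSubgroup, IntermediateField.fixingSubgroup_isOpen F,
    fun g u hu => hU g u (hFE u hu)⟩

/-- `#Z¹ = #H¹ · #B¹`. -/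
theorem card_lcCocycles₁ :
    Nat.card (lcCocycles₁ (levelQ q) M) =
      Nat.card (Hlc (levelQ q) M 1) * Nat.card (coboundaries₁ M) := by
  rw [card_eq_card_ker_mul_card_range (Hlc1π (levelQ q) M),
    LinearMap.range_eq_top.mpr (Hlc1π_surjective (levelQ q) M), ker_Hlc1π]
  congr 1
  · exact Nat.card_congr (Equiv.subtypeUnivEquiv (fun _ => trivial))
  · refine Nat.card_congr ⟨fun x => ⟨x.1.1, x.2⟩,
      fun y => ⟨⟨y.1, coboundaries₁_le_lcCocycles₁ (levelQ q) M y.2⟩, y.2⟩, fun x => rfl,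
      fun y => rfl⟩

/-- `#M = #B¹ · #M^G`. -/
theorem card_eq_card_coboundaries₁_mul :
    Nat.card M = Nat.card (coboundaries₁ M) * Nat.card M.ρ.invariants := by
  rw [card_eq_card_ker_mul_card_range (d₀₁ M).hom, d₀₁_ker_eq_invariants]
  rfl

end Count

/-! ### The local bound -/

section Main

variable {p : ℕ} [Fact p.Prime] (hpq : p ≠ q)
variable (M : Rep (ZMod p) (Gq q)) [IsDiscrete (levelQ q) M] [Finite M]
variable (hunr : ∀ u : Gq q,
  localGaloisToGlobal q u ∈ (padicPlace q).inertiaSubgroupIn ℚ → M.ρ u = 1)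

include hpq hunr in
/-- `#Z¹(G_q, M) ≤ #M · #ker(Frob - q)` for `M` unramified of `p`-power order, `p ≠ q`. -/
theorem card_lcCocycles₁_le (f : Gq q)
    (hf : (padicPlace q).IsFrobeniusAt (localGaloisToGlobal q f) q) :
    Nat.card (lcCocycles₁ (levelQ q) M) ≤
      Nat.card M * Nat.card {v : M // M.ρ f v = q • v} := by
  have hq : (q : ℕ).Prime := Fact.out
  have hp : (p : ℕ).Prime := Fact.out
  have hA := natCast_mem_nonunits_padicPlace q
  obtain ⟨w, hw⟩ := IsAlgClosed.exists_pow_nat_eq (q : Qb) hp.pos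
  have : NeZero (p : ℚ) := ⟨by exact_mod_cast hp.ne_zero⟩
  obtain ⟨ζ, hζ⟩ := HasEnoughRootsOfUnity.exists_primitiveRoot Qb p
  have hr := range_localGaloisToGlobal_eq q
  obtain ⟨t₀, -, -, ht₀, ht₀w, -, -⟩ :=
    TWLocal.exists_tame_frob (padicPlace q) hq hA hp hpq w hw (localGaloisToGlobal q) hr hζ
  have hpV : ∀ v : M, p • v = 0 := fun v => ZModModule.char_nsmul_eq_zero p v
  let Θ : lcCocycles₁ (levelQ q) M → M × {v : M // M.ρ f v = q • v} := fun c =>
    (c.1 f, ⟨c.1 t₀, TWLocal.rho_frob_apply (padicPlace q) hq hA hp hpq w hw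
      (localGaloisToGlobal q) M.ρ hr (cocycle_of_mem q M c.2) (level_of_mem q M c.2) hunr hpV hf
      ht₀ rfl⟩)
  have hΘ : Function.Injective Θ := by
    intro c c' h
    apply Subtype.ext
    funext g
    have h1 : c.1 f = c'.1 f := congrArg Prod.fst h
    have h2 : c.1 t₀ = c'.1 t₀ := congrArg (fun x => (x.2 : M)) h
    exact TWLocal.eq_of_apply_eq (padicPlace q) hq hA hp hpq w hw (localGaloisToGlobal q) hr M.ρ
      hunr hpV hf hζ (cocycle_of_mem q M c.2) (cocycle_of_mem q M c'.2) (level_of_mem q M c.2)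
      (level_of_mem q M c'.2) ht₀ ht₀w rfl h2 h1 g
  calc Nat.card (lcCocycles₁ (levelQ q) M)
      ≤ Nat.card (M × {v : M // M.ρ f v = q • v}) := Nat.card_le_card_of_injective Θ hΘ
    _ = Nat.card M * Nat.card {v : M // M.ρ f v = q • v} := Nat.card_prod _ _

include hpq hunr in
/-- **The local bound at an unramified prime `q ≠ p`** in the pinned model:
`#H¹(G_q, M) ≤ #H⁰(G_q, M) · #ker(Frob_q - q | M)`. -/
theorem card_Hlc_one_le (f : Gq q)
    (hf : (padicPlace q).IsFrobeniusAt (localGaloisToGlobal q f) q) :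
    Nat.card (Hlc (levelQ q) M 1) ≤
      Nat.card M.ρ.invariants * Nat.card {v : M // M.ρ f v = q • v} := by
  have h1 := card_lcCocycles₁_le q hpq M hunr f hf
  rw [card_lcCocycles₁ q M, card_eq_card_coboundaries₁_mul q M] at h1
  have hpos : 0 < Nat.card (coboundaries₁ M) := by
    have hM : 0 < Nat.card M := Nat.card_pos
    rw [card_eq_card_coboundaries₁_mul q M] at hM
    exact Nat.pos_of_mul_pos_right hM
  have h2 : Nat.card (coboundaries₁ M) * Nat.card (Hlc (levelQ q) M 1) ≤
      Nat.card (coboundaries₁ M) *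
        (Nat.card M.ρ.invariants * Nat.card {v : M // M.ρ f v = q • v}) := by
    calc Nat.card (coboundaries₁ M) * Nat.card (Hlc (levelQ q) M 1)
        = Nat.card (Hlc (levelQ q) M 1) * Nat.card (coboundaries₁ M) := mul_comm _ _
      _ ≤ Nat.card (coboundaries₁ M) * Nat.card M.ρ.invariants *
            Nat.card {v : M // M.ρ f v = q • v} := h1
      _ = _ := mul_assoc _ _ _
  exact Nat.le_of_mul_le_mul_left h2 hpos

include hpq hunr in
/-- the same with `H⁰ = Hlc 0`. -/
theorem card_Hlc_one_le' (f : Gq q)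
    (hf : (padicPlace q).IsFrobeniusAt (localGaloisToGlobal q f) q) :
    Nat.card (Hlc (levelQ q) M 1) ≤
      Nat.card (Hlc (levelQ q) M 0) * Nat.card {v : M // M.ρ f v = q • v} := by
  rw [Nat.card_congr (Hlc0Equiv (levelQ q) M).toEquiv]
  exact card_Hlc_one_le q hpq M hunr f hf

include hpq hunr in
/-- **Taylor–Wiles form**: if moreover `q ≡ 1 mod p` then
`#H¹(G_q, M) ≤ #H⁰(G_q, M) · #M^{Frob_q}`. -/
theorem card_Hlc_one_le_of_dvd (hqp : p ∣ q - 1) (f : Gq q)
    (hf : (padicPlace q).IsFrobeniusAt (localGaloisToGlobal q f) q) :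
    Nat.card (Hlc (levelQ q) M 1) ≤
      Nat.card M.ρ.invariants * Nat.card {v : M // M.ρ f v = v} := by
  have hq : (q : ℕ).Prime := Fact.out
  have h := card_Hlc_one_le q hpq M hunr f hf
  have hqv : ∀ v : M, q • v = v := by
    intro v
    obtain ⟨d, hd⟩ := hqp
    have hq1 : q = p * d + 1 := by
      have := hq.one_lt
      omega
    have key : ∀ n : ℕ, n = p * d + 1 → n • v = v := by
      intro n hn
      rw [hn, add_smul, mul_smul, one_smul, ZModModule.char_nsmul_eq_zero p (d • v), zero_add]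
    exact key q hq1
  have heq : {v : M // M.ρ f v = q • v} = {v : M // M.ρ f v = v} := by
    congr 1
    funext v
    rw [hqv v]
  rwa [heq] at h

end Main

/-! ### Restriction of a global representation -/

section Res

variable {p : ℕ} [Fact p.Prime] (hpq : p ≠ q)
variable (N : Rep (ZMod p) GQ) [Finite N]
  [IsDiscrete (levelQ q) (Rep.res (localGaloisToGlobal q) N)]
variable (hN : ∀ τ ∈ (padicPlace q).inertiaSubgroupIn ℚ, N.ρ τ = 1)

include hpq hN in
/-- the local bound for the restriction to `G_{ℚ_q}` of a global representation unramified at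
`padicPlace q`, in terms of a global Frobenius element `φ`. -/
theorem card_Hlc_one_res_le {φ : GQ} (hφ : (padicPlace q).IsFrobeniusAt φ q) :
    Nat.card (Hlc (levelQ q) (Rep.res (localGaloisToGlobal q) N) 1) ≤
      Nat.card (Rep.res (localGaloisToGlobal q) N).ρ.invariants *
        Nat.card {v : N // N.ρ φ v = q • v} := by
  have hφD := hφ.mem_decompositionSubgroup
  rw [← range_localGaloisToGlobal_eq q] at hφD
  obtain ⟨f, rfl⟩ := hφD
  have : Finite (Rep.res (localGaloisToGlobal q) N) := ‹Finite N›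
  exact card_Hlc_one_le q hpq (Rep.res (localGaloisToGlobal q) N)
    (fun u hu => hN _ hu) f hφ

end Res

end Fermat.Agent.GP.Loc.TWLocalHlc
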