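/-
NEXT-GATE / S56 [P-LOC] leaf S56-LOC-TAMEP (helper29).  Zero-regret, new file; imports Mathlib,
the prelude definition of `inertiaSubgroupIn`, `S05/Inertia` (Mathlib + prelude), and the two
Mathlib-only GATE-L bricks `GL/TameCyclic` (helper2) and `GL/Local/ComapDVR` (helper26).

**Tame inertia, `p`-part.**  `P` a place of `Q-bar` over `q`, `f : G_Q →* H` a homomorphism factoring
through a finite level.  If `f(I_P)` is a `p`-group, `p ≠ q`, then `f(I_P)` is cyclic:

* `isCyclic_map_inertia_of_isPGroup`      : `IsCyclic ((P.inertiaSubgroupIn ℚ).map f)`;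
* `exists_inertia_generator_of_isPGroup`  : `∃ τ ∈ I_P, ∀ σ ∈ I_P, ∃ n : ℤ, f σ = f τ ^ n`.

This is the Galois-theoretic input of the local condition at `q ∈ Smin ∖ {p}` of frozen S56
(`IsUnipotentOnInertiaAt q`): the image of `I_q` under a lift to `k[ε]` is a finite `p`-group, hence
cyclic, and a one-matrix computation (`UnipInertia.lean`) shows that the lift is trivial on `I_q` up
to `1 + εX`-conjugation, i.e. its class lies in `H¹_unr(G_q, ad⁰)`.

Ingredients (all proved here):
* Part A: for a finite extension `L/ℚ` inside `Ω` and a valuation subring `A` of `Ω` over `q`, the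
  value group of `A ∩ L` is `v(π)^ℤ` (`exists_uniformizer`; the classical `e ≤ n` pigeonhole), so
  `A ∩ L` is a DVR (`ComapDVR.isDiscreteValuationRing_sub`);
* Part B: a finite `p`-group acting faithfully on a DVR of residue characteristic `q ≠ p`, trivially on
  the residue field, is cyclic (`hdig` of `GL/TameCyclic` holds by averaging);
* Part C: descent of cyclicity along `θ : Γ →* G`, `ker θ ≤ ker f` (Sylow);
* Part D: the restriction map `I_P → I_{P ∩ L}` for `L/ℚ` finite normal.
-/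
import Mathlib
import Fermat.Agent.S05.Inertia
import Fermat.Agent.GL.Local.ComapDVR
import Fermat.Agent.GL.TameCyclic

set_option autoImplicit false

namespace Fermat.Agent.GP.Loc.TamePQuot

open IsLocalRing

/-! ### Part A: discreteness of the induced valuation on a finite extension of `ℚ` -/

/-- a finite sum whose nonzero terms have pairwise distinct valuations has the valuation of one of
its nonzero terms. -/
theorem exists_map_sum_eq_of_pairwise_ne {K : Type*} [Field K] {Γ₀ : Type*}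
    [LinearOrderedCommGroupWithZero Γ₀] (v : Valuation K Γ₀) {ι : Type*} [DecidableEq ι]
    (s : Finset ι) (f : ι → K) (hs : ∃ i ∈ s, f i ≠ 0)
    (hne : ∀ i ∈ s, ∀ j ∈ s, i ≠ j → f i ≠ 0 → f j ≠ 0 → v (f i) ≠ v (f j)) :
    ∃ j ∈ s, f j ≠ 0 ∧ v (∑ i ∈ s, f i) = v (f j) := by
  obtain ⟨i₀, hi₀, hfi₀⟩ := hs
  obtain ⟨j, hj, hmax⟩ := Finset.exists_max_image s (fun i => v (f i)) ⟨i₀, hi₀⟩
  have hvj : v (f j) ≠ 0 := by
    intro h0
    have := hmax i₀ hi₀
    rw [h0] at this
    exact hfi₀ ((Valuation.zero_iff v).1 (le_antisymm this zero_le))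
  have hfj : f j ≠ 0 := fun h0 => hvj (by rw [h0, Valuation.map_zero])
  have hlt : ∀ i ∈ s \ {j}, v (f i) < v (f j) := by
    intro i hi
    rw [Finset.mem_sdiff, Finset.mem_singleton] at hi
    refine lt_of_le_of_ne (hmax i hi.1) ?_
    intro heq
    have hfi : f i ≠ 0 := by
      intro h0
      rw [h0, Valuation.map_zero] at heq
      exact hvj heq.symm
    exact hne i hi.1 j hj hi.2 hfi hfj heq
  exact ⟨j, hj, hfj, Valuation.map_sum_eq_of_lt v hj hlt⟩

section Discrete

variable {Ω : Type*} [Field Ω] (A : ValuationSubring Ω) {q : ℕ}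

/-- integers prime to `q` have valuation `1`. -/
theorem valuation_intCast_of_not_dvd (hq : q.Prime) (hA : (q : Ω) ∈ A.nonunits) {m : ℤ}
    (hm : ¬ (q : ℤ) ∣ m) : A.valuation (m : Ω) = 1 := by
  have h1 : A.valuation (m : Ω) ≤ 1 := (A.valuation_le_one_iff _).2 (intCast_mem A m)
  refine le_antisymm h1 (not_lt.1 fun hlt => hm ?_)
  exact (Fermat.Agent.S05.intCast_mem_nonunits_iff hq hA m).1 ((A.mem_nonunits_iff).2 hlt)

theorem valuation_natCast_eq_pow (hq : q.Prime) (hA : (q : Ω) ∈ A.nonunits) {n : ℕ} (hn : n ≠ 0) :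
    ∃ k : ℕ, A.valuation (n : Ω) = A.valuation (q : Ω) ^ k := by
  obtain ⟨k, m, hm, rfl⟩ := Nat.exists_eq_pow_mul_and_not_dvd hn q hq.one_lt.ne'
  refine ⟨k, ?_⟩
  have h1 : A.valuation ((m : ℤ) : Ω) = 1 :=
    valuation_intCast_of_not_dvd A hq hA (by rwa [Int.natCast_dvd_natCast])
  push_cast at h1 ⊢
  rw [map_mul, map_pow, h1, mul_one]

variable [CharZero Ω]

/-- the value group of `ℚ` is `v(q)^ℤ`. -/
theorem valuation_ratCast_eq_zpow (hq : q.Prime) (hA : (q : Ω) ∈ A.nonunits) {r : ℚ} (hr : r ≠ 0) :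
    ∃ k : ℤ, A.valuation (r : Ω) = A.valuation (q : Ω) ^ k := by
  have hnum : r.num.natAbs ≠ 0 := by
    rw [Int.natAbs_ne_zero]; exact Rat.num_ne_zero.2 hr
  obtain ⟨a, ha⟩ := valuation_natCast_eq_pow A hq hA hnum
  obtain ⟨b, hb⟩ := valuation_natCast_eq_pow A hq hA r.den_ne_zero
  refine ⟨(a : ℤ) - b, ?_⟩
  have hq0 : A.valuation (q : Ω) ≠ 0 :=
    (Valuation.ne_zero_iff _).2 (by exact_mod_cast hq.ne_zero)
  have h1 : A.valuation ((r.num : ℤ) : Ω) = A.valuation ((r.num.natAbs : ℕ) : Ω) := by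
    rw [Nat.cast_natAbs]
    rcases abs_choice r.num with h | h
    · rw [h]
    · rw [h, Int.cast_neg, Valuation.map_neg]
  have h2 : (r : Ω) = ((r.num : ℤ) : Ω) / ((r.den : ℕ) : Ω) := by
    conv_lhs => rw [← Rat.num_div_den r]
    push_cast; rfl
  rw [h2, map_div₀, h1, ha, hb, zpow_sub₀ hq0, zpow_natCast, zpow_natCast]

variable {L : Type*} [Field L] [CharZero L] [Algebra L Ω] [FiniteDimensional ℚ L]

/-- pigeonhole: among `[L:ℚ]+1` nonzero elements of `L` two have values in the same coset of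
`v(q)^ℤ`. -/
theorem exists_ne_valuation_eq_mul_zpow (hq : q.Prime) (hA : (q : Ω) ∈ A.nonunits)
    (x : Fin (Module.finrank ℚ L + 1) → L) (hx : ∀ i, x i ≠ 0) :
    ∃ i j, i ≠ j ∧ ∃ k : ℤ, A.valuation (algebraMap L Ω (x i)) =
      A.valuation (algebraMap L Ω (x j)) * A.valuation (q : Ω) ^ k := by
  classical
  by_contra hcon
  push Not at hcon
  have hq0 : A.valuation (q : Ω) ≠ 0 :=
    (Valuation.ne_zero_iff _).2 (by exact_mod_cast hq.ne_zero)
  have hli : LinearIndependent ℚ x := by
    rw [Fintype.linearIndependent_iff]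
    intro c hc
    by_contra hne
    push Not at hne
    obtain ⟨i₀, hi₀⟩ := hne
    have hf : ∀ i, algebraMap L Ω (c i • x i) = (c i : Ω) * algebraMap L Ω (x i) := by
      intro i
      rw [Rat.smul_def, map_mul, map_ratCast]
    obtain ⟨j, -, hfj, hval⟩ := exists_map_sum_eq_of_pairwise_ne A.valuation Finset.univ
      (fun i => algebraMap L Ω (c i • x i)) ⟨i₀, Finset.mem_univ _, by
        rw [hf]
        exact mul_ne_zero (by exact_mod_cast hi₀)
          ((map_ne_zero_iff _ (algebraMap L Ω).injective).2 (hx i₀))⟩ (by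
        intro i _ j _ hij hfi hfj heq
        rw [hf] at hfi hfj
        have hci : c i ≠ 0 := by
          rintro h0; rw [h0] at hfi; simp at hfi
        have hcj : c j ≠ 0 := by
          rintro h0; rw [h0] at hfj; simp at hfj
        obtain ⟨a, ha⟩ := valuation_ratCast_eq_zpow A hq hA hci
        obtain ⟨b, hb⟩ := valuation_ratCast_eq_zpow A hq hA hcj
        simp only [hf, map_mul, ha, hb] at heq
        refine hcon i j hij (b - a) ?_
        have ha0 : A.valuation (q : Ω) ^ a ≠ 0 := zpow_ne_zero _ hq0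
        rw [zpow_sub₀ hq0, mul_div_assoc', eq_div_iff ha0, mul_comm, heq, mul_comm])
    rw [← map_sum, hc, map_zero, map_zero] at hval
    exact hfj ((Valuation.zero_iff _).1 hval.symm)
  have := hli.fintype_card_le_finrank
  simp at this

/-- the value group of `L` is torsion over `v(q)^ℤ`. -/
theorem exists_pow_eq_zpow (hq : q.Prime) (hA : (q : Ω) ∈ A.nonunits) {x : L} (hx : x ≠ 0) :
    ∃ m : ℕ, 0 < m ∧ ∃ k : ℤ, A.valuation (algebraMap L Ω x) ^ m = A.valuation (q : Ω) ^ k := by
  have hq0 : A.valuation (q : Ω) ≠ 0 :=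
    (Valuation.ne_zero_iff _).2 (by exact_mod_cast hq.ne_zero)
  have hv0 : A.valuation (algebraMap L Ω x) ≠ 0 :=
    (Valuation.ne_zero_iff _).2 ((map_ne_zero_iff _ (algebraMap L Ω).injective).2 hx)
  obtain ⟨i, j, hij, k, hk⟩ := exists_ne_valuation_eq_mul_zpow A hq hA
    (fun i : Fin (Module.finrank ℚ L + 1) => x ^ (i : ℕ)) (fun i => pow_ne_zero _ hx)
  simp only [map_pow] at hk
  have hij' : (i : ℕ) ≠ (j : ℕ) := fun h => hij (Fin.ext h)
  rcases lt_or_gt_of_ne hij' with hlt | hlt
  · refine ⟨(j : ℕ) - i, by omega, -k, ?_⟩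
    have h1 : A.valuation (algebraMap L Ω x) ^ (j : ℕ) =
        A.valuation (algebraMap L Ω x) ^ ((j : ℕ) - i) * A.valuation (algebraMap L Ω x) ^ (i : ℕ) := by
      rw [← pow_add]; congr 1; omega
    rw [h1] at hk
    have h2 : A.valuation (algebraMap L Ω x) ^ (i : ℕ) ≠ 0 := pow_ne_zero _ hv0
    have hk0 : A.valuation (q : Ω) ^ k ≠ 0 := zpow_ne_zero _ hq0
    have h3 : A.valuation (algebraMap L Ω x) ^ (i : ℕ) *
        (A.valuation (algebraMap L Ω x) ^ ((j : ℕ) - i) * A.valuation (q : Ω) ^ k) =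
        A.valuation (algebraMap L Ω x) ^ (i : ℕ) * 1 := by
      rw [mul_one]
      conv_rhs => rw [hk]
      ac_rfl
    rw [zpow_neg]
    exact eq_inv_of_mul_eq_one_left (mul_left_cancel₀ h2 h3)
  · refine ⟨(i : ℕ) - j, by omega, k, ?_⟩
    have h1 : A.valuation (algebraMap L Ω x) ^ (i : ℕ) =
        A.valuation (algebraMap L Ω x) ^ ((i : ℕ) - j) * A.valuation (algebraMap L Ω x) ^ (j : ℕ) := by
      rw [← pow_add]; congr 1; omega
    rw [h1] at hk
    have h2 : A.valuation (algebraMap L Ω x) ^ (j : ℕ) ≠ 0 := pow_ne_zero _ hv0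
    have h3 : A.valuation (algebraMap L Ω x) ^ (j : ℕ) *
        A.valuation (algebraMap L Ω x) ^ ((i : ℕ) - j) =
        A.valuation (algebraMap L Ω x) ^ (j : ℕ) * A.valuation (q : Ω) ^ k := by
      rw [mul_comm, hk]
    exact mul_left_cancel₀ h2 h3

/-- existence of an element of maximal value `< 1`. -/
theorem exists_max_valuation_lt_one (hq : q.Prime) (hA : (q : Ω) ∈ A.nonunits) :
    ∃ π : L, π ≠ 0 ∧ A.valuation (algebraMap L Ω π) < 1 ∧
      A.valuation (q : Ω) ≤ A.valuation (algebraMap L Ω π) ∧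
      ∀ y : L, y ≠ 0 → A.valuation (algebraMap L Ω y) < 1 →
        A.valuation (algebraMap L Ω y) ≤ A.valuation (algebraMap L Ω π) := by
  classical
  have hq0 : A.valuation (q : Ω) ≠ 0 :=
    (Valuation.ne_zero_iff _).2 (by exact_mod_cast hq.ne_zero)
  have hq1 : A.valuation (q : Ω) < 1 := (A.mem_nonunits_iff).1 hA
  set W : Set A.ValueGroup := {g | ∃ y : L, y ≠ 0 ∧ A.valuation (algebraMap L Ω y) = g ∧
    A.valuation (q : Ω) ≤ g ∧ g < 1} with hW
  have hfin : W.Finite := by
    by_contra hinf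
    obtain ⟨t, ht, hcard⟩ := (Set.not_finite.1 hinf).exists_subset_card_eq
      (Module.finrank ℚ L + 1)
    let e : Fin (Module.finrank ℚ L + 1) ≃ t := (t.equivFinOfCardEq hcard).symm
    have hmem : ∀ i, ((e i : t) : A.ValueGroup) ∈ W := fun i => ht (e i).2
    choose y hy0 hyv hyq hy1 using hmem
    obtain ⟨i, j, hij, k, hk⟩ := exists_ne_valuation_eq_mul_zpow A hq hA y hy0
    rw [hyv, hyv] at hk
    have hk0 : k = 0 := by
      rcases lt_trichotomy k 0 with hneg | h0 | hpos
      · exfalso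
        -- g_j = g_i * γ^(-k) < γ
        have h1 : ((e j : t) : A.ValueGroup) = ((e i : t) : A.ValueGroup) * A.valuation (q : Ω) ^ (-k) := by
          rw [hk, mul_assoc, ← zpow_add₀ hq0, add_neg_cancel, zpow_zero, mul_one]
        have h2 : A.valuation (q : Ω) ^ (-k) ≤ A.valuation (q : Ω) ^ (1 : ℤ) :=
          zpow_le_zpow_right_of_le_one₀ (zero_lt_iff.2 hq0) hq1.le (by omega)
        rw [zpow_one] at h2
        have h3 : ((e j : t) : A.ValueGroup) < A.valuation (q : Ω) := by
          rw [h1]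
          calc ((e i : t) : A.ValueGroup) * A.valuation (q : Ω) ^ (-k)
              ≤ ((e i : t) : A.ValueGroup) * A.valuation (q : Ω) := by gcongr
            _ < 1 * A.valuation (q : Ω) := by
                exact mul_lt_mul_of_pos_right (hy1 i) (zero_lt_iff.2 hq0)
            _ = A.valuation (q : Ω) := one_mul _
        exact absurd (hyq j) (not_le.2 h3)
      · exact h0
      · exfalso
        have h2 : A.valuation (q : Ω) ^ k ≤ A.valuation (q : Ω) ^ (1 : ℤ) :=
          zpow_le_zpow_right_of_le_one₀ (zero_lt_iff.2 hq0) hq1.le (by omega)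
        rw [zpow_one] at h2
        have h3 : ((e i : t) : A.ValueGroup) < A.valuation (q : Ω) := by
          rw [hk]
          calc ((e j : t) : A.ValueGroup) * A.valuation (q : Ω) ^ k
              ≤ ((e j : t) : A.ValueGroup) * A.valuation (q : Ω) := by gcongr
            _ < 1 * A.valuation (q : Ω) := by
                exact mul_lt_mul_of_pos_right (hy1 j) (zero_lt_iff.2 hq0)
            _ = A.valuation (q : Ω) := one_mul _
        exact absurd (hyq i) (not_le.2 h3)
    rw [hk0, zpow_zero, mul_one] at hk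
    exact hij (e.injective (Subtype.ext hk))
  have hne : W.Nonempty := by
    refine ⟨A.valuation (q : Ω), (q : L), by exact_mod_cast hq.ne_zero, ?_, le_rfl, hq1⟩
    rw [map_natCast]
  obtain ⟨g₀, hg₀, hmax⟩ := Set.exists_max_image W id hfin hne
  obtain ⟨π, hπ0, hπv, hπq, hπ1⟩ := hg₀
  refine ⟨π, hπ0, hπv ▸ hπ1, hπv ▸ hπq, fun y hy0 hy1 => ?_⟩
  rw [hπv]
  by_contra hlt
  push Not at hlt
  exact absurd (hmax _ ⟨y, hy0, rfl, hπq.trans hlt.le, hy1⟩) (not_le.2 hlt)

/-- discreteness: the value group of `L` is generated by the value of a uniformiser. -/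
theorem exists_uniformizer (hq : q.Prime) (hA : (q : Ω) ∈ A.nonunits) :
    ∃ π : L, π ≠ 0 ∧ algebraMap L Ω π ∈ A.nonunits ∧
      ∀ x : L, x ≠ 0 → ∃ n : ℤ,
        A.valuation (algebraMap L Ω x) = A.valuation (algebraMap L Ω π) ^ n := by
  classical
  have hq0 : A.valuation (q : Ω) ≠ 0 :=
    (Valuation.ne_zero_iff _).2 (by exact_mod_cast hq.ne_zero)
  have hq1 : A.valuation (q : Ω) < 1 := (A.mem_nonunits_iff).1 hA
  obtain ⟨π, hπ0, hπ1, hπq, hπmax⟩ := exists_max_valuation_lt_one (L := L) A hq hA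
  set g := A.valuation (algebraMap L Ω π) with hg
  have hg0 : g ≠ 0 :=
    (Valuation.ne_zero_iff _).2 ((map_ne_zero_iff _ (algebraMap L Ω).injective).2 hπ0)
  have hgpos : 0 < g := zero_lt_iff.2 hg0
  refine ⟨π, hπ0, (A.mem_nonunits_iff).2 hπ1, ?_⟩
  -- the case `v x ≤ 1`
  have key : ∀ x : L, x ≠ 0 → A.valuation (algebraMap L Ω x) ≤ 1 →
      ∃ n : ℕ, A.valuation (algebraMap L Ω x) = g ^ n := by
    intro x hx hx1
    have hv0 : A.valuation (algebraMap L Ω x) ≠ 0 :=
      (Valuation.ne_zero_iff _).2 ((map_ne_zero_iff _ (algebraMap L Ω).injective).2 hx)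
    -- lower bound by a power of `g`
    have hex : ∃ N : ℕ, g ^ N ≤ A.valuation (algebraMap L Ω x) := by
      obtain ⟨m, hm, k, hk⟩ := exists_pow_eq_zpow (L := L) A hq hA hx
      have hk0 : 0 ≤ k := by
        by_contra hneg
        push Not at hneg
        have h1 : 1 < A.valuation (q : Ω) ^ k := by
          have : A.valuation (q : Ω) ^ k = (A.valuation (q : Ω) ^ (-k))⁻¹ := by
            rw [zpow_neg, inv_inv]
          rw [this]
          apply one_lt_inv₀ (zpow_pos (zero_lt_iff.2 hq0) _) |>.2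
          have : A.valuation (q : Ω) ^ (-k) ≤ A.valuation (q : Ω) ^ (1 : ℤ) :=
            zpow_le_zpow_right_of_le_one₀ (zero_lt_iff.2 hq0) hq1.le (by omega)
          rw [zpow_one] at this
          exact this.trans_lt hq1
        have h2 : A.valuation (algebraMap L Ω x) ^ m ≤ 1 := pow_le_one₀ zero_le hx1
        rw [hk] at h2
        exact absurd h2 (not_le.2 h1)
      obtain ⟨k', rfl⟩ := Int.eq_ofNat_of_zero_le hk0
      rw [zpow_natCast] at hk
      -- `g ^ m₀ ≤ γ`
      obtain ⟨m₀, hm₀, k₀, hk₀⟩ := exists_pow_eq_zpow (L := L) A hq hA hπ0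
      have hgm : g ^ m₀ ≤ A.valuation (q : Ω) := by
        have h1 : g ^ m₀ < 1 := pow_lt_one₀ zero_le hπ1 hm₀.ne'
        rw [← hg] at hk₀
        rw [hk₀] at h1 ⊢
        have hk1 : 1 ≤ k₀ := by
          by_contra hneg
          push Not at hneg
          have : (1 : A.ValueGroup) ≤ A.valuation (q : Ω) ^ k₀ := by
            have h2 : A.valuation (q : Ω) ^ (0 : ℤ) ≤ A.valuation (q : Ω) ^ k₀ :=
              zpow_le_zpow_right_of_le_one₀ (zero_lt_iff.2 hq0) hq1.le (by omega)
            rwa [zpow_zero] at h2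
          exact absurd h1 (not_lt.2 this)
        have h2 : A.valuation (q : Ω) ^ k₀ ≤ A.valuation (q : Ω) ^ (1 : ℤ) :=
          zpow_le_zpow_right_of_le_one₀ (zero_lt_iff.2 hq0) hq1.le hk1
        rwa [zpow_one] at h2
      refine ⟨m₀ * k', ?_⟩
      calc g ^ (m₀ * k') = (g ^ m₀) ^ k' := pow_mul _ _ _
        _ ≤ A.valuation (q : Ω) ^ k' := by gcongr
        _ = A.valuation (algebraMap L Ω x) ^ m := hk.symm
        _ ≤ A.valuation (algebraMap L Ω x) := pow_le_of_le_one zero_le hx1 hm.ne'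
    have hN := Nat.find_spec hex
    have hNmin := fun n => Nat.find_min hex (m := n)
    set N := Nat.find hex with hNdef
    rcases Nat.eq_zero_or_eq_succ_pred N with h0 | hs
    · refine ⟨0, ?_⟩
      rw [h0, pow_zero] at hN
      rw [pow_zero]
      exact le_antisymm hx1 hN
    · set N' := N.pred with hN'
      have hlt : A.valuation (algebraMap L Ω x) < g ^ N' := by
        have := hNmin N' (by omega)
        exact not_le.1 this
      refine ⟨N, ?_⟩
      have hgN' : g ^ N' ≠ 0 := pow_ne_zero _ hg0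
      have hy0 : x / π ^ N' ≠ 0 := div_ne_zero hx (pow_ne_zero _ hπ0)
      have hvy : A.valuation (algebraMap L Ω (x / π ^ N')) =
          A.valuation (algebraMap L Ω x) / g ^ N' := by
        rw [map_div₀, map_pow, map_div₀, map_pow]
      have hy1 : A.valuation (algebraMap L Ω (x / π ^ N')) < 1 := by
        rw [hvy, div_lt_one₀ (zero_lt_iff.2 hgN')]
        exact hlt
      have hyle := hπmax _ hy0 hy1
      have hyge : g ≤ A.valuation (algebraMap L Ω (x / π ^ N')) := by
        rw [hvy, le_div_iff₀ (zero_lt_iff.2 hgN'), ← pow_succ']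
        have : N' + 1 = N := by omega
        rw [this]
        exact hN
      have heq := le_antisymm hyle hyge
      rw [hvy, div_eq_iff hgN', ← pow_succ'] at heq
      have : N' + 1 = N := by omega
      rw [this] at heq
      exact heq
  intro x hx
  rcases le_total (A.valuation (algebraMap L Ω x)) 1 with h1 | h1
  · obtain ⟨n, hn⟩ := key x hx h1
    exact ⟨n, by rw [zpow_natCast]; exact hn⟩
  · have hx' : x⁻¹ ≠ 0 := inv_ne_zero hx
    have hv0 : A.valuation (algebraMap L Ω x) ≠ 0 :=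
      (Valuation.ne_zero_iff _).2 ((map_ne_zero_iff _ (algebraMap L Ω).injective).2 hx)
    have h2 : A.valuation (algebraMap L Ω x⁻¹) ≤ 1 := by
      rw [map_inv₀, map_inv₀]
      exact inv_le_one_of_one_le₀ h1
    obtain ⟨n, hn⟩ := key x⁻¹ hx' h2
    refine ⟨-(n : ℤ), ?_⟩
    rw [map_inv₀, map_inv₀] at hn
    rw [zpow_neg, zpow_natCast, ← hn, inv_inv]

end Discrete

/-! ### Part C: a group-theoretic descent lemma -/

section GroupTheory

variable {Γ G H : Type*} [Group Γ] [Group G] [Group H]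

/-- if `G` is finite with cyclic `p`-subgroups and `φ : G →* H` has a `p`-group as range, then the
range is cyclic (image of a Sylow `p`-subgroup). -/
theorem isCyclic_range_of_forall_isPGroup_isCyclic [Finite G] (p : ℕ) [Fact p.Prime]
    (hcyc : ∀ S : Subgroup G, IsPGroup p S → IsCyclic S) (φ : G →* H)
    (hφ : IsPGroup p φ.range) : IsCyclic φ.range := by
  obtain ⟨P⟩ : Nonempty (Sylow p G) := inferInstance
  have hsurj : Function.Surjective φ.rangeRestrict := φ.rangeRestrict_surjective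
  set Q : Sylow p φ.range := Sylow.mapSurjective hsurj P with hQ
  have htop : (Q : Subgroup φ.range) = ⊤ :=
    (Q.3 (Q := ⊤) (IsPGroup.of_equiv hφ Subgroup.topEquiv.symm) le_top).symm
  have hPc : IsCyclic (P : Subgroup G) := hcyc P P.2
  rw [Sylow.coe_mapSurjective] at htop
  have hsurj2 : Function.Surjective (φ.rangeRestrict.comp (P : Subgroup G).subtype) := by
    intro y
    have hy : y ∈ Subgroup.map φ.rangeRestrict (P : Subgroup G) := by rw [htop]; trivial
    obtain ⟨x, hx, rfl⟩ := hy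
    exact ⟨⟨x, hx⟩, rfl⟩
  exact isCyclic_of_surjective _ hsurj2

/-- descent along `θ : Γ →* G` with `ker θ ≤ ker f`. -/
theorem isCyclic_range_of_ker_le [Finite G] (p : ℕ) [Fact p.Prime]
    (hcyc : ∀ S : Subgroup G, IsPGroup p S → IsCyclic S) (θ : Γ →* G) (f : Γ →* H)
    (hker : θ.ker ≤ f.ker) (hf : IsPGroup p f.range) : IsCyclic f.range := by
  let fbar : Γ ⧸ θ.ker →* H := QuotientGroup.lift θ.ker f hker
  have hinj : Function.Injective (QuotientGroup.kerLift θ) := QuotientGroup.kerLift_injective θ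
  have : Finite (Γ ⧸ θ.ker) := Finite.of_injective _ hinj
  have hrange : fbar.range = f.range := by
    ext y
    constructor
    · rintro ⟨x, rfl⟩
      induction x using QuotientGroup.induction_on with
      | H g => exact ⟨g, rfl⟩
    · rintro ⟨g, rfl⟩
      exact ⟨(g : Γ ⧸ θ.ker), rfl⟩
  have hcyc' : ∀ S : Subgroup (Γ ⧸ θ.ker), IsPGroup p S → IsCyclic S := by
    intro S hS
    have h1 : IsPGroup p (S.map (QuotientGroup.kerLift θ)) := hS.map _
    have := hcyc _ h1
    refine isCyclic_of_injective ((QuotientGroup.kerLift θ).subgroupMap S) ?_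
    intro a b hab
    apply Subtype.ext
    apply hinj
    exact congrArg Subtype.val hab
  rw [← hrange]
  exact isCyclic_range_of_forall_isPGroup_isCyclic p hcyc' fbar (by rw [hrange]; exact hf)

end GroupTheory

/-! ### Part B: averaging -/

section Averaging

variable {O : Type*} [CommRing O] [IsDomain O] [IsDiscreteValuationRing O]
variable {G : Type*} [Group G] [MulSemiringAction G O]

open Fermat.Agent.GL.TameCyclic

/-- a finite `p`-group acting faithfully on a DVR of residue characteristic `q ≠ p`, trivially on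
the residue field, is cyclic. -/
theorem isCyclic_of_isPGroup_of_trivial_residue [Finite G] [FaithfulSMul G O]
    (q : ℕ) [Fact q.Prime] (hchar : (q : O) ∈ maximalIdeal O)
    (htriv : ∀ (g : G) (x : O), g • x - x ∈ maximalIdeal O)
    (p : ℕ) [Fact p.Prime] (hpq : p ≠ q) (hG : IsPGroup p G) : IsCyclic G := by
  classical
  have : Fintype G := Fintype.ofFinite G
  obtain ⟨a, ha⟩ := IsPGroup.iff_card.1 hG
  have hcop : (Nat.card G).Coprime q := by
    rw [ha]
    exact Nat.Coprime.pow_left a ((Nat.coprime_primes Fact.out Fact.out).2 hpq)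
  have hunit : IsUnit ((Nat.card G : ℕ) : O) := isUnit_natCast_of_coprime q hchar hcop
  obtain ⟨w, hw⟩ := hunit.exists_right_inv
  have hwfix : ∀ h : G, h • w = w := by
    intro h
    have hN : h • ((Nat.card G : ℕ) : O) = ((Nat.card G : ℕ) : O) :=
      map_natCast (MulSemiringAction.toRingHom G O h) _
    have h1 : ((Nat.card G : ℕ) : O) * h • w = 1 := by
      have := congrArg (fun z => h • z) hw
      rw [smul_mul', hN, smul_one] at this
      exact this
    calc h • w = (w * ((Nat.card G : ℕ) : O)) * h • w := by rw [mul_comm w, hw, one_mul]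
      _ = w * (((Nat.card G : ℕ) : O) * h • w) := by ring
      _ = w := by rw [h1, mul_one]
  have hdig : ∀ x : O, ∃ c : O, (∀ g : G, g • c = c) ∧ x - c ∈ maximalIdeal O := by
    intro x
    refine ⟨w * ∑ g : G, g • x, ?_, ?_⟩
    · intro h
      rw [smul_mul', hwfix h, Finset.smul_sum]
      congr 1
      simp only [← mul_smul]
      exact Fintype.sum_bijective (fun g => h * g) (Group.mulLeft_bijective h) _ _ (fun _ => rfl)
    · have h0 : w * (((Nat.card G : ℕ) : O) * x) = x := by
        rw [← mul_assoc, mul_comm w, hw, one_mul]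
      have h1 : x - w * ∑ g : G, g • x = - (w * ∑ g : G, (g • x - x)) := by
        rw [Finset.sum_sub_distrib, Finset.sum_const, Finset.card_univ, ← Nat.card_eq_fintype_card,
          nsmul_eq_mul, mul_sub, h0]
        ring
      rw [h1]
      exact (Ideal.neg_mem_iff _).2 (Ideal.mul_mem_left _ _ (Ideal.sum_mem _ fun g _ => htriv g x))
  have h2 := isCyclic_of_isPGroup_subgroup (O := O) (G := G) q hchar hdig p hpq ⊤ (hG.to_subgroup ⊤)
  exact isCyclic_of_surjective (Subgroup.topEquiv : (⊤ : Subgroup G) ≃* G) Subgroup.topEquiv.surjective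

/-- all `p`-subgroups of a finite group acting faithfully on a DVR of residue characteristic `q ≠ p`,
trivially on the residue field, are cyclic. -/
theorem isCyclic_subgroup_of_isPGroup_of_trivial_residue [Finite G] [FaithfulSMul G O]
    (q : ℕ) [Fact q.Prime] (hchar : (q : O) ∈ maximalIdeal O)
    (htriv : ∀ (g : G) (x : O), g • x - x ∈ maximalIdeal O)
    (p : ℕ) [Fact p.Prime] (hpq : p ≠ q) (S : Subgroup G) (hS : IsPGroup p S) : IsCyclic S :=
  isCyclic_of_isPGroup_of_trivial_residue (O := O) (G := S) q hchar (fun g x => htriv g x) p hpq hS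

end Averaging


/-! ### Part D: inertia groups of `ℚ̄ / ℚ` -/

section Concrete

open Fermat.Agent.GL.Local.ComapDVR Fermat.Agent.S05
open scoped Pointwise

variable {K Ω : Type*} [Field K] [Field Ω] [Algebra K Ω]

/-- the decomposition group acts faithfully on the valuation ring. -/
instance faithfulSMul_decompositionSubgroup (A : ValuationSubring Ω) :
    FaithfulSMul (A.decompositionSubgroup K) A := by
  refine ⟨fun {g h} hgh => Subtype.ext (AlgEquiv.ext fun y => ?_)⟩
  rcases A.mem_or_inv_mem y with hy | hy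
  · exact congrArg Subtype.val (hgh ⟨y, hy⟩)
  · have h1 : (g : Ω ≃ₐ[K] Ω) y⁻¹ = (h : Ω ≃ₐ[K] Ω) y⁻¹ := congrArg Subtype.val (hgh ⟨y⁻¹, hy⟩)
    rw [map_inv₀, map_inv₀] at h1
    exact inv_injective h1

variable (A : ValuationSubring Ω) (L : IntermediateField K Ω)

theorem mem_nonunits_sub_iff (x : L) :
    x ∈ (sub A (L := L)).nonunits ↔ algebraMap L Ω x ∈ A.nonunits := by
  by_cases hx : x = 0
  · subst hx; simp
  · have hx' : algebraMap L Ω x ≠ 0 := (map_ne_zero_iff _ (algebraMap L Ω).injective).2 hx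
    rw [mem_nonunits_iff_inv_notMem hx, mem_nonunits_iff_inv_notMem hx', mem_sub_iff, map_inv₀]

theorem inertiaSubgroup_smul_sub_mem (g : ↥((sub A (L := L)).inertiaSubgroup K))
    (x : sub A (L := L)) : g • x - x ∈ IsLocalRing.maximalIdeal (sub A (L := L)) := by
  have hg : ((g : (sub A (L := L)).decompositionSubgroup K) : L ≃ₐ[K] L) ∈
      (sub A (L := L)).inertiaSubgroupIn K := ⟨g.1, g.2, rfl⟩
  have h1 := apply_sub_mem_nonunits_of_mem_inertiaSubgroupIn hg x.2
  rw [ValuationSubring.mem_nonunits_iff_exists_mem_maximalIdeal] at h1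
  obtain ⟨h2, h3⟩ := h1
  exact h3

variable [Normal K L]

theorem restrictNormalHom_apply_coe (σ : Ω ≃ₐ[K] Ω) (x : L) :
    ((AlgEquiv.restrictNormalHom L σ x : L) : Ω) = σ (x : Ω) :=
  AlgEquiv.restrictNormal_commutes σ L x

theorem restrictNormalHom_mem_decompositionSubgroup {σ : Ω ≃ₐ[K] Ω}
    (hσ : σ ∈ A.decompositionSubgroup K) :
    AlgEquiv.restrictNormalHom L σ ∈ (sub A (L := L)).decompositionSubgroup K := by
  show AlgEquiv.restrictNormalHom L σ • sub A (L := L) = sub A (L := L)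
  ext x
  rw [ValuationSubring.mem_smul_pointwise_iff_exists]
  constructor
  · rintro ⟨y, hy, rfl⟩
    rw [mem_sub_iff] at hy ⊢
    show algebraMap L Ω (AlgEquiv.restrictNormalHom L σ y) ∈ A
    rw [show algebraMap L Ω (AlgEquiv.restrictNormalHom L σ y) = σ (y : Ω) from
      restrictNormalHom_apply_coe L σ y]
    exact apply_mem_of_mem_decompositionSubgroup hσ hy
  · intro hx
    refine ⟨(AlgEquiv.restrictNormalHom L σ).symm x, ?_, (AlgEquiv.restrictNormalHom L σ).apply_symm_apply x⟩
    rw [mem_sub_iff] at hx ⊢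
    apply mem_of_apply_mem_of_mem_decompositionSubgroup hσ
    have := restrictNormalHom_apply_coe L σ ((AlgEquiv.restrictNormalHom L σ).symm x)
    rw [AlgEquiv.apply_symm_apply] at this
    show σ (algebraMap L Ω ((AlgEquiv.restrictNormalHom L σ).symm x)) ∈ A
    rw [show σ (algebraMap L Ω ((AlgEquiv.restrictNormalHom L σ).symm x)) = (x : Ω) from this.symm]
    exact hx

theorem restrictNormalHom_mem_inertiaSubgroup {σ : Ω ≃ₐ[K] Ω}
    (hσ : σ ∈ A.inertiaSubgroupIn K) :
    (⟨AlgEquiv.restrictNormalHom L σ, restrictNormalHom_mem_decompositionSubgroup A L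
      (mem_decompositionSubgroup_of_mem_inertiaSubgroupIn hσ)⟩ :
      (sub A (L := L)).decompositionSubgroup K) ∈ (sub A (L := L)).inertiaSubgroup K := by
  rw [ValuationSubring.inertiaSubgroup, MonoidHom.mem_ker]
  ext x
  obtain ⟨a, rfl⟩ := IsLocalRing.residue_surjective x
  show (⟨AlgEquiv.restrictNormalHom L σ, _⟩ : (sub A (L := L)).decompositionSubgroup K) •
    IsLocalRing.residue _ a = IsLocalRing.residue _ a
  rw [← IsLocalRing.ResidueField.residue_smul, ← sub_eq_zero, ← map_sub,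
    IsLocalRing.residue_eq_zero_iff, (sub A (L := L)).valuation_lt_one_iff]
  show (sub A (L := L)).valuation (AlgEquiv.restrictNormalHom L σ (a : L) - (a : L)) < 1
  rw [← (sub A (L := L)).mem_nonunits_iff, mem_nonunits_sub_iff, map_sub]
  rw [show algebraMap L Ω (AlgEquiv.restrictNormalHom L σ (a : L)) = σ ((a : L) : Ω) from
    restrictNormalHom_apply_coe L σ (a : L)]
  exact apply_sub_mem_nonunits_of_mem_inertiaSubgroupIn hσ a.2

/-- the restriction map from the inertia group of `A` to the inertia group of `A ∩ L`. -/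
noncomputable def inertiaRestrict :
    ↥(A.inertiaSubgroupIn K) →* ↥((sub A (L := L)).inertiaSubgroup K) where
  toFun σ := ⟨⟨AlgEquiv.restrictNormalHom L (σ : Ω ≃ₐ[K] Ω), _⟩,
    restrictNormalHom_mem_inertiaSubgroup A L σ.2⟩
  map_one' := by
    apply Subtype.ext; apply Subtype.ext
    show AlgEquiv.restrictNormalHom L ((1 : ↥(A.inertiaSubgroupIn K)) : Ω ≃ₐ[K] Ω) = 1
    rw [Subgroup.coe_one, map_one]
  map_mul' σ τ := by
    apply Subtype.ext; apply Subtype.ext
    show AlgEquiv.restrictNormalHom L ((σ * τ : ↥(A.inertiaSubgroupIn K)) : Ω ≃ₐ[K] Ω) =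
      AlgEquiv.restrictNormalHom L (σ : Ω ≃ₐ[K] Ω) * AlgEquiv.restrictNormalHom L (τ : Ω ≃ₐ[K] Ω)
    rw [Subgroup.coe_mul, map_mul]

theorem apply_eq_of_mem_ker_inertiaRestrict {σ : ↥(A.inertiaSubgroupIn K)}
    (hσ : σ ∈ (inertiaRestrict A L).ker) (x : Ω) (hx : x ∈ L) : (σ : Ω ≃ₐ[K] Ω) x = x := by
  have h1 : AlgEquiv.restrictNormalHom L (σ : Ω ≃ₐ[K] Ω) = 1 := by
    have := congrArg (fun g : ↥((sub A (L := L)).inertiaSubgroup K) => ((g : (sub A (L := L)).decompositionSubgroup K) : L ≃ₐ[K] L)) (MonoidHom.mem_ker.1 hσ)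
    exact this
  have h2 := restrictNormalHom_apply_coe L (σ : Ω ≃ₐ[K] Ω) ⟨x, hx⟩
  rw [h1] at h2
  exact h2.symm

end Concrete

/-! ### Main theorem -/

section Main

open Fermat.Agent.GL.Local.ComapDVR

variable (P : ValuationSubring (AlgebraicClosure ℚ)) {q : ℕ}

/-- **Tame inertia, `p`-part.**  Let `P` be a place of `ℚ̄` over `q` and `f : G_ℚ →* H` a
homomorphism factoring through a finite level.  If the image `f(I_P)` of the inertia group is a
`p`-group with `p ≠ q`, then `f(I_P)` is cyclic. -/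
theorem isCyclic_map_inertia_of_isPGroup (hq : q.Prime) (hP : P.LiesOverPrime q)
    {H : Type*} [Group H] (f : (AlgebraicClosure ℚ ≃ₐ[ℚ] AlgebraicClosure ℚ) →* H)
    (hf : ∃ L : IntermediateField ℚ (AlgebraicClosure ℚ), FiniteDimensional ℚ L ∧
      ∀ σ : AlgebraicClosure ℚ ≃ₐ[ℚ] AlgebraicClosure ℚ, (∀ x ∈ L, σ x = x) → f σ = 1)
    (p : ℕ) [Fact p.Prime] (hpq : p ≠ q)
    (hp : IsPGroup p ((P.inertiaSubgroupIn ℚ).map f)) :
    IsCyclic ((P.inertiaSubgroupIn ℚ).map f) := by
  obtain ⟨L₀, hL₀, hker⟩ := hf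
  have hA : ((q : ℕ) : AlgebraicClosure ℚ) ∈ P.nonunits := hP
  have : Fact q.Prime := ⟨hq⟩
  have : Algebra.IsAlgebraic ℚ (AlgebraicClosure ℚ) := AlgebraicClosure.isAlgebraic ℚ
  have : IsAlgClosure ℚ (AlgebraicClosure ℚ) := ⟨inferInstance, inferInstance⟩
  have : Normal ℚ (AlgebraicClosure ℚ) := IsAlgClosure.normal ℚ (AlgebraicClosure ℚ)
  let L : IntermediateField ℚ (AlgebraicClosure ℚ) :=
    IntermediateField.normalClosure ℚ L₀ (AlgebraicClosure ℚ)
  have hLn : Normal ℚ L := normalClosure.normal ℚ L₀ (AlgebraicClosure ℚ)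
  have hLf : FiniteDimensional ℚ L := normalClosure.is_finiteDimensional ℚ L₀ (AlgebraicClosure ℚ)
  have hle : L₀ ≤ L := L₀.le_normalClosure
  obtain ⟨π, hπ0, hπ, hval⟩ := exists_uniformizer (L := L) P hq hA
  have hdvr : IsDiscreteValuationRing (sub P (L := L)) :=
    isDiscreteValuationRing_sub P hπ hπ0 hval
  have hchar : ((q : ℕ) : sub P (L := L)) ∈ IsLocalRing.maximalIdeal (sub P (L := L)) := by
    rw [IsLocalRing.mem_maximalIdeal, mem_nonunits_iff, isUnit_sub_iff]
    have h1 : algebraMap L (AlgebraicClosure ℚ) (((q : ℕ) : sub P (L := L)) : L) =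
        ((q : ℕ) : AlgebraicClosure ℚ) := by
      simp
    rw [h1]
    exact ((P.mem_nonunits_iff).1 hA).ne
  have hfin : Finite ↥((sub P (L := L)).inertiaSubgroup ℚ) := inferInstance
  have hcyc : ∀ S : Subgroup ↥((sub P (L := L)).inertiaSubgroup ℚ), IsPGroup p S → IsCyclic S :=
    fun S hS => isCyclic_subgroup_of_isPGroup_of_trivial_residue (O := sub P (L := L)) q hchar
      (inertiaSubgroup_smul_sub_mem P L) p hpq S hS
  have hrange : (f.comp (P.inertiaSubgroupIn ℚ).subtype).range = (P.inertiaSubgroupIn ℚ).map f := by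
    rw [← MonoidHom.map_range, Subgroup.range_subtype]
  have hker' : (inertiaRestrict P L).ker ≤ (f.comp (P.inertiaSubgroupIn ℚ).subtype).ker := by
    intro σ hσ
    rw [MonoidHom.mem_ker, MonoidHom.comp_apply]
    exact hker _ fun x hx => apply_eq_of_mem_ker_inertiaRestrict P L hσ x (hle hx)
  have hmain := isCyclic_range_of_ker_le p hcyc (inertiaRestrict P L)
    (f.comp (P.inertiaSubgroupIn ℚ).subtype) hker' (by rw [hrange]; exact hp)
  rwa [hrange] at hmain

/-- generator form of `isCyclic_map_inertia_of_isPGroup`. -/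
theorem exists_inertia_generator_of_isPGroup (hq : q.Prime) (hP : P.LiesOverPrime q)
    {H : Type*} [Group H] (f : (AlgebraicClosure ℚ ≃ₐ[ℚ] AlgebraicClosure ℚ) →* H)
    (hf : ∃ L : IntermediateField ℚ (AlgebraicClosure ℚ), FiniteDimensional ℚ L ∧
      ∀ σ : AlgebraicClosure ℚ ≃ₐ[ℚ] AlgebraicClosure ℚ, (∀ x ∈ L, σ x = x) → f σ = 1)
    (p : ℕ) [Fact p.Prime] (hpq : p ≠ q)
    (hp : IsPGroup p ((P.inertiaSubgroupIn ℚ).map f)) :
    ∃ τ ∈ P.inertiaSubgroupIn ℚ, ∀ σ ∈ P.inertiaSubgroupIn ℚ, ∃ n : ℤ, f σ = f τ ^ n := by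
  have hc := isCyclic_map_inertia_of_isPGroup P hq hP f hf p hpq hp
  obtain ⟨⟨g, hg⟩, hgen⟩ := hc.exists_generator
  obtain ⟨τ, hτ, rfl⟩ := hg
  refine ⟨τ, hτ, fun σ hσ => ?_⟩
  obtain ⟨n, hn⟩ := Subgroup.mem_zpowers_iff.1 (hgen ⟨f σ, ⟨σ, hσ, rfl⟩⟩)
  exact ⟨n, (congrArg Subtype.val hn).symm⟩

end Main

end Fermat.Agent.GP.Loc.TamePQuot
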