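/-
GATE-P / S56 [P-LOC] leaf S56-LOC-TAMEREL (helper91).  Mathlib + `GL/TameCyclic` only.

The **tame relation** `φ σ φ⁻¹ ≡ σ ^ q` on `p`-group images of inertia, in abstract form.

`O` a discrete valuation ring of residue characteristic `q`, `D` a finite group acting faithfully
on `O` by ring automorphisms (a finite-level decomposition group), `I ⊴ D` acting trivially on the
residue field (the inertia group), `φ ∈ D` acting as `x ↦ x ^ q` on the residue field
(a Frobenius).  For every prime `p ≠ q` and every group hom `f : D →* H` such that `f(I)` is a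
`p`-group:

* `f (φ * σ * φ⁻¹) = f σ ^ q` for every `σ ∈ I`;
* `f(I)` is commutative, and generated by one element `f τ`, `τ ∈ I`.

Proof: `S` a Sylow `p`-subgroup of `I`.  The hypothesis `hdig` of `GL/TameCyclic` holds for `S`
by averaging (`|S|` is prime to `q`), so the tame character `θ : S → (O/m)ˣ` is injective.
`θ (d s d⁻¹) = d̄ (θ s)` for `d` normalising `S`; Frattini: `φ = i n` with `i ∈ I`, `n ∈ N_D(S)`,
and `n` is again a Frobenius, so `n s n⁻¹ = s ^ q` on `S`.  Finally `I = S · ker (f|_I)`.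
-/
import Mathlib
import Fermat.Agent.GL.TameCyclic

set_option autoImplicit false

namespace Fermat.Agent.GP.Loc.TameRel

open IsLocalRing Fermat.Agent.GL.TameCyclic

section Avg

variable {O : Type*} [CommRing O] [IsLocalRing O]
variable {S : Type*} [Group S] [Finite S] [MulSemiringAction S O]

/-- **Averaging**: a finite group of order invertible in `O` acting trivially on the residue field
satisfies the hypothesis `hdig` of `GL/TameCyclic`: every residue class contains an invariant
element. -/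
theorem hdig_of_isUnit_card (hcard : IsUnit ((Nat.card S : ℕ) : O))
    (htriv : ∀ (s : S) (x : O), s • x - x ∈ maximalIdeal O) :
    ∀ x : O, ∃ c : O, (∀ g : S, g • c = c) ∧ x - c ∈ maximalIdeal O := by
  classical
  have := Fintype.ofFinite S
  intro x
  obtain ⟨u, hu⟩ := hcard
  have hcardsum : ((Nat.card S : ℕ) : O) * ((↑u⁻¹ : O) * ∑ s : S, s • x) = ∑ s : S, s • x := by
    rw [← mul_assoc, ← hu, Units.mul_inv, one_mul]
  refine ⟨(↑u⁻¹ : O) * ∑ s : S, s • x, ?_, ?_⟩
  · intro g
    have h1 : ((Nat.card S : ℕ) : O) * g • ((↑u⁻¹ : O) * ∑ s : S, s • x) =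
        ((Nat.card S : ℕ) : O) * ((↑u⁻¹ : O) * ∑ s : S, s • x) := by
      have h2 : g • (((Nat.card S : ℕ) : O) * ((↑u⁻¹ : O) * ∑ s : S, s • x)) =
          ((Nat.card S : ℕ) : O) * g • ((↑u⁻¹ : O) * ∑ s : S, s • x) := by
        rw [smul_mul']
        congr 1
        exact map_natCast (MulSemiringAction.toRingHom S O g) _
      rw [← h2, hcardsum, Finset.smul_sum]
      refine Fintype.sum_equiv (Equiv.mulLeft g) _ _ (fun s => ?_)
      rw [Equiv.coe_mulLeft, mul_smul]
    rw [← hu] at h1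
    exact u.isUnit.mul_left_cancel h1
  · have h1 : ((Nat.card S : ℕ) : O) * (x - (↑u⁻¹ : O) * ∑ s : S, s • x) =
        ∑ s : S, (x - s • x) := by
      rw [mul_sub, hcardsum, Finset.sum_sub_distrib, Finset.sum_const, Finset.card_univ,
        Nat.card_eq_fintype_card, nsmul_eq_mul]
    have h2 : ∑ s : S, (x - s • x) ∈ maximalIdeal O :=
      Ideal.sum_mem _ fun s _ => by
        have := htriv s x
        rw [← Ideal.neg_mem_iff] at this
        simpa using this
    rw [← h1, ← hu] at h2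
    exact (Ideal.unit_mul_mem_iff_mem _ u.isUnit).1 h2

end Avg

section Cocycle

variable {O : Type*} [CommRing O] [IsDomain O] [IsDiscreteValuationRing O]
variable {D : Type*} [Group D] [MulSemiringAction D O]

/-- Any `c` with `g • π = π * c` is the cocycle `(g • π) / π`. -/
theorem cocycle_eq_of_smul_eq {π : O} (hπ : maximalIdeal O = Ideal.span {π}) (hπ0 : π ≠ 0)
    {g : D} {c : O} (h : g • π = π * c) : cocycle hπ g = c :=
  mul_left_cancel₀ hπ0 ((cocycle_spec hπ g).symm.trans h)

/-- **Equivariance of the tame character**: `(d s d⁻¹ π)/π ≡ d • ((s π)/π)` modulo `m` when `s` acts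
trivially on the residue field. -/
theorem cocycle_conj_sub_mem {π : O} (hπ : maximalIdeal O = Ideal.span {π}) (hπ0 : π ≠ 0)
    (d s : D) (hs : ∀ x : O, s • x - x ∈ maximalIdeal O) :
    cocycle hπ (d * s * d⁻¹) - d • cocycle hπ s ∈ maximalIdeal O := by
  set u := cocycle hπ d⁻¹ with hu
  have h1 : d⁻¹ • π = π * u := cocycle_spec hπ d⁻¹
  have h2 : s • π = π * cocycle hπ s := cocycle_spec hπ s
  have h3 : (d * s * d⁻¹) • π = π * cocycle hπ (d * s * d⁻¹) := cocycle_spec hπ _
  have hd : d • π = π * cocycle hπ d := cocycle_spec hπ d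
  have h4 : π = d • π * d • u := by
    have := congrArg (fun z => d • z) h1
    simp only [smul_inv_smul, smul_mul'] at this
    exact this
  have h5 : (d * s * d⁻¹) • π = d • π * (d • cocycle hπ s * d • (s • u)) := by
    rw [mul_smul, mul_smul, h1, smul_mul', h2, smul_mul', smul_mul']
    ring
  have hdπ : d • π ≠ 0 := by
    intro h
    apply hπ0
    have := congrArg (fun z => d⁻¹ • z) h
    simpa using this
  have h6 : d • u * cocycle hπ (d * s * d⁻¹) = d • cocycle hπ s * d • (s • u) := by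
    apply mul_left_cancel₀ hdπ
    rw [← h5, h3, ← mul_assoc, ← h4]
  have hunit : IsUnit (d • u) := by
    have h7 : π * (d • u * cocycle hπ d) = π * 1 := by
      rw [mul_comm (d • u), ← mul_assoc, ← hd, ← h4, mul_one]
    exact IsUnit.of_mul_eq_one _ (mul_left_cancel₀ hπ0 h7)
  have h8 : d • u * (cocycle hπ (d * s * d⁻¹) - d • cocycle hπ s) =
      d • cocycle hπ s * d • (s • u - u) := by
    rw [mul_sub, h6, smul_sub]
    ring
  have h9 : d • cocycle hπ s * d • (s • u - u) ∈ maximalIdeal O :=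
    Ideal.mul_mem_left _ _ ((smul_mem_maximalIdeal_iff d _).2 (hs u))
  rw [← h8] at h9
  exact (Ideal.unit_mul_mem_iff_mem _ hunit).1 h9

end Cocycle

section Inj

variable {O : Type*} [CommRing O] [IsDomain O] [IsDiscreteValuationRing O]
variable {D : Type*} [Group D] [MulSemiringAction D O] [FaithfulSMul D O]

/-- The tame character is injective on every finite `p`-subgroup (`p ≠ q`) acting trivially on the
residue field. -/
theorem eq_of_residue_cocycle_eq (q : ℕ) [hq : Fact q.Prime]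
    (hchar : (q : O) ∈ maximalIdeal O) (p : ℕ) [hp : Fact p.Prime] (hpq : p ≠ q)
    (S : Subgroup D) [Finite S] (hS : IsPGroup p S)
    (hSI : ∀ s ∈ S, ∀ x : O, s • x - x ∈ maximalIdeal O)
    {π : O} (hπ : maximalIdeal O = Ideal.span {π}) (hπ0 : π ≠ 0)
    {s t : D} (hs : s ∈ S) (ht : t ∈ S)
    (hst : residue O (cocycle hπ s) = residue O (cocycle hπ t)) : s = t := by
  -- `hdig` for `S` by averaging
  have hcop : (Nat.card S).Coprime q := by
    obtain ⟨n, hn⟩ := IsPGroup.iff_card.1 hS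
    rw [hn]
    exact Nat.Coprime.pow_left n ((Nat.coprime_primes hp.out hq.out).2 hpq)
  have hdig : ∀ x : O, ∃ c : O, (∀ g : S, g • c = c) ∧ x - c ∈ maximalIdeal O :=
    hdig_of_isUnit_card (isUnit_natCast_of_coprime q hchar hcop) (fun g x => hSI g g.2 x)
  -- the cocycle of the restricted action is the cocycle of `D`
  have hcoc : ∀ g : S, cocycle hπ g = cocycle hπ (g : D) := fun g =>
    cocycle_eq_of_smul_eq (D := S) hπ hπ0 (cocycle_spec hπ (g : D))
  -- injectivity of `θ`
  have hker := theta_ker (G := S) hπ hπ0 hdig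
  have hwild := isPGroup_wild (G := S) q hchar hdig
  have hinj : Function.Injective (theta (G := S) hπ hπ0 hdig) := by
    rw [injective_iff_map_eq_one]
    intro x hx
    have hxw : x ∈ wild O S := by rw [← hker]; exact hx
    obtain ⟨a, ha⟩ := hS x
    obtain ⟨b, hb⟩ := hwild ⟨x, hxw⟩
    have hb' : x ^ q ^ b = 1 := by simpa using congrArg Subtype.val hb
    have h1 : orderOf x ∣ p ^ a := orderOf_dvd_of_pow_eq_one ha
    have h2 : orderOf x ∣ q ^ b := orderOf_dvd_of_pow_eq_one hb'
    have h3 : orderOf x = 1 :=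
      Nat.eq_one_of_dvd_coprimes
        (Nat.Coprime.pow a b ((Nat.coprime_primes hp.out hq.out).2 hpq)) h1 h2
    exact orderOf_eq_one_iff.1 h3
  have h4 : theta (G := S) hπ hπ0 hdig ⟨s, hs⟩ = theta (G := S) hπ hπ0 hdig ⟨t, ht⟩ := by
    change residue O (cocycle hπ (⟨s, hs⟩ : S)) = residue O (cocycle hπ (⟨t, ht⟩ : S))
    rw [hcoc, hcoc]
    exact hst
  exact congrArg Subtype.val (hinj h4)

end Inj

section Sylow

/-- A hom with `p`-group image is determined by a Sylow `p`-subgroup: `G = P · ker f`. -/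
theorem exists_sylow_mul_ker {G : Type*} [Group G] [Finite G] {H : Type*} [Group H] (p : ℕ)
    [hp : Fact p.Prime] (P : Sylow p G) (f : G →* H) (hf : IsPGroup p f.range) (g : G) :
    ∃ s ∈ P, ∃ k ∈ f.ker, g = s * k := by
  have hfin : Finite f.range := Finite.of_surjective f.rangeRestrict f.rangeRestrict_surjective
  have hT : (P : Subgroup G) ⊔ f.ker = ⊤ := by
    rw [← Subgroup.index_eq_one]
    have h1 : ((P : Subgroup G) ⊔ f.ker).index ∣ (P : Subgroup G).index :=
      Subgroup.index_dvd_of_le le_sup_left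
    have h2 : ((P : Subgroup G) ⊔ f.ker).index ∣ f.ker.index :=
      Subgroup.index_dvd_of_le le_sup_right
    rw [Subgroup.index_ker] at h2
    obtain ⟨n, hn⟩ := IsPGroup.iff_card.1 hf
    rw [hn] at h2
    obtain ⟨j, -, hj⟩ := (Nat.dvd_prime_pow hp.out).1 h2
    have h3 : ¬ p ∣ (P : Subgroup G).index := P.not_dvd_index
    rcases Nat.eq_zero_or_pos j with rfl | hjpos
    · simpa using hj
    · exfalso
      apply h3
      refine dvd_trans ?_ h1
      rw [hj]
      exact dvd_pow_self p hjpos.ne'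
  have hg : g ∈ (P : Subgroup G) ⊔ f.ker := by rw [hT]; trivial
  rw [← SetLike.mem_coe, Subgroup.mul_normal (P : Subgroup G) f.ker] at hg
  obtain ⟨s, hs, k, hk, rfl⟩ := hg
  exact ⟨s, hs, k, hk, rfl⟩

end Sylow

section Main

variable {O : Type*} [CommRing O] [IsDomain O] [IsDiscreteValuationRing O]
variable {D : Type*} [Group D] [Finite D] [MulSemiringAction D O] [FaithfulSMul D O]

/-- **The tame relation.**  `D` a finite group acting faithfully on the DVR `O` of residue
characteristic `q`, `I ⊴ D` acting trivially on the residue field, `φ ∈ D` acting as `x ↦ x ^ q` on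
the residue field.  If `f : D →* H` maps `I` onto a `p`-group, `p ≠ q`, then
`f (φ σ φ⁻¹) = f σ ^ q` on `I`, `f(I)` is commutative and generated by a single `f τ`. -/
theorem map_conj_eq_pow (q : ℕ) [hq : Fact q.Prime] (hchar : (q : O) ∈ maximalIdeal O)
    (p : ℕ) [hp : Fact p.Prime] (hpq : p ≠ q)
    (I : Subgroup D) [I.Normal] (hI : ∀ s ∈ I, ∀ x : O, s • x - x ∈ maximalIdeal O)
    (φ : D) (hφ : ∀ x : O, φ • x - x ^ q ∈ maximalIdeal O)
    {H : Type*} [Group H] (f : D →* H) (hf : IsPGroup p (I.map f)) :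
    (∀ σ ∈ I, f (φ * σ * φ⁻¹) = f σ ^ q) ∧ (∀ σ ∈ I, ∀ τ ∈ I, f σ * f τ = f τ * f σ) ∧
      ∃ τ ∈ I, ∀ σ ∈ I, ∃ n : ℕ, f σ = f τ ^ n := by
  obtain ⟨π, hπirr⟩ := IsDiscreteValuationRing.exists_irreducible O
  have hπ := hπirr.maximalIdeal_eq
  have hπ0 := hπirr.ne_zero
  obtain ⟨P⟩ : Nonempty (Sylow p I) := inferInstance
  set S : Subgroup D := (P : Subgroup I).map I.subtype with hSdef
  have hSI : S ≤ I := by
    rintro _ ⟨x, -, rfl⟩
    exact x.2
  have hSp : IsPGroup p S := P.2.map I.subtype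
  have hinj : ∀ {s t : D}, s ∈ S → t ∈ S →
      residue O (cocycle hπ s) = residue O (cocycle hπ t) → s = t := fun hs ht h =>
    eq_of_residue_cocycle_eq q hchar p hpq S hSp (fun s hs => hI s (hSI hs)) hπ hπ0 hs ht h
  -- multiplicativity of `residue ∘ cocycle` on `I`
  have hmul : ∀ s ∈ I, ∀ t : D, residue O (cocycle hπ (s * t)) =
      residue O (cocycle hπ s) * residue O (cocycle hπ t) := by
    intro s hs t
    rw [cocycle_mul hπ hπ0, map_mul]
    congr 1
    rw [← sub_eq_zero, ← map_sub, residue_eq_zero_iff]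
    exact hI s hs _
  have hpow : ∀ s ∈ I, ∀ n : ℕ, residue O (cocycle hπ (s ^ n)) =
      residue O (cocycle hπ s) ^ n := by
    intro s hs n
    induction n with
    | zero => rw [pow_zero, pow_zero, cocycle_one hπ hπ0, map_one]
    | succ n ih => rw [pow_succ', hmul s hs, ih, pow_succ']
  -- `S` is commutative
  have hcomm : ∀ s ∈ S, ∀ t ∈ S, s * t = t * s := by
    intro s hs t ht
    refine hinj (S.mul_mem hs ht) (S.mul_mem ht hs) ?_
    rw [hmul s (hSI hs), hmul t (hSI ht), mul_comm]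
  -- Frattini: `φ = i * n`
  have hφmem : φ ∈ I ⊔ Subgroup.normalizer (S : Set D) := by
    rw [sup_comm, hSdef, Sylow.normalizer_sup_eq_top P]
    trivial
  rw [← SetLike.mem_coe, Subgroup.normal_mul I] at hφmem
  obtain ⟨i, hi, n, hn, hin⟩ := hφmem
  have hi' : i ∈ I := hi
  have hn' : ∀ h, h ∈ S ↔ n * h * n⁻¹ ∈ S := Subgroup.mem_normalizer_iff.1 hn
  -- `n` is a Frobenius
  have hnφ : ∀ x : O, n • x - x ^ q ∈ maximalIdeal O := by
    intro x
    have hn_eq : n = i⁻¹ * φ := by rw [← hin]; group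
    have e : n • x - x ^ q = (i⁻¹ • (φ • x) - φ • x) + (φ • x - x ^ q) := by
      rw [hn_eq, mul_smul]; ring
    rw [e]
    exact Ideal.add_mem _ (hI _ (I.inv_mem hi') _) (hφ x)
  -- `n s n⁻¹ = s ^ q` on `S`
  have hconj : ∀ s ∈ S, n * s * n⁻¹ = s ^ q := by
    intro s hs
    refine hinj ((hn' s).1 hs) (S.pow_mem hs q) ?_
    rw [hpow s (hSI hs)]
    have h1 := cocycle_conj_sub_mem hπ hπ0 n s (hI s (hSI hs))
    have h2 := hnφ (cocycle hπ s)
    rw [← residue_eq_zero_iff, map_sub, sub_eq_zero] at h1 h2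
    rw [h1, h2, map_pow]
  -- `I = S · ker (f|_I)`
  have hdec : ∀ σ ∈ I, ∃ s ∈ S, ∃ k ∈ I, f k = 1 ∧ σ = s * k := by
    intro σ hσ
    have hrange : IsPGroup p (f.comp I.subtype).range := by
      rw [MonoidHom.range_comp, Subgroup.range_subtype]
      exact hf
    obtain ⟨s, hs, k, hk, hsk⟩ := exists_sylow_mul_ker p P (f.comp I.subtype) hrange ⟨σ, hσ⟩
    refine ⟨s, ⟨s, hs, rfl⟩, k, k.2, hk, ?_⟩
    have := congrArg Subtype.val hsk
    simpa using this
  -- commutativity of `f(I)`
  have hfcomm : ∀ σ ∈ I, ∀ τ ∈ I, f σ * f τ = f τ * f σ := by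
    intro σ hσ τ hτ
    obtain ⟨s, hs, k, -, hk, rfl⟩ := hdec σ hσ
    obtain ⟨t, ht, l, -, hl, rfl⟩ := hdec τ hτ
    rw [map_mul, map_mul, hk, hl, mul_one, mul_one, ← map_mul, ← map_mul, hcomm s hs t ht]
  refine ⟨?_, hfcomm, ?_⟩
  · intro σ hσ
    obtain ⟨s, hs, k, -, hk, rfl⟩ := hdec σ hσ
    have e : φ * (s * k) * φ⁻¹ = i * (n * s * n⁻¹) * i⁻¹ * (φ * k * φ⁻¹) := by
      rw [← hin]; group
    rw [e, hconj s hs, map_mul, map_mul, map_mul, map_mul, map_mul, map_mul, hk, map_inv,
      map_inv, mul_one, mul_inv_cancel, mul_one, mul_one,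
      hfcomm i hi' (s ^ q) (I.pow_mem (hSI hs) q), mul_inv_cancel_right, map_pow]
  · -- `S` is cyclic
    have hScyc : IsCyclic S := by
      have hcop : (Nat.card S).Coprime q := by
        obtain ⟨m, hm⟩ := IsPGroup.iff_card.1 hSp
        rw [hm]
        exact Nat.Coprime.pow_left m ((Nat.coprime_primes hp.out hq.out).2 hpq)
      have hdig : ∀ x : O, ∃ c : O, (∀ g : S, g • c = c) ∧ x - c ∈ maximalIdeal O :=
        hdig_of_isUnit_card (isUnit_natCast_of_coprime q hchar hcop)
          (fun g x => hI g (hSI g.2) x)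
      have hc : IsCyclic (⊤ : Subgroup S) :=
        isCyclic_of_isPGroup_subgroup (G := S) q hchar hdig p hpq ⊤ (hSp.to_subgroup ⊤)
      exact isCyclic_of_surjective (⊤ : Subgroup S).subtype
        (fun x => ⟨⟨x, Subgroup.mem_top x⟩, rfl⟩)
    obtain ⟨⟨τ, hτ⟩, hgen⟩ := IsCyclic.exists_generator (α := S)
    refine ⟨τ, hSI hτ, fun σ hσ => ?_⟩
    obtain ⟨s, hs, k, -, hk, rfl⟩ := hdec σ hσ
    have hmem := hgen ⟨s, hs⟩
    rw [Subgroup.mem_zpowers_iff] at hmem
    obtain ⟨z, hz⟩ := hmem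
    have hz' : τ ^ z = s := by simpa using congrArg Subtype.val hz
    -- turn the integer power into a natural power
    obtain ⟨m, hm⟩ : ∃ m : ℕ, τ ^ m = s := by
      have hfin : IsOfFinOrder τ := isOfFinOrder_of_finite τ
      have hsz : s ∈ Subgroup.zpowers τ := ⟨z, hz'⟩
      exact (Submonoid.mem_powers_iff s τ).1 (hfin.mem_powers_iff_mem_zpowers.2 hsz)
    refine ⟨m, ?_⟩
    rw [map_mul, hk, mul_one, ← hm, map_pow]

end Main

end Fermat.Agent.GP.Loc.TameRel
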