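/-
GATE-P / S56 [P-LOC] leaf `S56-LOC-STRICTORD` (helper72).

The STRICT-ORDINARY local condition at `p`, in matrix language.

Let `A` be a local ring in which `(p : A) = 0`, `p` an odd prime, and `ρ : GaloisRepAdic A`
with `ρ.DetIsCyclotomic p` and `ρ.IsStrictOrdinaryAt p` (the two FROZEN predicates).  Then for every
place `P` over `p` there is a basis `b` of `ρ.V`, adapted to the ordinary line `L = A ∙ b 0`, in which
every `σ ∈ D_P` has the shape

    ρ σ = [[ω(σ) z, β], [0, z]],   z ∈ {1, -1},   z = 1 on inertia,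

where `ω(σ) = (a : A)` for ANY `a : ℕ` with `σ μ = μ ^ a` on the `p`-th roots of unity.  In words: the
diagonal characters of a strict-ordinary lift to a ring killed by `p` are rigid (they do not
deform), so that the `D_P`-cocycle of a `k[ε]`-lift takes values in `Hom(V/L, L)`.

Prelude + Mathlib only.  Everything here is new; nothing is imported by a frozen closure.
-/
import Fermat.Prelude.Def_GaloisRep_StrictOrdinary
import Mathlib.NumberTheory.Cyclotomic.CyclotomicCharacter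

namespace Fermat.Agent.GP.Loc.StrictOrdShape

/-! ### Elementary ring lemmas -/

/-- In a ring killed by an odd prime, `2` is a unit. -/
theorem isUnit_two_of_odd_prime {A : Type} [CommRing A] {p : ℕ} (hp : p.Prime) (hp2 : p ≠ 2)
    (hpA : (p : A) = 0) : IsUnit (2 : A) := by
  obtain ⟨k, hk⟩ := hp.odd_of_ne_two hp2
  have h : (2 : A) * (k : A) + 1 = 0 := by
    have := hpA
    rw [hk] at this
    push_cast at this
    exact this
  refine IsUnit.of_mul_eq_one (-(k : A)) ?_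
  linear_combination (-1 : A) * h

/-- In a local ring where `2` is a unit, a square root of `1` is `1` or `-1`. -/
theorem eq_one_or_eq_neg_one_of_mul_self {A : Type} [CommRing A] [IsLocalRing A]
    (h2 : IsUnit (2 : A)) {z : A} (hz : z * z = 1) : z = 1 ∨ z = -1 := by
  have hsum : IsUnit ((z + 1) + (1 - z)) := by
    have : (z + 1) + (1 - z) = 2 := by ring
    rw [this]; exact h2
  rcases IsLocalRing.isUnit_or_isUnit_of_isUnit_add hsum with h | h
  · left
    have h0 : (z + 1) * (z - 1) = 0 := by linear_combination hz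
    have := (h.mul_right_eq_zero).1 h0
    exact sub_eq_zero.1 this
  · right
    have h0 : (1 - z) * (z + 1) = 0 := by linear_combination (-1 : A) * hz
    have := (h.mul_right_eq_zero).1 h0
    exact eq_neg_of_add_eq_zero_left this

/-- In a ring killed by `p`, the ideal generated by `p ^ 1` is zero. -/
theorem span_natCast_pow_one_eq_bot {A : Type} [CommRing A] {p : ℕ} (hpA : (p : A) = 0) :
    Ideal.span {((p ^ 1 : ℕ) : A)} = ⊥ := by
  rw [pow_one, hpA]
  exact Ideal.span_singleton_eq_bot.2 rfl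

/-! ### The mod `p` cyclotomic exponent exists -/

/-- Every automorphism of `ℚ̄` acts on the `n`-th roots of unity as `μ ↦ μ ^ a` for some
natural number `a`. -/
theorem exists_cyclotomic_exponent (n : ℕ) (hn : n ≠ 0)
    (σ : AlgebraicClosure ℚ ≃ₐ[ℚ] AlgebraicClosure ℚ) :
    ∃ a : ℕ, ∀ μ : AlgebraicClosure ℚ, μ ^ n = 1 → σ μ = μ ^ a := by
  have : NeZero n := ⟨hn⟩
  refine ⟨(modularCyclotomicCharacter.toFun n
    (σ : AlgebraicClosure ℚ ≃+* AlgebraicClosure ℚ)).val, fun μ hμ => ?_⟩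
  have hmem : Units.ofPowEqOne μ n hμ hn ∈ rootsOfUnity n (AlgebraicClosure ℚ) := by
    rw [mem_rootsOfUnity]
    exact Units.ext (by simp)
  have := modularCyclotomicCharacter.toFun_spec'
    (σ : AlgebraicClosure ℚ ≃+* AlgebraicClosure ℚ) hmem
  simpa using this

/-! ### Determinant of an upper triangular endomorphism in a basis indexed by `Fin 2` -/

/-- If `f (b 0) = x • b 0` and `f (b 1) - z • b 1 ∈ A ∙ b 0` then `det f = x * z`. -/
theorem det_eq_mul_of_upper {A V : Type} [CommRing A] [AddCommGroup V] [Module A V]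
    (b : Module.Basis (Fin 2) A V) (f : V →ₗ[A] V) {x z : A}
    (h0 : f (b 0) = x • b 0) (h1 : f (b 1) - z • b 1 ∈ Submodule.span A {b 0}) :
    LinearMap.det f = x * z := by
  obtain ⟨c, hc⟩ := Submodule.mem_span_singleton.1 h1
  have h1' : f (b 1) = c • b 0 + z • b 1 := by
    rw [hc]; abel
  rw [← LinearMap.det_toMatrix b, Matrix.det_fin_two]
  simp only [LinearMap.toMatrix_apply, h0, h1', map_add, map_smul, Module.Basis.repr_self,
    Finsupp.smul_apply, Finsupp.add_apply, Finsupp.single_apply, smul_eq_mul]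
  simp

/-- A multiple of `b 1` lying on the line `A ∙ b 0` vanishes. -/
theorem eq_zero_of_smul_basis_one_mem {A V : Type} [CommRing A] [AddCommGroup V] [Module A V]
    (b : Module.Basis (Fin 2) A V) {c : A} (h : c • b 1 ∈ Submodule.span A {b 0}) : c = 0 := by
  obtain ⟨d, hd⟩ := Submodule.mem_span_singleton.1 h
  have := congrArg (fun v => b.repr v 1) hd
  simpa using this.symm

/-- The scalar by which an endomorphism acts on `V / A ∙ b 0` is unique. -/
theorem quot_scalar_unique {A V : Type} [CommRing A] [AddCommGroup V] [Module A V]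
    (b : Module.Basis (Fin 2) A V) (f : V →ₗ[A] V) {z z' : A}
    (h : f (b 1) - z • b 1 ∈ Submodule.span A {b 0})
    (h' : f (b 1) - z' • b 1 ∈ Submodule.span A {b 0}) : z = z' := by
  have hsub : (z - z') • b 1 ∈ Submodule.span A {b 0} := by
    have := Submodule.sub_mem _ h' h
    have e : f (b 1) - z' • b 1 - (f (b 1) - z • b 1) = (z - z') • b 1 := by
      rw [sub_smul]; abel
    rwa [e] at this
  exact sub_eq_zero.1 (eq_zero_of_smul_basis_one_mem b hsub)

/-- Matrix of an upper triangular endomorphism in a basis indexed by `Fin 2`. -/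
theorem toMatrix_of_upper {A V : Type} [CommRing A] [AddCommGroup V] [Module A V]
    (b : Module.Basis (Fin 2) A V) (f : V →ₗ[A] V) {x z : A}
    (h0 : f (b 0) = x • b 0) (h1 : f (b 1) - z • b 1 ∈ Submodule.span A {b 0}) :
    ∃ β : A, LinearMap.toMatrix b b f = !![x, β; 0, z] := by
  obtain ⟨c, hc⟩ := Submodule.mem_span_singleton.1 h1
  have h1' : f (b 1) = c • b 0 + z • b 1 := by
    rw [hc]; abel
  refine ⟨c, ?_⟩
  ext i j
  fin_cases i <;> fin_cases j <;>
    simp [LinearMap.toMatrix_apply, h0, h1']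

/-! ### The shape theorem -/

section Shape

variable {A : Type} [CommRing A] [IsLocalRing A]

/-- `ρ σ` has unit determinant. -/
theorem isUnit_det_rho (ρ : GaloisRepAdic A) (σ : AlgebraicClosure ℚ ≃ₐ[ℚ] AlgebraicClosure ℚ) :
    IsUnit (LinearMap.det (ρ.ρ σ)) := by
  refine IsUnit.of_mul_eq_one (LinearMap.det (ρ.ρ σ⁻¹)) ?_
  rw [← map_mul, ← map_mul, mul_inv_cancel, map_one, map_one]

/-- Inertia is contained in the decomposition group (for the Prelude's `inertiaSubgroupIn`). -/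
theorem mem_decomposition_of_mem_inertiaIn {P : ValuationSubring (AlgebraicClosure ℚ)}
    {σ : AlgebraicClosure ℚ ≃ₐ[ℚ] AlgebraicClosure ℚ} (hσ : σ ∈ P.inertiaSubgroupIn ℚ) :
    σ ∈ P.decompositionSubgroup ℚ := by
  obtain ⟨τ, -, rfl⟩ := Subgroup.mem_map.1 hσ
  exact τ.2

/-- **Strict-ordinary shape.**  For a local ring `A` killed by the odd prime `p`, a Galois
representation `ρ` over `A` with cyclotomic determinant which is strictly ordinary at `p` has, at
every place `P` over `p`, an adapted basis `b` such that each `σ ∈ D_P` acts on `b 0` by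
`ω(σ) z` and on `V / A b 0` by `z`, with `z ∈ {1, -1}`; and inertia acts trivially on the
quotient. -/
theorem strictOrd_shape {p : ℕ} (hp : p.Prime) (hp2 : p ≠ 2) (hpA : (p : A) = 0)
    (ρ : GaloisRepAdic A) (hdet : ρ.DetIsCyclotomic p) (hso : ρ.IsStrictOrdinaryAt p)
    (P : ValuationSubring (AlgebraicClosure ℚ)) (hP : P.LiesOverPrime p) :
    ∃ b : Module.Basis (Fin 2) A ρ.V,
      (∀ σ ∈ P.decompositionSubgroup ℚ, ∃ z : A, (z = 1 ∨ z = -1) ∧
        (∀ a : ℕ, (∀ μ : AlgebraicClosure ℚ, μ ^ p = 1 → σ μ = μ ^ a) →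
          ρ.ρ σ (b 0) = ((a : A) * z) • b 0) ∧
        (∀ v : ρ.V, ρ.ρ σ v - z • v ∈ Submodule.span A {b 0})) ∧
      (∀ σ ∈ P.inertiaSubgroupIn ℚ, ∀ v : ρ.V, ρ.ρ σ v - v ∈ Submodule.span A {b 0}) := by
  obtain ⟨L, ⟨b, rfl⟩, -, hI, hS⟩ := hso.2 P hP
  have hbot : Ideal.span {((p ^ 1 : ℕ) : A)} = ⊥ := span_natCast_pow_one_eq_bot hpA
  have h2 : IsUnit (2 : A) := isUnit_two_of_odd_prime hp hp2 hpA
  refine ⟨b, fun σ hσ => ?_, hI⟩
  obtain ⟨x, z, hx, hz, hcong⟩ := hS σ hσ
  have hb0 : b 0 ∈ Submodule.span A {b 0} := Submodule.mem_span_singleton_self _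
  -- for every admissible exponent `a`: `x = a z` and `det = a`
  have key : ∀ a : ℕ, (∀ μ : AlgebraicClosure ℚ, μ ^ p = 1 → σ μ = μ ^ a) →
      x = (a : A) * z ∧ LinearMap.det (ρ.ρ σ) = (a : A) := by
    intro a ha
    have ha' : ∀ μ : AlgebraicClosure ℚ, μ ^ p ^ 1 = 1 → σ μ = μ ^ a := by
      intro μ hμ; exact ha μ (by simpa using hμ)
    have e1 := hcong 1 a ha'
    have e2 := hdet.2 1 σ a ha'
    rw [hbot, Ideal.mem_bot, sub_eq_zero] at e1 e2
    exact ⟨e1, e2⟩
  have hdetxz : LinearMap.det (ρ.ρ σ) = x * z :=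
    det_eq_mul_of_upper b (ρ.ρ σ) (hx _ hb0) (hz _)
  -- `z * z = 1`
  obtain ⟨a₀, ha₀⟩ := exists_cyclotomic_exponent p hp.ne_zero σ
  obtain ⟨hxa, hda⟩ := key a₀ ha₀
  have hunit : IsUnit ((a₀ : ℕ) : A) := hda ▸ isUnit_det_rho ρ σ
  have hzz : z * z = 1 := by
    have h : ((a₀ : ℕ) : A) * (z * z) = (a₀ : A) * 1 :=
      calc ((a₀ : ℕ) : A) * (z * z) = ((a₀ : A) * z) * z := by ring
        _ = x * z := by rw [hxa]
        _ = LinearMap.det (ρ.ρ σ) := hdetxz.symm
        _ = (a₀ : A) := hda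
        _ = (a₀ : A) * 1 := (mul_one _).symm
    exact hunit.mul_left_cancel h
  refine ⟨z, eq_one_or_eq_neg_one_of_mul_self h2 hzz, fun a ha => ?_, hz⟩
  rw [hx _ hb0, (key a ha).1]

omit [IsLocalRing A] in
/-- On inertia the quotient scalar of `strictOrd_shape` is `1` (for ANY adapted basis). -/
theorem quot_scalar_eq_one_of_inertia {V : Type} [AddCommGroup V] [Module A V]
    (b : Module.Basis (Fin 2) A V) (f : V →ₗ[A] V) {z : A}
    (hI : f (b 1) - b 1 ∈ Submodule.span A {b 0})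
    (hz : f (b 1) - z • b 1 ∈ Submodule.span A {b 0}) : z = 1 := by
  have hI' : f (b 1) - (1 : A) • b 1 ∈ Submodule.span A {b 0} := by rwa [one_smul]
  exact quot_scalar_unique b f hz hI'

/-- **Strict-ordinary shape, matrix form.**  In the adapted basis `b` of `strictOrd_shape`, every
`σ ∈ D_P` has matrix `!![ω(σ) z, β; 0, z]` with `z ∈ {1, -1}` and `z = 1` on inertia, for every
exponent `a` with `σ μ = μ ^ a` on `μ_p` (and such exponents exist). -/
theorem strictOrd_toMatrix {p : ℕ} (hp : p.Prime) (hp2 : p ≠ 2) (hpA : (p : A) = 0)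
    (ρ : GaloisRepAdic A) (hdet : ρ.DetIsCyclotomic p) (hso : ρ.IsStrictOrdinaryAt p)
    (P : ValuationSubring (AlgebraicClosure ℚ)) (hP : P.LiesOverPrime p) :
    ∃ b : Module.Basis (Fin 2) A ρ.V,
      (∀ σ ∈ P.decompositionSubgroup ℚ, ∃ z β : A, (z = 1 ∨ z = -1) ∧
        (σ ∈ P.inertiaSubgroupIn ℚ → z = 1) ∧
        (∃ a : ℕ, ∀ μ : AlgebraicClosure ℚ, μ ^ p = 1 → σ μ = μ ^ a) ∧
        ∀ a : ℕ, (∀ μ : AlgebraicClosure ℚ, μ ^ p = 1 → σ μ = μ ^ a) →
          LinearMap.toMatrix b b (ρ.ρ σ) = !![(a : A) * z, β; 0, z]) ∧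
      (∀ σ ∈ P.decompositionSubgroup ℚ, ∀ v ∈ Submodule.span A {b 0},
        ρ.ρ σ v ∈ Submodule.span A {b 0}) ∧
      (∀ σ ∈ P.inertiaSubgroupIn ℚ, ∀ v : ρ.V, ρ.ρ σ v - v ∈ Submodule.span A {b 0}) := by
  obtain ⟨b, hD, hI⟩ := strictOrd_shape hp hp2 hpA ρ hdet hso P hP
  refine ⟨b, fun σ hσ => ?_, fun σ hσ v hv => ?_, hI⟩
  · obtain ⟨z, hz1, hza, hzq⟩ := hD σ hσ
    obtain ⟨a₀, ha₀⟩ := exists_cyclotomic_exponent p hp.ne_zero σ
    obtain ⟨β, hβ⟩ := toMatrix_of_upper b (ρ.ρ σ) (hza a₀ ha₀) (hzq (b 1))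
    refine ⟨z, β, hz1, fun hσI => ?_, ⟨a₀, ha₀⟩, fun a ha => ?_⟩
    · exact quot_scalar_eq_one_of_inertia b (ρ.ρ σ) (hI σ hσI (b 1)) (hzq (b 1))
    · -- the `(0,0)` entry does not depend on the chosen exponent
      have e : ((a : A) * z) • b 0 = ((a₀ : A) * z) • b 0 := by rw [← hza a ha, ← hza a₀ ha₀]
      have e' : (a : A) * z = (a₀ : A) * z := by
        have := congrArg (fun v => b.repr v 0) e
        simpa using this
      rw [hβ, e']
  · obtain ⟨z, -, hza, -⟩ := hD σ hσ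
    obtain ⟨a₀, ha₀⟩ := exists_cyclotomic_exponent p hp.ne_zero σ
    obtain ⟨c, rfl⟩ := Submodule.mem_span_singleton.1 hv
    rw [map_smul, hza a₀ ha₀, smul_smul]
    exact Submodule.smul_mem _ _ (Submodule.mem_span_singleton_self _)

/-- The same, stated for the FROZEN deformation condition `GaloisRep.strictOrdinaryCondition`
(the first conjunct of S56). -/
theorem strictOrdinaryCondition_toMatrix {𝒪 : Type} [CommRing 𝒪] [Algebra 𝒪 A] {p : ℕ}
    {S : Finset ℕ} (hp : p.Prime) (hp2 : p ≠ 2) (hpA : (p : A) = 0) (ρ : GaloisRepAdic A)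
    (h : GaloisRep.strictOrdinaryCondition 𝒪 p S ρ)
    (P : ValuationSubring (AlgebraicClosure ℚ)) (hP : P.LiesOverPrime p) :
    ∃ b : Module.Basis (Fin 2) A ρ.V,
      (∀ σ ∈ P.decompositionSubgroup ℚ, ∃ z β : A, (z = 1 ∨ z = -1) ∧
        (σ ∈ P.inertiaSubgroupIn ℚ → z = 1) ∧
        (∃ a : ℕ, ∀ μ : AlgebraicClosure ℚ, μ ^ p = 1 → σ μ = μ ^ a) ∧
        ∀ a : ℕ, (∀ μ : AlgebraicClosure ℚ, μ ^ p = 1 → σ μ = μ ^ a) →
          LinearMap.toMatrix b b (ρ.ρ σ) = !![(a : A) * z, β; 0, z]) ∧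
      (∀ σ ∈ P.decompositionSubgroup ℚ, ∀ v ∈ Submodule.span A {b 0},
        ρ.ρ σ v ∈ Submodule.span A {b 0}) ∧
      (∀ σ ∈ P.inertiaSubgroupIn ℚ, ∀ v : ρ.V, ρ.ρ σ v - v ∈ Submodule.span A {b 0}) :=
  strictOrd_toMatrix hp hp2 hpA ρ h.1 h.2.1 P hP

end Shape

end Fermat.Agent.GP.Loc.StrictOrdShape
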