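/-
GATE-P / S56, node [SEL], leaf S56-GLOB-H0 (helper57): **the global `H⁰` terms of Greenberg–Wiles**.

For `ρbar : ResidualGaloisRep k` absolutely irreducible:

* `exists_eq_smul_one_of_commute` (Schur): an endomorphism commuting with `ρbar(G_ℚ)` is a scalar;
* `eq_zero_of_commute_of_trace_eq_zero` : `(ad⁰ ρbar)^{G_ℚ} = 0` (`2 ≠ 0` in `k`);
* `eq_zero_of_twisted_commute` : `(End(V)(1))^{G_ℚ} = 0`, a fortiori `(ad⁰ ρbar (1))^{G_ℚ} = 0`, from the
  frozen hypotheses `habs`, `hdet`, `hTW` of S56 (`p` odd).  The twist is written with the character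
  `det ρbar` (`= ω` by `hdet`); `eq_zero_of_twisted_commute_char` takes any `χ` with `χ = det ρbar`,
  `det_eq_natCast` identifies `det ρbar σ` with the cyclotomic exponent of `σ` on `μ_p`;
* submodule forms `invSub`, `twistSub` (`= ⊥`) and the `Nat.card` forms (`= 1`).

Abstract core (any group, Mathlib only): `eq_bot_or_eq_top_of_span_eq_top`,
`exists_eq_smul_one_of_span_eq_top`, `twist_sq_eq_one`, `twist_eq_one_of_subgroup`.

Imports: Mathlib + Prelude + `S53_helper59/Burnside` (itself Mathlib + Prelude only).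
-/
import Mathlib
import Fermat.Prelude.Def_GaloisRep_LocalConditions
import Fermat.Agent.S53_helper59.Burnside

set_option autoImplicit false

namespace Fermat.Agent.GP.Loc.GlobH0

open Module Polynomial

/-- `G_ℚ`. -/
local notation "GQ" => (AlgebraicClosure ℚ ≃ₐ[ℚ] AlgebraicClosure ℚ)

/-! ### Abstract core -/

section Abstract

variable {k : Type*} [Field k] {V : Type*} [AddCommGroup V] [Module k V]

/-- A subspace stable under a spanning set of endomorphisms is trivial. -/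
theorem eq_bot_or_eq_top_of_span_eq_top (X : Set (Module.End k V))
    (hX : Submodule.span k X = ⊤) (W : Submodule k V)
    (hW : ∀ g ∈ X, ∀ x ∈ W, g x ∈ W) : W = ⊥ ∨ W = ⊤ := by
  have hall : ∀ g : Module.End k V, ∀ x ∈ W, g x ∈ W := by
    intro g
    have hg : g ∈ Submodule.span k X := by rw [hX]; trivial
    induction hg using Submodule.span_induction with
    | mem x hx => exact hW x hx
    | zero => intro x _; simp
    | add a b _ _ ha hb =>
      intro x hx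
      rw [LinearMap.add_apply]
      exact W.add_mem (ha x hx) (hb x hx)
    | smul c a _ ha =>
      intro x hx
      rw [LinearMap.smul_apply]
      exact W.smul_mem c (ha x hx)
  by_cases hbot : W = ⊥
  · exact Or.inl hbot
  right
  obtain ⟨x, hxW, hx0⟩ := (Submodule.ne_bot_iff W).1 hbot
  have hxn : x ∉ (⊥ : Submodule k V) := by rwa [Submodule.mem_bot]
  obtain ⟨φ, hφ, -⟩ := Submodule.exists_dual_map_eq_bot_of_notMem hxn inferInstance
  rw [eq_top_iff]
  intro v _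
  have h := hall (φ.smulRight ((φ x)⁻¹ • v)) x hxW
  rw [LinearMap.smulRight_apply, smul_smul, mul_inv_cancel₀ hφ, one_smul] at h
  exact h

/-- An endomorphism commuting with a spanning set of endomorphisms is a scalar. -/
theorem exists_eq_smul_one_of_span_eq_top (X : Set (Module.End k V))
    (hX : Submodule.span k X = ⊤) (f : Module.End k V)
    (hf : ∀ g ∈ X, g * f = f * g) : ∃ c : k, f = c • (1 : Module.End k V) := by
  have hall : ∀ g : Module.End k V, g * f = f * g := by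
    intro g
    have hg : g ∈ Submodule.span k X := by rw [hX]; trivial
    induction hg using Submodule.span_induction with
    | mem x hx => exact hf x hx
    | zero => simp
    | add a b _ _ ha hb => rw [add_mul, mul_add, ha, hb]
    | smul c a _ ha => rw [smul_mul_assoc, mul_smul_comm, ha]
  have hc : f ∈ Set.center (Module.End k V) := by
    rw [Semigroup.mem_center_iff]
    intro g
    exact hall g
  obtain ⟨α, hα, h⟩ := Module.End.mem_center_iff.1 hc
  refine ⟨α, ?_⟩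
  rw [h, Module.End.smulLeft_eq]
  rfl

end Abstract

section Twist

variable {k : Type*} [Field k] {V : Type*} [AddCommGroup V] [Module k V]
  {G : Type*} [Group G] (ρ : G →* Module.End k V)

theorem isUnit_rho (g : G) : IsUnit (ρ g) :=
  ⟨⟨ρ g, ρ g⁻¹, by rw [← map_mul, mul_inv_cancel, map_one],
    by rw [← map_mul, inv_mul_cancel, map_one]⟩, rfl⟩

/-- A nonzero `χ`-semi-invariant endomorphism `f` (`f ρ(g) = χ(g) ρ(g) f`) of a plane on which the
operators `ρ(g)` span `End`: `f` is injective and `χ² = 1`. -/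
theorem twist_sq_eq_one [FiniteDimensional k V] (hV : finrank k V = 2)
    (hspan : Submodule.span k (Set.range ρ) = ⊤)
    (χ : G → k) (f : Module.End k V) (hf : ∀ g, f * ρ g = χ g • (ρ g * f)) (hf0 : f ≠ 0) :
    Function.Injective f ∧ ∀ g, χ g ^ 2 = 1 := by
  have hstab : ∀ T ∈ Set.range ρ, ∀ x ∈ LinearMap.ker f, T x ∈ LinearMap.ker f := by
    rintro _ ⟨g, rfl⟩ x hx
    rw [LinearMap.mem_ker] at hx ⊢
    have h1 : (f * ρ g) x = (χ g • (ρ g * f)) x := by rw [hf g]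
    rw [Module.End.mul_apply, LinearMap.smul_apply, Module.End.mul_apply, hx, map_zero,
      smul_zero] at h1
    exact h1
  have hker : LinearMap.ker f = ⊥ := by
    rcases eq_bot_or_eq_top_of_span_eq_top (Set.range ρ) hspan (LinearMap.ker f) hstab with h | h
    · exact h
    · exact absurd (LinearMap.ker_eq_top.1 h) hf0
  have hinj : Function.Injective f := LinearMap.ker_eq_bot.1 hker
  refine ⟨hinj, fun g => ?_⟩
  have hdetf : LinearMap.det f ≠ 0 := by
    have hu : IsUnit f := (LinearMap.isUnit_iff_ker_eq_bot f).2 hker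
    exact (LinearMap.isUnit_det f hu).ne_zero
  have hdetg : LinearMap.det (ρ g) ≠ 0 := (LinearMap.isUnit_det _ (isUnit_rho ρ g)).ne_zero
  have h1 := congrArg LinearMap.det (hf g)
  rw [map_mul, LinearMap.det_smul, map_mul, hV] at h1
  have h2 : (χ g ^ 2 - 1) * (LinearMap.det (ρ g) * LinearMap.det f) = 0 := by
    rw [sub_mul, one_mul, ← h1]; ring
  rcases mul_eq_zero.1 h2 with h | h
  · exact sub_eq_zero.1 h
  · exact absurd h (mul_ne_zero hdetg hdetf)

/-- If moreover `χ = 1` on a subgroup `H` whose operators still span `End`, then `χ = 1`. -/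
theorem twist_eq_one_of_subgroup [Nontrivial V]
    (H : Subgroup G) (hspanH : Submodule.span k (ρ '' (H : Set G)) = ⊤)
    (χ : G → k) (hχH : ∀ h ∈ H, χ h = 1)
    (f : Module.End k V) (hf : ∀ g, f * ρ g = χ g • (ρ g * f)) (hf0 : f ≠ 0) :
    ∀ g, χ g = 1 := by
  obtain ⟨c, hc⟩ := exists_eq_smul_one_of_span_eq_top (ρ '' (H : Set G)) hspanH f (by
    rintro _ ⟨h, hh, rfl⟩
    rw [hf h, hχH h hh, one_smul])
  have hc0 : c ≠ 0 := by
    rintro rfl
    exact hf0 (by rw [hc, zero_smul])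
  intro g
  have h1 := hf g
  rw [hc, smul_mul_assoc, one_mul, mul_smul_comm, mul_one, smul_smul] at h1
  have h2 : (c - χ g * c) • ρ g = 0 := by rw [sub_smul, ← h1, sub_self]
  have hρ0 : ρ g ≠ 0 := (isUnit_rho ρ g).ne_zero
  rcases smul_eq_zero.1 h2 with h | h
  · have h3 : (1 - χ g) * c = 0 := by rw [sub_mul, one_mul]; exact h
    rcases mul_eq_zero.1 h3 with h4 | h4
    · exact (sub_eq_zero.1 h4).symm
    · exact absurd h4 hc0
  · exact absurd h hρ0

end Twist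

/-! ### The residual representation -/

section Residual

variable {k : Type} [Field k] (ρbar : ResidualGaloisRep k)

instance nontrivial_V : Nontrivial ρbar.V := by
  apply Module.nontrivial_of_finrank_pos (R := k)
  rw [ρbar.finrank_eq]; norm_num

/-- **Schur**: an endomorphism commuting with an absolutely irreducible `ρbar(G_ℚ)` is a scalar. -/
theorem exists_eq_smul_one_of_commute (habs : ρbar.IsAbsolutelyIrreducible)
    (f : Module.End k ρbar.V) (hf : ∀ σ, ρbar.ρ σ * f = f * ρbar.ρ σ) :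
    ∃ c : k, f = c • (1 : Module.End k ρbar.V) :=
  exists_eq_smul_one_of_span_eq_top (Set.range ρbar.ρ)
    (Fermat.Agent.S53_helper59.span_range_eq_top_of_isAbsolutelyIrreducible ρbar habs) f
    (by rintro _ ⟨σ, rfl⟩; exact hf σ)

/-- **`H⁰(G_ℚ, ad⁰ ρbar) = 0`** (`2 ≠ 0` in `k`): a trace-zero endomorphism commuting with
`ρbar(G_ℚ)` vanishes. -/
theorem eq_zero_of_commute_of_trace_eq_zero (habs : ρbar.IsAbsolutelyIrreducible)
    (h2 : (2 : k) ≠ 0) (f : Module.End k ρbar.V) (htr : LinearMap.trace k ρbar.V f = 0)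
    (hf : ∀ σ, ρbar.ρ σ * f = f * ρbar.ρ σ) : f = 0 := by
  obtain ⟨c, rfl⟩ := exists_eq_smul_one_of_commute ρbar habs f hf
  rw [map_smul, LinearMap.trace_one, ρbar.finrank_eq, smul_eq_mul] at htr
  have hc : c = 0 := by
    rcases mul_eq_zero.1 htr with h | h
    · exact h
    · exact absurd (by exact_mod_cast h) h2
  rw [hc, zero_smul]

end Residual

/-! ### The determinant is the mod `p` cyclotomic character -/

section Cyclo

variable {k : Type} [Field k] (ρbar : ResidualGaloisRep k) (p : ℕ) [Fact p.Prime]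

omit [Fact p.Prime] in
/-- `p = 0` in `k`, from the first clause of the frozen `DetIsCyclotomic`. -/
theorem natCast_p_eq_zero (hdet : (GaloisRepAdic.ofResidualGaloisRep ρbar).DetIsCyclotomic p) :
    (p : k) = 0 := by
  have h := hdet.1
  have hbot : IsLocalRing.maximalIdeal k = ⊥ :=
    (Ideal.eq_bot_or_top _).resolve_right (Ideal.IsMaximal.ne_top inferInstance)
  rw [hbot, Ideal.mem_bot] at h
  exact h

/-- `2 ≠ 0` in `k` for `p` odd. -/
theorem two_ne_zero_of_detIsCyclotomic (hp2 : p ≠ 2)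
    (hdet : (GaloisRepAdic.ofResidualGaloisRep ρbar).DetIsCyclotomic p) : (2 : k) ≠ 0 := by
  have hp0 := natCast_p_eq_zero ρbar p hdet
  obtain ⟨m, hm⟩ := (Fact.out : p.Prime).odd_of_ne_two hp2
  intro h2
  rw [hm] at hp0
  push_cast at hp0
  rw [h2, zero_mul, zero_add] at hp0
  exact one_ne_zero hp0

omit [Fact p.Prime] in
/-- The frozen `DetIsCyclotomic` at level `n = 1`: `det ρbar(σ) = a` whenever `σ` raises the
`p`-th roots of unity to the `a`-th power. -/
theorem det_eq_natCast (hdet : (GaloisRepAdic.ofResidualGaloisRep ρbar).DetIsCyclotomic p)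
    (σ : GQ) (a : ℕ) (ha : ∀ μ : AlgebraicClosure ℚ, μ ^ p = 1 → σ μ = μ ^ a) :
    LinearMap.det (ρbar.ρ σ) = (a : k) := by
  have h := hdet.2 1 σ a (by simpa using ha)
  have hp0 := natCast_p_eq_zero ρbar p hdet
  rw [pow_one, hp0, Ideal.span_singleton_zero, Ideal.mem_bot, sub_eq_zero] at h
  exact h

/-- Surjectivity of the mod `p` cyclotomic character: for `p ∤ a` some `σ ∈ G_ℚ` raises the
`p`-th roots of unity to the `a`-th power. -/
theorem exists_sigma_pow (a : ℕ) (ha : ¬ p ∣ a) :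
    ∃ σ : GQ, ∀ μ : AlgebraicClosure ℚ, μ ^ p = 1 → σ μ = μ ^ a := by
  have hp : p.Prime := Fact.out
  have hne : NeZero (p : AlgebraicClosure ℚ) := ⟨Nat.cast_ne_zero.mpr hp.ne_zero⟩
  obtain ⟨ζ, hζ⟩ := HasEnoughRootsOfUnity.exists_primitiveRoot (AlgebraicClosure ℚ) p
  have hcop : Nat.Coprime a p := (Nat.Coprime.symm ((Nat.Prime.coprime_iff_not_dvd hp).mpr ha))
  have hζa : IsPrimitiveRoot (ζ ^ a) p := hζ.pow_of_coprime a hcop
  have hmin : minpoly ℚ ζ = cyclotomic p ℚ := (cyclotomic_eq_minpoly_rat hζ hp.pos).symm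
  have hroot : aeval (ζ ^ a) (minpoly ℚ ζ) = 0 := by
    rw [hmin, aeval_def, eval₂_eq_eval_map, map_cyclotomic]
    exact hζa.isRoot_cyclotomic hp.pos
  have : Algebra.IsAlgebraic ℚ (AlgebraicClosure ℚ) := AlgebraicClosure.isAlgebraic ℚ
  have : IsAlgClosure ℚ (AlgebraicClosure ℚ) := ⟨inferInstance, inferInstance⟩
  have : Normal ℚ (AlgebraicClosure ℚ) := IsAlgClosure.normal ℚ (AlgebraicClosure ℚ)
  have halg : IsAlgebraic ℚ ζ := Algebra.IsAlgebraic.isAlgebraic ζ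
  obtain ⟨σ, hσ⟩ := minpoly.exists_algEquiv_of_root' halg hroot
  refine ⟨σ, fun μ hμ => ?_⟩
  obtain ⟨i, -, rfl⟩ := hζ.eq_pow_of_pow_eq_one hμ
  rw [map_pow, hσ, ← pow_mul, ← pow_mul, mul_comm]

end Cyclo

/-! ### `H⁰(G_ℚ, End(ρbar)(1)) = 0` -/

section TwistMain

variable {k : Type} [Field k] (ρbar : ResidualGaloisRep k) (p : ℕ) [Fact p.Prime]

/-- The subgroup `ker (det ρbar)` of `G_ℚ` (`= G_{ℚ(ζ_p)}` when `det ρbar = ω`). -/
noncomputable def detKer : Subgroup GQ := ((LinearMap.det.comp ρbar.ρ).toHomUnits).ker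

theorem mem_detKer {σ : GQ} : σ ∈ detKer ρbar ↔ LinearMap.det (ρbar.ρ σ) = 1 := by
  rw [detKer, MonoidHom.mem_ker, Units.ext_iff, MonoidHom.coe_toHomUnits, Units.val_one,
    MonoidHom.comp_apply]

/-- If `det ρbar` takes the values `±1` only and the value `-1 ≠ 1`, then `ker (det ρbar)` has
index `2`. -/
theorem index_detKer (h2 : (2 : k) ≠ 0) (hsq : ∀ σ, LinearMap.det (ρbar.ρ σ) ^ 2 = 1)
    (τ : GQ) (hτ : LinearMap.det (ρbar.ρ τ) = -1) : (detKer ρbar).index = 2 := by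
  have hne : (-1 : k) ≠ 1 := by
    intro h
    apply h2
    have : (1 : k) + 1 = 0 := by nth_rewrite 1 [← h]; ring
    rw [← this]; norm_num
  rw [Subgroup.index_eq_two_iff]
  refine ⟨τ, fun b => ?_⟩
  have hb : LinearMap.det (ρbar.ρ b) = 1 ∨ LinearMap.det (ρbar.ρ b) = -1 :=
    sq_eq_one_iff.1 (hsq b)
  rw [mem_detKer, mem_detKer, map_mul, map_mul, hτ]
  rcases hb with hb | hb
  · right
    rw [hb]
    exact ⟨rfl, by rw [one_mul]; exact hne⟩
  · left
    rw [hb]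
    exact ⟨by ring, hne⟩

/-- Core of the twisted vanishing, for a general twisting function `χ` tied to `det ρbar`. -/
theorem eq_zero_of_twisted_commute_core (hp2 : p ≠ 2)
    (habs : ρbar.IsAbsolutelyIrreducible)
    (hdet : (GaloisRepAdic.ofResidualGaloisRep ρbar).DetIsCyclotomic p)
    (hTW : ∀ (K : Type) [Field K] [Algebra k K] (G : Subgroup GQ), G.index = 2 →
      ∀ V : Submodule K (ρbar.baseChange K).V,
        (∀ σ ∈ G, ∀ x ∈ V, (ρbar.baseChange K).ρ σ x ∈ V) → V = ⊥ ∨ V = ⊤)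
    (χ : GQ → k) (hχ1 : ∀ σ, χ σ = 1 ↔ LinearMap.det (ρbar.ρ σ) = 1)
    (hχsq : ∀ σ, χ σ ^ 2 = 1 → LinearMap.det (ρbar.ρ σ) ^ 2 = 1)
    (f : Module.End k ρbar.V)
    (hf : ∀ σ, f * ρbar.ρ σ = χ σ • (ρbar.ρ σ * f)) : f = 0 := by
  by_contra hf0
  have hspan := Fermat.Agent.S53_helper59.span_range_eq_top_of_isAbsolutelyIrreducible ρbar habs
  have h2 := two_ne_zero_of_detIsCyclotomic ρbar p hp2 hdet
  obtain ⟨-, hsq'⟩ := twist_sq_eq_one ρbar.ρ ρbar.finrank_eq hspan χ f hf hf0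
  have hsq : ∀ σ, LinearMap.det (ρbar.ρ σ) ^ 2 = 1 := fun σ => hχsq σ (hsq' σ)
  have hp : p.Prime := Fact.out
  have h2p : ¬ p ∣ 2 := fun h => hp2 ((Nat.prime_dvd_prime_iff_eq hp Nat.prime_two).1 h)
  obtain ⟨τ, hτ⟩ := exists_sigma_pow p 2 h2p
  have hdτ : LinearMap.det (ρbar.ρ τ) = 2 := by
    have := det_eq_natCast ρbar p hdet τ 2 hτ
    simpa using this
  have h4 : (2 : k) ^ 2 = 1 := by rw [← hdτ]; exact hsq τ
  have h3 : (3 : k) = 0 := by linear_combination h4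
  have hτ' : LinearMap.det (ρbar.ρ τ) = -1 := by
    rw [hdτ]; linear_combination h3
  have hidx := index_detKer ρbar h2 hsq τ hτ'
  have hspanH : Submodule.span k (ρbar.ρ '' ((detKer ρbar : Subgroup GQ) : Set GQ)) = ⊤ := by
    have h := Fermat.Agent.S53_helper59.span_range_eq_top_of_absIrr (K := AlgebraicClosure k)
      (ρbar.ρ.comp (detKer ρbar).subtype)
      (fun W hW => hTW (AlgebraicClosure k) (detKer ρbar) hidx W
        (fun σ hσ x hx => hW ⟨σ, hσ⟩ x hx))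
    rw [MonoidHom.coe_comp, Set.range_comp, Subgroup.coe_subtype, Subtype.range_coe] at h
    exact h
  have h1 := twist_eq_one_of_subgroup ρbar.ρ (detKer ρbar) hspanH χ
    (fun h hh => (hχ1 h).2 ((mem_detKer ρbar).1 hh)) f hf hf0 τ
  have h5 : (2 : k) = 0 := by
    have h6 : (-1 : k) = 1 := by rw [← hτ']; exact (hχ1 τ).1 h1
    linear_combination -h6
  exact h2 h5

/-- **`H⁰(G_ℚ, End(ρbar) ⊗ ω) = 0`**, hence `H⁰(G_ℚ, ad⁰ρbar(1)) = 0`, from the frozen hypotheses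
`habs`, `hdet`, `hTW` of S56 (`p` odd).  The twist character `ω` is written as `det ρbar`
(`det_eq_natCast`).  Invariance of `f` under `σ · f = ω(σ) ρbar(σ) f ρbar(σ)⁻¹` is
`f ρbar(σ) = ω(σ) ρbar(σ) f`. -/
theorem eq_zero_of_twisted_commute (hp2 : p ≠ 2)
    (habs : ρbar.IsAbsolutelyIrreducible)
    (hdet : (GaloisRepAdic.ofResidualGaloisRep ρbar).DetIsCyclotomic p)
    (hTW : ∀ (K : Type) [Field K] [Algebra k K] (G : Subgroup GQ), G.index = 2 →
      ∀ V : Submodule K (ρbar.baseChange K).V,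
        (∀ σ ∈ G, ∀ x ∈ V, (ρbar.baseChange K).ρ σ x ∈ V) → V = ⊥ ∨ V = ⊤)
    (f : Module.End k ρbar.V)
    (hf : ∀ σ, f * ρbar.ρ σ = LinearMap.det (ρbar.ρ σ) • (ρbar.ρ σ * f)) : f = 0 :=
  eq_zero_of_twisted_commute_core ρbar p hp2 habs hdet hTW
    (fun σ => LinearMap.det (ρbar.ρ σ)) (fun _ => Iff.rfl) (fun _ h => h) f hf

/-- The same with any function `χ` equal to `det ρbar` (e.g. a mod `p` cyclotomic character). -/
theorem eq_zero_of_twisted_commute_char (hp2 : p ≠ 2)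
    (habs : ρbar.IsAbsolutelyIrreducible)
    (hdet : (GaloisRepAdic.ofResidualGaloisRep ρbar).DetIsCyclotomic p)
    (hTW : ∀ (K : Type) [Field K] [Algebra k K] (G : Subgroup GQ), G.index = 2 →
      ∀ V : Submodule K (ρbar.baseChange K).V,
        (∀ σ ∈ G, ∀ x ∈ V, (ρbar.baseChange K).ρ σ x ∈ V) → V = ⊥ ∨ V = ⊤)
    (χ : GQ → k) (hχ : ∀ σ, χ σ = LinearMap.det (ρbar.ρ σ))
    (f : Module.End k ρbar.V)
    (hf : ∀ σ, f * ρbar.ρ σ = χ σ • (ρbar.ρ σ * f)) : f = 0 :=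
  eq_zero_of_twisted_commute ρbar p hp2 habs hdet hTW f (fun σ => by rw [hf σ, hχ σ])

theorem det_inv_mul (σ : GQ) :
    LinearMap.det (ρbar.ρ σ⁻¹) * LinearMap.det (ρbar.ρ σ) = 1 := by
  rw [← map_mul, ← map_mul, inv_mul_cancel, map_one, map_one]

/-- The opposite twist `ω⁻¹`: `ρbar(σ) f = ω(σ) f ρbar(σ)` for all `σ` forces `f = 0`
(invariants of `End(ρbar) ⊗ ω⁻¹`). -/
theorem eq_zero_of_twisted_commute' (hp2 : p ≠ 2)
    (habs : ρbar.IsAbsolutelyIrreducible)
    (hdet : (GaloisRepAdic.ofResidualGaloisRep ρbar).DetIsCyclotomic p)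
    (hTW : ∀ (K : Type) [Field K] [Algebra k K] (G : Subgroup GQ), G.index = 2 →
      ∀ V : Submodule K (ρbar.baseChange K).V,
        (∀ σ ∈ G, ∀ x ∈ V, (ρbar.baseChange K).ρ σ x ∈ V) → V = ⊥ ∨ V = ⊤)
    (f : Module.End k ρbar.V)
    (hf : ∀ σ, ρbar.ρ σ * f = LinearMap.det (ρbar.ρ σ) • (f * ρbar.ρ σ)) : f = 0 := by
  refine eq_zero_of_twisted_commute_core ρbar p hp2 habs hdet hTW
    (fun σ => LinearMap.det (ρbar.ρ σ⁻¹)) (fun σ => ?_) (fun σ h => ?_) f (fun σ => ?_)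
  · have h := det_inv_mul ρbar σ
    constructor
    · intro h1; rw [h1, one_mul] at h; exact h
    · intro h1; rw [h1, mul_one] at h; exact h
  · have h1 := det_inv_mul ρbar σ
    have h2 : (LinearMap.det (ρbar.ρ σ⁻¹) * LinearMap.det (ρbar.ρ σ)) ^ 2 = 1 := by
      rw [h1, one_pow]
    rw [mul_pow, h, one_mul] at h2
    exact h2
  · -- from the relation at `σ⁻¹`, conjugated by `ρbar σ`
    have h1 := hf σ⁻¹
    have hl : ρbar.ρ σ * ρbar.ρ σ⁻¹ = 1 := by rw [← map_mul, mul_inv_cancel, map_one]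
    have hr : ρbar.ρ σ⁻¹ * ρbar.ρ σ = 1 := by rw [← map_mul, inv_mul_cancel, map_one]
    have h2 : ρbar.ρ σ * (ρbar.ρ σ⁻¹ * f) * ρbar.ρ σ =
        ρbar.ρ σ * (LinearMap.det (ρbar.ρ σ⁻¹) • (f * ρbar.ρ σ⁻¹)) * ρbar.ρ σ := by rw [h1]
    rw [← mul_assoc, hl, one_mul, mul_smul_comm, smul_mul_assoc] at h2
    have h3 : ρbar.ρ σ * (f * ρbar.ρ σ⁻¹) * ρbar.ρ σ = ρbar.ρ σ * f := by
      rw [mul_assoc, mul_assoc, hr, mul_one]
    rw [h3] at h2
    exact h2

end TwistMain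

/-! ### Submodule and cardinality forms -/

section Forms

variable {k : Type} [Field k] (ρbar : ResidualGaloisRep k) (p : ℕ) [Fact p.Prime]

/-- `(ad⁰ ρbar)^{G_ℚ}` as a subspace of `End k V`. -/
def invSub : Submodule k (Module.End k ρbar.V) where
  carrier := {f | LinearMap.trace k ρbar.V f = 0 ∧ ∀ σ, ρbar.ρ σ * f = f * ρbar.ρ σ}
  add_mem' := by
    rintro a b ⟨ha, ha'⟩ ⟨hb, hb'⟩
    exact ⟨by rw [map_add, ha, hb, add_zero], fun σ => by rw [mul_add, add_mul, ha' σ, hb' σ]⟩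
  zero_mem' := ⟨map_zero _, fun σ => by rw [mul_zero, zero_mul]⟩
  smul_mem' := by
    rintro c a ⟨ha, ha'⟩
    exact ⟨by rw [map_smul, ha, smul_zero],
      fun σ => by rw [mul_smul_comm, smul_mul_assoc, ha' σ]⟩

/-- `(ad⁰ ρbar ⊗ χ)^{G_ℚ}` as a subspace of `End k V` (`σ · f = χ(σ) ρbar(σ) f ρbar(σ)⁻¹`). -/
def twistSub (χ : GQ → k) : Submodule k (Module.End k ρbar.V) where
  carrier := {f | LinearMap.trace k ρbar.V f = 0 ∧
    ∀ σ, f * ρbar.ρ σ = χ σ • (ρbar.ρ σ * f)}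
  add_mem' := by
    rintro a b ⟨ha, ha'⟩ ⟨hb, hb'⟩
    exact ⟨by rw [map_add, ha, hb, add_zero],
      fun σ => by rw [add_mul, mul_add, ha' σ, hb' σ, smul_add]⟩
  zero_mem' := ⟨map_zero _, fun σ => by rw [zero_mul, mul_zero, smul_zero]⟩
  smul_mem' := by
    rintro c a ⟨ha, ha'⟩
    exact ⟨by rw [map_smul, ha, smul_zero],
      fun σ => by rw [smul_mul_assoc, ha' σ, mul_smul_comm, smul_comm]⟩

theorem mem_invSub {f : Module.End k ρbar.V} :
    f ∈ invSub ρbar ↔ LinearMap.trace k ρbar.V f = 0 ∧ ∀ σ, ρbar.ρ σ * f = f * ρbar.ρ σ :=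
  Iff.rfl

theorem mem_twistSub {χ : GQ → k} {f : Module.End k ρbar.V} :
    f ∈ twistSub ρbar χ ↔ LinearMap.trace k ρbar.V f = 0 ∧
      ∀ σ, f * ρbar.ρ σ = χ σ • (ρbar.ρ σ * f) :=
  Iff.rfl

/-- **`H⁰(G_ℚ, ad⁰ρbar) = 0`**, subspace form. -/
theorem invSub_eq_bot (habs : ρbar.IsAbsolutelyIrreducible) (h2 : (2 : k) ≠ 0) :
    invSub ρbar = ⊥ := by
  rw [eq_bot_iff]
  rintro f ⟨htr, hf⟩
  rw [Submodule.mem_bot]
  exact eq_zero_of_commute_of_trace_eq_zero ρbar habs h2 f htr hf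

/-- **`H⁰(G_ℚ, ad⁰ρbar(1)) = 0`**, subspace form, under the frozen hypotheses of S56. -/
theorem twistSub_eq_bot (hp2 : p ≠ 2)
    (habs : ρbar.IsAbsolutelyIrreducible)
    (hdet : (GaloisRepAdic.ofResidualGaloisRep ρbar).DetIsCyclotomic p)
    (hTW : ∀ (K : Type) [Field K] [Algebra k K] (G : Subgroup GQ), G.index = 2 →
      ∀ V : Submodule K (ρbar.baseChange K).V,
        (∀ σ ∈ G, ∀ x ∈ V, (ρbar.baseChange K).ρ σ x ∈ V) → V = ⊥ ∨ V = ⊤)
    (χ : GQ → k) (hχ : ∀ σ, χ σ = LinearMap.det (ρbar.ρ σ)) :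
    twistSub ρbar χ = ⊥ := by
  rw [eq_bot_iff]
  rintro f ⟨-, hf⟩
  rw [Submodule.mem_bot]
  exact eq_zero_of_twisted_commute_char ρbar p hp2 habs hdet hTW χ hχ f hf

theorem natCard_invSub (habs : ρbar.IsAbsolutelyIrreducible) (h2 : (2 : k) ≠ 0) :
    Nat.card (invSub ρbar) = 1 := by
  rw [invSub_eq_bot ρbar habs h2]
  exact Nat.card_unique

theorem natCard_twistSub (hp2 : p ≠ 2)
    (habs : ρbar.IsAbsolutelyIrreducible)
    (hdet : (GaloisRepAdic.ofResidualGaloisRep ρbar).DetIsCyclotomic p)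
    (hTW : ∀ (K : Type) [Field K] [Algebra k K] (G : Subgroup GQ), G.index = 2 →
      ∀ V : Submodule K (ρbar.baseChange K).V,
        (∀ σ ∈ G, ∀ x ∈ V, (ρbar.baseChange K).ρ σ x ∈ V) → V = ⊥ ∨ V = ⊤)
    (χ : GQ → k) (hχ : ∀ σ, χ σ = LinearMap.det (ρbar.ρ σ)) :
    Nat.card (twistSub ρbar χ) = 1 := by
  rw [twistSub_eq_bot ρbar p hp2 habs hdet hTW χ hχ]
  exact Nat.card_unique

end Forms

/-! ### Plug test against the frozen hypotheses of S56 -/

section PlugTest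

open IsLocalRing

example {𝒪 : Type} [CommRing 𝒪] [IsDomain 𝒪] [IsDiscreteValuationRing 𝒪]
    (p : ℕ) [Fact p.Prime] (hp2 : p ≠ 2)
    (ρbar : ResidualGaloisRep (ResidueField 𝒪))
    (habs : ρbar.IsAbsolutelyIrreducible)
    (hdet : (GaloisRepAdic.ofResidualGaloisRep ρbar).DetIsCyclotomic p)
    (hTW : ∀ (K : Type) [Field K] [Algebra (ResidueField 𝒪) K]
      (G : Subgroup (AlgebraicClosure ℚ ≃ₐ[ℚ] AlgebraicClosure ℚ)), G.index = 2 →
      ∀ V : Submodule K (ρbar.baseChange K).V,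
        (∀ σ ∈ G, ∀ x ∈ V, (ρbar.baseChange K).ρ σ x ∈ V) → V = ⊥ ∨ V = ⊤) :
    invSub ρbar = ⊥ ∧ twistSub ρbar (fun σ => LinearMap.det (ρbar.ρ σ)) = ⊥ :=
  ⟨invSub_eq_bot ρbar habs (two_ne_zero_of_detIsCyclotomic ρbar p hp2 hdet),
    twistSub_eq_bot ρbar p hp2 habs hdet hTW _ (fun _ => rfl)⟩

end PlugTest

end Fermat.Agent.GP.Loc.GlobH0
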