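/-
GATE-P (S56, zero-regret) / [P-LOC] leaf S56-LOC-SORD-HLC, FOLDED form of the contract (helper79).

`localCond_strict : LocalCond ρbar b p N emb p (fun ρ => ρ.DetIsCyclotomic p ∧ ρ.IsStrictOrdinaryAt p) d`
against helper35's LANDED `GP/Core/LocalCond.lean` (obligation (1) of board 4222), together with the
membership clause alone (`localMem_strict`, for a given full flag).
Everything is `StrictOrdLocalCond.localCond_strictOrd`; this file only folds the definitions.
-/
import Fermat.Agent.GP.Loc.StrictOrdLocalCond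
import Fermat.Agent.GP.Core.LocalCond

set_option autoImplicit false

namespace Fermat.Agent.GP.Loc.StrictOrdLocalCond

open IsLocalRing Fermat.Agent.S53_helper35 Matrix Fermat.Agent.GP.Tan.Cocycle
  Fermat.Agent.GC.Prof Fermat.Agent.GC.Places Fermat.Agent.GC.Local.KR groupCohomology
  Fermat.Agent.GP.Core

variable {𝒪 : Type} [CommRing 𝒪] [IsLocalRing 𝒪]
  (ρbar : ResidualGaloisRep (ResidueField 𝒪))
  (b : Module.Basis (Fin 2) (ResidueField 𝒪) ρbar.V)
  (p : ℕ) [Fact p.Prime]
  (N : Rep (ZMod p) S53_helper35.GQ)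
  (emb : N →+ Matrix (Fin 2) (Fin 2) (ResidueField 𝒪))

/-- **`LocalCond` at `q = p`, strict case** (helper35's contract, obligation (1)). -/
theorem localCond_strict [Finite (ResidueField 𝒪)]
    [IsDiscrete (levelQ p) (Rep.res (localGaloisToGlobal p) N)]
    (hp2 : p ≠ 2) (hp𝒪 : (p : 𝒪) ∈ maximalIdeal 𝒪)
    (hinj : Function.Injective emb)
    (hsurj : ∀ X : Matrix (Fin 2) (Fin 2) (ResidueField 𝒪), X.trace = 0 → ∃ x : N, emb x = X)
    (hact : ∀ (σ : S53_helper35.GQ) (x : N),
      emb (N.ρ σ x) = toMatRes ρbar b σ * emb x * toMatRes ρbar b σ⁻¹)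
    (d : ℕ) (hk : Nat.card (ResidueField 𝒪) = p ^ d) :
    LocalCond ρbar b p N emb p (fun ρ => ρ.DetIsCyclotomic p ∧ ρ.IsStrictOrdinaryAt p) d :=
  localCond_strictOrd ρbar b p N emb hp2 hp𝒪 hinj hsurj hact d hk

/-- the same with the characteristic hypothesis in the form `[CharP k p]` (as in helper32's
`SminLocalCond`). -/
theorem localCond_strict_of_charP [Finite (ResidueField 𝒪)] [CharP (ResidueField 𝒪) p]
    [IsDiscrete (levelQ p) (Rep.res (localGaloisToGlobal p) N)]
    (hp2 : p ≠ 2)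
    (hinj : Function.Injective emb)
    (hsurj : ∀ X : Matrix (Fin 2) (Fin 2) (ResidueField 𝒪), X.trace = 0 → ∃ x : N, emb x = X)
    (hact : ∀ (σ : S53_helper35.GQ) (x : N),
      emb (N.ρ σ x) = toMatRes ρbar b σ * emb x * toMatRes ρbar b σ⁻¹)
    (d : ℕ) (hk : Nat.card (ResidueField 𝒪) = p ^ d) :
    LocalCond ρbar b p N emb p (fun ρ => ρ.DetIsCyclotomic p ∧ ρ.IsStrictOrdinaryAt p) d := by
  refine localCond_strict ρbar b p N emb hp2 ?_ hinj hsurj hact d hk
  have h0 : ((p : ℕ) : ResidueField 𝒪) = 0 := CharP.cast_eq_zero _ p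
  have : residue 𝒪 (p : 𝒪) = 0 := by rw [map_natCast]; exact h0
  exact (residue_eq_zero_iff _).1 this

end Fermat.Agent.GP.Loc.StrictOrdLocalCond
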