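/-
GATE-P / S56 [P-LOC]→[CORE] plug (helper79): the binder `hlocp` of helper35's
`CoreAsm.selmerBounds_base_of_nodes` (board 4222/4336, (R3-SO)) in its EXACT shape, for
`Pp := fun ρ => ρ.DetIsCyclotomic p ∧ ρ.IsStrictOrdinaryAt p` — for ANY model `(N, emb)` with
helper11's binders `hinj hsurj hact` (twin of helper32's `SminLocalCondPlug`).
-/
import Fermat.Agent.GP.Loc.StrictOrdLocalCondCore

set_option autoImplicit false

namespace Fermat.Agent.GP.Loc.StrictOrdLocalCond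

open IsLocalRing Fermat.Agent.S53_helper35 Matrix Fermat.Agent.GP.Tan.Cocycle
  Fermat.Agent.GC.Prof Fermat.Agent.GC.Places Fermat.Agent.GC.Local.KR groupCohomology
  Fermat.Agent.GP.Core

local instance factPrimeStrictPlug (q : Nat.Primes) : Fact ((q : ℕ).Prime) := ⟨q.2⟩

/-- **(R3-SO)** the binder `hlocp` of `CoreAsm.selmerBounds_base_of_nodes` for the strict-ordinary
condition at `p`. -/
theorem hlocp_strict {𝒪 : Type} [CommRing 𝒪] [IsLocalRing 𝒪]
    (ρbar : ResidualGaloisRep (ResidueField 𝒪))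
    (b : Module.Basis (Fin 2) (ResidueField 𝒪) ρbar.V)
    (p : ℕ) [Fact p.Prime]
    (N : Rep (ZMod p) S53_helper35.GQ)
    (emb : N →+ Matrix (Fin 2) (Fin 2) (ResidueField 𝒪))
    [Finite (ResidueField 𝒪)]
    (hp2 : p ≠ 2) (hp𝒪 : (p : 𝒪) ∈ maximalIdeal 𝒪)
    (hinj : Function.Injective emb)
    (hsurj : ∀ X : Matrix (Fin 2) (Fin 2) (ResidueField 𝒪), Matrix.trace X = 0 →
      ∃ x : N, emb x = X)
    (hact : ∀ (σ : S53_helper35.GQ) (x : N),
      emb (N.ρ σ x) = toMatRes ρbar b σ * emb x * toMatRes ρbar b σ⁻¹)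
    (hdloc : ∀ q : Nat.Primes,
      IsDiscrete (levelQ (q : ℕ)) (Rep.res (localGaloisToGlobal (q : ℕ)) N))
    (d : ℕ) (hk : Nat.card (ResidueField 𝒪) = p ^ d) :
    ∀ q : Nat.Primes, (q : ℕ) = p →
      @LocalCond 𝒪 _ _ ρbar b p _ N emb (q : ℕ) _ (hdloc q)
        (fun ρ => ρ.DetIsCyclotomic p ∧ ρ.IsStrictOrdinaryAt p) d := by
  intro q hq
  subst hq
  have := hdloc q
  exact localCond_strict ρbar b (q : ℕ) N emb hp2 hp𝒪 hinj hsurj hact d hk

end Fermat.Agent.GP.Loc.StrictOrdLocalCond
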