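/-
GATE-P / S56 [P-LOC] node LOC-TWQ (helper67), part (C3): consumer forms of `TWLocalHlc` for the
restriction to `G_{ℚ_q}` of a GLOBAL representation `N : Rep (ZMod p) G_ℚ`, unramified at
`padicPlace q`, at a Taylor–Wiles prime (`p ∣ q - 1`), with a GLOBAL Frobenius element `φ`:

* `card_Hlc_one_res_le_of_dvd` : `#H¹(G_q, N) ≤ #N^{G_q} · #N^{φ}`;
* `card_Hlc_one_res_le_of_dvd'` : the same with `#Hlc 0`;
* `card_Hlc_one_res_le_mul` : `#H¹(G_q, N) ≤ #Hlc⁰ · c` as soon as `#N^{φ} ≤ c`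
  (`c = #k` for `N = ad⁰ρ̄`, `ρ̄(φ)` with distinct eigenvalues).
-/
import Mathlib
import Fermat.Agent.GP.Loc.TWLocalHlc

set_option autoImplicit false
set_option linter.unusedSectionVars false

open Fermat.Agent.GC.Local.KR Fermat.Agent.GC.Places Fermat.Agent.GC.Prof groupCohomology
open Fermat.Agent.Common_helper32

namespace Fermat.Agent.GP.Loc.TWLocalHlcRes

open Fermat.Agent.GP.Loc

variable (q : ℕ) [Fact q.Prime] {p : ℕ} [Fact p.Prime] (hpq : p ≠ q)
variable (N : Rep (ZMod p) GQ) [Finite N]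
  [IsDiscrete (levelQ q) (Rep.res (localGaloisToGlobal q) N)]
variable (hN : ∀ τ ∈ (padicPlace q).inertiaSubgroupIn ℚ, N.ρ τ = 1)

include hpq hN in
/-- **Taylor–Wiles form, global Frobenius**: `#H¹(G_q, N) ≤ #N^{G_q} · #N^{φ}`. -/
theorem card_Hlc_one_res_le_of_dvd (hqp : p ∣ q - 1) {φ : GQ}
    (hφ : (padicPlace q).IsFrobeniusAt φ q) :
    Nat.card (Hlc (levelQ q) (Rep.res (localGaloisToGlobal q) N) 1) ≤
      Nat.card (Rep.res (localGaloisToGlobal q) N).ρ.invariants *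
        Nat.card {v : N // N.ρ φ v = v} := by
  have hφD := hφ.mem_decompositionSubgroup
  rw [← range_localGaloisToGlobal_eq q] at hφD
  obtain ⟨f, rfl⟩ := hφD
  have : Finite (Rep.res (localGaloisToGlobal q) N) := ‹Finite N›
  exact TWLocalHlc.card_Hlc_one_le_of_dvd q hpq (Rep.res (localGaloisToGlobal q) N)
    (fun u hu => hN _ hu) hqp f hφ

include hpq hN in
/-- the same with `H⁰ = Hlc 0`. -/
theorem card_Hlc_one_res_le_of_dvd' (hqp : p ∣ q - 1) {φ : GQ}
    (hφ : (padicPlace q).IsFrobeniusAt φ q) :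
    Nat.card (Hlc (levelQ q) (Rep.res (localGaloisToGlobal q) N) 1) ≤
      Nat.card (Hlc (levelQ q) (Rep.res (localGaloisToGlobal q) N) 0) *
        Nat.card {v : N // N.ρ φ v = v} := by
  have h := card_Hlc_one_res_le_of_dvd q hpq N hN hqp hφ
  rwa [← Nat.card_congr (Hlc0Equiv (levelQ q) (Rep.res (localGaloisToGlobal q) N)).toEquiv] at h

include hpq hN in
/-- `#H¹(G_q, N) ≤ #H⁰(G_q, N) · c` as soon as `#N^{φ} ≤ c`. -/
theorem card_Hlc_one_res_le_mul (hqp : p ∣ q - 1) {φ : GQ}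
    (hφ : (padicPlace q).IsFrobeniusAt φ q) {c : ℕ}
    (hc : Nat.card {v : N // N.ρ φ v = v} ≤ c) :
    Nat.card (Hlc (levelQ q) (Rep.res (localGaloisToGlobal q) N) 1) ≤
      Nat.card (Hlc (levelQ q) (Rep.res (localGaloisToGlobal q) N) 0) * c :=
  (card_Hlc_one_res_le_of_dvd' q hpq N hN hqp hφ).trans (Nat.mul_le_mul_left _ hc)

end Fermat.Agent.GP.Loc.TWLocalHlcRes
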