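/-
GATE-P / S56 [P-LOC] leaf S56-LOC-TWQH1 (helper91).  Mathlib only.

The local cohomology at a Taylor–Wiles prime, in abstract-group form (no Euler characteristic).

`D` a group (a finite-level decomposition group), `I ≤ D` (inertia), `φ ∈ D` (a Frobenius),
`ρ : Representation k D M` trivial on `I`, `p • M = 0`.  The hypothesis `TameHyp p q I φ` is exactly
the conclusion of `GP/Loc/TameRel.map_conj_eq_pow`: every hom `f : D →* H` mapping `I` onto a
`p`-group satisfies `f (φ σ φ⁻¹) = f σ ^ q` on `I` and `f(I)` is generated by one `f τ`.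

* `affinePerm ρ c hc : D →* Equiv.Perm M`, `d ↦ (x ↦ ρ d x + c d)`: the affine action attached to a
  `1`-cocycle; it maps `I` onto a `p`-group.
* `exists_generator_of_tameHyp` : for every cocycle `c` there is `τ ∈ I` with `c σ ∈ ℕ • c τ` for all
  `σ ∈ I`, and `ρ φ (c σ) = q • c σ` for `σ ∈ I`.
* `exists_linearCombination_vanishing` : if `ker (ρ φ - q)` has dimension `≤ d`, any `d + 1`
  cocycles have a nontrivial linear combination vanishing on `I`
  (`dim H¹(D, M) / H¹_ur(D, M) ≤ dim M^{φ = q}`).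
* `eq_coboundary_of_unramified` : a cocycle vanishing on `I` whose value at `φ` is `ρ φ m - m` is the
  coboundary of `m` (when `D = ⟨φ⟩ I`)  (`dim H¹_ur(D, M) ≤ dim M / (φ - 1) M`).
* matrix form for `ad⁰`: `exists_combination_vanishing_of_charpoly`: `r̄ φ` with distinct eigenvalues,
  `q = 1` in `k`, two trace-zero cocycles for the adjoint action ⟹ a nontrivial combination
  vanishes on `I`.
-/
import Mathlib

set_option autoImplicit false

namespace Fermat.Agent.GP.Loc.TWLocalH1

universe u v w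

section Affine

variable {k : Type w} [CommRing k] {D : Type u} [Group D] {M : Type v} [AddCommGroup M]
  [Module k M]

/-- `c 1 = 0` for a `1`-cocycle. -/
theorem cocycle_one (ρ : Representation k D M) (c : D → M)
    (hc : ∀ σ τ, c (σ * τ) = c σ + ρ σ (c τ)) : c 1 = 0 := by
  have h := hc 1 1
  rw [mul_one, map_one, Module.End.one_apply] at h
  exact (add_eq_left.1 h.symm)

theorem rho_inv_apply (ρ : Representation k D M) (d : D) (x : M) : ρ d⁻¹ (ρ d x) = x := by
  rw [← Module.End.mul_apply, ← map_mul, inv_mul_cancel, map_one, Module.End.one_apply]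

theorem rho_apply_inv (ρ : Representation k D M) (d : D) (x : M) : ρ d (ρ d⁻¹ x) = x := by
  rw [← Module.End.mul_apply, ← map_mul, mul_inv_cancel, map_one, Module.End.one_apply]

/-- The affine action `d ↦ (x ↦ ρ d x + c d)` attached to a `1`-cocycle. -/
def affinePerm (ρ : Representation k D M) (c : D → M)
    (hc : ∀ σ τ, c (σ * τ) = c σ + ρ σ (c τ)) : D →* Equiv.Perm M where
  toFun d :=
    { toFun := fun x => ρ d x + c d
      invFun := fun y => ρ d⁻¹ (y - c d)
      left_inv := fun x => by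
        show ρ d⁻¹ (ρ d x + c d - c d) = x
        rw [add_sub_cancel_right, rho_inv_apply]
      right_inv := fun y => by
        show ρ d (ρ d⁻¹ (y - c d)) + c d = y
        rw [rho_apply_inv, sub_add_cancel] }
  map_one' := by
    ext x
    show ρ 1 x + c 1 = x
    rw [map_one, Module.End.one_apply, cocycle_one ρ c hc, add_zero]
  map_mul' d e := by
    ext x
    show ρ (d * e) x + c (d * e) = ρ d (ρ e x + c e) + c d
    rw [map_mul, Module.End.mul_apply, hc, map_add]
    abel

@[simp] theorem affinePerm_apply (ρ : Representation k D M) (c : D → M)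
    (hc : ∀ σ τ, c (σ * τ) = c σ + ρ σ (c τ)) (d : D) (x : M) :
    affinePerm ρ c hc d x = ρ d x + c d := rfl

/-- powers of a translation -/
theorem affinePerm_pow_apply (ρ : Representation k D M) (c : D → M)
    (hc : ∀ σ τ, c (σ * τ) = c σ + ρ σ (c τ)) {σ : D} (hσ : ρ σ = 1) (n : ℕ) (x : M) :
    (affinePerm ρ c hc σ ^ n) x = x + n • c σ := by
  induction n generalizing x with
  | zero => simp
  | succ n ih =>
    rw [pow_succ, Equiv.Perm.mul_apply, ih, affinePerm_apply, hσ, Module.End.one_apply,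
      succ_nsmul]
    abel

/-- the image of a subgroup acting trivially is a `p`-group when `p • M = 0`. -/
theorem isPGroup_map_affinePerm (ρ : Representation k D M) (c : D → M)
    (hc : ∀ σ τ, c (σ * τ) = c σ + ρ σ (c τ)) (I : Subgroup D) (hI : ∀ σ ∈ I, ρ σ = 1)
    (p : ℕ) (hpM : ∀ x : M, p • x = 0) : IsPGroup p (I.map (affinePerm ρ c hc)) := by
  rintro ⟨g, σ, hσ, rfl⟩
  refine ⟨1, ?_⟩
  apply Subtype.ext
  rw [pow_one, Subgroup.coe_pow, Subgroup.coe_one]
  ext x
  rw [affinePerm_pow_apply ρ c hc (hI σ hσ), hpM, add_zero, Equiv.Perm.one_apply]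

/-- the cocycle relation on a conjugate: `c (φ σ φ⁻¹) = ρ φ (c σ)` when `ρ σ = 1`. -/
theorem cocycle_conj (ρ : Representation k D M) (c : D → M)
    (hc : ∀ σ τ, c (σ * τ) = c σ + ρ σ (c τ)) (φ : D) {σ : D} (hσ : ρ σ = 1) :
    c (φ * σ * φ⁻¹) = ρ φ (c σ) := by
  have h1 : c (φ * φ⁻¹) = c φ + ρ φ (c φ⁻¹) := hc φ φ⁻¹
  rw [mul_inv_cancel, cocycle_one ρ c hc] at h1
  rw [hc, hc, map_mul, hσ, mul_one]
  rw [add_assoc, add_comm (ρ φ (c σ)), ← add_assoc, ← h1, zero_add]

end Affine

section Tame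

variable {k : Type w} [CommRing k] {D : Type u} [Group D] {M : Type v} [AddCommGroup M]
  [Module k M]

/-- The conclusion of the tame relation (`GP/Loc/TameRel.map_conj_eq_pow`) for homs with values in
groups of universe `v`. -/
def TameHyp (p q : ℕ) (I : Subgroup D) (φ : D) : Prop :=
  ∀ {H : Type v} [Group H] (f : D →* H), IsPGroup p (I.map f) →
    (∀ σ ∈ I, f (φ * σ * φ⁻¹) = f σ ^ q) ∧ ∃ τ ∈ I, ∀ σ ∈ I, ∃ n : ℕ, f σ = f τ ^ n

/-- **One generator.**  Under the tame hypothesis every cocycle `c : D → M` (`p • M = 0`, `I` acting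
trivially) has all its values on `I` in `ℕ • c τ` for a single `τ ∈ I`, and these values lie in
`ker (ρ φ - q)`. -/
theorem exists_generator_of_tameHyp {p q : ℕ} {I : Subgroup D} {φ : D}
    (hT : TameHyp.{u, v} p q I φ) (ρ : Representation k D M) (hI : ∀ σ ∈ I, ρ σ = 1)
    (hpM : ∀ x : M, p • x = 0) (c : D → M) (hc : ∀ σ τ, c (σ * τ) = c σ + ρ σ (c τ)) :
    (∀ σ ∈ I, ρ φ (c σ) = q • c σ) ∧ ∃ τ ∈ I, ∀ σ ∈ I, ∃ n : ℕ, c σ = n • c τ := by
  obtain ⟨h1, τ, hτ, h2⟩ := hT (affinePerm ρ c hc) (isPGroup_map_affinePerm ρ c hc I hI p hpM)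
  refine ⟨fun σ hσ => ?_, τ, hτ, fun σ hσ => ?_⟩
  · have h3 := congrArg (fun g : Equiv.Perm M => g 0) (h1 σ hσ)
    simp only [affinePerm_apply, map_zero, zero_add] at h3
    rw [affinePerm_pow_apply ρ c hc (hI σ hσ), zero_add, cocycle_conj ρ c hc φ (hI σ hσ)] at h3
    exact h3
  · obtain ⟨n, hn⟩ := h2 σ hσ
    refine ⟨n, ?_⟩
    have h3 := congrArg (fun g : Equiv.Perm M => g 0) hn
    simp only [affinePerm_apply, map_zero, zero_add] at h3
    rw [affinePerm_pow_apply ρ c hc (hI τ hτ), zero_add] at h3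
    exact h3

/-- the product representation on `ι → M`. -/
def piRep (ι : Type) (ρ : Representation k D M) : Representation k D (ι → M) where
  toFun d := (ρ d).compLeft ι
  map_one' := by
    ext x j
    simp
  map_mul' d e := by
    ext x j
    simp

@[simp] theorem piRep_apply (ι : Type) (ρ : Representation k D M) (d : D) (x : ι → M) (j : ι) :
    piRep ι ρ d x j = ρ d (x j) := rfl

/-- **`dim H¹(D, M) / H¹_ur(D, M) ≤ dim M^{φ = q}`**, in linear-dependence form: if any family
`s : ι → N` of elements of `ker (ρ φ - q)` is linearly dependent, then any family `c : ι → Z¹(D, M)` of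
`N`-valued cocycles has a nontrivial linear combination vanishing on `I`. -/
theorem exists_linearCombination_vanishing {p q : ℕ} {I : Subgroup D} {φ : D}
    (hT : TameHyp.{u, v} p q I φ) (ρ : Representation k D M) (hI : ∀ σ ∈ I, ρ σ = 1)
    (hpM : ∀ x : M, p • x = 0) {ι : Type} [Fintype ι] (c : ι → D → M)
    (hc : ∀ j σ τ, c j (σ * τ) = c j σ + ρ σ (c j τ)) (N : Submodule k M)
    (hcN : ∀ j, ∀ σ ∈ I, c j σ ∈ N)
    (hdep : ∀ s : ι → M, (∀ j, s j ∈ N) → (∀ j, ρ φ (s j) = q • s j) →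
      ¬ LinearIndependent k s) :
    ∃ a : ι → k, (∃ j, a j ≠ 0) ∧ ∀ σ ∈ I, ∑ j, a j • c j σ = 0 := by
  obtain ⟨h1, τ, hτ, h2⟩ := exists_generator_of_tameHyp hT (piRep ι ρ)
    (fun σ hσ => by ext x j; simp [hI σ hσ])
    (fun x => by ext j; simp [hpM]) (fun σ j => c j σ)
    (fun σ τ => by ext j; simp [hc])
  have h3 : ¬ LinearIndependent k fun j => c j τ := by
    refine hdep _ (fun j => hcN j τ hτ) (fun j => ?_)
    have := congrFun (h1 τ hτ) j
    simpa using this
  rw [Fintype.not_linearIndependent_iff] at h3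
  obtain ⟨a, ha, hne⟩ := h3
  refine ⟨a, hne, fun σ hσ => ?_⟩
  obtain ⟨n, hn⟩ := h2 σ hσ
  have h4 : ∀ j, c j σ = n • c j τ := fun j => by
    have := congrFun hn j
    simpa using this
  calc ∑ j, a j • c j σ = n • ∑ j, a j • c j τ := by
        rw [Finset.smul_sum]
        refine Finset.sum_congr rfl fun j _ => ?_
        rw [h4 j, smul_comm]
    _ = 0 := by rw [ha, smul_zero]

end Tame

section Unramified

variable {k : Type w} [CommRing k] {D : Type u} [Group D] {M : Type v} [AddCommGroup M]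
  [Module k M]

/-- **`H¹_ur(D, M) ↪ M / (φ - 1) M`**: when `D = ⟨φ⟩ I`, a cocycle vanishing on `I` whose value at
`φ` is `ρ φ m - m` is the coboundary of `m`. -/
theorem eq_coboundary_of_unramified (ρ : Representation k D M) (c : D → M)
    (hc : ∀ σ τ, c (σ * τ) = c σ + ρ σ (c τ)) (I : Subgroup D) (hI : ∀ σ ∈ I, ρ σ = 1) (φ : D)
    (hgen : ∀ d : D, ∃ n : ℕ, ∃ i ∈ I, d = φ ^ n * i) (hcI : ∀ σ ∈ I, c σ = 0) (m : M)
    (hm : c φ = ρ φ m - m) : ∀ d, c d = ρ d m - m := by
  have hpow : ∀ n : ℕ, c (φ ^ n) = ρ (φ ^ n) m - m := by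
    intro n
    induction n with
    | zero => rw [pow_zero, cocycle_one ρ c hc, map_one, Module.End.one_apply, sub_self]
    | succ n ih =>
      rw [pow_succ, hc, ih, hm, map_mul, Module.End.mul_apply, map_sub]
      abel
  intro d
  obtain ⟨n, i, hi, rfl⟩ := hgen d
  rw [hc, hcI i hi, map_zero, add_zero, hpow, map_mul, hI i hi, mul_one]

end Unramified

section Matrix

open Matrix Polynomial

variable {k : Type w} [Field k] {D : Type u} [Group D]

/-- A trace-zero `2 × 2` matrix commuting with a matrix `A` whose characteristic polynomial has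
nonzero discriminant is a multiple of `2 A - tr A`. -/
theorem exists_smul_of_commute_of_trace_eq_zero
    (A X : Matrix (Fin 2) (Fin 2) k) (hdisc : A.trace ^ 2 - 4 * A.det ≠ 0)
    (hcomm : A * X = X * A) (htr : X.trace = 0) :
    ∃ y : k, X = y • ((2 : k) • A - A.trace • (1 : Matrix (Fin 2) (Fin 2) k)) := by
  have e00 := congrFun (congrFun hcomm 0) 0
  have e01 := congrFun (congrFun hcomm 0) 1
  have e10 := congrFun (congrFun hcomm 1) 0
  simp only [Matrix.mul_apply, Fin.sum_univ_two] at e00 e01 e10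
  rw [Matrix.trace_fin_two] at htr
  rw [Matrix.trace_fin_two, Matrix.det_fin_two] at hdisc
  obtain ⟨Δ, hΔdef⟩ : ∃ Δ : k, Δ = (A 0 0 - A 1 1) ^ 2 + 4 * (A 0 1 * A 1 0) := ⟨_, rfl⟩
  have hΔ : Δ ≠ 0 := by
    intro h
    apply hdisc
    rw [hΔdef] at h
    linear_combination h
  have hw : X 1 1 = - X 0 0 := by linear_combination htr
  rw [hw] at e01 e10
  refine ⟨(X 0 0 * (A 0 0 - A 1 1) + X 0 1 * A 1 0 + X 1 0 * A 0 1) / Δ, ?_⟩
  ext i j
  fin_cases i <;> fin_cases j
  · simp only [Fin.zero_eta, Fin.isValue, Matrix.smul_apply, Matrix.sub_apply, Matrix.one_apply_eq,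
      smul_eq_mul, mul_one, Matrix.trace_fin_two]
    rw [div_mul_eq_mul_div, eq_div_iff hΔ, hΔdef]
    linear_combination (-(A 1 0)) * e01 + (A 0 1) * e10
  · simp only [Fin.zero_eta, Fin.isValue, Fin.mk_one, Matrix.smul_apply, Matrix.sub_apply,
      ne_eq, zero_ne_one, not_false_eq_true, Matrix.one_apply_ne, smul_eq_mul, mul_zero, sub_zero]
    rw [div_mul_eq_mul_div, eq_div_iff hΔ, hΔdef]
    linear_combination (A 0 0 - A 1 1) * e01 + (-2 * A 0 1) * e00
  · simp only [Fin.zero_eta, Fin.isValue, Fin.mk_one, Matrix.smul_apply, Matrix.sub_apply,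
      ne_eq, one_ne_zero, not_false_eq_true, Matrix.one_apply_ne, smul_eq_mul, mul_zero, sub_zero]
    rw [div_mul_eq_mul_div, eq_div_iff hΔ, hΔdef]
    linear_combination (-(A 0 0 - A 1 1)) * e10 + 2 * A 1 0 * e00
  · simp only [Fin.mk_one, Fin.isValue, Matrix.smul_apply, Matrix.sub_apply, Matrix.one_apply_eq,
      smul_eq_mul, mul_one, Matrix.trace_fin_two]
    rw [hw, div_mul_eq_mul_div, eq_div_iff hΔ, hΔdef]
    linear_combination (A 1 0) * e01 + (-(A 0 1)) * e10

/-- The adjoint action `X ↦ r̄ d * X * r̄ d⁻¹` of a matrix valued hom. -/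
def adRep (rbar : D →* Matrix (Fin 2) (Fin 2) k) :
    Representation k D (Matrix (Fin 2) (Fin 2) k) where
  toFun d :=
    { toFun := fun X => rbar d * X * rbar d⁻¹
      map_add' := fun X Y => by rw [Matrix.mul_add, Matrix.add_mul]
      map_smul' := fun a X => by
        rw [RingHom.id_apply, Matrix.mul_smul, Matrix.smul_mul] }
  map_one' := by
    ext X : 1
    show rbar 1 * X * rbar 1⁻¹ = X
    rw [inv_one, map_one, Matrix.one_mul, Matrix.mul_one]
  map_mul' d e := by
    ext X : 1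
    show rbar (d * e) * X * rbar (d * e)⁻¹ = rbar d * (rbar e * X * rbar e⁻¹) * rbar d⁻¹
    rw [_root_.mul_inv_rev, map_mul, map_mul]
    simp only [Matrix.mul_assoc]

@[simp] theorem adRep_apply (rbar : D →* Matrix (Fin 2) (Fin 2) k) (d : D)
    (X : Matrix (Fin 2) (Fin 2) k) : adRep rbar d X = rbar d * X * rbar d⁻¹ := rfl

/-- trace and determinant from a split characteristic polynomial. -/
theorem trace_det_of_charpoly {A : Matrix (Fin 2) (Fin 2) k} {α β : k} (hαβ : α ≠ β)
    (hchar : A.charpoly = (X - C α) * (X - C β)) : A.trace = α + β ∧ A.det = α * β := by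
  rw [Matrix.charpoly_fin_two] at hchar
  have h1 := congrArg (Polynomial.eval α) hchar
  have h2 := congrArg (Polynomial.eval β) hchar
  simp only [eval_add, eval_sub, eval_mul, eval_pow, eval_X, eval_C, sub_self, zero_mul,
    mul_zero] at h1 h2
  have h3 : (α - β) * (α + β - A.trace) = 0 := by linear_combination h1 - h2
  have h4 : A.trace = α + β := by
    rcases mul_eq_zero.1 h3 with h | h
    · exact absurd (sub_eq_zero.1 h) hαβ
    · linear_combination -h
  refine ⟨h4, ?_⟩
  rw [h4] at h1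
  linear_combination h1

/-- **The ramified part of `H¹(G_q, ad⁰ρ̄)` at a Taylor–Wiles prime is at most one-dimensional.**
`r̄` trivial on `I`, `r̄ φ` with distinct eigenvalues in `k`, `q = 1` and `p = 0` in `k`: any two
cocycles for the adjoint action with trace-zero values on `I` have a nontrivial linear combination
vanishing on `I`. -/
theorem exists_combination_vanishing_of_charpoly {p q : ℕ} {I : Subgroup D} {φ : D}
    (hT : TameHyp.{u, w} p q I φ) (rbar : D →* Matrix (Fin 2) (Fin 2) k)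
    (hI : ∀ σ ∈ I, rbar σ = 1) (hp : (p : k) = 0) (hq : (q : k) = 1)
    {α β : k} (hαβ : α ≠ β) (hchar : (rbar φ).charpoly = (X - C α) * (X - C β))
    (c₁ c₂ : D → Matrix (Fin 2) (Fin 2) k)
    (hc₁ : ∀ σ τ, c₁ (σ * τ) = c₁ σ + rbar σ * c₁ τ * rbar σ⁻¹)
    (hc₂ : ∀ σ τ, c₂ (σ * τ) = c₂ σ + rbar σ * c₂ τ * rbar σ⁻¹)
    (htr₁ : ∀ σ ∈ I, (c₁ σ).trace = 0) (htr₂ : ∀ σ ∈ I, (c₂ σ).trace = 0) :
    ∃ a₁ a₂ : k, (a₁ ≠ 0 ∨ a₂ ≠ 0) ∧ ∀ σ ∈ I, a₁ • c₁ σ + a₂ • c₂ σ = 0 := by
  obtain ⟨htrA, hdetA⟩ := trace_det_of_charpoly hαβ hchar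
  have hdisc : (rbar φ).trace ^ 2 - 4 * (rbar φ).det ≠ 0 := by
    rw [htrA, hdetA]
    intro h
    have h1 : (α - β) ^ 2 = 0 := by linear_combination h
    exact hαβ (sub_eq_zero.1 ((pow_eq_zero_iff (two_ne_zero)).1 h1))
  have hinv : rbar φ⁻¹ * rbar φ = 1 := by rw [← map_mul, inv_mul_cancel, map_one]
  have hdep : ∀ s : Fin 2 → Matrix (Fin 2) (Fin 2) k,
      (∀ j, s j ∈ LinearMap.ker (Matrix.traceLinearMap (Fin 2) k k)) →
      (∀ j, adRep rbar φ (s j) = q • s j) → ¬ LinearIndependent k s := by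
    intro s hs1 hs2
    have hyj : ∀ j, ∃ y : k, s j = y • ((2 : k) • rbar φ -
        (rbar φ).trace • (1 : Matrix (Fin 2) (Fin 2) k)) := by
      intro j
      refine exists_smul_of_commute_of_trace_eq_zero (rbar φ) (s j) hdisc ?_ (hs1 j)
      have h1 := hs2 j
      rw [adRep_apply, ← Nat.cast_smul_eq_nsmul k, hq, one_smul] at h1
      have h2 := congrArg (fun Y => Y * rbar φ) h1
      simp only [Matrix.mul_assoc, hinv, Matrix.mul_one] at h2
      exact h2
    obtain ⟨y₀, hy₀⟩ := hyj 0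
    obtain ⟨y₁, hy₁⟩ := hyj 1
    rw [Fintype.not_linearIndependent_iff]
    by_cases h0 : y₀ = 0
    · refine ⟨![1, 0], ?_, 0, by simp⟩
      rw [Fin.sum_univ_two, hy₀, h0]
      simp
    · refine ⟨![y₁, -y₀], ?_, 1, by simpa using h0⟩
      rw [Fin.sum_univ_two, hy₀, hy₁]
      simp only [Matrix.cons_val_zero, Matrix.cons_val_one, smul_smul]
      rw [← add_smul]
      have : y₁ * y₀ + -y₀ * y₁ = 0 := by ring
      rw [this, zero_smul]
  obtain ⟨a, ⟨j, hj⟩, ha⟩ := exists_linearCombination_vanishing (k := k) hT (adRep rbar)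
    (fun σ hσ => by
      ext X : 1
      rw [adRep_apply, hI σ hσ, hI σ⁻¹ (I.inv_mem hσ), Matrix.one_mul, Matrix.mul_one,
        Module.End.one_apply])
    (fun X => by rw [← Nat.cast_smul_eq_nsmul k, hp, zero_smul])
    (fun j => if j = 0 then c₁ else c₂)
    (fun j σ τ => by
      by_cases hj : j = 0
      · simp only [hj, if_true, adRep_apply]; exact hc₁ σ τ
      · simp only [hj, if_false, adRep_apply]; exact hc₂ σ τ)
    (LinearMap.ker (Matrix.traceLinearMap (Fin 2) k k))
    (fun j σ hσ => by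
      by_cases hj : j = 0
      · simp only [hj, if_true]; exact htr₁ σ hσ
      · simp only [hj, if_false]; exact htr₂ σ hσ)
    hdep
  refine ⟨a 0, a 1, ?_, fun σ hσ => ?_⟩
  · fin_cases j
    · exact Or.inl hj
    · exact Or.inr hj
  · have := ha σ hσ
    rw [Fin.sum_univ_two] at this
    simpa using this

end Matrix

end Fermat.Agent.GP.Loc.TWLocalH1
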