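/-
GATE-P / S56 [P-LOC] node S56-LOC-TWQ-HLC (helper80): THE TAYLOR–WILES LOCAL TERM FOR `ad⁰ρ̄` IN THE
PINNED MODEL — the `ad⁰` plug on top of helper67's generic bound `GP/Loc/TWLocalHlc.lean`
(`#H¹(G_q, M) ≤ #H⁰ · #M^{Frob}` for `p ∣ q - 1`) and helper94's coefficient object
`GP/Bridge/Ad0Rep(Inst).lean` (`adRep p R 1`, `adBar p ρbar b`).

* `card_commutant_le` (Mathlib + helper91 `TWLocalH1`): for `A ∈ M₂(k)` with
  `charpoly A = (X - α)(X - β)`, `α ≠ β`, the trace-zero matrices commuting with `A` are at most `#k`;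
* `card_fixed_adRep_le` : `#{v ∈ ad⁰ | Frob v = v} ≤ #k` when `R φ` has distinct eigenvalues;
* **`card_Hlc_one_adRep_le`** : `q ≠ p`, `p ∣ q - 1`, `R` trivial on the frozen inertia group at
  `padicPlace q`, `φ` a Frobenius element at `padicPlace q` with `R φ` of distinct eigenvalues:
  `Nat.card (Hlc (levelQ q) (Rep.res (localGaloisToGlobal q) (adRep p R 1)) 1)
     ≤ Nat.card (Hlc (levelQ q) (Rep.res (localGaloisToGlobal q) (adRep p R 1)) 0) * Nat.card k`;
* **`card_Hlc_one_adBar_le`** : the same for `adBar p ρbar b` from the FROZEN hypotheses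
  (`ρbar.IsUnramifiedAt q`, the Taylor–Wiles clause `∀ A τ, A.LiesOverPrime q → A.IsFrobeniusAt τ q →
  ∃ α β, α ≠ β ∧ charpoly (ρbar.ρ τ) = (X - C α) * (X - C β)` of `TWPrime.exists_tw_primes`);
  `_invariants` variants with `(…).ρ.invariants` in place of `Hlc … 0`; `_of_levelS` supplies the
  discreteness instance from `ρ̄` unramified outside a finite `S`.
-/
import Mathlib
import Fermat.Agent.GP.Loc.TWLocalHlc
import Fermat.Agent.GP.Loc.TWLocalH1
import Fermat.Agent.GP.Bridge.Ad0RepInst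
import Fermat.Agent.GC.Places.Levels
import Fermat.Agent.Common_helper32.FrobeniusExists

set_option autoImplicit false

open CategoryTheory groupCohomology

noncomputable section

namespace Fermat.Agent.GP.Loc.TWQHlc

open Fermat.Agent.GC.Prof Fermat.Agent.GC.Places Fermat.Agent.GC.Local.KR
open Fermat.Agent.GP.Bridge.Ad0 Fermat.Agent.S53_helper35

local notation "Qb" => AlgebraicClosure ℚ
local notation "GQ" => (AlgebraicClosure ℚ ≃ₐ[ℚ] AlgebraicClosure ℚ)

/-! ### (i) the commutant of a regular semisimple `2 × 2` matrix in trace-zero matrices -/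

section Commutant

open Matrix Polynomial

variable {k : Type*} [Field k]

/-- the discriminant of a matrix with two distinct eigenvalues in `k` does not vanish. -/
theorem disc_ne_zero_of_charpoly {A : Matrix (Fin 2) (Fin 2) k} {α β : k} (hαβ : α ≠ β)
    (hchar : A.charpoly = (X - C α) * (X - C β)) : A.trace ^ 2 - 4 * A.det ≠ 0 := by
  obtain ⟨htr, hdet⟩ := TWLocalH1.trace_det_of_charpoly hαβ hchar
  rw [htr, hdet]
  intro h
  have h1 : (α - β) ^ 2 = 0 := by linear_combination h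
  exact hαβ (sub_eq_zero.1 ((pow_eq_zero_iff (two_ne_zero)).1 h1))

/-- **`dim_k H⁰(⟨Frob⟩, ad⁰) ≤ 1`**, in cardinality form: the trace-zero matrices commuting with a
matrix with two distinct eigenvalues in `k` are at most `#k`. -/
theorem card_commutant_le [Finite k] (A : Matrix (Fin 2) (Fin 2) k) {α β : k} (hαβ : α ≠ β)
    (hchar : A.charpoly = (X - C α) * (X - C β)) :
    Nat.card {Y : Matrix (Fin 2) (Fin 2) k // Y.trace = 0 ∧ A * Y = Y * A} ≤ Nat.card k := by
  have hdisc := disc_ne_zero_of_charpoly hαβ hchar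
  choose y hy using fun Y : {Y : Matrix (Fin 2) (Fin 2) k // Y.trace = 0 ∧ A * Y = Y * A} =>
    TWLocalH1.exists_smul_of_commute_of_trace_eq_zero A Y.1 hdisc Y.2.2 Y.2.1
  refine Nat.card_le_card_of_injective y fun Y Y' h => Subtype.ext ?_
  rw [hy Y, hy Y', h]

end Commutant

/-! ### (ii) the Frobenius-fixed vectors of `ad⁰` -/

section Ad

open Matrix Polynomial

variable (p : ℕ) [Fact p.Prime] {k : Type} [Field k] [Algebra (ZMod p) k]
variable (R : GQ →* Matrix (Fin 2) (Fin 2) k)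

instance finite_adRep [Finite k] (χ : GQ →* (ZMod p)ˣ) : Finite (adRep p R χ) :=
  inferInstanceAs (Finite (sl2F p (k := k)))

/-- a vector of `ad⁰` fixed by `φ` is a trace-zero matrix commuting with `R φ`. -/
theorem commute_of_fixed {φ : GQ} {v : adRep p R 1} (hv : (adRep p R 1).ρ φ v = v) :
    R φ * emb p R 1 v = emb p R 1 v * R φ := by
  have h := emb_ρ_one p R φ v
  rw [hv] at h
  calc R φ * emb p R 1 v = R φ * emb p R 1 v * (R φ⁻¹ * R φ) := by
        rw [R_inv_mul, Matrix.mul_one]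
    _ = (R φ * emb p R 1 v * R φ⁻¹) * R φ := by simp only [Matrix.mul_assoc]
    _ = emb p R 1 v * R φ := by rw [← h]

/-- **`#(ad⁰)^{Frob} ≤ #k`** when `R φ` has two distinct eigenvalues in `k`. -/
theorem card_fixed_adRep_le [Finite k] {φ : GQ} {α β : k} (hαβ : α ≠ β)
    (hchar : (R φ).charpoly = (X - C α) * (X - C β)) :
    Nat.card {v : adRep p R 1 // (adRep p R 1).ρ φ v = v} ≤ Nat.card k := by
  refine le_trans ?_ (card_commutant_le (R φ) hαβ hchar)
  refine Nat.card_le_card_of_injective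
    (fun v => ⟨emb p R 1 v.1, trace_emb p R 1 v.1, commute_of_fixed p R v.2⟩) ?_
  intro v v' h
  have h' : emb p R 1 v.1 = emb p R 1 v'.1 := Subtype.mk.inj h
  exact Subtype.ext (emb_injective p R 1 h')

end Ad

/-! ### (iii) the Taylor–Wiles local term for `adRep p R 1` -/

section Main

open Matrix Polynomial

variable (q : ℕ) [Fact q.Prime] (p : ℕ) [Fact p.Prime] {k : Type} [Field k] [Algebra (ZMod p) k]
  [Finite k]
variable (R : GQ →* Matrix (Fin 2) (Fin 2) k)

omit [Finite k] in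
/-- `ad⁰` is unramified where `R` is. -/
theorem adRep_inertia (hunr : ∀ τ ∈ (padicPlace q).inertiaSubgroupIn ℚ, R τ = 1) :
    ∀ τ ∈ (padicPlace q).inertiaSubgroupIn ℚ, (adRep p R 1).ρ τ = 1 :=
  fun τ hτ => adRho_eq_one_of p R 1 (hunr τ hτ) rfl

/-- **The Taylor–Wiles local term**, `invariants` form: `#H¹(G_q, ad⁰) ≤ #H⁰(G_q, ad⁰) · #k`. -/
theorem card_Hlc_one_adRep_le_invariants (hpq : p ≠ q) (hqp : p ∣ q - 1)
    [IsDiscrete (levelQ q) (Rep.res (localGaloisToGlobal q) (adRep p R 1))]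
    (hunr : ∀ τ ∈ (padicPlace q).inertiaSubgroupIn ℚ, R τ = 1)
    {φ : GQ} (hφ : (padicPlace q).IsFrobeniusAt φ q) {α β : k} (hαβ : α ≠ β)
    (hchar : (R φ).charpoly = (X - C α) * (X - C β)) :
    Nat.card (Hlc (levelQ q) (Rep.res (localGaloisToGlobal q) (adRep p R 1)) 1) ≤
      Nat.card (Rep.res (localGaloisToGlobal q) (adRep p R 1)).ρ.invariants * Nat.card k := by
  have hφD := hφ.mem_decompositionSubgroup
  rw [← range_localGaloisToGlobal_eq q] at hφD
  obtain ⟨f, rfl⟩ := hφD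
  have hfin : Finite (Rep.res (localGaloisToGlobal q) (adRep p R 1)) :=
    inferInstanceAs (Finite (adRep p R 1))
  have h := TWLocalHlc.card_Hlc_one_le_of_dvd q hpq
    (Rep.res (localGaloisToGlobal q) (adRep p R 1))
    (fun u hu => adRep_inertia q p R hunr _ hu) hqp f hφ
  refine h.trans (Nat.mul_le_mul_left _ ?_)
  exact card_fixed_adRep_le p R hαβ hchar

/-- **The Taylor–Wiles local term** in the pinned model:
`#Hlc¹(G_q, ad⁰) ≤ #Hlc⁰(G_q, ad⁰) · #k`. -/
theorem card_Hlc_one_adRep_le (hpq : p ≠ q) (hqp : p ∣ q - 1)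
    [IsDiscrete (levelQ q) (Rep.res (localGaloisToGlobal q) (adRep p R 1))]
    (hunr : ∀ τ ∈ (padicPlace q).inertiaSubgroupIn ℚ, R τ = 1)
    {φ : GQ} (hφ : (padicPlace q).IsFrobeniusAt φ q) {α β : k} (hαβ : α ≠ β)
    (hchar : (R φ).charpoly = (X - C α) * (X - C β)) :
    Nat.card (Hlc (levelQ q) (Rep.res (localGaloisToGlobal q) (adRep p R 1)) 1) ≤
      Nat.card (Hlc (levelQ q) (Rep.res (localGaloisToGlobal q) (adRep p R 1)) 0) *
        Nat.card k := by
  rw [Nat.card_congr (Hlc0Equiv (levelQ q)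
    (Rep.res (localGaloisToGlobal q) (adRep p R 1))).toEquiv]
  exact card_Hlc_one_adRep_le_invariants q p R hpq hqp hunr hφ hαβ hchar

end Main

/-! ### (iv) from the frozen hypotheses on `ρ̄` -/

section Frozen

open Matrix Polynomial

variable (q : ℕ) [Fact q.Prime] (p : ℕ) [Fact p.Prime] {k : Type} [Field k] [Algebra (ZMod p) k]
  [Finite k]
variable (ρbar : ResidualGaloisRep k) (b : Module.Basis (Fin 2) k ρbar.V)

/-- **The Taylor–Wiles local term for `ad⁰ρ̄`** from the frozen hypotheses: `ρ̄` unramified at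
`q ≠ p`, `p ∣ q - 1`, and every Frobenius element over `q` has two distinct eigenvalues in `k` (the
clause of `TWPrime.exists_tw_primes`). -/
theorem card_Hlc_one_adBar_le (hpq : p ≠ q) (hqp : p ∣ q - 1)
    [IsDiscrete (levelQ q) (Rep.res (localGaloisToGlobal q) (adBar p ρbar b))]
    (hunr : ρbar.IsUnramifiedAt q)
    (hF : ∀ (A : ValuationSubring Qb) (τ : GQ), A.LiesOverPrime q → A.IsFrobeniusAt τ q →
      ∃ α β : k, α ≠ β ∧ LinearMap.charpoly (ρbar.ρ τ) = (X - C α) * (X - C β)) :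
    Nat.card (Hlc (levelQ q) (Rep.res (localGaloisToGlobal q) (adBar p ρbar b)) 1) ≤
      Nat.card (Hlc (levelQ q) (Rep.res (localGaloisToGlobal q) (adBar p ρbar b)) 0) *
        Nat.card k := by
  have hq : q.Prime := Fact.out
  have hA : (padicPlace q).LiesOverPrime q := TWLocalHlc.natCast_mem_nonunits_padicPlace q
  obtain ⟨φ, hφ⟩ :=
    Fermat.Agent.Common_helper32.exists_isFrobeniusAt_of_liesOver (padicPlace q) q hq hA
  obtain ⟨α, β, hαβ, hchar⟩ := hF (padicPlace q) φ hA hφ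
  refine card_Hlc_one_adRep_le q p (toMatRes ρbar b) hpq hqp
    (fun τ hτ => toMatRes_eq_one_of_ρ_eq_one ρbar b (hunr (padicPlace q) hA τ hτ)) hφ hαβ ?_
  rw [toMatRes_apply, LinearMap.charpoly_toMatrix]
  exact hchar

/-- the same with `invariants` for `H⁰`. -/
theorem card_Hlc_one_adBar_le_invariants (hpq : p ≠ q) (hqp : p ∣ q - 1)
    [IsDiscrete (levelQ q) (Rep.res (localGaloisToGlobal q) (adBar p ρbar b))]
    (hunr : ρbar.IsUnramifiedAt q)
    (hF : ∀ (A : ValuationSubring Qb) (τ : GQ), A.LiesOverPrime q → A.IsFrobeniusAt τ q →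
      ∃ α β : k, α ≠ β ∧ LinearMap.charpoly (ρbar.ρ τ) = (X - C α) * (X - C β)) :
    Nat.card (Hlc (levelQ q) (Rep.res (localGaloisToGlobal q) (adBar p ρbar b)) 1) ≤
      Nat.card (Rep.res (localGaloisToGlobal q) (adBar p ρbar b)).ρ.invariants * Nat.card k := by
  rw [← Nat.card_congr (Hlc0Equiv (levelQ q)
    (Rep.res (localGaloisToGlobal q) (adBar p ρbar b))).toEquiv]
  exact card_Hlc_one_adBar_le q p ρbar b hpq hqp hunr hF

/-- convenience form: discreteness supplied from `ρ̄` unramified outside a finite set `S`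
(`isDiscrete_adBar` + `isDiscrete_res_localGaloisToGlobal`). -/
theorem card_Hlc_one_adBar_le_of_levelS (S : Finset Nat.Primes)
    (hur : ∀ q' : Nat.Primes, q' ∉ S → ρbar.IsUnramifiedAt (q' : ℕ))
    (hpq : p ≠ q) (hqp : p ∣ q - 1) (hunr : ρbar.IsUnramifiedAt q)
    (hF : ∀ (A : ValuationSubring Qb) (τ : GQ), A.LiesOverPrime q → A.IsFrobeniusAt τ q →
      ∃ α β : k, α ≠ β ∧ LinearMap.charpoly (ρbar.ρ τ) = (X - C α) * (X - C β)) :
    haveI := isDiscrete_adBar p ρbar b S hur
    haveI := isDiscrete_res_localGaloisToGlobal S q (adBar p ρbar b)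
    Nat.card (Hlc (levelQ q) (Rep.res (localGaloisToGlobal q) (adBar p ρbar b)) 1) ≤
      Nat.card (Hlc (levelQ q) (Rep.res (localGaloisToGlobal q) (adBar p ρbar b)) 0) *
        Nat.card k := by
  have := isDiscrete_adBar p ρbar b S hur
  have := isDiscrete_res_localGaloisToGlobal S q (adBar p ρbar b)
  exact card_Hlc_one_adBar_le q p ρbar b hpq hqp hunr hF

end Frozen

end Fermat.Agent.GP.Loc.TWQHlc
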