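/-
GATE-P / S56 [P-LOC] node LOC-TWQ (helper67), part (C4): **the Taylor–Wiles local term in the
`finrank` shape of helper35's CORE binder `hlocQ`** (`GP/Core/CoreAsm`):

  `finrank 𝔽_p H¹(G_q, N) ≤ finrank 𝔽_p H⁰(G_q, N) + d`,   `#k = p ^ d`,

in the pinned model `Hlc (levelQ q) (Rep.res (localGaloisToGlobal q) N) i`.

* `finrank_le_add_of_card_le` : Mathlib-only conversion `#A ≤ #B · p ^ d ⟹ dim A ≤ dim B + d`
  for `𝔽_p`-spaces (`B` finite; no finiteness hypothesis on `A`: `finrank = 0` otherwise);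
* `finrank_Hlc_one_le_of_card_fixed` : generic `N : Rep (ZMod p) G_ℚ` finite, unramified at
  `padicPlace q`, `p ∣ q - 1`, `#N^{φ} ≤ p ^ d` for one Frobenius element `φ`;
* `finrank_Hlc_one_le_of_model` : `N` with helper11's MODEL BINDERS (`emb`, `hinj`, `hact`) +
  `htr` (image in trace zero), `R φ` with two distinct eigenvalues in `k`;
* **`finrank_Hlc_one_adBar_le`** : `N = adBar p ρbar b` from the FROZEN clauses
  (`ρbar.IsUnramifiedAt q`, `p ∣ q - 1`, every Frobenius over `q` has distinct eigenvalues in `k`)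
  — on helper80 `TWQHlc.card_Hlc_one_adBar_le`;
* `finrank_Hlc_one_adBar_le_of_pow_dvd` : the same with the hypothesis in the shape
  `∃ n, p ^ (n + 1) ∣ q - 1` of `hlocQ`;
* **`hlocQ_adBar`** : the binder `hlocQ` of `CoreAsm.selmerBounds_base_of_nodes` VERBATIM for
  `N = adBar p ρbar b` (family of `IsDiscrete` instances `hdloc` as there).
-/
import Mathlib
import Fermat.Agent.GP.Loc.TWLocalHlcRes
import Fermat.Agent.GP.Loc.TWQHlc

set_option autoImplicit false
set_option linter.unusedSectionVars false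

open Fermat.Agent.GC.Local.KR Fermat.Agent.GC.Places Fermat.Agent.GC.Prof groupCohomology
open Module

namespace Fermat.Agent.GP.Loc.TWQFinrank

open Fermat.Agent.GP.Loc Fermat.Agent.GP.Bridge.Ad0

local notation "Qb" => AlgebraicClosure ℚ
local notation "GQ" => (AlgebraicClosure ℚ ≃ₐ[ℚ] AlgebraicClosure ℚ)

/-! ### card → finrank -/

/-- `#A ≤ #B · p ^ d ⟹ dim A ≤ dim B + d` over `𝔽_p` (`B` finite). -/
theorem finrank_le_add_of_card_le {p : ℕ} [Fact p.Prime] {A B : Type*}
    [AddCommGroup A] [Module (ZMod p) A] [AddCommGroup B] [Module (ZMod p) B] [Finite B]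
    {d : ℕ} (h : Nat.card A ≤ Nat.card B * p ^ d) :
    finrank (ZMod p) A ≤ finrank (ZMod p) B + d := by
  have hp : (p : ℕ).Prime := Fact.out
  by_cases hA : Module.Finite (ZMod p) A
  · have : Finite A := Module.finite_of_finite (ZMod p)
    have hB : Module.Finite (ZMod p) B := Module.Finite.of_finite
    rw [Module.natCard_eq_pow_finrank (K := ZMod p) (V := A),
      Module.natCard_eq_pow_finrank (K := ZMod p) (V := B), Nat.card_zmod, ← pow_add] at h
    exact (Nat.pow_le_pow_iff_right hp.one_lt).1 h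
  · rw [finrank_of_not_finite hA]
    exact Nat.zero_le _

/-! ### generic `N` -/

section Generic

variable (q : ℕ) [Fact q.Prime] {p : ℕ} [Fact p.Prime] (hpq : p ≠ q)
variable (N : Rep (ZMod p) GQ) [Finite N]
  [IsDiscrete (levelQ q) (Rep.res (localGaloisToGlobal q) N)]
variable (hN : ∀ τ ∈ (padicPlace q).inertiaSubgroupIn ℚ, N.ρ τ = 1)

include hpq hN in
/-- the Taylor–Wiles local term, `finrank` form, for a finite `N` unramified at `padicPlace q`
with `#N^{φ} ≤ p ^ d`. -/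
theorem finrank_Hlc_one_le_of_card_fixed (hqp : p ∣ q - 1) {φ : GQ}
    (hφ : (padicPlace q).IsFrobeniusAt φ q) {d : ℕ}
    (hd : Nat.card {v : N // N.ρ φ v = v} ≤ p ^ d) :
    finrank (ZMod p) (Hlc (levelQ q) (Rep.res (localGaloisToGlobal q) N) 1) ≤
      finrank (ZMod p) (Hlc (levelQ q) (Rep.res (localGaloisToGlobal q) N) 0) + d := by
  have hfin : Finite (Hlc (levelQ q) (Rep.res (localGaloisToGlobal q) N) 0) := by
    have : Finite (Rep.res (localGaloisToGlobal q) N) := ‹Finite N›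
    exact Finite.of_equiv _
      (Hlc0Equiv (levelQ q) (Rep.res (localGaloisToGlobal q) N)).toEquiv.symm
  exact finrank_le_add_of_card_le
    (TWLocalHlcRes.card_Hlc_one_res_le_mul q hpq N hN hqp hφ hd)

end Generic

/-! ### `N` with the model binders -/

section Model

open Matrix Polynomial

variable (q : ℕ) [Fact q.Prime] {p : ℕ} [Fact p.Prime] (hpq : p ≠ q)
variable {k : Type} [Field k] [Finite k]
variable (R : GQ →* Matrix (Fin 2) (Fin 2) k)
variable (N : Rep (ZMod p) GQ) [Finite N]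
  [IsDiscrete (levelQ q) (Rep.res (localGaloisToGlobal q) N)]
variable (emb : N →+ Matrix (Fin 2) (Fin 2) k) (hinj : Function.Injective emb)
  (htr : ∀ x : N, (emb x).trace = 0)
  (hact : ∀ (σ : GQ) (x : N), emb (N.ρ σ x) = R σ * emb x * R σ⁻¹)

include hinj hact in
theorem rho_eq_one_of_model {τ : GQ} (hτ : R τ = 1) : N.ρ τ = 1 := by
  have hτi : R τ⁻¹ = 1 := by
    have h : R τ⁻¹ * R τ = 1 := by rw [← map_mul, inv_mul_cancel, map_one]
    rwa [hτ, Matrix.mul_one] at h
  apply LinearMap.ext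
  intro x
  apply hinj
  rw [hact, hτ, hτi, Matrix.one_mul, Matrix.mul_one]
  rfl

include hinj htr hact in
/-- `#N^{φ} ≤ #k` for a model of `ad⁰` when `R φ` has two distinct eigenvalues in `k`. -/
theorem card_fixed_le_of_model {φ : GQ} {α β : k} (hαβ : α ≠ β)
    (hchar : (R φ).charpoly = (X - C α) * (X - C β)) :
    Nat.card {v : N // N.ρ φ v = v} ≤ Nat.card k := by
  refine le_trans ?_ (TWQHlc.card_commutant_le (R φ) hαβ hchar)
  have hcomm : ∀ v : N, N.ρ φ v = v → R φ * emb v = emb v * R φ := by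
    intro v hv
    have h := hact φ v
    rw [hv] at h
    have hi : R φ⁻¹ * R φ = 1 := by rw [← map_mul, inv_mul_cancel, map_one]
    calc R φ * emb v = R φ * emb v * (R φ⁻¹ * R φ) := by rw [hi, Matrix.mul_one]
      _ = (R φ * emb v * R φ⁻¹) * R φ := by simp only [Matrix.mul_assoc]
      _ = emb v * R φ := by rw [← h]
  refine Nat.card_le_card_of_injective
    (fun v : {v : N // N.ρ φ v = v} =>
      (⟨emb v.1, htr v.1, hcomm v.1 v.2⟩ :
        {Y : Matrix (Fin 2) (Fin 2) k // Y.trace = 0 ∧ R φ * Y = Y * R φ})) ?_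
  intro v v' h
  exact Subtype.ext (hinj (congrArg Subtype.val h))

include hpq hinj htr hact in
/-- the Taylor–Wiles local term, `finrank` form, for `N` with helper11's model binders. -/
theorem finrank_Hlc_one_le_of_model (hqp : p ∣ q - 1)
    (hunr : ∀ τ ∈ (padicPlace q).inertiaSubgroupIn ℚ, R τ = 1)
    {φ : GQ} (hφ : (padicPlace q).IsFrobeniusAt φ q) {α β : k} (hαβ : α ≠ β)
    (hchar : (R φ).charpoly = (X - C α) * (X - C β)) {d : ℕ} (hk : Nat.card k = p ^ d) :
    finrank (ZMod p) (Hlc (levelQ q) (Rep.res (localGaloisToGlobal q) N) 1) ≤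
      finrank (ZMod p) (Hlc (levelQ q) (Rep.res (localGaloisToGlobal q) N) 0) + d :=
  finrank_Hlc_one_le_of_card_fixed q hpq N
    (fun τ hτ => rho_eq_one_of_model R N emb hinj hact (hunr τ hτ)) hqp hφ
    (hk ▸ card_fixed_le_of_model R N emb hinj htr hact hαβ hchar)

end Model

/-! ### `N = adBar p ρbar b`, frozen hypotheses -/

section Frozen

open Matrix Polynomial

variable (q : ℕ) [Fact q.Prime] (p : ℕ) [Fact p.Prime] {k : Type} [Field k] [Algebra (ZMod p) k]
  [Finite k]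
variable (ρbar : ResidualGaloisRep k) (b : Module.Basis (Fin 2) k ρbar.V)

/-- **the CORE binder `hlocQ` for `N = ad⁰ρ̄`** from the frozen clauses. -/
theorem finrank_Hlc_one_adBar_le (hpq : p ≠ q) (hqp : p ∣ q - 1)
    [IsDiscrete (levelQ q) (Rep.res (localGaloisToGlobal q) (adBar p ρbar b))]
    (hunr : ρbar.IsUnramifiedAt q)
    (hF : ∀ (A : ValuationSubring Qb) (τ : GQ), A.LiesOverPrime q → A.IsFrobeniusAt τ q →
      ∃ α β : k, α ≠ β ∧ LinearMap.charpoly (ρbar.ρ τ) = (X - C α) * (X - C β))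
    {d : ℕ} (hk : Nat.card k = p ^ d) :
    finrank (ZMod p) (Hlc (levelQ q) (Rep.res (localGaloisToGlobal q) (adBar p ρbar b)) 1) ≤
      finrank (ZMod p)
        (Hlc (levelQ q) (Rep.res (localGaloisToGlobal q) (adBar p ρbar b)) 0) + d := by
  have hfin : Finite (Hlc (levelQ q) (Rep.res (localGaloisToGlobal q) (adBar p ρbar b)) 0) := by
    have : Finite (Rep.res (localGaloisToGlobal q) (adBar p ρbar b)) :=
      inferInstanceAs (Finite (adRep p (Fermat.Agent.S53_helper35.toMatRes ρbar b) 1))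
    exact Finite.of_equiv _
      (Hlc0Equiv (levelQ q) (Rep.res (localGaloisToGlobal q) (adBar p ρbar b))).toEquiv.symm
  have h := TWQHlc.card_Hlc_one_adBar_le q p ρbar b hpq hqp hunr hF
  rw [hk] at h
  exact finrank_le_add_of_card_le h

/-- the same with the divisibility hypothesis in the shape of `hlocQ`. -/
theorem finrank_Hlc_one_adBar_le_of_pow_dvd (hpq : p ≠ q) (hqp : ∃ n : ℕ, p ^ (n + 1) ∣ q - 1)
    [IsDiscrete (levelQ q) (Rep.res (localGaloisToGlobal q) (adBar p ρbar b))]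
    (hunr : ρbar.IsUnramifiedAt q)
    (hF : ∀ (A : ValuationSubring Qb) (τ : GQ), A.LiesOverPrime q → A.IsFrobeniusAt τ q →
      ∃ α β : k, α ≠ β ∧ LinearMap.charpoly (ρbar.ρ τ) = (X - C α) * (X - C β))
    {d : ℕ} (hk : Nat.card k = p ^ d) :
    finrank (ZMod p) (Hlc (levelQ q) (Rep.res (localGaloisToGlobal q) (adBar p ρbar b)) 1) ≤
      finrank (ZMod p)
        (Hlc (levelQ q) (Rep.res (localGaloisToGlobal q) (adBar p ρbar b)) 0) + d := by
  obtain ⟨n, hn⟩ := hqp
  exact finrank_Hlc_one_adBar_le q p ρbar b hpq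
    ((dvd_pow_self p n.succ_ne_zero).trans hn) hunr hF hk

/-- **the binder `hlocQ` of `GP/Core/CoreAsm.selmerBounds_base_of_nodes`, VERBATIM, for
`N = adBar p ρbar b`**: `Sig` a finite set of primes outside of which `ρ̄` is unramified, `S ∋ p`;
the `IsDiscrete` instances are an arbitrary family `hdloc` (as in `CoreAsm`). -/
theorem hlocQ_adBar (S : Finset ℕ) (hpS : p ∈ S) (Sig : Finset Nat.Primes)
    (hur : ∀ q : Nat.Primes, q ∉ Sig → ρbar.IsUnramifiedAt (q : ℕ))
    (hdloc : ∀ q : Nat.Primes, haveI : Fact ((q : ℕ).Prime) := ⟨q.2⟩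
      IsDiscrete (levelQ (q : ℕ)) (Rep.res (localGaloisToGlobal (q : ℕ)) (adBar p ρbar b)))
    {d : ℕ} (hk : Nat.card k = p ^ d) :
    ∀ q : Nat.Primes, haveI : Fact ((q : ℕ).Prime) := ⟨q.2⟩
      q ∉ Sig → (q : ℕ) ∉ S → (∃ n : ℕ, p ^ (n + 1) ∣ (q : ℕ) - 1) →
      (∀ P : ValuationSubring (AlgebraicClosure ℚ), P.LiesOverPrime (q : ℕ) →
        ∀ φ : AlgebraicClosure ℚ ≃ₐ[ℚ] AlgebraicClosure ℚ, P.IsFrobeniusAt φ (q : ℕ) →
          ∃ α β : k, α ≠ β ∧ LinearMap.charpoly (ρbar.ρ φ) = (X - C α) * (X - C β)) →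
      finrank (ZMod p) (@Hlc _ _ _ _ (levelQ (q : ℕ))
          (Rep.res (localGaloisToGlobal (q : ℕ)) (adBar p ρbar b)) (hdloc q) 1) ≤
        finrank (ZMod p) (@Hlc _ _ _ _ (levelQ (q : ℕ))
          (Rep.res (localGaloisToGlobal (q : ℕ)) (adBar p ρbar b)) (hdloc q) 0) + d := by
  intro q hqSig hqS hdvd hF
  have : Fact ((q : ℕ).Prime) := ⟨q.2⟩
  have := hdloc q
  have hpq : p ≠ (q : ℕ) := fun h => hqS (h ▸ hpS)
  exact finrank_Hlc_one_adBar_le_of_pow_dvd (q : ℕ) p ρbar b hpq hdvd (hur q hqSig)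
    (fun A τ hA hτ => hF A hA τ hτ) hk

end Frozen

end Fermat.Agent.GP.Loc.TWQFinrank
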