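/-
GATE-P / S56 [P-LOC] node S56-LOC-PADICPLACE (helper29, [P-LOC] sub-owner).

Base facts for the ONE place `P := padicPlace q` of `ℚ̄` at which the pinned model
`Hlc (levelQ q) (Rep.res (localGaloisToGlobal q) N) •` lives (helper98 4098 (F3)/(F4)):

* `mem_nonunits_padicPlace_iff` : `x ∈ P.nonunits ↔ ‖ι x‖ < 1`;
* `padicPlace_liesOverPrime`   : `P.LiesOverPrime q` (so every frozen `∀ P, P.LiesOverPrime q → …`
  hypothesis can be instantiated at `P`);
* `eqDP q : Gq q ≃* ↥(P.decompositionSubgroup ℚ)` (Krasner: `localGaloisToGlobal q` is injective with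
  range `D_P`), `coe_eqDP`, `localGaloisToGlobal_eqDP_symm`;
* `Iq q : Subgroup (Gq q)` := the preimage of the FROZEN inertia group `P.inertiaSubgroupIn ℚ`;
  it is normal and `(Iq q).map (localGaloisToGlobal q) = P.inertiaSubgroupIn ℚ`;
* level transport: `exists_level_of_mem_levelQ` (every open subgroup of `Gq q` contains the
  preimage of `Gal(ℚ̄/L)` for a finite `L/ℚ`) and `exists_mem_levelQ_le` (conversely these
  preimages contain a member of `levelQ q`), so "constant on the cosets of `Gal(ℚ̄/L)`, `L/ℚ`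
  finite" ⟹ `IsLC₁ (levelQ q)` after composing with `localGaloisToGlobal q`
  (`isLC₁_comp_localGaloisToGlobal`).
-/
import Fermat.Agent.GC.Local.KrasnerDec
import Fermat.Agent.GC.Places.Levels
import Fermat.Agent.GC.Prof.Low
import Fermat.Agent.S05.Inertia

set_option autoImplicit false

open scoped Pointwise

namespace Fermat.Agent.GP.Loc.PadicPlace

open Fermat.Agent.GC.Local.KR Fermat.Agent.GC.Places Fermat.Agent.GC.Prof

local notation "Qb" => AlgebraicClosure ℚ

variable (q : ℕ) [Fact q.Prime]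

/-- nonunits of `padicPlace q` in terms of the `q`-adic norm. -/
theorem mem_nonunits_padicPlace_iff {x : Qb} :
    x ∈ (padicPlace q).nonunits ↔ ‖padicEmbedding q x‖ < 1 := by
  by_cases hx : x = 0
  · subst hx
    simp
  · have hx' : padicEmbedding q x ≠ 0 := (map_ne_zero_iff _ (padicEmbedding q).injective).2 hx
    have hpos : 0 < ‖padicEmbedding q x‖ := norm_pos_iff.2 hx'
    rw [Fermat.Agent.S05.mem_nonunits_iff_inv_notMem hx, mem_padicPlace_iff_norm, map_inv₀,
      norm_inv, not_le, one_lt_inv₀ hpos]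

/-- `padicPlace q` lies over `q`. -/
theorem padicPlace_liesOverPrime : (padicPlace q).LiesOverPrime q := by
  show (q : Qb) ∈ (padicPlace q).nonunits
  rw [mem_nonunits_padicPlace_iff, map_natCast, norm_natCast_self]
  have hq1 : (1 : ℝ) < q := by exact_mod_cast (Fact.out : q.Prime).one_lt
  exact inv_lt_one_of_one_lt₀ hq1

/-- **Krasner**: the local Galois group is the decomposition group of `padicPlace q`. -/
noncomputable def eqDP : Gq q ≃* ↥((padicPlace q).decompositionSubgroup ℚ) :=
  (MonoidHom.ofInjective (localGaloisToGlobal_injective q)).trans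
    (MulEquiv.subgroupCongr (range_localGaloisToGlobal_eq q))

@[simp] theorem coe_eqDP (τ : Gq q) :
    ((eqDP q τ : (padicPlace q).decompositionSubgroup ℚ) : Qb ≃ₐ[ℚ] Qb) =
      localGaloisToGlobal q τ := rfl

theorem localGaloisToGlobal_eqDP_symm (σ : (padicPlace q).decompositionSubgroup ℚ) :
    localGaloisToGlobal q ((eqDP q).symm σ) = (σ : Qb ≃ₐ[ℚ] Qb) := by
  have := coe_eqDP q ((eqDP q).symm σ)
  rw [MulEquiv.apply_symm_apply] at this
  exact this.symm

/-- the inertia subgroup of `Gq q` := preimage of the FROZEN inertia group of `padicPlace q`. -/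
noncomputable def Iq : Subgroup (Gq q) :=
  ((padicPlace q).inertiaSubgroupIn ℚ).comap (localGaloisToGlobal q)

theorem mem_Iq_iff (τ : Gq q) :
    τ ∈ Iq q ↔ localGaloisToGlobal q τ ∈ (padicPlace q).inertiaSubgroupIn ℚ := Iff.rfl

instance normal_Iq : (Iq q).Normal := by
  refine ⟨fun σ hσ τ => ?_⟩
  rw [mem_Iq_iff] at hσ ⊢
  rw [map_mul, map_mul, map_inv]
  have h1 := Fermat.Agent.GC.C0.conj_mem_inertiaSubgroupIn (localGaloisToGlobal q τ) hσ
  have h2 : localGaloisToGlobal q τ • padicPlace q = padicPlace q :=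
    localGaloisToGlobal_mem_decompositionSubgroup q τ
  rwa [h2] at h1

/-- the image of `Iq q` in `G_ℚ` is the frozen inertia group. -/
theorem map_Iq :
    (Iq q).map (localGaloisToGlobal q) = (padicPlace q).inertiaSubgroupIn ℚ := by
  rw [Iq, Subgroup.map_comap_eq, inf_eq_right, range_localGaloisToGlobal_eq]
  intro σ hσ
  exact Fermat.Agent.S05.mem_decompositionSubgroup_of_mem_inertiaSubgroupIn hσ

/-- every open subgroup of `Gq q` contains the preimage of `Gal(ℚ̄/L)` for a finite `L/ℚ`. -/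
theorem exists_level_of_mem_levelQ {U : Subgroup (Gq q)} (hU : U ∈ (levelQ q).sets) :
    ∃ L : IntermediateField ℚ Qb, FiniteDimensional ℚ L ∧
      ∀ τ : Gq q, (∀ x ∈ L, localGaloisToGlobal q τ x = x) → τ ∈ U := by
  obtain ⟨E, hE, rfl⟩ := hU
  obtain ⟨L, hL, -, hle⟩ := exists_le_localLevel q E
  refine ⟨L, hL, fun τ hτ => ?_⟩
  have h1 : τ ∈ (localLevel q L).fixingSubgroup := by
    rw [← mem_fixingSubgroup_localLevel_iff, IntermediateField.mem_fixingSubgroup_iff]
    exact hτ
  exact IntermediateField.fixingSubgroup_antitone hle h1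

/-- conversely the preimage of `Gal(ℚ̄/L)`, `L/ℚ` finite, contains an open subgroup of `Gq q`. -/
theorem exists_mem_levelQ_le (L : IntermediateField ℚ Qb) [FiniteDimensional ℚ L] :
    ∃ U ∈ (levelQ q).sets, ∀ τ ∈ U, ∀ x ∈ L, localGaloisToGlobal q τ x = x := by
  refine ⟨(localLevel q L).fixingSubgroup,
    Fermat.Agent.GC.Local.Abs.fixingSubgroup_mem_galLevels _, fun τ hτ => ?_⟩
  have := (mem_fixingSubgroup_localLevel_iff q L τ).mpr hτ
  rwa [IntermediateField.mem_fixingSubgroup_iff] at this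

/-- **level transport**: a function on `G_ℚ` which is constant on the cosets of `Gal(ℚ̄/L)`
(`L/ℚ` finite) pulls back to a level-constant function on `Gq q`. -/
theorem isLC₁_comp_localGaloisToGlobal {X : Type*} (f : (Qb ≃ₐ[ℚ] Qb) → X)
    (hf : ∃ L : IntermediateField ℚ Qb, FiniteDimensional ℚ L ∧
      ∀ g s : Qb ≃ₐ[ℚ] Qb, (∀ x ∈ L, s x = x) → f (g * s) = f g) :
    IsLC₁ (levelQ q) (fun τ : Gq q => f (localGaloisToGlobal q τ)) := by
  obtain ⟨L, hL, h⟩ := hf
  obtain ⟨U, hU, hle⟩ := exists_mem_levelQ_le q L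
  refine ⟨U, hU, fun g s hs => ?_⟩
  show f (localGaloisToGlobal q (g * s)) = f (localGaloisToGlobal q g)
  rw [map_mul]
  exact h _ _ (hle s hs)

end Fermat.Agent.GP.Loc.PadicPlace
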