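/-
GATE-P / S56 [P-LOC] node S56-LOC-CONJ (helper29, [P-LOC] sub-owner).

**Conjugacy of the places of `ℚ̄` over a prime** and its consequence for the frozen (un)ramified
predicates, which quantify over ALL places `P | q`:

* `exists_smul_eq_of_liesOverPrime` : `A, B | q` ⟹ `∃ τ : G_ℚ, τ • A = B`
  (Mathlib `Algebra.IsInvariant.exists_smul_of_under_eq_of_profinite` on `ℤ̄` + helper26's
  `eq_of_centerIdeal_eq`);
* `exists_ne_one_of_exists_ne_one` : a hom `f : G_ℚ →* M` nontrivial on `I_A` is nontrivial on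
  `I_B` for every other place `B | q`;
* `exists_ne_one_of_not_isUnramifiedAt` : `¬ ρbar.IsUnramifiedAt q` (the frozen
  `hmin` for `q ∈ Smin`) ⟹ `ρbar` is ramified at EVERY place `P | q`, in particular at the place
  `padicPlace q` used by the local groups of `GC/**`;
* `exists_toMatRes_ne_one_of_not_isUnramifiedAt` : the same in the `toMatRes ρbar b` form = the
  binder `hram` of `GP/Loc/UnipTame.lean` / `UnipGlue.lean`.
-/
import Fermat.Agent.GL.Local.InertiaHensel
import Fermat.Agent.GC.C0.Level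
import Fermat.Prelude.Def_GaloisRep_Residual
import Fermat.Agent.S53_helper35.MatDict

set_option autoImplicit false

open scoped Pointwise

namespace Fermat.Agent.GP.Loc.PlaceConj

open Fermat.Agent.Common_helper32 Fermat.Agent.GL.Local.InertiaField

attribute [local instance] topZb discreteTopology_Zb continuousSMul_Zb

/-- the centre of a translated place. -/
theorem centerIdeal_smul (τ : GQ) (A : ValuationSubring Qb) :
    centerIdeal (τ • A) = τ • centerIdeal A := by
  ext b
  rw [Ideal.mem_pointwise_smul_iff_inv_smul_mem, mem_centerIdeal, mem_centerIdeal,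
    Fermat.Agent.GC.C0.mem_nonunits_smul_iff]
  rfl

/-- translation preserves the residue characteristic. -/
theorem liesOverPrime_smul (τ : GQ) {A : ValuationSubring Qb} {q : ℕ} (hA : A.LiesOverPrime q) :
    (τ • A).LiesOverPrime q := by
  show (q : Qb) ∈ (τ • A).nonunits
  rw [Fermat.Agent.GC.C0.mem_nonunits_smul_iff, map_natCast]
  exact hA

/-- **`G_ℚ` acts transitively on the places of `ℚ̄` over `q`.** -/
theorem exists_smul_eq_of_liesOverPrime {q : ℕ} (hq : q.Prime) (A B : ValuationSubring Qb)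
    (hA : A.LiesOverPrime q) (hB : B.LiesOverPrime q) : ∃ τ : GQ, τ • A = B := by
  have hA' : (q : Qb) ∈ A.nonunits := hA
  have hB' : (q : Qb) ∈ B.nonunits := hB
  have h1 := (centerIdeal_liesOver A q hq hA').over
  have h2 := (centerIdeal_liesOver B q hq hB').over
  obtain ⟨τ, hτ⟩ := Algebra.IsInvariant.exists_smul_of_under_eq_of_profinite (A := ℤ) (B := Zb)
    (G := GQ) (centerIdeal A) (centerIdeal B) (h1.symm.trans h2)
  refine ⟨τ, ?_⟩
  have h3 : centerIdeal (τ • A) = centerIdeal B := by rw [centerIdeal_smul, hτ]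
  exact eq_of_centerIdeal_eq B hq hB' (τ • A) (liesOverPrime_smul τ hA) h3

/-- nontriviality on inertia does not depend on the place over `q`. -/
theorem exists_ne_one_of_exists_ne_one {M : Type*} [Monoid M] (f : GQ →* M) {q : ℕ} (hq : q.Prime)
    (A B : ValuationSubring Qb) (hA : A.LiesOverPrime q) (hB : B.LiesOverPrime q)
    (h : ∃ σ ∈ A.inertiaSubgroupIn ℚ, f σ ≠ 1) : ∃ σ ∈ B.inertiaSubgroupIn ℚ, f σ ≠ 1 := by
  obtain ⟨σ, hσ, hne⟩ := h
  obtain ⟨τ, rfl⟩ := exists_smul_eq_of_liesOverPrime hq A B hA hB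
  refine ⟨τ * σ * τ⁻¹, Fermat.Agent.GC.C0.conj_mem_inertiaSubgroupIn τ hσ, fun h1 => hne ?_⟩
  rw [map_mul, map_mul] at h1
  have h2 : f τ⁻¹ * (f τ * f σ * f τ⁻¹) * f τ = f τ⁻¹ * 1 * f τ := by rw [h1]
  have e1 : f τ⁻¹ * f τ = 1 := by rw [← map_mul, inv_mul_cancel, map_one]
  calc f σ = (f τ⁻¹ * f τ) * f σ * (f τ⁻¹ * f τ) := by rw [e1, one_mul, mul_one]
    _ = f τ⁻¹ * (f τ * f σ * f τ⁻¹) * f τ := by simp only [mul_assoc]
    _ = f τ⁻¹ * 1 * f τ := h2
    _ = 1 := by rw [mul_one, e1]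

/-- **a residual representation ramified at `q` is ramified at every place over `q`.** -/
theorem exists_ne_one_of_not_isUnramifiedAt {k : Type} [Field k]
    (ρbar : ResidualGaloisRep k) {q : ℕ} (hq : q.Prime) (h : ¬ ρbar.IsUnramifiedAt q)
    (P : ValuationSubring Qb) (hP : P.LiesOverPrime q) :
    ∃ σ ∈ P.inertiaSubgroupIn ℚ, ρbar.ρ σ ≠ 1 := by
  unfold ResidualGaloisRep.IsUnramifiedAt at h
  push Not at h
  obtain ⟨A, hA, σ, hσ, hne⟩ := h
  exact exists_ne_one_of_exists_ne_one ρbar.ρ hq A P hA hP ⟨σ, hσ, hne⟩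

/-- the same in matrix form (`hram` of `UnipTame.tangentCocycle_coboundary_on_inertia'`). -/
theorem exists_toMatRes_ne_one_of_not_isUnramifiedAt {k : Type} [Field k]
    (ρbar : ResidualGaloisRep k) (b : Module.Basis (Fin 2) k ρbar.V) {q : ℕ} (hq : q.Prime)
    (h : ¬ ρbar.IsUnramifiedAt q) (P : ValuationSubring Qb) (hP : P.LiesOverPrime q) :
    ∃ σ ∈ P.inertiaSubgroupIn ℚ, Fermat.Agent.S53_helper35.toMatRes ρbar b σ ≠ 1 := by
  obtain ⟨σ, hσ, hne⟩ := exists_ne_one_of_not_isUnramifiedAt ρbar hq h P hP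
  refine ⟨σ, hσ, fun h1 => hne ?_⟩
  rw [Fermat.Agent.S53_helper35.toMatRes_apply] at h1
  have h2 : LinearMap.toMatrix b b (ρbar.ρ σ) = LinearMap.toMatrix b b 1 := by
    rw [h1, LinearMap.toMatrix_one]
  exact (LinearMap.toMatrix b b).injective h2

end Fermat.Agent.GP.Loc.PlaceConj
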