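/-
GATE-P (S56, zero-regret) / [P-LOC] leaf S56-LOC-SORD part 3 (helper79).

The DIMENSION COUNT for the strict-ordinary local condition at `p`, as pure linear algebra on
explicit cocycles (Mathlib only, no cohomology API, any group `D`, any field `k`).

`r : D →* M₂(k)` is a representation which is upper triangular in the basis `g`
(`(g⁻¹ r(σ) g) 1 0 = 0`), `cob r X σ = X - r σ X r σ⁻¹` is the coboundary of `X`,
`nval g f σ = f σ • (g E₁₂ g⁻¹)` is the `N`-valued function attached to `f : D → k`.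
If `ZN` is ANY finite-dimensional space of functions `f : D → k` containing all `f` with
`nval g f` a coboundary of a trace-zero matrix (e.g. the level-constant `ω`-cocycles), and `π` is ANY linear map
killing the coboundaries of trace-zero matrices (e.g. `cocycles → H¹`), then

  `dim π(nval g ZN) + 2 ≤ dim ZN + dim (ad⁰)^D`.

With the single cohomological input `dim ZN ≤ 3` (`= h¹(D_p, k(ω)) + 1 = 2 + 1`, Kummer theory)
this is the bound `dim L_p ≤ h⁰(D_p, ad⁰ρ̄) + 1` needed in the Greenberg–Wiles count.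
-/
import Mathlib

set_option autoImplicit false

namespace Fermat.Agent.GP.Loc.StrictOrdDim

open Matrix Module

variable {D : Type*} [Group D] {k : Type*} [Field k]

/-- The elementary nilpotent matrix `E₁₂`. -/
def E12 (k : Type*) [Field k] : Matrix (Fin 2) (Fin 2) k := !![0, 1; 0, 0]

/-- The coboundary of `X` for the adjoint action of `r`: `σ ↦ X - r σ * X * r σ⁻¹`. -/
def cob (r : D →* Matrix (Fin 2) (Fin 2) k) :
    Matrix (Fin 2) (Fin 2) k →ₗ[k] (D → Matrix (Fin 2) (Fin 2) k) where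
  toFun X σ := X - r σ * X * r σ⁻¹
  map_add' X Y := by
    funext σ
    simp only [Pi.add_apply, Matrix.mul_add, Matrix.add_mul]
    abel
  map_smul' c X := by
    funext σ
    simp only [Pi.smul_apply, RingHom.id_apply, Matrix.mul_smul, Matrix.smul_mul, smul_sub]

@[simp] theorem cob_apply (r : D →* Matrix (Fin 2) (Fin 2) k) (X : Matrix (Fin 2) (Fin 2) k)
    (σ : D) : cob r X σ = X - r σ * X * r σ⁻¹ := rfl

/-- The `N`-valued function attached to `f : D → k` in the basis `g`: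
`σ ↦ f σ • (g * E₁₂ * g⁻¹)`. -/
def nval (g : GL (Fin 2) k) : (D → k) →ₗ[k] (D → Matrix (Fin 2) (Fin 2) k) where
  toFun f σ := f σ • ((g : Matrix (Fin 2) (Fin 2) k) * E12 k *
    ((g⁻¹ : GL (Fin 2) k) : Matrix (Fin 2) (Fin 2) k))
  map_add' f f' := by
    funext σ
    simp only [Pi.add_apply, add_smul]
  map_smul' c f := by
    funext σ
    simp only [Pi.smul_apply, RingHom.id_apply, smul_eq_mul, mul_smul]

omit [Group D] in
@[simp] theorem nval_apply (g : GL (Fin 2) k) (f : D → k) (σ : D) :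
    nval g f σ = f σ • ((g : Matrix (Fin 2) (Fin 2) k) * E12 k *
      ((g⁻¹ : GL (Fin 2) k) : Matrix (Fin 2) (Fin 2) k)) := rfl

/-- The invariants of `ad⁰ r`: trace-zero matrices commuting with `r`. -/
def inv0 (r : D →* Matrix (Fin 2) (Fin 2) k) : Submodule k (Matrix (Fin 2) (Fin 2) k) where
  carrier := {X | X.trace = 0 ∧ ∀ σ, r σ * X = X * r σ}
  add_mem' := by
    rintro X Y ⟨hX, hX'⟩ ⟨hY, hY'⟩
    refine ⟨by rw [Matrix.trace_add, hX, hY, add_zero], fun σ => ?_⟩
    rw [Matrix.mul_add, Matrix.add_mul, hX' σ, hY' σ]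
  zero_mem' := ⟨by simp, fun σ => by rw [Matrix.mul_zero, Matrix.zero_mul]⟩
  smul_mem' := by
    rintro c X ⟨hX, hX'⟩
    refine ⟨by rw [Matrix.trace_smul, hX, smul_zero], fun σ => ?_⟩
    rw [Matrix.mul_smul, Matrix.smul_mul, hX' σ]

theorem mem_inv0 {r : D →* Matrix (Fin 2) (Fin 2) k} {X : Matrix (Fin 2) (Fin 2) k} :
    X ∈ inv0 r ↔ X.trace = 0 ∧ ∀ σ, r σ * X = X * r σ := Iff.rfl

/-! ### The matrix identity -/

/-- For `T` upper triangular with (upper triangular) inverse `T'` and `X' = [[u,t],[0,-u]]`: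
`X' - T X' T' = (t (1 - T₀₀ T'₁₁) + 2 u T₀₁ T'₁₁) • E₁₂`. -/
theorem borel_conj {T T' : Matrix (Fin 2) (Fin 2) k} (h10 : T 1 0 = 0) (h10' : T' 1 0 = 0)
    (hTT' : T * T' = 1) (u t : k) :
    !![u, t; 0, -u] - T * !![u, t; 0, -u] * T' =
      (t * (1 - T 0 0 * T' 1 1) + 2 * u * (T 0 1 * T' 1 1)) • E12 k := by
  have e00 : T 0 0 * T' 0 0 = 1 := by
    have := congrFun (congrFun hTT' 0) 0
    simpa [Matrix.mul_apply, Fin.sum_univ_two, h10'] using this
  have e01 : T 0 0 * T' 0 1 + T 0 1 * T' 1 1 = 0 := by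
    have := congrFun (congrFun hTT' 0) 1
    simpa [Matrix.mul_apply, Fin.sum_univ_two] using this
  have e11 : T 1 1 * T' 1 1 = 1 := by
    have := congrFun (congrFun hTT' 1) 1
    simpa [Matrix.mul_apply, Fin.sum_univ_two, h10] using this
  ext i j
  fin_cases i <;> fin_cases j
  · simp [E12, Matrix.mul_apply, Fin.sum_univ_two, h10']
    linear_combination (-u) * e00
  · simp [E12, Matrix.mul_apply, Fin.sum_univ_two]
    linear_combination (-u) * e01
  · simp [E12, Matrix.mul_apply, Fin.sum_univ_two, h10, h10']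
  · simp [E12, Matrix.mul_apply, Fin.sum_univ_two, h10]
    linear_combination (u) * e11

/-! ### The Borel coboundaries are `N`-valued -/

/-- `r` in the basis `g`. -/
def conjBy (g : GL (Fin 2) k) (r : D →* Matrix (Fin 2) (Fin 2) k) (σ : D) :
    Matrix (Fin 2) (Fin 2) k :=
  ((g⁻¹ : GL (Fin 2) k) : Matrix (Fin 2) (Fin 2) k) * r σ * (g : Matrix (Fin 2) (Fin 2) k)

theorem conjBy_mul_inv (g : GL (Fin 2) k) (r : D →* Matrix (Fin 2) (Fin 2) k) (σ : D) :
    conjBy g r σ * conjBy g r σ⁻¹ = 1 := by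
  unfold conjBy
  have h1 : (g : Matrix (Fin 2) (Fin 2) k) * ((g⁻¹ : GL (Fin 2) k) : Matrix (Fin 2) (Fin 2) k) = 1 := by
    rw [← Units.val_mul, mul_inv_cancel, Units.val_one]
  have h2 : ((g⁻¹ : GL (Fin 2) k) : Matrix (Fin 2) (Fin 2) k) * (g : Matrix (Fin 2) (Fin 2) k) = 1 := by
    rw [← Units.val_mul, inv_mul_cancel, Units.val_one]
  have h3 : r σ * r σ⁻¹ = 1 := by rw [← map_mul, mul_inv_cancel, map_one]
  calc ((g⁻¹ : GL (Fin 2) k) : Matrix (Fin 2) (Fin 2) k) * r σ * (g : Matrix (Fin 2) (Fin 2) k) *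
        (((g⁻¹ : GL (Fin 2) k) : Matrix (Fin 2) (Fin 2) k) * r σ⁻¹ * (g : Matrix (Fin 2) (Fin 2) k))
      = ((g⁻¹ : GL (Fin 2) k) : Matrix (Fin 2) (Fin 2) k) * (r σ *
          ((g : Matrix (Fin 2) (Fin 2) k) * ((g⁻¹ : GL (Fin 2) k) : Matrix (Fin 2) (Fin 2) k)) *
            r σ⁻¹) * (g : Matrix (Fin 2) (Fin 2) k) := by
        simp only [Matrix.mul_assoc]
    _ = 1 := by rw [h1, Matrix.mul_one, h3, Matrix.mul_one, h2]

/-- The trace-zero upper triangular matrix with parameters `(u, t)`, in the basis `g`. -/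
def bor (g : GL (Fin 2) k) : (k × k) →ₗ[k] Matrix (Fin 2) (Fin 2) k where
  toFun ut := (g : Matrix (Fin 2) (Fin 2) k) * !![ut.1, ut.2; 0, -ut.1] *
    ((g⁻¹ : GL (Fin 2) k) : Matrix (Fin 2) (Fin 2) k)
  map_add' a b := by
    rw [← Matrix.add_mul, ← Matrix.mul_add]
    congr 2
    ext i j
    fin_cases i <;> fin_cases j <;> simp [add_comm]
  map_smul' c a := by
    rw [RingHom.id_apply, ← Matrix.smul_mul, ← Matrix.mul_smul]
    congr 2
    ext i j
    fin_cases i <;> fin_cases j <;> simp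

theorem bor_apply (g : GL (Fin 2) k) (ut : k × k) :
    bor g ut = (g : Matrix (Fin 2) (Fin 2) k) * !![ut.1, ut.2; 0, -ut.1] *
      ((g⁻¹ : GL (Fin 2) k) : Matrix (Fin 2) (Fin 2) k) := rfl

theorem trace_bor (g : GL (Fin 2) k) (ut : k × k) : (bor g ut).trace = 0 := by
  rw [bor_apply, Matrix.trace_mul_cycle, ← Units.val_mul, inv_mul_cancel, Units.val_one,
    Matrix.one_mul, Matrix.trace_fin_two]
  simp

theorem bor_injective (g : GL (Fin 2) k) : Function.Injective (bor g) := by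
  intro a b hab
  have h1 : ((g⁻¹ : GL (Fin 2) k) : Matrix (Fin 2) (Fin 2) k) * bor g a *
      (g : Matrix (Fin 2) (Fin 2) k) = ((g⁻¹ : GL (Fin 2) k) : Matrix (Fin 2) (Fin 2) k) * bor g b *
      (g : Matrix (Fin 2) (Fin 2) k) := by rw [hab]
  have key : ∀ c : k × k, ((g⁻¹ : GL (Fin 2) k) : Matrix (Fin 2) (Fin 2) k) * bor g c *
      (g : Matrix (Fin 2) (Fin 2) k) = !![c.1, c.2; 0, -c.1] := by
    intro c
    have h2 : ((g⁻¹ : GL (Fin 2) k) : Matrix (Fin 2) (Fin 2) k) * (g : Matrix (Fin 2) (Fin 2) k)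
        = 1 := by rw [← Units.val_mul, inv_mul_cancel, Units.val_one]
    rw [bor_apply]
    calc ((g⁻¹ : GL (Fin 2) k) : Matrix (Fin 2) (Fin 2) k) * ((g : Matrix (Fin 2) (Fin 2) k) *
          !![c.1, c.2; 0, -c.1] * ((g⁻¹ : GL (Fin 2) k) : Matrix (Fin 2) (Fin 2) k)) *
          (g : Matrix (Fin 2) (Fin 2) k)
        = (((g⁻¹ : GL (Fin 2) k) : Matrix (Fin 2) (Fin 2) k) * (g : Matrix (Fin 2) (Fin 2) k)) *
          !![c.1, c.2; 0, -c.1] * (((g⁻¹ : GL (Fin 2) k) : Matrix (Fin 2) (Fin 2) k) *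
          (g : Matrix (Fin 2) (Fin 2) k)) := by simp only [Matrix.mul_assoc]
      _ = !![c.1, c.2; 0, -c.1] := by rw [h2, Matrix.one_mul, Matrix.mul_one]
  rw [key a, key b] at h1
  have e1 := congrFun (congrFun h1 0) 0
  have e2 := congrFun (congrFun h1 0) 1
  simp at e1 e2
  exact Prod.ext e1 e2

/-- The function `f` with `cob r (bor g (u,t)) = nval g f`. -/
def fB (g : GL (Fin 2) k) (r : D →* Matrix (Fin 2) (Fin 2) k) : (k × k) →ₗ[k] (D → k) where
  toFun ut σ := ut.2 * (1 - conjBy g r σ 0 0 * conjBy g r σ⁻¹ 1 1) +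
    2 * ut.1 * (conjBy g r σ 0 1 * conjBy g r σ⁻¹ 1 1)
  map_add' a b := by
    funext σ
    simp only [Prod.fst_add, Prod.snd_add, Pi.add_apply]
    ring
  map_smul' c a := by
    funext σ
    simp only [Prod.smul_fst, Prod.smul_snd, smul_eq_mul, RingHom.id_apply, Pi.smul_apply]
    ring

/-- **The coboundary of a Borel matrix is `N`-valued** (for `r` upper triangular in the basis
`g`). -/
theorem cob_bor (g : GL (Fin 2) k) (r : D →* Matrix (Fin 2) (Fin 2) k)
    (hut : ∀ σ, conjBy g r σ 1 0 = 0) (ut : k × k) :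
    cob r (bor g ut) = nval g (fB g r ut) := by
  funext σ
  have h1 : (g : Matrix (Fin 2) (Fin 2) k) * ((g⁻¹ : GL (Fin 2) k) : Matrix (Fin 2) (Fin 2) k) = 1 := by
    rw [← Units.val_mul, mul_inv_cancel, Units.val_one]
  have hr : ∀ τ : D, r τ = (g : Matrix (Fin 2) (Fin 2) k) * conjBy g r τ *
      ((g⁻¹ : GL (Fin 2) k) : Matrix (Fin 2) (Fin 2) k) := by
    intro τ
    unfold conjBy
    calc r τ = ((g : Matrix (Fin 2) (Fin 2) k) * ((g⁻¹ : GL (Fin 2) k) : Matrix (Fin 2) (Fin 2) k))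
          * r τ * ((g : Matrix (Fin 2) (Fin 2) k) *
            ((g⁻¹ : GL (Fin 2) k) : Matrix (Fin 2) (Fin 2) k)) := by
          rw [h1, Matrix.one_mul, Matrix.mul_one]
      _ = _ := by simp only [Matrix.mul_assoc]
  have h2 : ((g⁻¹ : GL (Fin 2) k) : Matrix (Fin 2) (Fin 2) k) * (g : Matrix (Fin 2) (Fin 2) k)
      = 1 := by rw [← Units.val_mul, inv_mul_cancel, Units.val_one]
  have key := borel_conj (hut σ) (hut σ⁻¹) (conjBy_mul_inv g r σ) ut.1 ut.2
  rw [cob_apply, nval_apply, bor_apply]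
  have e : r σ * ((g : Matrix (Fin 2) (Fin 2) k) * !![ut.1, ut.2; 0, -ut.1] *
      ((g⁻¹ : GL (Fin 2) k) : Matrix (Fin 2) (Fin 2) k)) * r σ⁻¹ =
      (g : Matrix (Fin 2) (Fin 2) k) * (conjBy g r σ * !![ut.1, ut.2; 0, -ut.1] * conjBy g r σ⁻¹) *
      ((g⁻¹ : GL (Fin 2) k) : Matrix (Fin 2) (Fin 2) k) := by
    conv_lhs => rw [hr σ, hr σ⁻¹]
    calc (g : Matrix (Fin 2) (Fin 2) k) * conjBy g r σ *
          ((g⁻¹ : GL (Fin 2) k) : Matrix (Fin 2) (Fin 2) k) * ((g : Matrix (Fin 2) (Fin 2) k) *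
          !![ut.1, ut.2; 0, -ut.1] * ((g⁻¹ : GL (Fin 2) k) : Matrix (Fin 2) (Fin 2) k)) *
          ((g : Matrix (Fin 2) (Fin 2) k) * conjBy g r σ⁻¹ *
          ((g⁻¹ : GL (Fin 2) k) : Matrix (Fin 2) (Fin 2) k))
        = (g : Matrix (Fin 2) (Fin 2) k) * (conjBy g r σ *
          (((g⁻¹ : GL (Fin 2) k) : Matrix (Fin 2) (Fin 2) k) * (g : Matrix (Fin 2) (Fin 2) k)) *
          !![ut.1, ut.2; 0, -ut.1] * (((g⁻¹ : GL (Fin 2) k) : Matrix (Fin 2) (Fin 2) k) *
          (g : Matrix (Fin 2) (Fin 2) k)) * conjBy g r σ⁻¹) *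
          ((g⁻¹ : GL (Fin 2) k) : Matrix (Fin 2) (Fin 2) k) := by simp only [Matrix.mul_assoc]
      _ = _ := by rw [h2, Matrix.mul_one, Matrix.mul_one]
  rw [e, ← Matrix.sub_mul, ← Matrix.mul_sub, key]
  show _ = (fB g r ut σ) • _
  rw [Matrix.mul_smul, Matrix.smul_mul]
  rfl

/-- If the coboundary of `X` vanishes then `X` commutes with `r`. -/
theorem comm_of_cob_eq_zero {r : D →* Matrix (Fin 2) (Fin 2) k} {X : Matrix (Fin 2) (Fin 2) k}
    (h : cob r X = 0) (σ : D) : r σ * X = X * r σ := by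
  have h1 : X = r σ * X * r σ⁻¹ := by
    have := congrFun h σ
    rw [cob_apply, Pi.zero_apply, sub_eq_zero] at this
    exact this
  have h3 : r σ⁻¹ * r σ = 1 := by rw [← map_mul, inv_mul_cancel, map_one]
  calc r σ * X = r σ * X * (r σ⁻¹ * r σ) := by rw [h3, Matrix.mul_one]
    _ = (r σ * X * r σ⁻¹) * r σ := by simp only [Matrix.mul_assoc]
    _ = X * r σ := by rw [← h1]

/-! ### The count -/

/-- **The dimension count** (see the header).  `ZN` is any finite-dimensional space of functions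
`D → k` containing every `f` for which `nval g f` is the coboundary of a trace-zero matrix; `π` is
any linear map killing the coboundaries of trace-zero matrices. -/
theorem finrank_map_nval_add_two_le (r : D →* Matrix (Fin 2) (Fin 2) k) (g : GL (Fin 2) k)
    (hut : ∀ σ, conjBy g r σ 1 0 = 0)
    (ZN : Submodule k (D → k)) [Module.Finite k ZN]
    (hZN : ∀ f : D → k,
      (∃ X : Matrix (Fin 2) (Fin 2) k, X.trace = 0 ∧ nval g f = cob r X) → f ∈ ZN)
    {H : Type*} [AddCommGroup H] [Module k H] (π : (D → Matrix (Fin 2) (Fin 2) k) →ₗ[k] H)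
    (hπ : ∀ X : Matrix (Fin 2) (Fin 2) k, X.trace = 0 → π (cob r X) = 0) :
    finrank k ((ZN.map (nval g)).map π) + 2 ≤ finrank k ZN + finrank k (inv0 r) := by
  classical
  -- the class map on `ZN`
  set Ψ : ZN →ₗ[k] H := (π ∘ₗ nval g) ∘ₗ ZN.subtype with hΨ
  have hrange : LinearMap.range Ψ = (ZN.map (nval g)).map π := by
    rw [hΨ, LinearMap.range_comp, Submodule.range_subtype, Submodule.map_comp]
  -- the Borel coboundaries inside `ZN`
  have hmem : ∀ ut : k × k, fB g r ut ∈ ZN := fun ut =>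
    hZN _ ⟨bor g ut, trace_bor g ut, (cob_bor g r hut ut).symm⟩
  set Φ : (k × k) →ₗ[k] ZN := (fB g r).codRestrict ZN hmem with hΦ
  have hΦker : LinearMap.range Φ ≤ LinearMap.ker Ψ := by
    rintro _ ⟨ut, rfl⟩
    rw [LinearMap.mem_ker]
    show π (nval g (fB g r ut)) = 0
    rw [← cob_bor g r hut ut]
    exact hπ _ (trace_bor g ut)
  -- the kernel of `Φ` injects into the invariants
  have hkerle : finrank k (LinearMap.ker Φ) ≤ finrank k (inv0 r) := by
    have hin : ∀ x : LinearMap.ker Φ, bor g (x : k × k) ∈ inv0 r := by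
      rintro ⟨ut, hut'⟩
      have h0 : fB g r ut = 0 := by
        have := congrArg Subtype.val (LinearMap.mem_ker.1 hut')
        simpa [hΦ] using this
      have hc : cob r (bor g ut) = 0 := by rw [cob_bor g r hut ut, h0, map_zero]
      exact ⟨trace_bor g ut, comm_of_cob_eq_zero hc⟩
    let ι : LinearMap.ker Φ →ₗ[k] inv0 r :=
      ((bor g) ∘ₗ (LinearMap.ker Φ).subtype).codRestrict (inv0 r) hin
    have hι : Function.Injective ι := by
      intro x y hxy
      have : bor g (x : k × k) = bor g (y : k × k) := congrArg Subtype.val hxy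
      exact Subtype.ext (bor_injective g this)
    exact LinearMap.finrank_le_finrank_of_injective hι
  have h1 := LinearMap.finrank_range_add_finrank_ker Ψ
  have h2 := LinearMap.finrank_range_add_finrank_ker Φ
  have h3 : finrank k (LinearMap.range Φ) ≤ finrank k (LinearMap.ker Ψ) :=
    Submodule.finrank_mono hΦker
  have h4 : finrank k (k × k) = 2 := by
    rw [Module.finrank_prod, Module.finrank_self]
  rw [← hrange]
  omega

/-- **`dim L_p ≤ h⁰(D_p, ad⁰ρ̄) + 1`**, given the single cohomological input `dim ZN ≤ 3`. -/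
theorem finrank_map_nval_le (r : D →* Matrix (Fin 2) (Fin 2) k) (g : GL (Fin 2) k)
    (hut : ∀ σ, conjBy g r σ 1 0 = 0)
    (ZN : Submodule k (D → k)) [Module.Finite k ZN] (h3 : finrank k ZN ≤ 3)
    (hZN : ∀ f : D → k,
      (∃ X : Matrix (Fin 2) (Fin 2) k, X.trace = 0 ∧ nval g f = cob r X) → f ∈ ZN)
    {H : Type*} [AddCommGroup H] [Module k H] (π : (D → Matrix (Fin 2) (Fin 2) k) →ₗ[k] H)
    (hπ : ∀ X : Matrix (Fin 2) (Fin 2) k, X.trace = 0 → π (cob r X) = 0) :
    finrank k ((ZN.map (nval g)).map π) ≤ finrank k (inv0 r) + 1 := by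
  have := finrank_map_nval_add_two_le r g hut ZN hZN π hπ
  omega

end Fermat.Agent.GP.Loc.StrictOrdDim
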