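/-
GATE-P / S56 node S56-FLAT-CASES, file 1 (helper36).  Wild and tame inertia in the frozen language.

`A` a valuation subring of `ℚ̄` over a prime `q` (ANY residue characteristic, in particular the
residue characteristic of the coefficients), `I = A.inertiaSubgroupIn ℚ`,
`D = A.decompositionSubgroup ℚ`.  No discrete valuation ring, no completion, no ramification
filtration: everything is expressed through the multiplicative congruence
`MC a b : a / b ≡ 1 mod 𝔪_A` and the "tame symbol" `σ x / x mod 𝔪_A`.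

* `Wild A σ x : σ x / x ≡ 1 mod 𝔪_A`; `WildOn A σ E` : wild on every nonzero element of `E`;
  `wildInertiaAt A E` : the subgroup `{σ ∈ I | WildOn A σ E}` (`E` normal), normalised by `D`.
* (W1) `exists_pow_fixes_of_wildOn`, `exists_pow_eq_one_of_wildOn` : a wild element acts on a finite
  normal level through an element of `q`-power order (trace lemma).
* (W2) `wild_commutator` : commutators of `I` are wild everywhere (`I / wild` is abelian).
* (W3) `exists_coprime_pow_wildOn` : for `σ ∈ I` and a finite normal level `E` some power `σ ^ m`,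
  `m` prime to `q`, is wild on `E` (`I / wild` has order prime to `q`).
* (W4) `tame_relation` : `φ ∈ D` acting as `a ↦ a ^ N` on the residue field, `τ ∈ I` ⟹
  `φ τ φ⁻¹ (τ ^ N)⁻¹` is wild everywhere; `frobenius_sub_pow_mem` feeds it from `A.IsFrobeniusAt φ q`.
* (W5) `wild_conj`, `wildOn_conj`, `conj_mem_inertia` : stability under conjugation by `D`.
-/
import Mathlib
import Fermat.Agent.GL.Local.InertiaField
import Fermat.Agent.S13.BranchInertia

set_option autoImplicit false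

open Fermat.Agent.Common_helper32

namespace Fermat.Agent.GP.Loc.WildInertia

variable (A : ValuationSubring Qb)

/-! ### The maximal ideal as a subset of `ℚ̄` -/

theorem zero_mem_nonunits : (0 : Qb) ∈ A.nonunits := by
  rw [A.mem_nonunits_iff, Valuation.map_zero]
  exact zero_lt_one

theorem one_notMem_nonunits : (1 : Qb) ∉ A.nonunits := by
  rw [A.mem_nonunits_iff, Valuation.map_one]
  exact lt_irrefl 1

theorem add_mem_nonunits {a b : Qb} (ha : a ∈ A.nonunits) (hb : b ∈ A.nonunits) :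
    a + b ∈ A.nonunits := by
  rw [A.mem_nonunits_iff] at ha hb ⊢
  exact Valuation.map_add_lt _ ha hb

theorem neg_mem_nonunits {a : Qb} (ha : a ∈ A.nonunits) : -a ∈ A.nonunits := by
  rw [A.mem_nonunits_iff] at ha ⊢
  rwa [Valuation.map_neg]

theorem sub_mem_nonunits {a b : Qb} (ha : a ∈ A.nonunits) (hb : b ∈ A.nonunits) :
    a - b ∈ A.nonunits := by
  rw [sub_eq_add_neg]
  exact add_mem_nonunits A ha (neg_mem_nonunits A hb)

theorem sum_mem_nonunits {ι : Type*} (s : Finset ι) (f : ι → Qb)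
    (h : ∀ i ∈ s, f i ∈ A.nonunits) : ∑ i ∈ s, f i ∈ A.nonunits := by
  rw [A.mem_nonunits_iff]
  exact Valuation.map_sum_lt _ one_ne_zero fun i hi => (A.mem_nonunits_iff).1 (h i hi)

theorem mem_nonunits_of_pow_mem {z : Qb} {n : ℕ} (h : z ^ n ∈ A.nonunits) : z ∈ A.nonunits := by
  rw [A.mem_nonunits_iff] at h ⊢
  by_contra hge
  rw [not_lt] at hge
  have h1 : 1 ≤ A.valuation (z ^ n) := by
    rw [Valuation.map_pow]
    exact one_le_pow₀ hge
  exact absurd h (not_lt.2 h1)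

theorem mem_of_sub_one_mem_nonunits {a : Qb} (ha : a - 1 ∈ A.nonunits) : a ∈ A := by
  have h1 : a - 1 ∈ A := A.nonunits_le ha
  have : a = (a - 1) + 1 := by ring
  rw [this]
  exact A.add_mem _ _ h1 A.one_mem

/-- `a ≡ 1`, `b ≡ 1 ⟹ ab ≡ 1`. -/
theorem mul_sub_one_mem_nonunits {a b : Qb} (ha : a - 1 ∈ A.nonunits) (hb : b - 1 ∈ A.nonunits) :
    a * b - 1 ∈ A.nonunits := by
  have hbA : b ∈ A := mem_of_sub_one_mem_nonunits A hb
  have e : a * b - 1 = (a - 1) * b + (b - 1) := by ring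
  rw [e]
  exact add_mem_nonunits A (Fermat.Agent.S05.mul_mem_nonunits_of_mem ha hbA) hb

/-- `a ≡ 1 ⟹ a⁻¹ ≡ 1`. -/
theorem inv_sub_one_mem_nonunits {a : Qb} (ha : a - 1 ∈ A.nonunits) : a⁻¹ - 1 ∈ A.nonunits := by
  have hv : A.valuation a = 1 := by
    have h1 : A.valuation (a - 1) < 1 := (A.mem_nonunits_iff).1 ha
    have h2 : A.valuation (a - 1 + 1) = 1 := by
      have := Valuation.map_add_eq_of_lt_right (v := A.valuation) (x := a - 1) (y := 1)
        (by rw [Valuation.map_one]; exact h1)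
      rw [this, Valuation.map_one]
    rwa [sub_add_cancel] at h2
  have ha0 : a ≠ 0 := by
    rintro rfl
    rw [Valuation.map_zero] at hv
    exact zero_ne_one hv
  have hinv : a⁻¹ ∈ A := by
    rw [← A.valuation_le_one_iff, map_inv₀, hv, inv_one]
  have e : a⁻¹ - 1 = -((a - 1) * a⁻¹) := by
    field_simp
    ring
  rw [e]
  exact neg_mem_nonunits A (Fermat.Agent.S05.mul_mem_nonunits_of_mem ha hinv)

/-- in residue characteristic `q`: `w ^ (q ^ b) ≡ 1 ⟹ w ≡ 1`. -/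
theorem sub_one_mem_nonunits_of_pow {q : ℕ} (hq : q.Prime) (hA : (q : Qb) ∈ A.nonunits) {w : Qb}
    (hw : w ∈ A) (b : ℕ) (h : w ^ q ^ b - 1 ∈ A.nonunits) : w - 1 ∈ A.nonunits := by
  obtain ⟨r, hr⟩ := exists_add_pow_prime_pow_eq hq ((⟨w, hw⟩ : A) - 1) 1 b
  have hr' : w ^ q ^ b = (w - 1) ^ q ^ b + 1 + (q : Qb) * (w - 1) * (r : Qb) := by
    have := congrArg (fun z : A => (z : Qb)) hr
    simpa using this
  have e : (w - 1) ^ q ^ b = (w ^ q ^ b - 1) - (q : Qb) * ((w - 1) * (r : Qb)) := by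
    rw [hr']
    ring
  apply mem_nonunits_of_pow_mem A (n := q ^ b)
  rw [e]
  have hw1 : w - 1 ∈ A := A.sub_mem hw A.one_mem
  exact sub_mem_nonunits A h
    (Fermat.Agent.S05.mul_mem_nonunits_of_mem hA (A.mul_mem _ _ hw1 r.2))

/-! ### Multiplicative congruence -/

/-- `a ≡ b` multiplicatively: `a / b ≡ 1 mod 𝔪_A`. -/
def MC (a b : Qb) : Prop := a / b - 1 ∈ A.nonunits

variable {A}

theorem MC.right_ne_zero {a b : Qb} (h : MC A a b) : b ≠ 0 := by
  rintro rfl
  unfold MC at h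
  rw [div_zero, zero_sub] at h
  have := neg_mem_nonunits A h
  rw [neg_neg] at this
  exact one_notMem_nonunits A this

theorem MC.left_ne_zero {a b : Qb} (h : MC A a b) : a ≠ 0 := by
  rintro rfl
  unfold MC at h
  rw [zero_div, zero_sub] at h
  have := neg_mem_nonunits A h
  rw [neg_neg] at this
  exact one_notMem_nonunits A this

theorem mc_refl {a : Qb} (ha : a ≠ 0) : MC A a a := by
  unfold MC
  rw [div_self ha, sub_self]
  exact zero_mem_nonunits A

theorem mc_symm {a b : Qb} (h : MC A a b) : MC A b a := by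
  unfold MC at h ⊢
  have := inv_sub_one_mem_nonunits A h
  rwa [inv_div] at this

theorem mc_mul {a b c d : Qb} (h1 : MC A a b) (h2 : MC A c d) : MC A (a * c) (b * d) := by
  unfold MC at h1 h2 ⊢
  rw [mul_div_mul_comm]
  exact mul_sub_one_mem_nonunits A h1 h2

theorem mc_trans {a b c : Qb} (h1 : MC A a b) (h2 : MC A b c) : MC A a c := by
  have hb := h1.right_ne_zero
  unfold MC at h1 h2 ⊢
  have e : a / c = a / b * (b / c) := by rw [div_mul_div_cancel₀ hb]
  rw [e]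
  exact mul_sub_one_mem_nonunits A h1 h2

theorem mc_inv {a b : Qb} (h : MC A a b) : MC A a⁻¹ b⁻¹ := by
  have := mc_symm h
  unfold MC at this ⊢
  rwa [inv_div_inv]

theorem mc_div {a b c d : Qb} (h1 : MC A a b) (h2 : MC A c d) : MC A (a / c) (b / d) := by
  rw [div_eq_mul_inv, div_eq_mul_inv]
  exact mc_mul h1 (mc_inv h2)

theorem mc_pow {a b : Qb} (h : MC A a b) (n : ℕ) : MC A (a ^ n) (b ^ n) := by
  induction n with
  | zero => rw [pow_zero, pow_zero]; exact mc_refl one_ne_zero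
  | succ n ih => rw [pow_succ, pow_succ]; exact mc_mul ih h

theorem mc_one_iff {a : Qb} : MC A a 1 ↔ a - 1 ∈ A.nonunits := by
  unfold MC
  rw [div_one]

theorem mc_of_sub_mem {a b : Qb} (hb0 : b ≠ 0) (hb' : b⁻¹ ∈ A) (h : a - b ∈ A.nonunits) :
    MC A a b := by
  unfold MC
  have e : a / b - 1 = (a - b) * b⁻¹ := by
    field_simp
  rw [e]
  exact Fermat.Agent.S05.mul_mem_nonunits_of_mem h hb'

theorem sub_mem_of_mc {a b : Qb} (hb : b ∈ A) (h : MC A a b) : a - b ∈ A.nonunits := by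
  have hb0 := h.right_ne_zero
  unfold MC at h
  have e : a - b = (a / b - 1) * b := by
    field_simp
  rw [e]
  exact Fermat.Agent.S05.mul_mem_nonunits_of_mem h hb

variable (A)

/-! ### Wild action -/

/-- `σ` acts "wildly" on `x`: `σ x / x ≡ 1 mod 𝔪_A`. -/
def Wild (σ : GQ) (x : Qb) : Prop := MC A (σ x) x

/-- `σ` acts wildly on all nonzero elements of `E`. -/
def WildOn (σ : GQ) (E : IntermediateField ℚ Qb) : Prop := ∀ x ∈ E, x ≠ 0 → Wild A σ x

variable {A}

theorem wild_iff {σ : GQ} {x : Qb} : Wild A σ x ↔ σ x / x - 1 ∈ A.nonunits := Iff.rfl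

theorem wild_one_apply {x : Qb} (hx : x ≠ 0) : Wild A (1 : GQ) x := by
  unfold Wild
  rw [AlgEquiv.one_apply]
  exact mc_refl hx

theorem wild_mul_apply {σ τ : GQ} {x : Qb} (h1 : Wild A σ (τ x)) (h2 : Wild A τ x) :
    Wild A (σ * τ) x := by
  unfold Wild at h1 h2 ⊢
  rw [AlgEquiv.mul_apply]
  exact mc_trans h1 h2

theorem wild_inv_apply {σ : GQ} {x : Qb} (h : Wild A σ (σ⁻¹ x)) : Wild A σ⁻¹ x := by
  unfold Wild at h ⊢
  have e : σ (σ⁻¹ x) = x := by
    rw [← AlgEquiv.mul_apply, mul_inv_cancel, AlgEquiv.one_apply]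
  rw [e] at h
  exact mc_symm h

theorem wild_one (σ : GQ) : Wild A σ 1 := by
  unfold Wild
  rw [map_one]
  exact mc_refl one_ne_zero

theorem wild_mul {σ : GQ} {x y : Qb} (hx : Wild A σ x) (hy : Wild A σ y) : Wild A σ (x * y) := by
  unfold Wild at hx hy ⊢
  rw [map_mul]
  exact mc_mul hx hy

theorem wild_inv {σ : GQ} {x : Qb} (hx : Wild A σ x) : Wild A σ x⁻¹ := by
  unfold Wild at hx ⊢
  rw [map_inv₀]
  exact mc_inv hx

theorem wild_pow {σ : GQ} {x : Qb} (hx : Wild A σ x) (n : ℕ) : Wild A σ (x ^ n) := by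
  unfold Wild at hx ⊢
  rw [map_pow]
  exact mc_pow hx n

theorem wild_zpow {σ : GQ} {x : Qb} (hx : Wild A σ x) (n : ℤ) : Wild A σ (x ^ n) := by
  cases n with
  | ofNat n => rw [Int.ofNat_eq_natCast, zpow_natCast]; exact wild_pow hx n
  | negSucc n => rw [zpow_negSucc]; exact wild_inv (wild_pow hx (n + 1))

/-- Elements of the inertia group act wildly on units of `A`. -/
theorem wild_unit {σ : GQ} (hσ : σ ∈ A.inertiaSubgroupIn ℚ) {u : Qb} (hu0 : u ≠ 0) (hu : u ∈ A)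
    (hu' : u⁻¹ ∈ A) : Wild A σ u :=
  mc_of_sub_mem hu0 hu' (Fermat.Agent.S05.apply_sub_mem_nonunits_of_mem_inertiaSubgroupIn hσ hu)

/-! ### Normal levels -/

theorem apply_mem_of_normal (E : IntermediateField ℚ Qb) [Normal ℚ E] (σ : GQ) {x : Qb}
    (hx : x ∈ E) : σ x ∈ E := by
  have h := AlgEquiv.restrictNormal_commutes σ E ⟨x, hx⟩
  have h' : σ x = ((σ.restrictNormal E ⟨x, hx⟩ : E) : Qb) := h.symm
  rw [h']
  exact (σ.restrictNormal E ⟨x, hx⟩).2

theorem wildOn_one (E : IntermediateField ℚ Qb) : WildOn A (1 : GQ) E :=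
  fun _ _ hx => wild_one_apply hx

theorem wildOn_mul {E : IntermediateField ℚ Qb} [Normal ℚ E] {σ τ : GQ} (h1 : WildOn A σ E)
    (h2 : WildOn A τ E) : WildOn A (σ * τ) E := fun x hx hx0 =>
  wild_mul_apply (h1 (τ x) (apply_mem_of_normal E τ hx) ((map_ne_zero _).2 hx0)) (h2 x hx hx0)

theorem wildOn_inv {E : IntermediateField ℚ Qb} [Normal ℚ E] {σ : GQ} (h : WildOn A σ E) :
    WildOn A σ⁻¹ E := fun x hx hx0 =>
  wild_inv_apply (h (σ⁻¹ x) (apply_mem_of_normal E σ⁻¹ hx) ((map_ne_zero _).2 hx0))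

theorem wildOn_pow {E : IntermediateField ℚ Qb} [Normal ℚ E] {σ : GQ} (h : WildOn A σ E) (n : ℕ) :
    WildOn A (σ ^ n) E := by
  induction n with
  | zero => rw [pow_zero]; exact wildOn_one E
  | succ n ih => rw [pow_succ]; exact wildOn_mul ih h

theorem wildOn_mono {E F : IntermediateField ℚ Qb} (hEF : E ≤ F) {σ : GQ} (h : WildOn A σ F) :
    WildOn A σ E := fun x hx hx0 => h x (hEF hx) hx0

/-- every power of `σ` fixes a finite normal level up to the order of its Galois group. -/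
theorem pow_card_apply (E : IntermediateField ℚ Qb) [FiniteDimensional ℚ E] [Normal ℚ E] (σ : GQ)
    {x : Qb} (hx : x ∈ E) : (σ ^ Nat.card (E ≃ₐ[ℚ] E)) x = x := by
  have h1 : AlgEquiv.restrictNormalHom E (σ ^ Nat.card (E ≃ₐ[ℚ] E)) = 1 := by
    rw [map_pow]
    exact pow_card_eq_one'
  have h2 := AlgEquiv.restrictNormal_commutes (σ ^ Nat.card (E ≃ₐ[ℚ] E)) E ⟨x, hx⟩
  have h3 : (σ ^ Nat.card (E ≃ₐ[ℚ] E)).restrictNormal E = 1 := h1
  rw [h3] at h2
  exact h2.symm

/-! ### The trace lemma: wild elements have `q`-power order on finite levels -/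

section Trace

variable {q : ℕ} (hq : q.Prime) (hA : A.LiesOverPrime q)

include hq hA in
/-- **Trace lemma**: `σ` wild on a normal field `E`, `ℓ ≠ q` prime and `σ ^ ℓ` trivial on
`E` ⟹ `σ` trivial on `E`. -/
theorem apply_eq_of_pow_apply_eq {σ : GQ} (E : IntermediateField ℚ Qb) [Normal ℚ E]
    (hw : WildOn A σ E) {ℓ : ℕ} (hℓ : ℓ.Prime) (hℓq : ℓ ≠ q) (hpow : ∀ x ∈ E, (σ ^ ℓ) x = x) :
    ∀ x ∈ E, σ x = x := by
  intro x hx
  by_contra hne
  have hℓ0 : (ℓ : Qb) ≠ 0 := by exact_mod_cast hℓ.ne_zero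
  have hst : ∀ i : ℕ, ∀ x ∈ E, (σ ^ i) x ∈ E := fun i x hx => apply_mem_of_normal E (σ ^ i) hx
  have hwi : ∀ i : ℕ, WildOn A (σ ^ i) E := fun i => wildOn_pow hw i
  set t : Qb := ∑ i ∈ Finset.range ℓ, (σ ^ i) x with ht
  have htE : t ∈ E := E.sum_mem fun i _ => hst i x hx
  -- `σ t = t`
  have hσt : σ t = t := by
    rw [ht, map_sum]
    have h1 : ∀ i ∈ Finset.range ℓ, σ ((σ ^ i) x) = (σ ^ (i + 1)) x := by
      intro i _
      rw [pow_succ', AlgEquiv.mul_apply]
    rw [Finset.sum_congr rfl h1]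
    have key := (Finset.sum_range_succ' (fun i => (σ ^ i) x) ℓ).symm.trans
      (Finset.sum_range_succ (fun i => (σ ^ i) x) ℓ)
    simp only [pow_zero, AlgEquiv.one_apply] at key
    rw [hpow x hx] at key
    exact add_right_cancel key
  have hσit : ∀ i : ℕ, (σ ^ i) (t / ℓ) = t / ℓ := by
    intro i
    induction i with
    | zero => simp
    | succ i ih =>
      rw [pow_succ', AlgEquiv.mul_apply, ih, map_div₀, hσt, map_natCast]
  -- the trace-zero element
  set x' : Qb := x - t / ℓ with hx'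
  have hx'E : x' ∈ E := E.sub_mem hx (E.div_mem htE (natCast_mem E ℓ))
  have hx'0 : x' ≠ 0 := by
    intro h0
    apply hne
    have hxt : x = t / ℓ := sub_eq_zero.1 h0
    have := hσit 1
    rw [pow_one] at this
    rw [hxt, this]
  have hsum0 : ∑ i ∈ Finset.range ℓ, (σ ^ i) x' = 0 := by
    have h2 : ∀ i ∈ Finset.range ℓ, (σ ^ i) x' = (σ ^ i) x - t / ℓ := by
      intro i _
      rw [hx', map_sub, hσit i]
    rw [Finset.sum_congr rfl h2, Finset.sum_sub_distrib, ← ht, Finset.sum_const, Finset.card_range,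
      nsmul_eq_mul, mul_div_cancel₀ _ hℓ0, sub_self]
  -- divide by `x'`
  have hsum1 : ∑ i ∈ Finset.range ℓ, ((σ ^ i) x' / x' - 1) = -(ℓ : Qb) := by
    rw [Finset.sum_sub_distrib, ← Finset.sum_div, hsum0, zero_div, Finset.sum_const,
      Finset.card_range, nsmul_eq_mul, mul_one, zero_sub]
  have hmem : -(ℓ : Qb) ∈ A.nonunits := by
    rw [← hsum1]
    exact sum_mem_nonunits A _ _ fun i _ => hwi i x' hx'E hx'0
  have hmem' : (ℓ : Qb) ∈ A.nonunits := by
    have := neg_mem_nonunits A hmem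
    rwa [neg_neg] at this
  have hdvd : q ∣ ℓ := (Fermat.Agent.S05.natCast_mem_nonunits_iff hq hA ℓ).1 hmem'
  exact hℓq ((Nat.prime_dvd_prime_iff_eq hq hℓ).1 hdvd).symm

include hq hA in
/-- `σ` wild on a normal field `E`, `m` prime to `q` and `σ ^ m` trivial on `E` ⟹ `σ`
trivial on `E`: the wild inertia group is pro-`q`. -/
theorem apply_eq_of_pow_apply_eq_of_coprime (E : IntermediateField ℚ Qb) [Normal ℚ E] :
    ∀ (m : ℕ) (σ : GQ), WildOn A σ E → m.Coprime q →
      (∀ x ∈ E, (σ ^ m) x = x) → ∀ x ∈ E, σ x = x := by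
  intro m
  induction m using Nat.strong_induction_on with
  | _ m ih =>
    intro σ hw hm hpow
    rcases Nat.lt_or_ge m 2 with hlt | hge
    · interval_cases m
      · rw [Nat.coprime_zero_left] at hm
        exact absurd hm hq.ne_one
      · simpa using hpow
    · set ℓ := m.minFac with hℓdef
      have hℓ : ℓ.Prime := Nat.minFac_prime (by omega)
      obtain ⟨m', hm'⟩ : ℓ ∣ m := Nat.minFac_dvd m
      have hℓq : ℓ ≠ q := by
        intro h
        have hqm : q ∣ m := h ▸ Nat.minFac_dvd m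
        have := Nat.Coprime.eq_one_of_dvd hm.symm hqm
        exact hq.ne_one this
      have hm'pos : 0 < m' := by
        rcases Nat.eq_zero_or_pos m' with h0 | h0
        · rw [h0, mul_zero] at hm'; omega
        · exact h0
      have hm'lt : m' < m := by
        rw [hm']
        exact lt_mul_of_one_lt_left hm'pos hℓ.one_lt
      have hm'cop : m'.Coprime q := Nat.Coprime.coprime_dvd_left ⟨ℓ, by rw [hm', mul_comm]⟩ hm
      -- `σ ^ m'` is trivial on `E` by the trace lemma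
      have h1 : ∀ x ∈ E, (σ ^ m') x = x := by
        refine apply_eq_of_pow_apply_eq hq hA E (wildOn_pow hw m') hℓ hℓq ?_
        intro x hx
        rw [← pow_mul, mul_comm, ← hm']
        exact hpow x hx
      exact ih m' hm'lt σ hw hm'cop h1

include hq hA in
/-- **(W1)** a wild element acts on a finite normal level through an element of `q`-power order. -/
theorem exists_pow_fixes_of_wildOn (E : IntermediateField ℚ Qb) [FiniteDimensional ℚ E]
    [Normal ℚ E] {σ : GQ} (hw : WildOn A σ E) : ∃ b : ℕ, ∀ x ∈ E, (σ ^ q ^ b) x = x := by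
  have hn : Nat.card (E ≃ₐ[ℚ] E) ≠ 0 := Nat.card_pos.ne'
  obtain ⟨b, m, hm, hnm⟩ := Nat.exists_eq_pow_mul_and_not_dvd hn q hq.ne_one
  refine ⟨b, ?_⟩
  have hcop : m.Coprime q := ((Nat.Prime.coprime_iff_not_dvd hq).2 hm).symm
  refine apply_eq_of_pow_apply_eq_of_coprime hq hA E m (σ ^ q ^ b) (wildOn_pow hw _) hcop ?_
  intro x hx
  rw [← pow_mul, ← hnm]
  exact pow_card_apply E σ hx

include hq hA in
/-- **(W1)**, representation form. -/
theorem exists_pow_eq_one_of_wildOn {M : Type*} [Monoid M] (ρ : GQ →* M)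
    (E : IntermediateField ℚ Qb) [FiniteDimensional ℚ E] [Normal ℚ E]
    (hlevel : ∀ σ : GQ, (∀ x ∈ E, σ x = x) → ρ σ = 1) {σ : GQ} (hw : WildOn A σ E) :
    ∃ b : ℕ, ρ σ ^ q ^ b = 1 := by
  obtain ⟨b, hb⟩ := exists_pow_fixes_of_wildOn hq hA E hw
  exact ⟨b, by rw [← map_pow]; exact hlevel _ hb⟩

end Trace

/-! ### The tame symbol `σ x / x mod 𝔪_A` -/

section Symbol

variable {q : ℕ} (hq : q.Prime) (hA : A.LiesOverPrime q)

include hq hA in
theorem apply_mem_nonunits_of_mem_decomposition {g : GQ} (hg : g ∈ A.decompositionSubgroup ℚ)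
    {z : Qb} (hz : z ∈ A.nonunits) : g z ∈ A.nonunits := by
  rw [A.mem_nonunits_iff] at hz ⊢
  rwa [Fermat.Agent.S13.Branch.valuation_apply_eq_of_mem_decomposition A hq hA hg z]

include hq hA in
theorem mc_map {g : GQ} (hg : g ∈ A.decompositionSubgroup ℚ) {a b : Qb} (h : MC A a b) :
    MC A (g a) (g b) := by
  unfold MC at h ⊢
  have e : g a / g b - 1 = g (a / b - 1) := by rw [map_sub, map_div₀, map_one]
  rw [e]
  exact apply_mem_nonunits_of_mem_decomposition hq hA hg h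

include hq hA in
/-- for `σ ∈ D` the ratio `σ x / x` is a unit of `A`. -/
theorem ratio_mem {σ : GQ} (hσ : σ ∈ A.decompositionSubgroup ℚ) {x : Qb} (hx : x ≠ 0) :
    σ x / x ∈ A ∧ (σ x / x)⁻¹ ∈ A := by
  have hv := Fermat.Agent.S13.Branch.valuation_apply_eq_of_mem_decomposition A hq hA hσ x
  have hx' : A.valuation x ≠ 0 := (Valuation.ne_zero_iff _).2 hx
  constructor
  · rw [← A.valuation_le_one_iff, map_div₀, hv, div_self hx']
  · rw [← A.valuation_le_one_iff, map_inv₀, map_div₀, hv, div_self hx', inv_one]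

include hq hA in
/-- the tame symbol is multiplicative in `σ ∈ I`. -/
theorem mc_ratio_mul {σ τ : GQ} (hσ : σ ∈ A.inertiaSubgroupIn ℚ) (hτ : τ ∈ A.inertiaSubgroupIn ℚ)
    {x : Qb} (hx : x ≠ 0) : MC A ((σ * τ) x / x) (σ x / x * (τ x / x)) := by
  have hτx : τ x ≠ 0 := (map_ne_zero _).2 hx
  have hσx : σ x ≠ 0 := (map_ne_zero _).2 hx
  have e : (σ * τ) x / x = σ (τ x / x) * (σ x / x) := by
    rw [AlgEquiv.mul_apply, map_div₀]
    field_simp
  rw [e, mul_comm (σ x / x)]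
  refine mc_mul ?_ (mc_refl (div_ne_zero hσx hx))
  obtain ⟨hu, hu'⟩ := ratio_mem hq hA
    (Fermat.Agent.S05.mem_decompositionSubgroup_of_mem_inertiaSubgroupIn hτ) hx
  exact wild_unit hσ (div_ne_zero hτx hx) hu hu'

include hq hA in
theorem mc_ratio_pow {σ : GQ} (hσ : σ ∈ A.inertiaSubgroupIn ℚ) (n : ℕ) {x : Qb} (hx : x ≠ 0) :
    MC A ((σ ^ n) x / x) ((σ x / x) ^ n) := by
  induction n with
  | zero =>
    rw [pow_zero, pow_zero, AlgEquiv.one_apply, div_self hx]
    exact mc_refl one_ne_zero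
  | succ n ih =>
    rw [pow_succ' σ, pow_succ' (σ x / x)]
    exact mc_trans (mc_ratio_mul hq hA hσ (pow_mem hσ n) hx)
      (mc_mul (mc_refl (div_ne_zero ((map_ne_zero _).2 hx) hx)) ih)

/-- the tame symbol of `τ ∈ I` only depends on the valuation of `x`. -/
theorem mc_ratio_of_valuation_eq {τ : GQ} (hτ : τ ∈ A.inertiaSubgroupIn ℚ) {x y : Qb} (hx : x ≠ 0)
    (hy : y ≠ 0) (hv : A.valuation x = A.valuation y) : MC A (τ x / x) (τ y / y) := by
  -- `x = y * c`, `c` a unit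
  set c : Qb := x / y with hc
  have hc0 : c ≠ 0 := div_ne_zero hx hy
  have hy' : A.valuation y ≠ 0 := (Valuation.ne_zero_iff _).2 hy
  have hcA : c ∈ A := by
    rw [← A.valuation_le_one_iff, hc, map_div₀, hv, div_self hy']
  have hcA' : c⁻¹ ∈ A := by
    rw [← A.valuation_le_one_iff, hc, map_inv₀, map_div₀, hv, div_self hy', inv_one]
  have hw : Wild A τ c := wild_unit hτ hc0 hcA hcA'
  have e : τ x / x = τ y / y * (τ c / c) := by
    rw [hc, map_div₀]
    have hτy : τ y ≠ 0 := (map_ne_zero _).2 hy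
    field_simp
  rw [e]
  have h1 : MC A (τ c / c) 1 := mc_one_iff.2 hw
  have h2 := mc_mul (mc_refl (div_ne_zero ((map_ne_zero τ).2 hy) hy)) h1
  rwa [mul_one] at h2

/-- if the tame symbols of `g` and `h` agree then `g h⁻¹` is wild. -/
theorem wild_mul_inv_of_mc {g h : GQ} (H : ∀ y : Qb, y ≠ 0 → MC A (g y / y) (h y / y)) {x : Qb}
    (hx : x ≠ 0) : Wild A (g * h⁻¹) x := by
  set y := h⁻¹ x with hy
  have hy0 : y ≠ 0 := (map_ne_zero _).2 hx
  have hhy : h y = x := by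
    rw [hy, ← AlgEquiv.mul_apply, mul_inv_cancel, AlgEquiv.one_apply]
  have h1 := H y hy0
  rw [hhy] at h1
  unfold Wild
  unfold MC at h1 ⊢
  have e : (g * h⁻¹) x / x = g y / y / (x / y) := by
    rw [AlgEquiv.mul_apply, ← hy]
    field_simp
  rw [e]
  exact h1

include hq hA in
/-- **(W2)** commutators of inertia elements are wild: `I / wild` is abelian. -/
theorem wild_commutator {σ τ : GQ} (hσ : σ ∈ A.inertiaSubgroupIn ℚ)
    (hτ : τ ∈ A.inertiaSubgroupIn ℚ) {x : Qb} (hx : x ≠ 0) : Wild A (σ * τ * σ⁻¹ * τ⁻¹) x := by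
  have e : σ * τ * σ⁻¹ * τ⁻¹ = σ * τ * (τ * σ)⁻¹ := by group
  rw [e]
  refine wild_mul_inv_of_mc (fun y hy => ?_) hx
  have h1 := mc_ratio_mul hq hA hσ hτ hy
  have h2 := mc_ratio_mul hq hA hτ hσ hy
  rw [mul_comm] at h2
  exact mc_trans h1 (mc_symm h2)

include hq hA in
/-- **(W3)** for `σ ∈ I` some power `σ ^ m`, `m` prime to `q`, is wild on the finite normal level
`E`: the tame quotient has order prime to `q`. -/
theorem exists_coprime_pow_wildOn (E : IntermediateField ℚ Qb) [FiniteDimensional ℚ E]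
    [Normal ℚ E] {σ : GQ} (hσ : σ ∈ A.inertiaSubgroupIn ℚ) :
    ∃ m : ℕ, m.Coprime q ∧ 0 < m ∧ WildOn A (σ ^ m) E := by
  have hn : Nat.card (E ≃ₐ[ℚ] E) ≠ 0 := Nat.card_pos.ne'
  obtain ⟨b, m, hm, hnm⟩ := Nat.exists_eq_pow_mul_and_not_dvd hn q hq.ne_one
  have hcop : m.Coprime q := ((Nat.Prime.coprime_iff_not_dvd hq).2 hm).symm
  have hm0 : 0 < m := by
    rcases Nat.eq_zero_or_pos m with h0 | h0
    · rw [h0, mul_zero] at hnm; exact absurd hnm hn
    · exact h0
  refine ⟨m, hcop, hm0, fun x hx hx0 => ?_⟩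
  have hσm : σ ^ m ∈ A.inertiaSubgroupIn ℚ := pow_mem hσ m
  have h1 := mc_ratio_pow hq hA hσm (q ^ b) hx0
  have h2 : ((σ ^ m) ^ q ^ b) x = x := by
    rw [← pow_mul, mul_comm, ← hnm]
    exact pow_card_apply E σ hx
  rw [h2, div_self hx0] at h1
  -- `1 ≡ w ^ (q ^ b)` with `w = σ^m x / x` a unit
  obtain ⟨hw, -⟩ := ratio_mem hq hA
    (Fermat.Agent.S05.mem_decompositionSubgroup_of_mem_inertiaSubgroupIn hσm) hx0
  have h3 : ((σ ^ m) x / x) ^ q ^ b - 1 ∈ A.nonunits := mc_one_iff.1 (mc_symm h1)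
  have h4 := sub_one_mem_nonunits_of_pow A hq hA hw b h3
  exact mc_one_iff.2 h4 |> fun h => by
    unfold Wild MC
    unfold MC at h
    rwa [div_one] at h

include hq hA in
/-- **(W4)** the tame relation: if `φ ∈ D` acts as `a ↦ a ^ N` on the residue field of `A` then
`φ τ φ⁻¹ ≡ τ ^ N` modulo wild elements, for every `τ ∈ I`. -/
theorem tame_relation {φ : GQ} (hφ : φ ∈ A.decompositionSubgroup ℚ) {N : ℕ}
    (hfr : ∀ a ∈ A, φ a - a ^ N ∈ A.nonunits) {τ : GQ} (hτ : τ ∈ A.inertiaSubgroupIn ℚ) {x : Qb}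
    (hx : x ≠ 0) : Wild A (φ * τ * φ⁻¹ * (τ ^ N)⁻¹) x := by
  refine wild_mul_inv_of_mc (fun y hy => ?_) hx
  set z := φ⁻¹ y with hz
  have hz0 : z ≠ 0 := (map_ne_zero _).2 hy
  have hφz : φ z = y := by
    rw [hz, ← AlgEquiv.mul_apply, mul_inv_cancel, AlgEquiv.one_apply]
  have hτz : τ z ≠ 0 := (map_ne_zero _).2 hz0
  have hτD := Fermat.Agent.S05.mem_decompositionSubgroup_of_mem_inertiaSubgroupIn hτ
  -- `(φ τ φ⁻¹) y / y = φ (τ z / z)`
  have e : (φ * τ * φ⁻¹) y / y = φ (τ z / z) := by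
    rw [map_div₀, hφz, AlgEquiv.mul_apply, AlgEquiv.mul_apply]
  rw [e]
  obtain ⟨hu, hu'⟩ := ratio_mem hq hA hτD hz0
  set u := τ z / z with hu_def
  have hu0 : u ≠ 0 := div_ne_zero hτz hz0
  -- `φ u ≡ u ^ N`
  have h1 : MC A (φ u) (u ^ N) := by
    refine mc_of_sub_mem (pow_ne_zero N hu0) ?_ (hfr u hu)
    rw [← inv_pow]
    exact A.pow_mem hu' N
  -- `u ≡ τ y / y`
  have hv : A.valuation z = A.valuation y := by
    rw [← hφz]
    exact (Fermat.Agent.S13.Branch.valuation_apply_eq_of_mem_decomposition A hq hA hφ z).symm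
  have h2 : MC A u (τ y / y) := mc_ratio_of_valuation_eq hτ hz0 hy hv
  have h3 := mc_ratio_pow hq hA hτ N hy
  exact mc_trans h1 (mc_trans (mc_pow h2 N) (mc_symm h3))

include hq hA in
/-- **(W5)** conjugation by the decomposition group preserves wildness. -/
theorem wild_conj {g : GQ} (hg : g ∈ A.decompositionSubgroup ℚ) {σ : GQ} {x : Qb}
    (h : Wild A σ (g⁻¹ x)) : Wild A (g * σ * g⁻¹) x := by
  unfold Wild at h ⊢
  have h1 := mc_map hq hA hg h
  have e : g (g⁻¹ x) = x := by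
    rw [← AlgEquiv.mul_apply, mul_inv_cancel, AlgEquiv.one_apply]
  rw [e] at h1
  rw [AlgEquiv.mul_apply, AlgEquiv.mul_apply]
  exact h1

include hq hA in
theorem wildOn_conj {E : IntermediateField ℚ Qb} [Normal ℚ E] {g : GQ}
    (hg : g ∈ A.decompositionSubgroup ℚ) {σ : GQ} (h : WildOn A σ E) :
    WildOn A (g * σ * g⁻¹) E := fun x hx hx0 =>
  wild_conj hq hA hg (h (g⁻¹ x) (apply_mem_of_normal E g⁻¹ hx) ((map_ne_zero _).2 hx0))

end Symbol

/-! ### Inertia is normal in the decomposition group -/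

theorem conj_mem_inertia {g : GQ} (hg : g ∈ A.decompositionSubgroup ℚ) {σ : GQ}
    (hσ : σ ∈ A.inertiaSubgroupIn ℚ) : g * σ * g⁻¹ ∈ A.inertiaSubgroupIn ℚ := by
  obtain ⟨h, hin⟩ := (Fermat.Agent.S05.mem_inertiaSubgroupIn_iff A σ).1 hσ
  rw [Fermat.Agent.S05.mem_inertiaSubgroupIn_iff]
  refine ⟨mul_mem (mul_mem hg h) (inv_mem hg), ?_⟩
  have hn : (A.inertiaSubgroup ℚ).Normal := by
    unfold ValuationSubring.inertiaSubgroup
    exact MonoidHom.normal_ker _
  exact hn.conj_mem ⟨σ, h⟩ hin ⟨g, hg⟩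

/-- the wild inertia group at the normal level `E`. -/
def wildInertiaAt (A : ValuationSubring Qb) (E : IntermediateField ℚ Qb) [Normal ℚ E] :
    Subgroup GQ where
  carrier := {σ | σ ∈ A.inertiaSubgroupIn ℚ ∧ WildOn A σ E}
  mul_mem' := fun h1 h2 => ⟨mul_mem h1.1 h2.1, wildOn_mul h1.2 h2.2⟩
  one_mem' := ⟨one_mem _, wildOn_one E⟩
  inv_mem' := fun h => ⟨inv_mem h.1, wildOn_inv h.2⟩

theorem mem_wildInertiaAt {E : IntermediateField ℚ Qb} [Normal ℚ E] {σ : GQ} :
    σ ∈ wildInertiaAt A E ↔ σ ∈ A.inertiaSubgroupIn ℚ ∧ WildOn A σ E := Iff.rfl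

theorem wildInertiaAt_le (E : IntermediateField ℚ Qb) [Normal ℚ E] :
    wildInertiaAt A E ≤ A.inertiaSubgroupIn ℚ := fun _ h => h.1

theorem conj_mem_wildInertiaAt {q : ℕ} (hq : q.Prime) (hA : A.LiesOverPrime q)
    {E : IntermediateField ℚ Qb} [Normal ℚ E] {g : GQ} (hg : g ∈ A.decompositionSubgroup ℚ)
    {σ : GQ} (hσ : σ ∈ wildInertiaAt A E) : g * σ * g⁻¹ ∈ wildInertiaAt A E :=
  ⟨conj_mem_inertia hg hσ.1, wildOn_conj hq hA hg hσ.2⟩

/-- commutators of inertia lie in every wild inertia group. -/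
theorem commutator_mem_wildInertiaAt {q : ℕ} (hq : q.Prime) (hA : A.LiesOverPrime q)
    (E : IntermediateField ℚ Qb) [Normal ℚ E] {σ τ : GQ} (hσ : σ ∈ A.inertiaSubgroupIn ℚ)
    (hτ : τ ∈ A.inertiaSubgroupIn ℚ) : σ * τ * σ⁻¹ * τ⁻¹ ∈ wildInertiaAt A E :=
  ⟨mul_mem (mul_mem (mul_mem hσ hτ) (inv_mem hσ)) (inv_mem hτ),
    fun _ _ hx0 => wild_commutator hq hA hσ hτ hx0⟩

/-- the tame relation lands in every wild inertia group. -/
theorem tame_relation_mem {q : ℕ} (hq : q.Prime) (hA : A.LiesOverPrime q)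
    (E : IntermediateField ℚ Qb) [Normal ℚ E] {φ : GQ} (hφ : φ ∈ A.decompositionSubgroup ℚ)
    {N : ℕ} (hfr : ∀ a ∈ A, φ a - a ^ N ∈ A.nonunits) {τ : GQ}
    (hτ : τ ∈ A.inertiaSubgroupIn ℚ) : φ * τ * φ⁻¹ * (τ ^ N)⁻¹ ∈ wildInertiaAt A E :=
  ⟨mul_mem (conj_mem_inertia hφ hτ) (inv_mem (pow_mem hτ N)),
    fun _ _ hx0 => tame_relation hq hA hφ hfr hτ hx0⟩

/-- a Frobenius element acts as `a ↦ a ^ q` on the residue field. -/
theorem frobenius_sub_pow_mem {φ : GQ} {q : ℕ} (hφ : A.IsFrobeniusAt φ q) {a : Qb} (ha : a ∈ A) :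
    φ a - a ^ q ∈ A.nonunits := by
  have h := hφ.smul_residue_eq (IsLocalRing.residue A ⟨a, ha⟩)
  rw [← IsLocalRing.ResidueField.residue_smul, ← map_pow, ← sub_eq_zero, ← map_sub,
    IsLocalRing.residue_eq_zero_iff] at h
  rw [ValuationSubring.mem_nonunits_iff_exists_mem_maximalIdeal]
  exact ⟨_, h⟩

end Fermat.Agent.GP.Loc.WildInertia
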