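/-
GATE-P / S56 [P-LOC] node S56-LOC-UNRCOUNT (helper40), part 1: the FINITE-GROUP CORE of
`#H¹_unr(G_q, N) ≤ #H⁰(G_q, N)` (Mathlib only, function-cocycle model).

`D` a group ("decomposition group"), `I ⊴ D` ("inertia"), `F ∈ D` ("Frobenius"), `𝒰` a set of
subgroups of `D` ("open subgroups"), `ρ` a representation of `D` on a FINITE module `M`.
Hypothesis `(GEN)`: for every `U ∈ 𝒰` every `d ∈ D` is `F ^ n * i * u` (`n : ℤ`, `i ∈ I`, `u ∈ U`)
(= `D/I` is topologically generated by Frobenius).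

* `card_quot_range_eq_card_ker` : for an endomorphism `f` of a finite module,
  `#(M / im f) = #ker f`  (so `#(M^I/(F−1)M^I) = #(M^I)^F`).
* `unrZ` : unramified level-constant 1-cocycles (`c (d e) = c d + d • c e`, `c = 0` on `I`,
  right-invariant under some `U ∈ 𝒰`);  `unrB` : coboundaries `d ↦ d • m − m`, `m ∈ M^I`.
* `eq_cob_of_apply_frob` : (GEN) ⟹ an unramified level-constant cocycle with
  `c F = F • m − m`, `m ∈ M^I`, IS the coboundary of `m`.
* `card_unrH1_le` : (GEN) + `M` discrete ⟹ `#(unrZ / unrB) ≤ #M^D`.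
-/
import Mathlib

set_option autoImplicit false

namespace Fermat.Agent.GP.Loc.UnrCount

section Linear

variable {k : Type*} [Ring k] {M : Type*} [AddCommGroup M] [Module k M]

/-- For an endomorphism of a finite module, cokernel and kernel are equinumerous. -/
theorem card_quot_range_eq_card_ker [Finite M] (f : M →ₗ[k] M) :
    Nat.card (M ⧸ LinearMap.range f) = Nat.card (LinearMap.ker f) := by
  have h1 : Nat.card M = Nat.card (LinearMap.range f) * Nat.card (M ⧸ LinearMap.range f) :=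
    Submodule.card_eq_card_quotient_mul_card (LinearMap.range f)
  have h2 : Nat.card M = Nat.card (LinearMap.ker f) * Nat.card (M ⧸ LinearMap.ker f) :=
    Submodule.card_eq_card_quotient_mul_card (LinearMap.ker f)
  have h3 : Nat.card (M ⧸ LinearMap.ker f) = Nat.card (LinearMap.range f) :=
    Nat.card_congr f.quotKerEquivRange.toEquiv
  have hpos : 0 < Nat.card (LinearMap.range f) := Nat.card_pos
  rw [h3] at h2
  have : Nat.card (LinearMap.range f) * Nat.card (M ⧸ LinearMap.range f) =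
      Nat.card (LinearMap.range f) * Nat.card (LinearMap.ker f) := by
    rw [← h1, h2, mul_comm]
  exact Nat.eq_of_mul_eq_mul_left hpos this

end Linear

section Cocycles

variable {k : Type*} [CommRing k] {D : Type*} [Group D] {M : Type*} [AddCommGroup M] [Module k M]
variable (ρ : Representation k D M) (I : Subgroup D) (𝒰 : Set (Subgroup D))

/-- the `I`-invariants `M^I` -/
def invI : Submodule k M where
  carrier := {m | ∀ i ∈ I, ρ i m = m}
  add_mem' {a b} ha hb i hi := by rw [map_add, ha i hi, hb i hi]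
  zero_mem' i _ := map_zero _
  smul_mem' c m hm i hi := by rw [map_smul, hm i hi]

/-- the `D`-invariants `M^D` -/
def invD : Submodule k M where
  carrier := {m | ∀ d : D, ρ d m = m}
  add_mem' {a b} ha hb d := by rw [map_add, ha d, hb d]
  zero_mem' d := map_zero _
  smul_mem' c m hm d := by rw [map_smul, hm d]

/-- unramified level-constant 1-cocycles -/
def unrZ (hdir : ∀ U ∈ 𝒰, ∀ V ∈ 𝒰, ∃ W ∈ 𝒰, W ≤ U ⊓ V) (hne : 𝒰.Nonempty) :
    Submodule k (D → M) where
  carrier := {c | (∀ d e, c (d * e) = c d + ρ d (c e)) ∧ (∀ i ∈ I, c i = 0) ∧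
    ∃ U ∈ 𝒰, ∀ d, ∀ u ∈ U, c (d * u) = c d}
  add_mem' := by
    rintro a b ⟨ha1, ha2, U, hU, ha3⟩ ⟨hb1, hb2, V, hV, hb3⟩
    refine ⟨fun d e => ?_, fun i hi => ?_, ?_⟩
    · simp only [Pi.add_apply, ha1 d e, hb1 d e, map_add]; abel
    · simp only [Pi.add_apply, ha2 i hi, hb2 i hi, add_zero]
    · obtain ⟨W, hW, hle⟩ := hdir U hU V hV
      refine ⟨W, hW, fun d u hu => ?_⟩
      simp only [Pi.add_apply, ha3 d u (hle hu).1, hb3 d u (hle hu).2]
  zero_mem' := by
    obtain ⟨U, hU⟩ := hne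
    exact ⟨fun d e => by simp, fun i _ => rfl, U, hU, fun d u _ => rfl⟩
  smul_mem' := by
    rintro r a ⟨ha1, ha2, U, hU, ha3⟩
    refine ⟨fun d e => ?_, fun i hi => ?_, U, hU, fun d u hu => ?_⟩
    · simp only [Pi.smul_apply, ha1 d e, smul_add, map_smul]
    · simp only [Pi.smul_apply, ha2 i hi, smul_zero]
    · simp only [Pi.smul_apply, ha3 d u hu]

/-- the coboundary of `m` -/
def cob (m : M) : D → M := fun d => ρ d m - m

variable {ρ I 𝒰}

theorem cob_mul (m : M) (d e : D) : cob ρ m (d * e) = cob ρ m d + ρ d (cob ρ m e) := by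
  simp only [cob, map_mul, Module.End.mul_apply, map_sub]; abel

/-- values of an unramified cocycle lie in `M^I` (`I` normal) -/
theorem apply_mem_invI [I.Normal] {c : D → M} (h1 : ∀ d e, c (d * e) = c d + ρ d (c e))
    (h2 : ∀ i ∈ I, c i = 0) (d : D) : c d ∈ invI ρ I := by
  intro i hi
  have e1 : c (i * d) = ρ i (c d) := by rw [h1, h2 i hi, zero_add]
  have hi' : d⁻¹ * i * d ∈ I := by
    have := Subgroup.Normal.conj_mem ‹I.Normal› i hi d⁻¹
    simpa using this
  have e2 : c (i * d) = c d := by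
    have : i * d = d * (d⁻¹ * i * d) := by group
    rw [this, h1, h2 _ hi', map_zero, add_zero]
  rw [← e1, e2]

theorem cocycle_one {c : D → M} (h1 : ∀ d e, c (d * e) = c d + ρ d (c e)) : c 1 = 0 := by
  have := h1 1 1
  simp only [mul_one, map_one, Module.End.one_apply] at this
  exact left_eq_add.1 this

theorem cocycle_inv {c : D → M} (h1 : ∀ d e, c (d * e) = c d + ρ d (c e)) (d : D)
    (hd : c d = 0) : c d⁻¹ = 0 := by
  have := h1 d⁻¹ d
  rw [inv_mul_cancel, cocycle_one h1, hd, map_zero, add_zero] at this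
  exact this.symm

theorem cocycle_pow {c : D → M} (h1 : ∀ d e, c (d * e) = c d + ρ d (c e)) (d : D)
    (hd : c d = 0) (n : ℕ) : c (d ^ n) = 0 := by
  induction n with
  | zero => rw [pow_zero]; exact cocycle_one h1
  | succ n ih => rw [pow_succ, h1, ih, hd, map_zero, add_zero]

theorem cocycle_zpow {c : D → M} (h1 : ∀ d e, c (d * e) = c d + ρ d (c e)) (d : D)
    (hd : c d = 0) (n : ℤ) : c (d ^ n) = 0 := by
  cases n with
  | ofNat n => simpa using cocycle_pow h1 d hd n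
  | negSucc n =>
    rw [zpow_negSucc]
    exact cocycle_inv h1 _ (cocycle_pow h1 d hd (n + 1))

/-- **(A)** under (GEN), an unramified level-constant cocycle vanishing at `F` is zero. -/
theorem eq_zero_of_apply_frob (F : D)
    (hgen : ∀ U ∈ 𝒰, ∀ d : D, ∃ n : ℤ, ∃ i ∈ I, ∃ u ∈ U, d = F ^ n * i * u)
    {c : D → M} (h1 : ∀ d e, c (d * e) = c d + ρ d (c e)) (h2 : ∀ i ∈ I, c i = 0)
    (h3 : ∃ U ∈ 𝒰, ∀ d, ∀ u ∈ U, c (d * u) = c d) (hF : c F = 0) : c = 0 := by
  obtain ⟨U, hU, h3⟩ := h3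
  funext d
  obtain ⟨n, i, hi, u, hu, rfl⟩ := hgen U hU d
  rw [h3 _ u hu, h1, h2 i hi, map_zero, add_zero]
  exact cocycle_zpow h1 F hF n

/-- **(A')** an unramified level-constant cocycle with `c F = F m − m`, `m ∈ M^I`, is the
coboundary of `m`. -/
theorem eq_cob_of_apply_frob (F : D)
    (hgen : ∀ U ∈ 𝒰, ∀ d : D, ∃ n : ℤ, ∃ i ∈ I, ∃ u ∈ U, d = F ^ n * i * u)
    (hdir : ∀ U ∈ 𝒰, ∀ V ∈ 𝒰, ∃ W ∈ 𝒰, W ≤ U ⊓ V)
    {c : D → M} (h1 : ∀ d e, c (d * e) = c d + ρ d (c e)) (h2 : ∀ i ∈ I, c i = 0)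
    (h3 : ∃ U ∈ 𝒰, ∀ d, ∀ u ∈ U, c (d * u) = c d) (m : M) (hm : m ∈ invI ρ I)
    (hmU : ∃ U ∈ 𝒰, ∀ u ∈ U, ρ u m = m) (hF : c F = ρ F m - m) : c = cob ρ m := by
  have key : c - cob ρ m = 0 := by
    refine eq_zero_of_apply_frob (ρ := ρ) F hgen (c := c - cob ρ m) (fun d e => ?_)
      (fun i hi => ?_) ?_ ?_
    · simp only [Pi.sub_apply, h1 d e, cob_mul, map_sub]; abel
    · simp only [Pi.sub_apply, h2 i hi, cob, hm i hi, sub_self]
    · obtain ⟨U, hU, h3⟩ := h3
      obtain ⟨V, hV, hmV⟩ := hmU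
      obtain ⟨W, hW, hle⟩ := hdir U hU V hV
      refine ⟨W, hW, fun d u hu => ?_⟩
      simp only [Pi.sub_apply, h3 d u (hle hu).1, cob, map_mul, Module.End.mul_apply,
        hmV u (hle hu).2]
    · simp only [Pi.sub_apply, hF, cob, sub_self]
  exact sub_eq_zero.1 key

end Cocycles

section Count

variable {k : Type*} [CommRing k] {D : Type*} [Group D] {M : Type*} [AddCommGroup M] [Module k M]
variable (ρ : Representation k D M) (I : Subgroup D) [I.Normal] (𝒰 : Set (Subgroup D))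

/-- `cob` as a linear map `M → (D → M)` -/
def cobₗ : M →ₗ[k] (D → M) where
  toFun m := cob ρ m
  map_add' a b := by funext d; simp only [cob, map_add, Pi.add_apply]; abel
  map_smul' r a := by funext d; simp only [cob, map_smul, Pi.smul_apply, RingHom.id_apply, smul_sub]

/-- unramified coboundaries: `d ↦ d • m − m`, `m ∈ M^I` -/
def unrB : Submodule k (D → M) := (invI ρ I).map (cobₗ ρ)

/-- `ρ F` preserves `M^I` (`I` normal) -/
theorem rho_mem_invI (F : D) {m : M} (hm : m ∈ invI ρ I) : ρ F m ∈ invI ρ I := by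
  intro i hi
  have hi' : F⁻¹ * i * F ∈ I := by
    have := Subgroup.Normal.conj_mem ‹I.Normal› i hi F⁻¹
    simpa using this
  have : i * F = F * (F⁻¹ * i * F) := by group
  rw [← Module.End.mul_apply, ← map_mul, this, map_mul, Module.End.mul_apply, hm _ hi']

/-- `F − 1` on `M^I` -/
def frobSubOne (F : D) : ↥(invI ρ I) →ₗ[k] ↥(invI ρ I) :=
  LinearMap.codRestrict (invI ρ I) ((ρ F - 1).comp (invI ρ I).subtype) (fun m => by
    simp only [LinearMap.comp_apply, Submodule.subtype_apply, LinearMap.sub_apply,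
      Module.End.one_apply]
    exact (invI ρ I).sub_mem (rho_mem_invI ρ I F m.2) m.2)

theorem frobSubOne_coe (F : D) (m : ↥(invI ρ I)) :
    ((frobSubOne ρ I F m : ↥(invI ρ I)) : M) = ρ F (m : M) - m := rfl

variable (hdir : ∀ U ∈ 𝒰, ∀ V ∈ 𝒰, ∃ W ∈ 𝒰, W ≤ U ⊓ V) (hne : 𝒰.Nonempty)

/-- evaluation at Frobenius `unrZ → M^I` -/
def evFrob (F : D) : ↥(unrZ ρ I 𝒰 hdir hne) →ₗ[k] ↥(invI ρ I) where
  toFun c := ⟨(c : D → M) F, apply_mem_invI c.2.1 c.2.2.1 F⟩
  map_add' _ _ := rfl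
  map_smul' _ _ := rfl

omit [I.Normal] in
theorem rho_zpow_fix (F : D) {m : M} (hm : ρ F m = m) (n : ℤ) : ρ (F ^ n) m = m := by
  have hnat : ∀ j : ℕ, ρ (F ^ j) m = m := by
    intro j
    induction j with
    | zero => simp
    | succ j ih => rw [pow_succ, map_mul, Module.End.mul_apply, hm, ih]
  cases n with
  | ofNat j => simpa using hnat j
  | negSucc j =>
    rw [zpow_negSucc]
    have h := hnat (j + 1)
    calc ρ (F ^ (j + 1))⁻¹ m = ρ (F ^ (j + 1))⁻¹ (ρ (F ^ (j + 1)) m) := by rw [h]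
      _ = m := by rw [← Module.End.mul_apply, ← map_mul, inv_mul_cancel, map_one,
        Module.End.one_apply]

/-- **(B)** (GEN) + `M` discrete: `#(unrZ / unrB) ≤ #M^D`. -/
theorem card_unrH1_le [Finite M] (F : D)
    (hgen : ∀ U ∈ 𝒰, ∀ d : D, ∃ n : ℤ, ∃ i ∈ I, ∃ u ∈ U, d = F ^ n * i * u)
    (hdisc : ∀ m : M, ∃ U ∈ 𝒰, ∀ u ∈ U, ρ u m = m) :
    Nat.card (↥(unrZ ρ I 𝒰 hdir hne) ⧸ (unrB ρ I).comap (unrZ ρ I 𝒰 hdir hne).subtype) ≤
      Nat.card ↥(invD ρ) := by
  classical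
  set Z := unrZ ρ I 𝒰 hdir hne with hZ
  set B' : Submodule k ↥Z := (unrB ρ I).comap Z.subtype with hB'
  set R : Submodule k ↥(invI ρ I) := LinearMap.range (frobSubOne ρ I F) with hR
  -- the induced map `Z/B' → M^I/(F-1)M^I`
  have hker : B' = LinearMap.ker ((Submodule.mkQ R).comp (evFrob ρ I 𝒰 hdir hne F)) := by
    ext c
    rw [LinearMap.mem_ker, LinearMap.comp_apply, Submodule.mkQ_apply,
      Submodule.Quotient.mk_eq_zero]
    constructor
    · rintro ⟨m, hm, hmc⟩
      refine ⟨⟨m, hm⟩, ?_⟩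
      apply Subtype.ext
      rw [frobSubOne_coe]
      have := congrFun hmc F
      exact this
    · rintro ⟨m, hm⟩
      have hF : (c : D → M) F = ρ F (m : M) - m := by
        have := congrArg Subtype.val hm
        rw [frobSubOne_coe] at this
        exact this.symm
      refine ⟨(m : M), m.2, ?_⟩
      exact (eq_cob_of_apply_frob F hgen hdir c.2.1 c.2.2.1 c.2.2.2 (m : M) m.2
        (hdisc _) hF).symm
  have hinj : Function.Injective
      (Submodule.liftQ B' ((Submodule.mkQ R).comp (evFrob ρ I 𝒰 hdir hne F)) hker.le) := by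
    rw [← LinearMap.ker_eq_bot, Submodule.ker_liftQ, ← hker, Submodule.mkQ_map_self]
  have hfinQ : Finite (↥(invI ρ I) ⧸ R) :=
    Finite.of_surjective (Submodule.mkQ R) (Submodule.mkQ_surjective R)
  have h1 : Nat.card (↥Z ⧸ B') ≤ Nat.card (↥(invI ρ I) ⧸ R) :=
    Nat.card_le_card_of_injective _ hinj
  have h2 : Nat.card (↥(invI ρ I) ⧸ R) = Nat.card (LinearMap.ker (frobSubOne ρ I F)) :=
    card_quot_range_eq_card_ker _
  -- `ker (F - 1 | M^I) ⊆ M^D`
  have h3 : Nat.card (LinearMap.ker (frobSubOne ρ I F)) ≤ Nat.card ↥(invD ρ) := by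
    refine Nat.card_le_card_of_injective
      (fun m : LinearMap.ker (frobSubOne ρ I F) =>
        (⟨((m : ↥(invI ρ I)) : M), ?_⟩ : ↥(invD ρ))) ?_
    · intro d
      have hm0 : ρ F ((m : ↥(invI ρ I)) : M) = ((m : ↥(invI ρ I)) : M) := by
        have := congrArg Subtype.val (LinearMap.mem_ker.1 m.2)
        rw [frobSubOne_coe] at this
        exact sub_eq_zero.1 this
      obtain ⟨U, hU, hmU⟩ := hdisc ((m : ↥(invI ρ I)) : M)
      obtain ⟨n, i, hi, u, hu, rfl⟩ := hgen U hU d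
      have hFn : ∀ n : ℤ, ρ (F ^ n) ((m : ↥(invI ρ I)) : M) = ((m : ↥(invI ρ I)) : M) :=
        rho_zpow_fix ρ F hm0
      rw [map_mul, map_mul, Module.End.mul_apply, Module.End.mul_apply, hmU u hu,
        (m : ↥(invI ρ I)).2 i hi, hFn n]
    · intro a b hab
      have := congrArg Subtype.val hab
      exact Subtype.ext (Subtype.ext this)
  exact h1.trans (h2 ▸ h3)

end Count

end Fermat.Agent.GP.Loc.UnrCount
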