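/-
GATE-P / S56 [P-LOC] node S56-LOC-SMIN-HLC (helper32), part 1: **unramified classes in
level-constant cohomology** (generic in the group).

`G` a group with a level system `𝒰`, `M` a `𝒰`-discrete representation, `I ≤ G` ("inertia").

* `unrCocycles 𝒰 M I` : level-constant `1`-cocycles `G → M` vanishing on `I`;
* `unrSub 𝒰 M I ⊆ Hlc 𝒰 M 1` : their classes (`H¹_unr`), `mem_unrSub_iff`;
* `mem_unrSub_of_coboundary_on` : a level-constant cocycle which is the coboundary of some `x` ON `I`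
  has an unramified class;
* `card_unrSub_le` : under (GEN) (`G = ⟨F⟩ · I · U` for every level `U`), `M` finite, `I` normal:
  `#unrSub ≤ #M^G` (on helper40's finite core `GP/Loc/UnrCount`);
  `card_unrSub_le_card_Hlc_zero`, `finrank_unrSub_le` : the same against `Hlc 𝒰 M 0`.
-/
import Fermat.Agent.GC.Prof.Low
import Fermat.Agent.GP.Loc.UnrCount

set_option autoImplicit false
set_option linter.unusedSectionVars false

noncomputable section

namespace Fermat.Agent.GP.Loc.SminHlc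

open Fermat.Agent.GC.Prof groupCohomology Fermat.Agent.GP.Loc.UnrCount

universe u

variable {k G : Type u} [CommRing k] [Group G] (𝒰 : LevelSystem G) (M : Rep.{u} k G)
  [IsDiscrete 𝒰 M] (I : Subgroup G)

/-- level-constant `1`-cocycles vanishing on `I`. -/
def unrCocycles : Submodule k (lcCocycles₁ 𝒰 M) where
  carrier := {z | ∀ τ ∈ I, (z : G → M) τ = 0}
  add_mem' := fun {a b} ha hb τ hτ => by
    show ((a + b : lcCocycles₁ 𝒰 M) : G → M) τ = 0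
    rw [Submodule.coe_add, Pi.add_apply, ha τ hτ, hb τ hτ, add_zero]
  zero_mem' := fun τ _ => rfl
  smul_mem' := fun c a ha τ hτ => by
    show ((c • a : lcCocycles₁ 𝒰 M) : G → M) τ = 0
    rw [Submodule.coe_smul, Pi.smul_apply, ha τ hτ, smul_zero]

theorem mem_unrCocycles_iff (z : lcCocycles₁ 𝒰 M) :
    z ∈ unrCocycles 𝒰 M I ↔ ∀ τ ∈ I, (z : G → M) τ = 0 := Iff.rfl

/-- **unramified classes**: classes of level-constant cocycles vanishing on `I`. -/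
def unrSub : Submodule k (Hlc 𝒰 M 1) := (unrCocycles 𝒰 M I).map (Hlc1π 𝒰 M)

theorem mem_unrSub_iff (x : Hlc 𝒰 M 1) :
    x ∈ unrSub 𝒰 M I ↔
      ∃ z : lcCocycles₁ 𝒰 M, (∀ τ ∈ I, (z : G → M) τ = 0) ∧ Hlc1π 𝒰 M z = x := by
  rw [unrSub, Submodule.mem_map]
  rfl

/-- the coboundary of `x` as a level-constant cocycle. -/
def cobLC (x : M) : lcCocycles₁ 𝒰 M :=
  ⟨(d₀₁ M).hom x, coboundaries₁_le_lcCocycles₁ 𝒰 M ⟨x, rfl⟩⟩

theorem cobLC_apply (x : M) (g : G) : (cobLC 𝒰 M x : G → M) g = M.ρ g x - x :=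
  d₀₁_hom_apply M x g

theorem Hlc1π_cobLC (x : M) : Hlc1π 𝒰 M (cobLC 𝒰 M x) = 0 :=
  (Hlc1π_eq_zero_iff 𝒰 M _).2 ⟨x, rfl⟩

/-- a level-constant cocycle which is a coboundary ON `I` has an unramified class. -/
theorem mem_unrSub_of_coboundary_on (z : lcCocycles₁ 𝒰 M) (x : M)
    (h : ∀ τ ∈ I, (z : G → M) τ = M.ρ τ x - x) : Hlc1π 𝒰 M z ∈ unrSub 𝒰 M I := by
  rw [mem_unrSub_iff]
  refine ⟨z - cobLC 𝒰 M x, fun τ hτ => ?_, ?_⟩
  · rw [Submodule.coe_sub, Pi.sub_apply, h τ hτ, cobLC_apply, sub_self]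
  · rw [map_sub, Hlc1π_cobLC, sub_zero]

/-! ### the count -/

theorem cocycle_mul (z : lcCocycles₁ 𝒰 M) (d e : G) :
    (z : G → M) (d * e) = (z : G → M) d + M.ρ d ((z : G → M) e) := by
  rw [(mem_cocycles₁_iff _).1 z.2.1 d e, add_comm]

theorem invD_eq_invariants (m : M) : m ∈ invD M.ρ ↔ m ∈ M.ρ.invariants := by
  rw [Representation.mem_invariants]
  rfl

/-- **`#H¹_unr ≤ #H⁰`**: (GEN) + `M` finite + `I` normal. -/
theorem finite_and_card_unrSub_le [Finite M] [I.Normal] (F : G)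
    (hgen : ∀ U ∈ 𝒰.sets, ∀ d : G, ∃ n : ℤ, ∃ i ∈ I, ∃ u ∈ U, d = F ^ n * i * u) :
    Finite (unrSub 𝒰 M I) ∧ Nat.card (unrSub 𝒰 M I) ≤ Nat.card (invD M.ρ) := by
  classical
  set R : Submodule k ↥(invI M.ρ I) := LinearMap.range (frobSubOne M.ρ I F) with hR
  have hdisc : ∀ m : M, ∃ U ∈ 𝒰.sets, ∀ u ∈ U, M.ρ u m = m :=
    fun m => IsDiscrete.exists_fix (𝒰 := 𝒰) m
  -- the type of unramified cocycles, evaluation at `F` and the class map
  let A : Type u := {z : lcCocycles₁ 𝒰 M // ∀ τ ∈ I, (z : G → M) τ = 0}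
  let ev : A → ↥(invI M.ρ I) := fun z => ⟨((z.1 : lcCocycles₁ 𝒰 M) : G → M) F,
    apply_mem_invI (ρ := M.ρ) (I := I) (cocycle_mul 𝒰 M z.1) z.2 F⟩
  let f : A → (↥(invI M.ρ I) ⧸ R) := fun z => Submodule.Quotient.mk (ev z)
  let g : A → Hlc 𝒰 M 1 := fun z => Hlc1π 𝒰 M z.1
  have hrange : ∀ x : Hlc 𝒰 M 1, x ∈ unrSub 𝒰 M I ↔ ∃ z : A, g z = x := by
    intro x
    rw [mem_unrSub_iff]
    constructor
    · rintro ⟨z, hz, rfl⟩
      exact ⟨⟨z, hz⟩, rfl⟩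
    · rintro ⟨z, rfl⟩
      exact ⟨z.1, z.2, rfl⟩
  have hker : ∀ z z' : A, f z = f z' → g z = g z' := by
    intro z z' hzz
    have hzz' : ev z - ev z' ∈ R := (Submodule.Quotient.eq R).1 hzz
    obtain ⟨m, hm⟩ := hzz'
    set w : lcCocycles₁ 𝒰 M := z.1 - z'.1 with hw
    have hwI : ∀ τ ∈ I, (w : G → M) τ = 0 := fun τ hτ => by
      rw [hw, Submodule.coe_sub, Pi.sub_apply, z.2 τ hτ, z'.2 τ hτ, sub_zero]
    have hF : (w : G → M) F = M.ρ F (m : M) - m := by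
      have := congrArg Subtype.val hm
      rw [frobSubOne_coe] at this
      rw [hw, Submodule.coe_sub, Pi.sub_apply]
      exact this.symm
    have hw3 : ∃ U ∈ 𝒰.sets, ∀ d, ∀ u ∈ U, (w : G → M) (d * u) = (w : G → M) d := by
      obtain ⟨U, hU, h⟩ := w.2.2
      exact ⟨U, hU, fun d u hu => h d u hu⟩
    have hcob := eq_cob_of_apply_frob (ρ := M.ρ) (I := I) (𝒰 := 𝒰.sets) F hgen 𝒰.directed
      (cocycle_mul 𝒰 M w) hwI hw3 (m : M) m.2 (hdisc _) hF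
    have hw0 : Hlc1π 𝒰 M w = 0 := by
      rw [Hlc1π_eq_zero_iff]
      refine ⟨(m : M), ?_⟩
      rw [hcob]
      funext d
      exact d₀₁_hom_apply M (m : M) d
    rw [hw, map_sub, sub_eq_zero] at hw0
    exact hw0
  -- finiteness
  have hfinQ : Finite (↥(invI M.ρ I) ⧸ R) :=
    Finite.of_surjective (Submodule.mkQ R) (Submodule.mkQ_surjective R)
  have hfin1 : Finite ↥(Set.range f) := inferInstance
  -- the surjection `range f → unrSub`
  have hex : ∀ y : ↥(Set.range f), ∃ z, f z = y.1 := fun y => y.2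
  let h : ↥(Set.range f) → ↥(unrSub 𝒰 M I) := fun y =>
    ⟨g (Classical.choose (hex y)), (hrange _).2 ⟨_, rfl⟩⟩
  have hsurj : Function.Surjective h := by
    rintro ⟨x, hx⟩
    obtain ⟨z', rfl⟩ := (hrange x).1 hx
    refine ⟨⟨f z', ⟨z', rfl⟩⟩, ?_⟩
    apply Subtype.ext
    show g (Classical.choose (hex ⟨f z', ⟨z', rfl⟩⟩)) = g z'
    exact hker _ _ (Classical.choose_spec (hex ⟨f z', ⟨z', rfl⟩⟩))
  have h1 : Nat.card (unrSub 𝒰 M I) ≤ Nat.card ↥(Set.range f) :=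
    Nat.card_le_card_of_surjective h hsurj
  have h2 : Nat.card ↥(Set.range f) ≤ Nat.card (↥(invI M.ρ I) ⧸ R) :=
    Nat.card_le_card_of_injective (fun y => (y : ↥(invI M.ρ I) ⧸ R)) Subtype.val_injective
  have h3 : Nat.card (↥(invI M.ρ I) ⧸ R) = Nat.card (LinearMap.ker (frobSubOne M.ρ I F)) :=
    card_quot_range_eq_card_ker _
  have h4 : Nat.card (LinearMap.ker (frobSubOne M.ρ I F)) ≤ Nat.card ↥(invD M.ρ) := by
    refine Nat.card_le_card_of_injective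
      (fun m : LinearMap.ker (frobSubOne M.ρ I F) =>
        (⟨((m : ↥(invI M.ρ I)) : M), ?_⟩ : ↥(invD M.ρ))) ?_
    · intro d
      have hm0 : M.ρ F ((m : ↥(invI M.ρ I)) : M) = ((m : ↥(invI M.ρ I)) : M) := by
        have := congrArg Subtype.val (LinearMap.mem_ker.1 m.2)
        rw [frobSubOne_coe] at this
        exact sub_eq_zero.1 this
      obtain ⟨U, hU, hmU⟩ := hdisc ((m : ↥(invI M.ρ I)) : M)
      obtain ⟨n, i, hi, u, hu, rfl⟩ := hgen U hU d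
      have hFn : ∀ n : ℤ, M.ρ (F ^ n) ((m : ↥(invI M.ρ I)) : M) = ((m : ↥(invI M.ρ I)) : M) :=
        rho_zpow_fix M.ρ F hm0
      rw [map_mul, map_mul, Module.End.mul_apply, Module.End.mul_apply, hmU u hu,
        (m : ↥(invI M.ρ I)).2 i hi, hFn n]
    · intro a b hab
      have := congrArg Subtype.val hab
      exact Subtype.ext (Subtype.ext this)
  exact ⟨Finite.of_surjective h hsurj, h1.trans (h2.trans (h3 ▸ h4))⟩

theorem finite_unrSub [Finite M] [I.Normal] (F : G)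
    (hgen : ∀ U ∈ 𝒰.sets, ∀ d : G, ∃ n : ℤ, ∃ i ∈ I, ∃ u ∈ U, d = F ^ n * i * u) :
    Finite (unrSub 𝒰 M I) := (finite_and_card_unrSub_le 𝒰 M I F hgen).1

theorem card_unrSub_le [Finite M] [I.Normal] (F : G)
    (hgen : ∀ U ∈ 𝒰.sets, ∀ d : G, ∃ n : ℤ, ∃ i ∈ I, ∃ u ∈ U, d = F ^ n * i * u) :
    Nat.card (unrSub 𝒰 M I) ≤ Nat.card (invD M.ρ) := (finite_and_card_unrSub_le 𝒰 M I F hgen).2

/-- `#H¹_unr ≤ #H⁰` against `Hlc 𝒰 M 0`. -/
theorem card_unrSub_le_card_Hlc_zero [Finite M] [I.Normal] (F : G)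
    (hgen : ∀ U ∈ 𝒰.sets, ∀ d : G, ∃ n : ℤ, ∃ i ∈ I, ∃ u ∈ U, d = F ^ n * i * u) :
    Nat.card (unrSub 𝒰 M I) ≤ Nat.card (Hlc 𝒰 M 0) := by
  refine (card_unrSub_le 𝒰 M I F hgen).trans (le_of_eq ?_)
  have e : ↥(invD M.ρ) ≃ ↥(M.ρ.invariants) :=
    { toFun := fun m => ⟨m.1, (invD_eq_invariants M m.1).1 m.2⟩
      invFun := fun m => ⟨m.1, (invD_eq_invariants M m.1).2 m.2⟩
      left_inv := fun _ => rfl
      right_inv := fun _ => rfl }
  rw [Nat.card_congr e, Nat.card_congr (Hlc0Equiv 𝒰 M).toEquiv]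

/-- `dim H¹_unr ≤ dim H⁰` over a finite field. -/
theorem finrank_unrSub_le {k G : Type u} [Field k] [Finite k] [Group G] (𝒰 : LevelSystem G)
    (M : Rep.{u} k G) [IsDiscrete 𝒰 M] (I : Subgroup G) [Finite M] [I.Normal] (F : G)
    (hgen : ∀ U ∈ 𝒰.sets, ∀ d : G, ∃ n : ℤ, ∃ i ∈ I, ∃ u ∈ U, d = F ^ n * i * u) :
    Module.finrank k (unrSub 𝒰 M I) ≤ Module.finrank k (Hlc 𝒰 M 0) := by
  have h := card_unrSub_le_card_Hlc_zero 𝒰 M I F hgen
  have hfin0 : Finite (Hlc 𝒰 M 0) :=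
    Finite.of_injective (Hlc0Equiv 𝒰 M) (Hlc0Equiv 𝒰 M).injective
  have hfin0' : Module.Finite k (Hlc 𝒰 M 0) := Module.Finite.of_finite
  have hfin1 : Finite (unrSub 𝒰 M I) := finite_unrSub 𝒰 M I F hgen
  have hfin1' : Module.Finite k (unrSub 𝒰 M I) := Module.Finite.of_finite
  rw [Module.natCard_eq_pow_finrank (K := k) (V := unrSub 𝒰 M I),
    Module.natCard_eq_pow_finrank (K := k) (V := Hlc 𝒰 M 0)] at h
  exact (Nat.pow_le_pow_iff_right Finite.one_lt_card).1 h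

end Fermat.Agent.GP.Loc.SminHlc
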