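/-
GATE-P / S56 [P-LOC] node S56-LOC-SMIN-HLC (helper32), part 2: **inertia and (GEN) in the pinned
local group `Gq q = Gal(ℚ̄_q/ℚ_q)`**, by transport along `localGaloisToGlobal q` from the frozen
language at the place `P := padicPlace q`.

* `Iq q : Subgroup (Gq q)` := preimage of `(padicPlace q).inertiaSubgroupIn ℚ`; it is normal.
* `exists_frob_gen q` : there is `F : Gq q` such that for EVERY open `U ≤ Gq q` every `d` is
  `F ^ n * i * u`, `i ∈ Iq q`, `u ∈ U` (helper67 `FrobGen.exists_eq_pow_mul_mul` + Krasner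
  `isContHom_levelOf_levelQ` + `range localGaloisToGlobal = D_P`).
* `card_unrSub_Gq_le`, `finrank_unrSub_Gq_le` : `#H¹_unr(G_q, M) ≤ #H⁰(G_q, M)` for every finite
  `levelQ q`-discrete `M` (in particular `M = Rep.res (localGaloisToGlobal q) N`).
-/
import Fermat.Agent.GP.Loc.SminHlcUnr
import Fermat.Agent.GP.Loc.FrobGen
import Fermat.Agent.GP.GW.TWInfl

set_option autoImplicit false
set_option linter.unusedSectionVars false

open scoped Pointwise

noncomputable section

namespace Fermat.Agent.GP.Loc.SminHlc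

open Fermat.Agent.GC.Prof Fermat.Agent.GC.C0 Fermat.Agent.GC.Places Fermat.Agent.GC.Local.KR
  Fermat.Agent.GC.PT.LocDataQ Fermat.Agent.Common_helper32

variable (q : ℕ) [Fact q.Prime]

/-- the inertia subgroup of `G_{ℚ_q}`: transport of the frozen inertia group of `padicPlace q`. -/
def Iq : Subgroup (Gq q) :=
  ((padicPlace q).inertiaSubgroupIn ℚ).comap (localGaloisToGlobal q)

theorem mem_Iq_iff (τ : Gq q) :
    τ ∈ Iq q ↔ localGaloisToGlobal q τ ∈ (padicPlace q).inertiaSubgroupIn ℚ := Iff.rfl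

instance Iq_normal : (Iq q).Normal := ⟨fun i hi d => by
  rw [mem_Iq_iff, map_mul, map_mul, map_inv]
  have h := conj_mem_inertiaSubgroupIn (localGaloisToGlobal q d) ((mem_Iq_iff q i).1 hi)
  have hd : localGaloisToGlobal q d • padicPlace q = padicPlace q :=
    MulAction.mem_stabilizer_iff.1 (localGaloisToGlobal_mem_decompositionSubgroup q d)
  rwa [hd] at h⟩

/-- **(GEN) for `G_{ℚ_q}`**: Frobenius and inertia generate modulo every open subgroup. -/
theorem exists_frob_gen : ∃ F : Gq q, ∀ U ∈ (levelQ q).sets, ∀ d : Gq q,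
    ∃ n : ℤ, ∃ i ∈ Iq q, ∃ u ∈ U, d = F ^ n * i * u := by
  have hq : q.Prime := Fact.out
  have hA : ((q : ℕ) : Qb) ∈ (padicPlace q).nonunits :=
    Fermat.Agent.GP.GW.TWInfl.liesOverPrime_padicPlace q
  obtain ⟨φ, hφ⟩ := exists_isFrobeniusAt_of_liesOver (padicPlace q) q hq hA
  obtain ⟨F, hF⟩ := (mem_decompositionSubgroup_iff q φ).1 hφ.mem_decompositionSubgroup
  refine ⟨F, fun U hU d => ?_⟩
  obtain ⟨V, hV, hVU⟩ := isContHom_levelOf_levelQ q U hU
  obtain ⟨_, ⟨L, hL, rfl⟩, rfl⟩ := hV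
  have : FiniteDimensional ℚ L := hL
  -- an open normal subgroup of `G_ℚ` inside `L.fixingSubgroup`
  set L' : IntermediateField ℚ Qb := IntermediateField.normalClosure ℚ L Qb with hL'
  have hfd : FiniteDimensional ℚ L' := normalClosure.is_finiteDimensional ℚ L Qb
  have hnorm : Normal ℚ L' := normalClosure.normal ℚ L Qb
  have hgal : IsGalois ℚ L' := { to_isSeparable := inferInstance, to_normal := hnorm }
  have hHn : (L'.fixingSubgroup).Normal := IsGalois.fixingSubgroup_normal_of_isGalois _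
  have hHopen : IsOpen ((L'.fixingSubgroup : Subgroup (Qb ≃ₐ[ℚ] Qb)) : Set (Qb ≃ₐ[ℚ] Qb)) :=
    (InfiniteGalois.isOpen_iff_finite L').2 hfd
  have hHle : L'.fixingSubgroup ≤ L.fixingSubgroup :=
    IntermediateField.fixingSubgroup_antitone L.le_normalClosure
  obtain ⟨n, τ, hτ, h, hh, hσ⟩ := Fermat.Agent.GP.Loc.FrobGen.exists_eq_pow_mul_mul
    (padicPlace q) hq hA hφ L'.fixingSubgroup hHn hHopen
    (localGaloisToGlobal_mem_decompositionSubgroup q d)
  obtain ⟨i, hi⟩ :=
    Fermat.Agent.GP.GW.TWInfl.exists_localGaloisToGlobal_eq_of_mem_inertia q hτ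
  refine ⟨(n : ℤ), i, ?_, (F ^ n * i)⁻¹ * d, ?_, ?_⟩
  · rw [mem_Iq_iff, hi]
    exact hτ
  · apply hVU
    rw [Subgroup.mem_comap]
    apply hHle
    have : localGaloisToGlobal q ((F ^ n * i)⁻¹ * d) = h := by
      rw [map_mul, map_inv, map_mul, map_pow, hF, hi, hσ]
      group
    rw [this]
    exact hh
  · rw [zpow_natCast]
    group

variable {k : Type} [CommRing k] (M : Rep k (Gq q)) [IsDiscrete (levelQ q) M]

/-- `#H¹_unr(G_q, M) ≤ #H⁰(G_q, M)`. -/
theorem card_unrSub_Gq_le [Finite M] :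
    Nat.card (unrSub (levelQ q) M (Iq q)) ≤ Nat.card (Hlc (levelQ q) M 0) := by
  obtain ⟨F, hF⟩ := exists_frob_gen q
  exact card_unrSub_le_card_Hlc_zero (levelQ q) M (Iq q) F hF

theorem finite_unrSub_Gq [Finite M] : Finite (unrSub (levelQ q) M (Iq q)) := by
  obtain ⟨F, hF⟩ := exists_frob_gen q
  exact finite_unrSub (levelQ q) M (Iq q) F hF

/-- `dim H¹_unr(G_q, M) ≤ dim H⁰(G_q, M)` over a finite field. -/
theorem finrank_unrSub_Gq_le {k : Type} [Field k] [Finite k] (M : Rep k (Gq q))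
    [IsDiscrete (levelQ q) M] [Finite M] :
    Module.finrank k (unrSub (levelQ q) M (Iq q)) ≤ Module.finrank k (Hlc (levelQ q) M 0) := by
  obtain ⟨F, hF⟩ := exists_frob_gen q
  exact finrank_unrSub_le (levelQ q) M (Iq q) F hF

end Fermat.Agent.GP.Loc.SminHlc
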