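/-
GATE-P / S56 [P-LOC] leaf S56-LOC-UNIP-ALG (helper70).  Mathlib only.

Local condition at a prime `q ∈ Smin`, `q ≠ p` (frozen S56: `IsUnipotentOnInertiaAt q`):
a lift `r = rbar + ε b : I →* M₂(k[ε])` of a NONTRIVIAL unipotent `rbar : I →* M₂(k)` all of whose
members have characteristic polynomial `(X - 1)²` (i.e. trace `2`, determinant `1`) and whose
image is CYCLIC (`I` = inertia at `q`, image a `p`-group, `p ≠ q`: tame inertia) is conjugate by
`1 + ε Y`, `tr Y = 0`, to the constant lift of `rbar`:   `b s = Y * rbar s - rbar s * Y`.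
Equivalently the cocycle `c s = b s * (rbar s)⁻¹` is the coboundary of `Y` on `I`, so the class of
the deformation in `H¹(G_q, ad⁰ rbar)` dies in `H¹(I_q, ad⁰ rbar)`:  `L_q ⊆ H¹_unr`, of dimension
`h⁰(G_q, ad⁰ rbar)`.

Cyclicity is essential (an abelian image is not enough), it is the leaf S56-LOC-TAMEP.

Main results (namespace `Fermat.Agent.GP.Loc.UnipCocycle`):
* `exists_comm_eq`              : `N ≠ 0`, `tr N = 0 = det N`, `tr b = 0 = tr (N b)`
                                  ⟹ `∃ Y, tr Y = 0 ∧ Y N - N Y = b`   (`2 ≠ 0` in `k`);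
* `exists_conj_of_cyclic`       : the `(rbar, b)` form over `k`;
* `exists_conj_of_cyclic_dual`  : the `M₂(k[ε])` form (`DualNumber k`), hypotheses `trace = 2`,
                                  `det = 1`;
* `exists_conj_of_cyclic_charpoly` : the same with hypothesis `charpoly = (X - 1)²`;
* `conj_form`                   : `r s = (1 + εY) * (rbar s)~ * (1 - εY)`.
-/
import Mathlib

set_option autoImplicit false

namespace Fermat.Agent.GP.Loc.UnipCocycle

open Matrix

variable {k : Type*} [Field k]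

/-- `2 × 2` matrices (local abbreviation). -/
abbrev Mat2 (A : Type*) : Type _ := Matrix (Fin 2) (Fin 2) A

/-- Solving `[Y, N] = b` for a nonzero nilpotent `N` in `M₂(k)`, `2 ≠ 0`. -/
theorem exists_comm_eq (h2 : (2 : k) ≠ 0) (N b : Mat2 k) (hN0 : N ≠ 0) (hNtr : N.trace = 0)
    (hNdet : N.det = 0) (hb : b.trace = 0) (hNb : (N * b).trace = 0) :
    ∃ Y : Mat2 k, Y.trace = 0 ∧ Y * N - N * Y = b := by
  rw [Matrix.trace_fin_two] at hNtr hb
  rw [Matrix.det_fin_two] at hNdet
  rw [Matrix.trace_fin_two] at hNb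
  simp only [Matrix.mul_apply, Fin.sum_univ_two] at hNb
  have hN11 : N 1 1 = - N 0 0 := by linear_combination hNtr
  have hb11 : b 1 1 = - b 0 0 := by linear_combination hb
  have hNb' : 2 * N 0 0 * b 0 0 + N 0 1 * b 1 0 + N 1 0 * b 0 1 = 0 := by
    rw [hN11, hb11] at hNb
    linear_combination hNb
  by_cases h01 : N 0 1 = 0
  · by_cases h10 : N 1 0 = 0
    · exfalso
      apply hN0
      have h00 : N 0 0 = 0 := by
        have : N 0 0 * N 0 0 = 0 := by
          rw [hN11, h01, h10] at hNdet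
          linear_combination -hNdet
        exact mul_self_eq_zero.mp this
      ext i j
      fin_cases i <;> fin_cases j <;> simp [h00, h01, h10, hN11]
    · -- `N 1 0 ≠ 0`
      refine ⟨!![-(b 1 0) / (2 * N 1 0), b 0 0 / N 1 0; 0, (b 1 0) / (2 * N 1 0)], ?_, ?_⟩
      · rw [Matrix.trace_fin_two]
        simp
        ring
      · have e : b = !![b 0 0, b 0 1; b 1 0, b 1 1] := Matrix.eta_fin_two b
        have eN : N = !![N 0 0, N 0 1; N 1 0, N 1 1] := Matrix.eta_fin_two N
        rw [e, eN]
        rw [h01] at hNb'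
        ext i j
        fin_cases i <;> fin_cases j <;>
          simp [hN11, hb11, h01] <;> field_simp <;>
          first
            | ring1
            | linear_combination (-1 : k) * hNb'
  · -- `N 0 1 ≠ 0`
    refine ⟨!![(b 0 1) / (2 * N 0 1), 0; -(b 0 0) / N 0 1, -(b 0 1) / (2 * N 0 1)], ?_, ?_⟩
    · rw [Matrix.trace_fin_two]
      simp
      ring
    · have e : b = !![b 0 0, b 0 1; b 1 0, b 1 1] := Matrix.eta_fin_two b
      have eN : N = !![N 0 0, N 0 1; N 1 0, N 1 1] := Matrix.eta_fin_two N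
      rw [e, eN]
      ext i j
      fin_cases i <;> fin_cases j <;>
        simp [hN11, hb11] <;> field_simp <;>
        first
          | ring1
          | linear_combination (-1 : k) * hNb'
          | linear_combination (1 : k) * hNb'
          | linear_combination (-2 : k) * hNb'

/-! ### The `(rbar, b)` form over `k` -/

section Core

variable {I : Type*} [Monoid I]

/-- A "derivation" `b` along `rbar` vanishes at `1`. -/
theorem deriv_one (rbar : I →* Mat2 k) (b : I → Mat2 k)
    (hb : ∀ s t, b (s * t) = rbar s * b t + b s * rbar t) : b 1 = 0 := by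
  have h := hb 1 1
  rw [mul_one, map_one, one_mul, mul_one] at h
  have : b 1 + b 1 = b 1 + 0 := by rw [add_zero]; exact h.symm
  exact add_left_cancel this

/-- If `b t` is the inner derivation of `Y` at `t`, the same holds at all powers of `t`. -/
theorem deriv_pow (rbar : I →* Mat2 k) (b : I → Mat2 k)
    (hb : ∀ s t, b (s * t) = rbar s * b t + b s * rbar t) (Y : Mat2 k) (t : I)
    (ht : b t = Y * rbar t - rbar t * Y) (n : ℕ) :
    b (t ^ n) = Y * rbar (t ^ n) - rbar (t ^ n) * Y := by
  induction n with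
  | zero =>
    rw [pow_zero, map_one, deriv_one rbar b hb, mul_one, one_mul, sub_self]
  | succ n ih =>
    rw [pow_succ, hb, ih, ht, map_mul]
    noncomm_ring

/-- **Core statement** (`(rbar, b)` form).  `rbar + ε b` a lift of the unipotent `rbar` with all
traces `2` and determinants `1`, `rbar` nontrivial, image generated by one element `t`: then `b` is
the inner derivation of a trace-zero `Y`. -/
theorem exists_conj_of_cyclic (h2 : (2 : k) ≠ 0) (rbar : I →* Mat2 k) (b : I → Mat2 k)
    (hb : ∀ s t, b (s * t) = rbar s * b t + b s * rbar t)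
    (htr0 : ∀ s, (rbar s).trace = 2) (hdet0 : ∀ s, (rbar s).det = 1)
    (htr1 : ∀ s, (b s).trace = 0) (hdet1 : ∀ s, (rbar s * b s).trace = 0)
    (hram : ∃ s, rbar s ≠ 1)
    (hcyc : ∃ t, ∀ s, ∃ n : ℕ, rbar s = rbar (t ^ n) ∧ b s = b (t ^ n)) :
    ∃ Y : Mat2 k, Y.trace = 0 ∧ ∀ s, b s = Y * rbar s - rbar s * Y := by
  obtain ⟨t, ht⟩ := hcyc
  -- `U = rbar t ≠ 1`
  have hU1 : rbar t ≠ 1 := by
    intro h1
    obtain ⟨s, hs⟩ := hram
    obtain ⟨n, hn, -⟩ := ht s
    apply hs
    rw [hn, map_pow, h1, one_pow]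
  set U : Mat2 k := rbar t with hU
  set N : Mat2 k := U - 1 with hN
  have hN0 : N ≠ 0 := fun h => hU1 (sub_eq_zero.mp h)
  have hUtr : U 0 0 + U 1 1 = 2 := by
    have := htr0 t
    rwa [Matrix.trace_fin_two] at this
  have hUdet : U 0 0 * U 1 1 - U 0 1 * U 1 0 = 1 := by
    have := hdet0 t
    rwa [Matrix.det_fin_two] at this
  have hNtr : N.trace = 0 := by
    rw [Matrix.trace_fin_two]
    simp only [hN, Matrix.sub_apply, Matrix.one_apply_eq]
    linear_combination hUtr
  have hNdet : N.det = 0 := by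
    rw [Matrix.det_fin_two]
    simp only [hN, Matrix.sub_apply, Matrix.one_apply_eq]
    have h01 : (1 : Mat2 k) 0 1 = 0 := Matrix.one_apply_ne (by decide)
    have h10 : (1 : Mat2 k) 1 0 = 0 := Matrix.one_apply_ne (by decide)
    rw [h01, h10]
    linear_combination hUdet - hUtr
  have hNb : (N * b t).trace = 0 := by
    rw [hN, sub_mul, one_mul, Matrix.trace_sub, hdet1 t, htr1 t, sub_zero]
  obtain ⟨Y, hYtr, hY⟩ := exists_comm_eq h2 N (b t) hN0 hNtr hNdet (htr1 t) hNb
  have hYU : b t = Y * U - U * Y := by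
    rw [← hY, hN]
    noncomm_ring
  refine ⟨Y, hYtr, fun s => ?_⟩
  obtain ⟨n, hn, hbn⟩ := ht s
  rw [hbn, hn]
  exact deriv_pow rbar b hb Y t hYU n

/-- The inner-derivation property passes from `t` to `t⁻¹` (in a group). -/
theorem deriv_inv {G : Type*} [Group G] (rbar : G →* Mat2 k) (b : G → Mat2 k)
    (hb : ∀ s t, b (s * t) = rbar s * b t + b s * rbar t) (Y : Mat2 k) (t : G)
    (ht : b t = Y * rbar t - rbar t * Y) :
    b t⁻¹ = Y * rbar t⁻¹ - rbar t⁻¹ * Y := by
  have h1 : rbar t⁻¹ * rbar t = 1 := by rw [← map_mul, inv_mul_cancel, map_one]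
  have h2 : rbar t * rbar t⁻¹ = 1 := by rw [← map_mul, mul_inv_cancel, map_one]
  have h0 : rbar t * b t⁻¹ + b t * rbar t⁻¹ = 0 := by
    rw [← hb, mul_inv_cancel, deriv_one rbar b hb]
  have h3 : b t⁻¹ = - (rbar t⁻¹ * (b t * rbar t⁻¹)) := by
    have := congrArg (fun M => rbar t⁻¹ * M) h0
    simp only [mul_add, mul_zero, ← mul_assoc, h1, one_mul] at this
    rw [eq_neg_iff_add_eq_zero]
    simpa [mul_assoc] using this
  rw [h3, ht]
  have e1 : rbar t⁻¹ * ((Y * rbar t - rbar t * Y) * rbar t⁻¹) =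
      rbar t⁻¹ * Y * (rbar t * rbar t⁻¹) - (rbar t⁻¹ * rbar t) * Y * rbar t⁻¹ := by
    noncomm_ring
  rw [e1, h1, h2, mul_one, one_mul]
  abel

/-- integer powers (in a group) -/
theorem deriv_zpow {G : Type*} [Group G] (rbar : G →* Mat2 k) (b : G → Mat2 k)
    (hb : ∀ s t, b (s * t) = rbar s * b t + b s * rbar t) (Y : Mat2 k) (t : G)
    (ht : b t = Y * rbar t - rbar t * Y) (n : ℤ) :
    b (t ^ n) = Y * rbar (t ^ n) - rbar (t ^ n) * Y := by
  obtain ⟨m, rfl | rfl⟩ := n.eq_nat_or_neg
  · rw [zpow_natCast]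
    exact deriv_pow rbar b hb Y t ht m
  · rw [_root_.zpow_neg, zpow_natCast, ← inv_pow]
    exact deriv_pow rbar b hb Y t⁻¹ (deriv_inv rbar b hb Y t ht) m

/-- **Core statement, group version with integer powers.** -/
theorem exists_conj_of_cyclic_zpow {G : Type*} [Group G] (h2 : (2 : k) ≠ 0)
    (rbar : G →* Mat2 k) (b : G → Mat2 k)
    (hb : ∀ s t, b (s * t) = rbar s * b t + b s * rbar t)
    (htr0 : ∀ s, (rbar s).trace = 2) (hdet0 : ∀ s, (rbar s).det = 1)
    (htr1 : ∀ s, (b s).trace = 0) (hdet1 : ∀ s, (rbar s * b s).trace = 0)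
    (hram : ∃ s, rbar s ≠ 1)
    (hcyc : ∃ t, ∀ s, ∃ n : ℤ, rbar s = rbar (t ^ n) ∧ b s = b (t ^ n)) :
    ∃ Y : Mat2 k, Y.trace = 0 ∧ ∀ s, b s = Y * rbar s - rbar s * Y := by
  obtain ⟨t, ht⟩ := hcyc
  -- restrict to the submonoid-free argument: redo the proof at `t`
  have hU1 : rbar t ≠ 1 := by
    intro h1
    obtain ⟨s, hs⟩ := hram
    obtain ⟨n, hn, -⟩ := ht s
    apply hs
    rw [hn, map_zpow', h1, Matrix.one_zpow]
    intro x
    have hx : rbar x * rbar x⁻¹ = 1 := by rw [← map_mul, mul_inv_cancel, map_one]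
    have hx' : rbar x⁻¹ * rbar x = 1 := by rw [← map_mul, inv_mul_cancel, map_one]
    exact (Matrix.inv_eq_right_inv hx).symm
  -- apply the monoid version to the trivial "cyclic" datum on `t` itself to get `Y`
  obtain ⟨Y, hYtr, hY⟩ := exists_conj_of_cyclic (I := Submonoid.powers t) h2
    (rbar.comp (Submonoid.powers t).subtype) (fun s => b s)
    (fun s u => hb s u) (fun s => htr0 s) (fun s => hdet0 s) (fun s => htr1 s)
    (fun s => hdet1 s) ⟨⟨t, Submonoid.mem_powers t⟩, hU1⟩
    ⟨⟨t, Submonoid.mem_powers t⟩, fun s => by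
      obtain ⟨n, hn⟩ := s.2
      refine ⟨n, ?_, ?_⟩
      · have : s = (⟨t, Submonoid.mem_powers t⟩ : Submonoid.powers t) ^ n := by
          apply Subtype.ext
          simpa using hn.symm
        rw [this]
      · have : s = (⟨t, Submonoid.mem_powers t⟩ : Submonoid.powers t) ^ n := by
          apply Subtype.ext
          simpa using hn.symm
        rw [this]⟩
  refine ⟨Y, hYtr, fun s => ?_⟩
  obtain ⟨n, hn, hbn⟩ := ht s
  rw [hbn, hn]
  exact deriv_zpow rbar b hb Y t (hY ⟨t, Submonoid.mem_powers t⟩) n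

end Core

/-! ### The `M₂(k[ε])` form -/

section Dual

open TrivSqZeroExt

variable {I : Type*} [Monoid I]

/-- the `ε⁰`-part of a matrix over the dual numbers -/
def part0 (M : Mat2 (DualNumber k)) : Mat2 k := M.map TrivSqZeroExt.fst

/-- the `ε¹`-part of a matrix over the dual numbers -/
def part1 (M : Mat2 (DualNumber k)) : Mat2 k := M.map TrivSqZeroExt.snd

omit [Field k] in
@[simp] theorem part0_apply (M : Mat2 (DualNumber k)) (i j : Fin 2) :
    part0 M i j = (M i j).fst := rfl

omit [Field k] in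
@[simp] theorem part1_apply (M : Mat2 (DualNumber k)) (i j : Fin 2) :
    part1 M i j = (M i j).snd := rfl

theorem part0_one : part0 (1 : Mat2 (DualNumber k)) = 1 := by
  ext i j
  fin_cases i <;> fin_cases j <;> simp

theorem part0_mul (M M' : Mat2 (DualNumber k)) : part0 (M * M') = part0 M * part0 M' := by
  ext i j
  simp [Matrix.mul_apply, Fin.sum_univ_two]

theorem part1_mul (M M' : Mat2 (DualNumber k)) :
    part1 (M * M') = part0 M * part1 M' + part1 M * part0 M' := by
  ext i j
  simp [Matrix.mul_apply, Fin.sum_univ_two]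
  ring

/-- the residual hom of a `M₂(k[ε])`-valued hom -/
def resHom (r : I →* Mat2 (DualNumber k)) : I →* Mat2 k where
  toFun s := part0 (r s)
  map_one' := by rw [map_one, part0_one]
  map_mul' s t := by rw [map_mul, part0_mul]

@[simp] theorem resHom_apply (r : I →* Mat2 (DualNumber k)) (s : I) :
    resHom r s = part0 (r s) := rfl

/-- **`M₂(k[ε])` form.**  A hom `r : I →* M₂(k[ε])` with all traces `2`, all determinants `1`,
nontrivial residual hom and image generated by one element is `(1 + εY)`-conjugate to the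
constant lift of its residual hom, `tr Y = 0`; here in the cocycle form
`part1 (r s) = Y * part0 (r s) - part0 (r s) * Y`. -/
theorem exists_conj_of_cyclic_dual (h2 : (2 : k) ≠ 0) (r : I →* Mat2 (DualNumber k))
    (htr : ∀ s, (r s).trace = 2) (hdet : ∀ s, (r s).det = 1)
    (hram : ∃ s, part0 (r s) ≠ 1)
    (hcyc : ∃ t, ∀ s, ∃ n : ℕ, r s = r (t ^ n)) :
    ∃ Y : Mat2 k, Y.trace = 0 ∧ ∀ s, part1 (r s) = Y * part0 (r s) - part0 (r s) * Y := by
  have htr' : ∀ s, (r s 0 0).fst + (r s 1 1).fst = 2 ∧ (r s 0 0).snd + (r s 1 1).snd = 0 := by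
    intro s
    have h := htr s
    rw [Matrix.trace_fin_two] at h
    have f2 : (2 : DualNumber k).fst = 2 := rfl
    have s2 : (2 : DualNumber k).snd = 0 := rfl
    constructor
    · have := congrArg TrivSqZeroExt.fst h
      rw [f2] at this
      simpa using this
    · have := congrArg TrivSqZeroExt.snd h
      rw [s2] at this
      simpa using this
  have hdet' : ∀ s, (r s 0 0).fst * (r s 1 1).fst - (r s 0 1).fst * (r s 1 0).fst = 1 ∧
      (r s 0 0).fst * (r s 1 1).snd + (r s 1 1).fst * (r s 0 0).snd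
        - ((r s 0 1).fst * (r s 1 0).snd + (r s 1 0).fst * (r s 0 1).snd) = 0 := by
    intro s
    have h := hdet s
    rw [Matrix.det_fin_two] at h
    constructor
    · have := congrArg TrivSqZeroExt.fst h
      simpa using this
    · have := congrArg TrivSqZeroExt.snd h
      have h' : (r s 0 0).fst * (r s 1 1).snd + (r s 0 0).snd * (r s 1 1).fst -
          ((r s 0 1).fst * (r s 1 0).snd + (r s 0 1).snd * (r s 1 0).fst) = 0 := by
        simpa using this
      linear_combination h'
  refine exists_conj_of_cyclic h2 (resHom r) (fun s => part1 (r s)) ?_ ?_ ?_ ?_ ?_ hram ?_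
  · intro s t
    rw [map_mul, part1_mul]
    rfl
  · intro s
    rw [Matrix.trace_fin_two]
    exact (htr' s).1
  · intro s
    rw [Matrix.det_fin_two]
    exact (hdet' s).1
  · intro s
    rw [Matrix.trace_fin_two]
    exact (htr' s).2
  · intro s
    rw [Matrix.trace_fin_two]
    simp only [Matrix.mul_apply, Fin.sum_univ_two, resHom_apply, part0_apply, part1_apply]
    have h1 := (htr' s).1
    have h2' := (htr' s).2
    have h3 := (hdet' s).2
    have e1 : (r s 1 1).fst = 2 - (r s 0 0).fst := by linear_combination h1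
    have e2 : (r s 1 1).snd = - (r s 0 0).snd := by linear_combination h2'
    rw [e1, e2] at h3 ⊢
    linear_combination (-1 : k) * h3
  · obtain ⟨t, ht⟩ := hcyc
    refine ⟨t, fun s => ?_⟩
    obtain ⟨n, hn⟩ := ht s
    exact ⟨n, by rw [resHom_apply, resHom_apply, hn], by rw [hn]⟩

/-- trace `2` and determinant `1` from the characteristic polynomial `(X - 1)²`. -/
theorem trace_det_of_charpoly {R : Type*} [CommRing R] [Nontrivial R] (M : Mat2 R)
    (h : M.charpoly = (Polynomial.X - 1) ^ 2) : M.trace = 2 ∧ M.det = 1 := by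
  rw [Matrix.charpoly_fin_two] at h
  have h0 := congrArg (fun q => Polynomial.coeff q 0) h
  have h1 := congrArg (fun q => Polynomial.coeff q 1) h
  have e : ((Polynomial.X : Polynomial R) - 1) ^ 2 =
      Polynomial.X ^ 2 - Polynomial.C 2 * Polynomial.X + Polynomial.C 1 := by
    rw [map_one, show (Polynomial.C (2 : R)) = 2 from rfl]
    ring
  rw [e] at h0 h1
  simp only [Polynomial.coeff_add, Polynomial.coeff_sub, Polynomial.coeff_X_pow,
    Polynomial.coeff_C_mul, Polynomial.coeff_X_zero, Polynomial.coeff_X_one,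
    Polynomial.coeff_C] at h0 h1
  norm_num at h0 h1
  exact ⟨h1, h0⟩

/-- **`M₂(k[ε])` form, group version with integer powers.** -/
theorem exists_conj_of_cyclic_dual_zpow {G : Type*} [Group G] (h2 : (2 : k) ≠ 0)
    (r : G →* Mat2 (DualNumber k))
    (htr : ∀ s, (r s).trace = 2) (hdet : ∀ s, (r s).det = 1)
    (hram : ∃ s, part0 (r s) ≠ 1)
    (hcyc : ∃ t, ∀ s, ∃ n : ℤ, r s = r (t ^ n)) :
    ∃ Y : Mat2 k, Y.trace = 0 ∧ ∀ s, part1 (r s) = Y * part0 (r s) - part0 (r s) * Y := by
  obtain ⟨t, ht⟩ := hcyc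
  -- the monoid version on the powers of `t` produces `Y`
  obtain ⟨Y, hYtr, hY⟩ := exists_conj_of_cyclic_dual (I := Submonoid.powers t) h2
    (r.comp (Submonoid.powers t).subtype) (fun s => htr s) (fun s => hdet s)
    (by
      obtain ⟨s, hs⟩ := hram
      refine ⟨⟨t, Submonoid.mem_powers t⟩, fun h1 => hs ?_⟩
      obtain ⟨n, hn⟩ := ht s
      have ht1 : resHom r t = 1 := h1
      have : resHom r (t ^ n) = 1 := by
        rw [map_zpow' (resHom r) _ t n, ht1, Matrix.one_zpow]
        intro x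
        have hx : resHom r x * resHom r x⁻¹ = 1 := by
          rw [← map_mul, mul_inv_cancel, map_one]
        exact (Matrix.inv_eq_right_inv hx).symm
      rw [hn]
      exact this)
    ⟨⟨t, Submonoid.mem_powers t⟩, fun s => by
      obtain ⟨n, hn⟩ := s.2
      refine ⟨n, ?_⟩
      have : s = (⟨t, Submonoid.mem_powers t⟩ : Submonoid.powers t) ^ n := by
        apply Subtype.ext
        simpa using hn.symm
      rw [this]⟩
  refine ⟨Y, hYtr, fun s => ?_⟩
  obtain ⟨n, hn⟩ := ht s
  rw [hn]
  have hb : ∀ s u, part1 (r (s * u)) = resHom r s * part1 (r u) + part1 (r s) * resHom r u := by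
    intro s u
    rw [map_mul, part1_mul]
    rfl
  exact deriv_zpow (resHom r) (fun s => part1 (r s)) hb Y t (hY ⟨t, Submonoid.mem_powers t⟩) n

/-- **Charpoly form** (the shape of the frozen `IsUnipotentOnInertiaAt`). -/
theorem exists_conj_of_cyclic_charpoly {G : Type*} [Group G] (h2 : (2 : k) ≠ 0)
    (r : G →* Mat2 (DualNumber k))
    (hchar : ∀ s, (r s).charpoly = (Polynomial.X - 1) ^ 2)
    (hram : ∃ s, part0 (r s) ≠ 1)
    (hcyc : ∃ t, ∀ s, ∃ n : ℤ, r s = r (t ^ n)) :
    ∃ Y : Mat2 k, Y.trace = 0 ∧ ∀ s, part1 (r s) = Y * part0 (r s) - part0 (r s) * Y :=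
  exists_conj_of_cyclic_dual_zpow h2 r (fun s => (trace_det_of_charpoly _ (hchar s)).1)
    (fun s => (trace_det_of_charpoly _ (hchar s)).2) hram hcyc

/-- **Subgroup form**: `r : G →* M₂(k[ε])`, `J ≤ G` (inertia), hypotheses only on `J`. -/
theorem exists_conj_on_subgroup {G : Type*} [Group G] (h2 : (2 : k) ≠ 0)
    (r : G →* Mat2 (DualNumber k)) (J : Subgroup G)
    (hchar : ∀ s ∈ J, (r s).charpoly = (Polynomial.X - 1) ^ 2)
    (hram : ∃ s ∈ J, part0 (r s) ≠ 1)
    (hcyc : ∃ t ∈ J, ∀ s ∈ J, ∃ n : ℤ, r s = r (t ^ n)) :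
    ∃ Y : Mat2 k, Y.trace = 0 ∧ ∀ s ∈ J, part1 (r s) = Y * part0 (r s) - part0 (r s) * Y := by
  obtain ⟨s0, hs0J, hs0⟩ := hram
  obtain ⟨t, htJ, ht⟩ := hcyc
  obtain ⟨Y, hYtr, hY⟩ := exists_conj_of_cyclic_charpoly h2 (r.comp J.subtype)
    (fun s => hchar s s.2) ⟨⟨s0, hs0J⟩, hs0⟩
    ⟨⟨t, htJ⟩, fun s => by
      obtain ⟨n, hn⟩ := ht s s.2
      exact ⟨n, by simpa using hn⟩⟩
  exact ⟨Y, hYtr, fun s hs => hY ⟨s, hs⟩⟩

/-- the matrix `1 + εY` -/
def onePlusEps (Y : Mat2 k) : Mat2 (DualNumber k) :=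
  Matrix.of fun i j => TrivSqZeroExt.inl ((1 : Mat2 k) i j) + TrivSqZeroExt.inr (Y i j)

/-- the constant lift of a matrix over `k` -/
def constLift (M : Mat2 k) : Mat2 (DualNumber k) := M.map TrivSqZeroExt.inl

@[simp] theorem fst_onePlusEps (Y : Mat2 k) (i j : Fin 2) :
    (onePlusEps Y i j).fst = (1 : Mat2 k) i j := by
  simp [onePlusEps]

@[simp] theorem snd_onePlusEps (Y : Mat2 k) (i j : Fin 2) :
    (onePlusEps Y i j).snd = Y i j := by
  simp [onePlusEps]

@[simp] theorem fst_constLift (M : Mat2 k) (i j : Fin 2) : (constLift M i j).fst = M i j := by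
  simp [constLift]

@[simp] theorem snd_constLift (M : Mat2 k) (i j : Fin 2) : (constLift M i j).snd = 0 := by
  simp [constLift]

theorem part0_onePlusEps (Y : Mat2 k) : part0 (onePlusEps Y) = 1 := by
  ext i j; simp

theorem part1_onePlusEps (Y : Mat2 k) : part1 (onePlusEps Y) = Y := by
  ext i j; simp

theorem part0_constLift (M : Mat2 k) : part0 (constLift M) = M := by
  ext i j; simp

theorem part1_constLift (M : Mat2 k) : part1 (constLift M) = 0 := by
  ext i j; simp

omit [Field k] in
/-- a matrix over the dual numbers is determined by its two parts -/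
theorem ext_parts {M M' : Mat2 (DualNumber k)} (h0 : part0 M = part0 M')
    (h1 : part1 M = part1 M') : M = M' := by
  ext i j
  · exact congrFun (congrFun h0 i) j
  · exact congrFun (congrFun h1 i) j

theorem part1_one : part1 (1 : Mat2 (DualNumber k)) = 0 := by
  ext i j
  fin_cases i <;> fin_cases j <;> simp

theorem onePlusEps_mul_neg (Y : Mat2 k) : onePlusEps Y * onePlusEps (-Y) = 1 := by
  apply ext_parts
  · rw [part0_mul, part0_onePlusEps, part0_onePlusEps, part0_one, one_mul]
  · rw [part1_mul, part0_onePlusEps, part0_onePlusEps, part1_onePlusEps, part1_onePlusEps,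
      part1_one, one_mul, mul_one, neg_add_cancel]

/-- **Conjugation form**: `part1 M = Y * part0 M - part0 M * Y` says exactly
`M = (1 + εY) * (part0 M)~ * (1 - εY)`. -/
theorem conj_form (M : Mat2 (DualNumber k)) (Y : Mat2 k)
    (h : part1 M = Y * part0 M - part0 M * Y) :
    M = onePlusEps Y * constLift (part0 M) * onePlusEps (-Y) := by
  apply ext_parts
  · rw [part0_mul, part0_mul, part0_onePlusEps, part0_onePlusEps, part0_constLift, one_mul,
      mul_one]
  · rw [part1_mul, part0_mul, part1_mul, part0_onePlusEps, part0_onePlusEps, part1_onePlusEps,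
      part1_onePlusEps, part0_constLift, part1_constLift, h]
    noncomm_ring

/-- converse of `conj_form` -/
theorem part1_of_conj_form (M : Mat2 (DualNumber k)) (Y : Mat2 k)
    (h : M = onePlusEps Y * constLift (part0 M) * onePlusEps (-Y)) :
    part1 M = Y * part0 M - part0 M * Y := by
  have := congrArg part1 h
  rw [part1_mul, part0_mul, part1_mul, part0_onePlusEps, part0_onePlusEps, part1_onePlusEps,
    part1_onePlusEps, part0_constLift, part1_constLift] at this
  rw [this]
  noncomm_ring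

end Dual

end Fermat.Agent.GP.Loc.UnipCocycle
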