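/-
GATE-P / S56 [P-LOC] leaf S56-LOC-UNIP-GLUE (helper70).

Transport of the frozen local condition `IsUnipotentOnInertiaAt q` (`q ∈ Smin`, `q ≠ p`) to the
tangent cocycle of helper11 (`GP/Tan/Cocycle.lean`), through the matrix leaf `GP/Loc/UnipCocycle`:

for a first-order deformation `r : G_ℚ →* M₂(k[ε])` (continuous) whose attached `GaloisRepAdic`
is unipotent on inertia at `q`, with residual hom RAMIFIED at a place `P | q`, and such that
`r (I_P)` is generated by one element (`TameGen r P`, the output of S56-LOC-TAMEP / TAMECYC since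
`r (I_P)` is a finite `p`-group, `p ≠ q`), the tangent cocycle restricted to `I_P` is the
coboundary of a trace-zero matrix `Y`:
      `tanCocycle r σ = Y - r̄ σ * Y * r̄ σ⁻¹`   for all `σ ∈ I_P`,
i.e. the class of the deformation is UNRAMIFIED at `P`: `L_q ⊆ H¹_unr(G_q, ad⁰ ρbar)`.

Also: every element of `r (I_P)` has order dividing `p` (`pow_char_eq_one_of_charpoly`), the
`p`-group input of TAMEP.
-/
import Fermat.Agent.GP.Tan.Cocycle
import Fermat.Agent.GP.Loc.UnipCocycle

set_option autoImplicit false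
set_option linter.unusedSectionVars false

namespace Fermat.Agent.GP.Loc.UnipGlue

open IsLocalRing Fermat.Agent.S53_helper35 Matrix Fermat.Agent.GP.Tan.Cocycle
open Fermat.Agent.GP.Loc.UnipCocycle

/-! ### generalities on the frozen predicate -/

section General

variable {A : Type} [CommRing A] [IsLocalRing A]

/-- the frozen unipotent-on-inertia condition is invariant under equivalence. -/
theorem isUnipotentOnInertiaAt_of_isEquiv {ρ ρ' : GaloisRepAdic A} (h : ρ.IsEquiv ρ') {q : ℕ}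
    (hq : ρ.IsUnipotentOnInertiaAt q) : ρ'.IsUnipotentOnInertiaAt q := by
  obtain ⟨e⟩ := h
  intro P hP σ hσ
  have h1 : ρ'.ρ σ = e.toLinearEquiv.conj (ρ.ρ σ) := by
    refine LinearMap.ext fun y => ?_
    rw [LinearEquiv.conj_apply]
    simp only [LinearMap.comp_apply, LinearEquiv.coe_coe]
    rw [e.map_apply, LinearEquiv.apply_symm_apply]
  rw [h1, LinearEquiv.charpoly_conj]
  exact hq P hP σ hσ

/-- charpoly of the `GaloisRepAdic` attached to a matrix hom. -/
theorem charpoly_ofMat (r : GQ →* Matrix (Fin 2) (Fin 2) A) (hr : MatCont r) (σ : GQ) :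
    LinearMap.charpoly ((ofMat r hr).ρ σ) = (r σ).charpoly := by
  rw [ofMat_ρ_apply]
  exact Matrix.charpoly_toLin' _

/-- matrix form of the frozen condition. -/
theorem charpoly_eq_of_isUnipotentOnInertiaAt (r : GQ →* Matrix (Fin 2) (Fin 2) A)
    (hr : MatCont r) {q : ℕ} (hq : (ofMat r hr).IsUnipotentOnInertiaAt q)
    (P : ValuationSubring (AlgebraicClosure ℚ)) (hP : P.LiesOverPrime q) (σ : GQ)
    (hσ : σ ∈ P.inertiaSubgroupIn ℚ) : (r σ).charpoly = (Polynomial.X - 1) ^ 2 := by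
  rw [← charpoly_ofMat r hr σ]
  exact hq P hP σ hσ

/-- a `2 × 2` matrix with characteristic polynomial `(X - 1)²` over a ring in which `p = 0`
satisfies `M ^ p = 1`. -/
theorem pow_char_eq_one_of_charpoly (p : ℕ) [hp : Fact p.Prime]
    (hpA : (p : A) = 0) (M : Matrix (Fin 2) (Fin 2) A)
    (h : M.charpoly = (Polynomial.X - 1) ^ 2) : M ^ p = 1 := by
  -- Cayley–Hamilton: `(M - 1)^2 = 0`
  have hCH : (M - 1) ^ 2 = 0 := by
    have := Matrix.aeval_self_charpoly M
    rw [h] at this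
    simpa using this
  have hcomm : Commute (M - 1) (1 : Matrix (Fin 2) (Fin 2) A) := Commute.one_right _
  have e : M = (M - 1) + 1 := by abel
  have hA : CharP A p := (CharP.charP_iff_prime_eq_zero hp.out).mpr hpA
  have hM : CharP (Matrix (Fin 2) (Fin 2) A) p := inferInstance
  rw [e, add_pow_char_of_commute _ hcomm, one_pow]
  have : (M - 1) ^ p = 0 := by
    have h2 : 2 ≤ p := hp.out.two_le
    obtain ⟨m, rfl⟩ := Nat.exists_eq_add_of_le h2
    rw [pow_add, hCH, zero_mul]
  rw [this, zero_add]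

end General

/-! ### the tangent cocycle on inertia -/

section Tangent

variable {k : Type} [Field k]

/-- `r (I_P)` is generated by one element (conclusion of S56-LOC-TAMEP applied to `r`). -/
def TameGen (r : GQ →* Matrix (Fin 2) (Fin 2) (DualNumber k))
    (P : ValuationSubring (AlgebraicClosure ℚ)) : Prop :=
  ∃ τ ∈ P.inertiaSubgroupIn ℚ, ∀ σ ∈ P.inertiaSubgroupIn ℚ, ∃ n : ℤ, r σ = r (τ ^ n)

/-- **the unipotent local condition gives an unramified class** (matrix form). -/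
theorem tanCocycle_coboundary_on_inertia (h2 : (2 : k) ≠ 0)
    (r : GQ →* Matrix (Fin 2) (Fin 2) (DualNumber k)) (hr : MatCont r) {q : ℕ}
    (hq : (ofMat r hr).IsUnipotentOnInertiaAt q)
    (P : ValuationSubring (AlgebraicClosure ℚ)) (hP : P.LiesOverPrime q)
    (hram : ∃ σ ∈ P.inertiaSubgroupIn ℚ, rfst r σ ≠ 1)
    (htame : TameGen r P) :
    ∃ Y : Matrix (Fin 2) (Fin 2) k, Y.trace = 0 ∧ ∀ σ ∈ P.inertiaSubgroupIn ℚ,
      tanCocycle r σ = Y - rfst r σ * Y * rfst r σ⁻¹ := by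
  obtain ⟨Y, hYtr, hY⟩ := exists_conj_on_subgroup h2 r (P.inertiaSubgroupIn ℚ)
    (fun s hs => charpoly_eq_of_isUnipotentOnInertiaAt r hr hq P hP s hs) hram htame
  refine ⟨Y, hYtr, fun σ hσ => ?_⟩
  have h1 : rsnd r σ = Y * rfst r σ - rfst r σ * Y := hY σ hσ
  unfold tanCocycle
  rw [h1, Matrix.sub_mul, Matrix.mul_assoc Y, rfst_mul_inv, Matrix.mul_one]

/-! ### from cyclicity of the image of inertia (output of TAMEP) to `TameGen` -/

/-- `TameGen` from cyclicity of the image of inertia under the unit-valued form of `r`. -/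
theorem tameGen_of_isCyclic (r : GQ →* Matrix (Fin 2) (Fin 2) (DualNumber k))
    (P : ValuationSubring (AlgebraicClosure ℚ))
    (h : IsCyclic ((P.inertiaSubgroupIn ℚ).map r.toHomUnits)) : TameGen r P := by
  obtain ⟨⟨g, hg⟩, hgen⟩ := h.exists_generator
  obtain ⟨τ, hτ, rfl⟩ := hg
  refine ⟨τ, hτ, fun σ hσ => ?_⟩
  have hmem : (⟨r.toHomUnits σ, Subgroup.mem_map_of_mem _ hσ⟩ :
      (P.inertiaSubgroupIn ℚ).map r.toHomUnits) ∈
      Subgroup.zpowers (⟨r.toHomUnits τ, Subgroup.mem_map_of_mem _ hτ⟩ :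
        (P.inertiaSubgroupIn ℚ).map r.toHomUnits) := hgen _
  obtain ⟨n, hn⟩ := hmem
  refine ⟨n, ?_⟩
  have h1 := congrArg (fun x : (P.inertiaSubgroupIn ℚ).map r.toHomUnits =>
    ((x : (Matrix (Fin 2) (Fin 2) (DualNumber k))ˣ) : Matrix (Fin 2) (Fin 2) (DualNumber k))) hn
  simp only [Subgroup.coe_zpow] at h1
  rw [← map_zpow] at h1
  exact h1.symm

/-- the image of inertia under a unipotent-on-inertia first-order deformation is a `p`-group
(every element has order dividing `p`): the hypothesis of TAMEP. -/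
theorem isPGroup_map_inertia (p : ℕ) [hp : Fact p.Prime] [CharP k p]
    (r : GQ →* Matrix (Fin 2) (Fin 2) (DualNumber k)) (hr : MatCont r) {q : ℕ}
    (hq : (ofMat r hr).IsUnipotentOnInertiaAt q)
    (P : ValuationSubring (AlgebraicClosure ℚ)) (hP : P.LiesOverPrime q) :
    IsPGroup p ((P.inertiaSubgroupIn ℚ).map r.toHomUnits) := by
  rintro ⟨g, hg⟩
  obtain ⟨σ, hσ, rfl⟩ := hg
  refine ⟨1, ?_⟩
  apply Subtype.ext
  apply Units.ext
  simp only [pow_one, Subgroup.coe_pow, Units.val_pow_eq_pow_val, Subgroup.coe_one, Units.val_one]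
  have hpk : ((p : ℕ) : DualNumber k) = 0 := by
    ext
    · rw [TrivSqZeroExt.fst_natCast, CharP.cast_eq_zero, TrivSqZeroExt.fst_zero]
    · rw [TrivSqZeroExt.snd_natCast, TrivSqZeroExt.snd_zero]
  exact pow_char_eq_one_of_charpoly p hpk _
    (charpoly_eq_of_isUnipotentOnInertiaAt r hr hq P hP σ hσ)

end Tangent

/-! ### the tangent cocycle of a tangent vector of a universal deformation ring -/

section Universal

open Fermat.Agent.GP.Tan.UnivInj Fermat.Agent.S53_helper84

variable {𝒪 : Type} [CommRing 𝒪] [IsDomain 𝒪] [IsDiscreteValuationRing 𝒪]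
  [IsAdicComplete (maximalIdeal 𝒪) 𝒪]
  {ρbar : ResidualGaloisRep (ResidueField 𝒪)}
  {𝒟 : ∀ ⦃A : Type⦄ [CommRing A] [IsLocalRing A] [Algebra 𝒪 A], GaloisRepAdic A → Prop}
  (DQ : GaloisRep.DeformationRingData 𝒪 ρbar 𝒟)
  (b : Module.Basis (Fin 2) (ResidueField 𝒪) ρbar.V)

/-- **unipotent on inertia at `q` ⟹ the tangent cocycle is a coboundary on `I_P`, `P | q`**
(`ρbar` ramified at `P`, `TameGen` from TAMEP). -/
theorem tangentCocycle_coboundary_on_inertia (h2 : (2 : ResidueField 𝒪) ≠ 0)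
    (φ : DQ.R →ₐ[𝒪] DualNumber (ResidueField 𝒪)) {q : ℕ}
    (hq : (tangentRep DQ φ).IsUnipotentOnInertiaAt q)
    (P : ValuationSubring (AlgebraicClosure ℚ)) (hP : P.LiesOverPrime q)
    (hram : ∃ σ ∈ P.inertiaSubgroupIn ℚ, toMatRes ρbar b σ ≠ 1)
    (htame : TameGen (tangentMat DQ b φ) P) :
    ∃ Y : Matrix (Fin 2) (Fin 2) (ResidueField 𝒪), Y.trace = 0 ∧
      ∀ σ ∈ P.inertiaSubgroupIn ℚ, tangentCocycle DQ b φ σ =
        Y - toMatRes ρbar b σ * Y * toMatRes ρbar b σ⁻¹ := by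
  have hq' : (ofMat (tangentMat DQ b φ) (matCont_tangentMat DQ b φ)).IsUnipotentOnInertiaAt q :=
    isUnipotentOnInertiaAt_of_isEquiv (tangentRep_isEquiv_tangentMat DQ b φ) hq
  have hram' : ∃ σ ∈ P.inertiaSubgroupIn ℚ, rfst (tangentMat DQ b φ) σ ≠ 1 := by
    rw [rfst_tangentMat]
    exact hram
  obtain ⟨Y, hYtr, hY⟩ := tanCocycle_coboundary_on_inertia h2 (tangentMat DQ b φ)
    (matCont_tangentMat DQ b φ) hq' P hP hram' htame
  refine ⟨Y, hYtr, fun σ hσ => ?_⟩
  have := hY σ hσ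
  rw [rfst_tangentMat] at this
  exact this

end Universal

end Fermat.Agent.GP.Loc.UnipGlue
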