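/-
GATE-P / S56 [P-LOC] node S56-LOC-SMIN, plug file (helper29, [P-LOC] sub-owner).

`GP/Loc/UnipGlue.lean` (helper70) proves: frozen `IsUnipotentOnInertiaAt q` on a first-order
deformation ⟹ its tangent cocycle is a coboundary on `I_P` (`P | q`), with ONE open binder
`TameGen r P` (`r (I_P)` generated by one element).  `GP/Loc/TamePQuot.lean` (helper29) proves that
`p`-group images of inertia at `q ≠ p` are cyclic.  This file plugs the two:

* `tameGen_of_isUnipotentOnInertiaAt`      : `TameGen r P` for every continuous `r : G_ℚ →* M₂(k[ε])`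
  unipotent on inertia at `q ≠ p = char k`;
* `tanCocycle_coboundary_on_inertia'`      : helper70's matrix theorem with NO tame binder;
* `tangentCocycle_coboundary_on_inertia'`  : the same for `tangentCocycle DQ b φ` of helper11.

So at `q ∈ Smin ∖ {p}` every tangent class of type `𝒟_Q` is UNRAMIFIED at every place `P | q` at
which `ρbar` is ramified:  `L_q = H¹_unr(G_q, ad⁰ ρbar)`.
-/
import Fermat.Agent.GP.Loc.UnipGlue
import Fermat.Agent.GP.Loc.TamePQuot

set_option autoImplicit false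

namespace Fermat.Agent.GP.Loc.UnipTame

open IsLocalRing Fermat.Agent.S53_helper35 Matrix Fermat.Agent.GP.Tan.Cocycle
open Fermat.Agent.GP.Loc.UnipGlue Fermat.Agent.GP.Loc.TamePQuot

section Matrix

variable {k : Type} [Field k]

/-- the unit-valued form of a continuous `r : G_ℚ →* M₂(k[ε])` factors through a finite level. -/
theorem toHomUnits_finiteLevel (r : GQ →* Matrix (Fin 2) (Fin 2) (DualNumber k))
    (hr : MatCont r) :
    ∃ L : IntermediateField ℚ (AlgebraicClosure ℚ), FiniteDimensional ℚ L ∧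
      ∀ σ : AlgebraicClosure ℚ ≃ₐ[ℚ] AlgebraicClosure ℚ, (∀ x ∈ L, σ x = x) →
        r.toHomUnits σ = 1 := by
  obtain ⟨L, hL, h⟩ := exists_eq_one_of_matCont r hr
  refine ⟨L, hL, fun σ hσ => Units.ext ?_⟩
  rw [MonoidHom.coe_toHomUnits, Units.val_one]
  exact h σ hσ

/-- **TAMEP plugged**: the image of `I_P` under a first-order deformation which is unipotent on
inertia at `q ≠ p` is generated by one element. -/
theorem tameGen_of_isUnipotentOnInertiaAt (p : ℕ) [Fact p.Prime] [CharP k p]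
    (r : GQ →* Matrix (Fin 2) (Fin 2) (DualNumber k)) (hr : MatCont r) {q : ℕ} (hqp : q.Prime)
    (hpq : p ≠ q) (hq : (ofMat r hr).IsUnipotentOnInertiaAt q)
    (P : ValuationSubring (AlgebraicClosure ℚ)) (hP : P.LiesOverPrime q) : TameGen r P :=
  tameGen_of_isCyclic r P
    (isCyclic_map_inertia_of_isPGroup P hqp hP r.toHomUnits (toHomUnits_finiteLevel r hr) p hpq
      (isPGroup_map_inertia p r hr hq P hP))

/-- **the unipotent local condition gives an unramified class** (matrix form, no tame binder). -/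
theorem tanCocycle_coboundary_on_inertia' (p : ℕ) [Fact p.Prime] [CharP k p] (hp2 : p ≠ 2)
    (r : GQ →* Matrix (Fin 2) (Fin 2) (DualNumber k)) (hr : MatCont r) {q : ℕ} (hqp : q.Prime)
    (hpq : p ≠ q) (hq : (ofMat r hr).IsUnipotentOnInertiaAt q)
    (P : ValuationSubring (AlgebraicClosure ℚ)) (hP : P.LiesOverPrime q)
    (hram : ∃ σ ∈ P.inertiaSubgroupIn ℚ, rfst r σ ≠ 1) :
    ∃ Y : Matrix (Fin 2) (Fin 2) k, Y.trace = 0 ∧ ∀ σ ∈ P.inertiaSubgroupIn ℚ,
      tanCocycle r σ = Y - rfst r σ * Y * rfst r σ⁻¹ := by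
  have h2 : (2 : k) ≠ 0 := by
    intro h
    have h' : ((2 : ℕ) : k) = 0 := by exact_mod_cast h
    rw [CharP.cast_eq_zero_iff k p] at h'
    exact hp2 ((Nat.prime_dvd_prime_iff_eq Fact.out Nat.prime_two).1 h')
  exact tanCocycle_coboundary_on_inertia h2 r hr hq P hP hram
    (tameGen_of_isUnipotentOnInertiaAt p r hr hqp hpq hq P hP)

end Matrix

section Universal

open Fermat.Agent.GP.Tan.UnivInj Fermat.Agent.S53_helper84

variable {𝒪 : Type} [CommRing 𝒪] [IsDomain 𝒪] [IsDiscreteValuationRing 𝒪]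
  [IsAdicComplete (maximalIdeal 𝒪) 𝒪]
  {ρbar : ResidualGaloisRep (ResidueField 𝒪)}
  {𝒟 : ∀ ⦃A : Type⦄ [CommRing A] [IsLocalRing A] [Algebra 𝒪 A], GaloisRepAdic A → Prop}
  (DQ : GaloisRep.DeformationRingData 𝒪 ρbar 𝒟)
  (b : Module.Basis (Fin 2) (ResidueField 𝒪) ρbar.V)

/-- **unipotent on inertia at `q ≠ p` ⟹ the tangent cocycle is a coboundary on `I_P`** for every
place `P | q` at which `ρbar` is ramified (no tame binder). -/
theorem tangentCocycle_coboundary_on_inertia' (p : ℕ) [Fact p.Prime] [CharP (ResidueField 𝒪) p]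
    (hp2 : p ≠ 2) (φ : DQ.R →ₐ[𝒪] DualNumber (ResidueField 𝒪)) {q : ℕ} (hqp : q.Prime)
    (hpq : p ≠ q) (hq : (tangentRep DQ φ).IsUnipotentOnInertiaAt q)
    (P : ValuationSubring (AlgebraicClosure ℚ)) (hP : P.LiesOverPrime q)
    (hram : ∃ σ ∈ P.inertiaSubgroupIn ℚ, toMatRes ρbar b σ ≠ 1) :
    ∃ Y : Matrix (Fin 2) (Fin 2) (ResidueField 𝒪), Y.trace = 0 ∧
      ∀ σ ∈ P.inertiaSubgroupIn ℚ, tangentCocycle DQ b φ σ =
        Y - toMatRes ρbar b σ * Y * toMatRes ρbar b σ⁻¹ := by
  have h2 : (2 : ResidueField 𝒪) ≠ 0 := by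
    intro h
    have h' : ((2 : ℕ) : ResidueField 𝒪) = 0 := by exact_mod_cast h
    rw [CharP.cast_eq_zero_iff (ResidueField 𝒪) p] at h'
    exact hp2 ((Nat.prime_dvd_prime_iff_eq Fact.out Nat.prime_two).1 h')
  have hq' : (ofMat (tangentMat DQ b φ) (matCont_tangentMat DQ b φ)).IsUnipotentOnInertiaAt q :=
    isUnipotentOnInertiaAt_of_isEquiv (tangentRep_isEquiv_tangentMat DQ b φ) hq
  exact tangentCocycle_coboundary_on_inertia DQ b h2 φ hq P hP hram
    (tameGen_of_isUnipotentOnInertiaAt p (tangentMat DQ b φ) (matCont_tangentMat DQ b φ) hqp hpq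
      hq' P hP)

end Universal

end Fermat.Agent.GP.Loc.UnipTame
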