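/-
GATE-P / S56 [P-LOC] node S56-LOC-SMIN-HLC (helper32), part 3: **the local condition at
`q ∈ Smin ∖ {p}` in the pinned `Hlc` model.**

`N : Rep k' G_ℚ` any model of `ad⁰ρ̄` (binders `emb hinj hsurj hact` of helper11
`GP/Tan/SelmerGlobal`), `S : Finset Nat.Primes`, `q ∈ S`, `q ≠ p`, `ρbar` ramified at `q`.
For a continuous matrix lift `t : G_ℚ →* M₂(k[ε])` of `ρbar` which is unipotent on inertia at `q`
(frozen `IsUnipotentOnInertiaAt q`) and a level-constant cocycle `z` with `emb ∘ z = tanCocycle t`: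

  `locRes (locDataQ S) N 1 [z] q ∈ unrSub (levelQ q) (Rep.res (localGaloisToGlobal q) N) (Iq q)`

i.e. the class of the first-order deformation is UNRAMIFIED at `q` in the pinned model; together with
`finrank_unrSub_Gq_le` (`dim H¹_unr ≤ dim H⁰`, `SminHlcGen`) this is the local term "ratio ≤ 1" of
the Greenberg–Wiles count at the primes of `Smin ∖ {p}`.

Inputs: helper29 `UnipTame.tanCocycle_coboundary_on_inertia'` (helper70 `UnipGlue` + `TamePQuot`) at
`P := padicPlace q`, helper29 `PlaceConj.exists_toMatRes_ne_one_of_not_isUnramifiedAt` (hram at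
`padicPlace q` from the frozen `hmin`), helper78 `LowMap.HlcPull_Hlc1π`.
-/
import Fermat.Agent.GP.Loc.SminHlcGen
import Fermat.Agent.GP.Loc.UnipTame
import Fermat.Agent.GP.Loc.PlaceConj
import Fermat.Agent.GC.Prof.LowMap
import Fermat.Agent.GC.PT.LocDataQ

set_option autoImplicit false
set_option linter.unusedSectionVars false

noncomputable section

namespace Fermat.Agent.GP.Loc.SminHlc

open IsLocalRing Fermat.Agent.S53_helper35 Matrix Fermat.Agent.GP.Tan.Cocycle
  Fermat.Agent.GC.Prof Fermat.Agent.GC.Prof.Cone Fermat.Agent.GC.Places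
  Fermat.Agent.GC.PT.LocDataQ Fermat.Agent.GC.Local.KR groupCohomology CategoryTheory
open Fermat.Agent.GC.C0 (levelS)

local instance factPrimeOfPrimes_sminHlc (q : Nat.Primes) : Fact ((q : ℕ).Prime) := ⟨q.2⟩

/-! ### restriction to `G_{ℚ_q}` on function cocycles -/

section Res

variable {k' : Type} [CommRing k'] (S : Finset Nat.Primes) (N : Rep k' GQ)
  [IsDiscrete (levelS S) N]

/-- discreteness of the restriction to `G_{ℚ_q}` (as an instance). -/
instance isDiscrete_res_sminHlc (q : ↥S) :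
    IsDiscrete (levelQ ((q : Nat.Primes) : ℕ))
      (Rep.res (localGaloisToGlobal ((q : Nat.Primes) : ℕ)) N) :=
  isDiscrete_res_localGaloisToGlobal S ((q : Nat.Primes) : ℕ) N

/-- the restriction of a level-constant cocycle of `G_ℚ` to `G_{ℚ_q}`. -/
def resCocycle (q : ↥S) (z : lcCocycles₁ (levelS S) N) :
    lcCocycles₁ (levelQ ((q : Nat.Primes) : ℕ))
      (Rep.res (localGaloisToGlobal ((q : Nat.Primes) : ℕ)) N) :=
  ⟨fun g => (z : GQ → N) (localGaloisToGlobal ((q : Nat.Primes) : ℕ) g),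
    pull_mem_lcCocycles₁ (isContHom_localGaloisToGlobal S ((q : Nat.Primes) : ℕ))
      (𝟙 (Rep.res (localGaloisToGlobal ((q : Nat.Primes) : ℕ)) N)) z⟩

theorem resCocycle_apply (q : ↥S) (z : lcCocycles₁ (levelS S) N)
    (g : Gq ((q : Nat.Primes) : ℕ)) :
    (resCocycle S N q z : Gq ((q : Nat.Primes) : ℕ) → N) g =
      (z : GQ → N) (localGaloisToGlobal ((q : Nat.Primes) : ℕ) g) := rfl

/-- **`locRes` on function cocycles is precomposition with `localGaloisToGlobal q`.** -/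
theorem locRes_Hlc1π (q : ↥S) (z : lcCocycles₁ (levelS S) N) :
    locRes (locDataQ S) N 1 (Hlc1π (levelS S) N z) q =
      Hlc1π (levelQ ((q : Nat.Primes) : ℕ))
        (Rep.res (localGaloisToGlobal ((q : Nat.Primes) : ℕ)) N) (resCocycle S N q z) := by
  exact HlcPull_Hlc1π (isContHom_localGaloisToGlobal S ((q : Nat.Primes) : ℕ))
    (𝟙 (Rep.res (localGaloisToGlobal ((q : Nat.Primes) : ℕ)) N)) z

/-- a global cocycle which is the coboundary of `x` on the inertia group of `padicPlace q` has an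
unramified localisation at `q`. -/
theorem locRes_mem_unrSub_of_coboundary_on (q : ↥S) (z : lcCocycles₁ (levelS S) N) (x : N)
    (h : ∀ σ ∈ (padicPlace ((q : Nat.Primes) : ℕ)).inertiaSubgroupIn ℚ,
      (z : GQ → N) σ = N.ρ σ x - x) :
    locRes (locDataQ S) N 1 (Hlc1π (levelS S) N z) q ∈
      unrSub (levelQ ((q : Nat.Primes) : ℕ))
        (Rep.res (localGaloisToGlobal ((q : Nat.Primes) : ℕ)) N) (Iq ((q : Nat.Primes) : ℕ)) := by
  rw [locRes_Hlc1π]
  refine mem_unrSub_of_coboundary_on _ _ _ _ x fun τ hτ => ?_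
  rw [resCocycle_apply]
  exact h _ ((mem_Iq_iff _ τ).1 hτ)

end Res

/-! ### the unipotent condition -/

section Unip

variable {𝒪 : Type} [CommRing 𝒪] [IsLocalRing 𝒪]
  (ρbar : ResidualGaloisRep (ResidueField 𝒪))
  (b : Module.Basis (Fin 2) (ResidueField 𝒪) ρbar.V)
variable {k' : Type} [CommRing k'] (S : Finset Nat.Primes) (N : Rep k' GQ)
  [IsDiscrete (levelS S) N]
  (emb : N →+ Matrix (Fin 2) (Fin 2) (ResidueField 𝒪))
  (hinj : Function.Injective emb)
  (hsurj : ∀ X : Matrix (Fin 2) (Fin 2) (ResidueField 𝒪), X.trace = 0 → ∃ x, emb x = X)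
  (hact : ∀ (σ : GQ) (x : N),
    emb (N.ρ σ x) = toMatRes ρbar b σ * emb x * toMatRes ρbar b σ⁻¹)

include hinj hsurj hact in
/-- **S56-LOC-SMIN-HLC.**  The class of a first-order deformation which is unipotent on inertia at
`q ≠ p` (`ρbar` ramified at `q`) is unramified at `q` in the pinned model. -/
theorem locRes_mem_unrSub (p : ℕ) [Fact p.Prime] [CharP (ResidueField 𝒪) p] (hp2 : p ≠ 2)
    (q : ↥S) (hpq : p ≠ ((q : Nat.Primes) : ℕ))
    (t : GQ →* Matrix (Fin 2) (Fin 2) (DualNumber (ResidueField 𝒪))) (ht : MatCont t)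
    (hfst : rfst t = toMatRes ρbar b)
    (hq : (ofMat t ht).IsUnipotentOnInertiaAt ((q : Nat.Primes) : ℕ))
    (hram : ¬ ρbar.IsUnramifiedAt ((q : Nat.Primes) : ℕ))
    (z : lcCocycles₁ (levelS S) N) (hz : ∀ σ, emb ((z : GQ → N) σ) = tanCocycle t σ) :
    locRes (locDataQ S) N 1 (Hlc1π (levelS S) N z) q ∈
      unrSub (levelQ ((q : Nat.Primes) : ℕ))
        (Rep.res (localGaloisToGlobal ((q : Nat.Primes) : ℕ)) N) (Iq ((q : Nat.Primes) : ℕ)) := by
  have hqp : (((q : Nat.Primes) : ℕ)).Prime := (q : Nat.Primes).2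
  have hP : (padicPlace ((q : Nat.Primes) : ℕ)).LiesOverPrime ((q : Nat.Primes) : ℕ) :=
    Fermat.Agent.GP.GW.TWInfl.liesOverPrime_padicPlace _
  have hram' : ∃ σ ∈ (padicPlace ((q : Nat.Primes) : ℕ)).inertiaSubgroupIn ℚ, rfst t σ ≠ 1 := by
    rw [hfst]
    exact Fermat.Agent.GP.Loc.PlaceConj.exists_toMatRes_ne_one_of_not_isUnramifiedAt ρbar b hqp
      hram _ hP
  obtain ⟨Y, hYtr, hY⟩ := Fermat.Agent.GP.Loc.UnipTame.tanCocycle_coboundary_on_inertia' p hp2 t ht
    hqp hpq hq _ hP hram'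
  obtain ⟨x, hx⟩ := hsurj Y hYtr
  refine locRes_mem_unrSub_of_coboundary_on S N q z (-x) fun σ hσ => ?_
  apply hinj
  rw [hz, hY σ hσ, map_sub, hact, map_neg, hx, hfst]
  simp only [Matrix.mul_neg, Matrix.neg_mul, sub_neg_eq_add]
  abel

include hinj in
/-- The class of a first-order deformation which is UNRAMIFIED at `q` (the primes of `Σ ∖ (Smin ∪ Q)`
of an enlarged set `Σ`) is unramified at `q` in the pinned model. No hypothesis on `ρbar`. -/
theorem locRes_mem_unrSub_of_isUnramifiedAt (q : ↥S)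
    (t : GQ →* Matrix (Fin 2) (Fin 2) (DualNumber (ResidueField 𝒪))) (ht : MatCont t)
    (hq : (ofMat t ht).IsUnramifiedAt ((q : Nat.Primes) : ℕ))
    (z : lcCocycles₁ (levelS S) N) (hz : ∀ σ, emb ((z : GQ → N) σ) = tanCocycle t σ) :
    locRes (locDataQ S) N 1 (Hlc1π (levelS S) N z) q ∈
      unrSub (levelQ ((q : Nat.Primes) : ℕ))
        (Rep.res (localGaloisToGlobal ((q : Nat.Primes) : ℕ)) N) (Iq ((q : Nat.Primes) : ℕ)) := by
  have hP : (padicPlace ((q : Nat.Primes) : ℕ)).LiesOverPrime ((q : Nat.Primes) : ℕ) :=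
    Fermat.Agent.GP.GW.TWInfl.liesOverPrime_padicPlace _
  refine locRes_mem_unrSub_of_coboundary_on S N q z 0 fun σ hσ => ?_
  apply hinj
  have h1 : t σ = 1 := (ofMat_ρ_eq_one_iff t ht σ).1 (hq _ hP σ hσ)
  rw [hz, tanCocycle_eq_zero_of_eq_one t h1, map_zero, sub_zero, map_zero]

end Unip

end Fermat.Agent.GP.Loc.SminHlc
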