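/-
GATE-P / S56 [P-LOC] node S56-LOC-SMIN-HLC (helper32), part 4: **the two `LocalCond`s of helper35's
CORE contract (`GP/Core/LocalCond`) at the primes `q ≠ p` of `Σ`**, both with `L := H¹_unr` and
`e = 0`:

* `localCond_unipotent`  : `q ∈ Smin ∖ {p}` (`ρbar` ramified at `q`):
    `LocalCond ρbar b p N emb q (fun ρ => ρ.IsUnipotentOnInertiaAt q) 0`;
* `localCond_unramified` : `q ∈ Σ ∖ Smin`:
    `LocalCond ρbar b p N emb q (fun ρ => ρ.IsUnramifiedAt q) 0`.

`L = unrSub (levelQ q) (Rep.res (localGaloisToGlobal q) N) (Iq q)` (`SminHlcUnr`/`SminHlcGen`),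
`dim L ≤ h⁰` = `finrank_unrSub_Gq_le`, membership = helper29 `UnipTame` + `PlaceConj` at
`P := padicPlace q`.
-/
import Fermat.Agent.GP.Loc.SminHlc
import Fermat.Agent.GP.Core.LocalCond

set_option autoImplicit false
set_option linter.unusedSectionVars false

noncomputable section

namespace Fermat.Agent.GP.Loc.SminHlc

open IsLocalRing Fermat.Agent.S53_helper35 Matrix Fermat.Agent.GP.Tan.Cocycle
  Fermat.Agent.GC.Prof Fermat.Agent.GC.Places Fermat.Agent.GC.Local.KR groupCohomology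
  Fermat.Agent.GP.Core

variable {𝒪 : Type} [CommRing 𝒪] [IsLocalRing 𝒪]
  (ρbar : ResidualGaloisRep (ResidueField 𝒪))
  (b : Module.Basis (Fin 2) (ResidueField 𝒪) ρbar.V)
  (p : ℕ) [Fact p.Prime]
  (N : Rep (ZMod p) S53_helper35.GQ)
  (emb : N →+ Matrix (Fin 2) (Fin 2) (ResidueField 𝒪))
  (hinj : Function.Injective emb)
  (hsurj : ∀ X : Matrix (Fin 2) (Fin 2) (ResidueField 𝒪), X.trace = 0 → ∃ x, emb x = X)
  (hact : ∀ (σ : S53_helper35.GQ) (x : N),
    emb (N.ρ σ x) = toMatRes ρbar b σ * emb x * toMatRes ρbar b σ⁻¹)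

include hinj hsurj hact in
/-- membership at `q ∈ Smin ∖ {p}`: unipotent on inertia ⟹ unramified class. -/
theorem localMem_unrSub_unipotent [CharP (ResidueField 𝒪) p] (hp2 : p ≠ 2) (q : ℕ)
    [Fact q.Prime] (hpq : p ≠ q) [IsDiscrete (levelQ q) (Rep.res (localGaloisToGlobal q) N)]
    (hram : ¬ ρbar.IsUnramifiedAt q) :
    LocalMem ρbar b p N emb q (fun ρ => ρ.IsUnipotentOnInertiaAt q)
      (unrSub (levelQ q) (Rep.res (localGaloisToGlobal q) N) (Iq q)) := by
  rintro t ht hfst ⟨ρ, hρ, hρe⟩ z hz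
  have hqp : q.Prime := Fact.out
  have hq : (ofMat t ht).IsUnipotentOnInertiaAt q :=
    Fermat.Agent.GP.Loc.UnipGlue.isUnipotentOnInertiaAt_of_isEquiv hρe hρ
  have hP : (padicPlace q).LiesOverPrime q :=
    Fermat.Agent.GP.GW.TWInfl.liesOverPrime_padicPlace q
  have hram' : ∃ σ ∈ (padicPlace q).inertiaSubgroupIn ℚ, rfst t σ ≠ 1 := by
    rw [hfst]
    exact Fermat.Agent.GP.Loc.PlaceConj.exists_toMatRes_ne_one_of_not_isUnramifiedAt ρbar b hqp
      hram _ hP
  obtain ⟨Y, hYtr, hY⟩ := Fermat.Agent.GP.Loc.UnipTame.tanCocycle_coboundary_on_inertia' p hp2 t ht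
    hqp hpq hq _ hP hram'
  obtain ⟨x, hx⟩ := hsurj Y hYtr
  refine mem_unrSub_of_coboundary_on _ _ _ z (-x) fun τ hτ => ?_
  apply hinj
  show emb ((z : Gq q → N) τ) = emb (N.ρ (localGaloisToGlobal q τ) (-x) - -x)
  rw [hz τ, hY _ ((mem_Iq_iff q τ).1 hτ), map_sub, hact, map_neg, hx, hfst]
  simp only [Matrix.mul_neg, Matrix.neg_mul, sub_neg_eq_add]
  abel

include hinj in
/-- membership at `q ∈ Σ ∖ Smin`: unramified lift ⟹ unramified class. -/
theorem localMem_unrSub_unramified (q : ℕ) [Fact q.Prime]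
    [IsDiscrete (levelQ q) (Rep.res (localGaloisToGlobal q) N)] :
    LocalMem ρbar b p N emb q (fun ρ => ρ.IsUnramifiedAt q)
      (unrSub (levelQ q) (Rep.res (localGaloisToGlobal q) N) (Iq q)) := by
  rintro t ht - ⟨ρ, hρ, hρe⟩ z hz
  have hq : (ofMat t ht).IsUnramifiedAt q := isUnramifiedAt_of_isEquiv hρe hρ
  have hP : (padicPlace q).LiesOverPrime q :=
    Fermat.Agent.GP.GW.TWInfl.liesOverPrime_padicPlace q
  refine mem_unrSub_of_coboundary_on _ _ _ z 0 fun τ hτ => ?_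
  apply hinj
  have h1 : t (localGaloisToGlobal q τ) = 1 :=
    (ofMat_ρ_eq_one_iff t ht _).1 (hq _ hP _ ((mem_Iq_iff q τ).1 hτ))
  rw [hz τ, tanCocycle_eq_zero_of_eq_one t h1, map_zero, sub_zero, map_zero]

/-- `dim H¹_unr ≤ h⁰` in the shape of `LocalCond`. -/
theorem finite_and_finrank_unrSub_res (q : ℕ) [Fact q.Prime] [Module.Finite (ZMod p) N]
    [IsDiscrete (levelQ q) (Rep.res (localGaloisToGlobal q) N)] :
    Module.Finite (ZMod p) (unrSub (levelQ q) (Rep.res (localGaloisToGlobal q) N) (Iq q)) ∧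
    Module.finrank (ZMod p) (unrSub (levelQ q) (Rep.res (localGaloisToGlobal q) N) (Iq q)) ≤
      Module.finrank (ZMod p) (Hlc (levelQ q) (Rep.res (localGaloisToGlobal q) N) 0) + 0 := by
  have hfinN : Finite N := Module.finite_of_finite (ZMod p)
  have hfinR : Finite (Rep.res (localGaloisToGlobal q) N) := hfinN
  have hfin := finite_unrSub_Gq q (Rep.res (localGaloisToGlobal q) N)
  exact ⟨Module.Finite.of_finite, by
    rw [add_zero]
    exact finrank_unrSub_Gq_le q (Rep.res (localGaloisToGlobal q) N)⟩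

include hinj hsurj hact in
/-- **`LocalCond` at `q ∈ Smin ∖ {p}`** (obligation (2) of helper35's contract). -/
theorem localCond_unipotent [CharP (ResidueField 𝒪) p] (hp2 : p ≠ 2) (q : ℕ)
    [Fact q.Prime] (hpq : p ≠ q) [Module.Finite (ZMod p) N]
    [IsDiscrete (levelQ q) (Rep.res (localGaloisToGlobal q) N)]
    (hram : ¬ ρbar.IsUnramifiedAt q) :
    LocalCond ρbar b p N emb q (fun ρ => ρ.IsUnipotentOnInertiaAt q) 0 :=
  ⟨unrSub (levelQ q) (Rep.res (localGaloisToGlobal q) N) (Iq q),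
    (finite_and_finrank_unrSub_res p N q).1, (finite_and_finrank_unrSub_res p N q).2,
    localMem_unrSub_unipotent ρbar b p N emb hinj hsurj hact hp2 q hpq hram⟩

include hinj in
/-- **`LocalCond` at `q ∈ Σ ∖ Smin`** (obligation (3) of helper35's contract). -/
theorem localCond_unramified (q : ℕ) [Fact q.Prime] [Module.Finite (ZMod p) N]
    [IsDiscrete (levelQ q) (Rep.res (localGaloisToGlobal q) N)] :
    LocalCond ρbar b p N emb q (fun ρ => ρ.IsUnramifiedAt q) 0 :=
  ⟨unrSub (levelQ q) (Rep.res (localGaloisToGlobal q) N) (Iq q),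
    (finite_and_finrank_unrSub_res p N q).1, (finite_and_finrank_unrSub_res p N q).2,
    localMem_unrSub_unramified ρbar b p N emb hinj q⟩

end Fermat.Agent.GP.Loc.SminHlc
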