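/-
GATE-P / S56 [P-LOC]→[CORE] plug (helper32): the binders `hlocSmin` and `hlocUnr` of helper35's
`CoreAsm.selmerBounds_base_of_nodes` (board 4222/4336, (R4) + (R5)) in their EXACT shape, from the
frozen `hmin` — for ANY model `(N, emb)` with the binders `hinj hsurj hact`.
-/
import Fermat.Agent.GP.Loc.SminLocalCond

set_option autoImplicit false
set_option linter.unusedSectionVars false
set_option linter.style.haveILetI false

noncomputable section

namespace Fermat.Agent.GP.Loc.SminHlc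

open IsLocalRing Fermat.Agent.S53_helper35 Matrix Fermat.Agent.GP.Tan.Cocycle
  Fermat.Agent.GC.Prof Fermat.Agent.GC.Places Fermat.Agent.GC.Local.KR groupCohomology
  Fermat.Agent.GP.Core

local instance factPrimeSminPlug (q : Nat.Primes) : Fact ((q : ℕ).Prime) := ⟨q.2⟩

variable {𝒪 : Type} [CommRing 𝒪] [IsLocalRing 𝒪]
  (ρbar : ResidualGaloisRep (ResidueField 𝒪))
  (b : Module.Basis (Fin 2) (ResidueField 𝒪) ρbar.V)
  (p : ℕ) [Fact p.Prime]
  (N : Rep (ZMod p) S53_helper35.GQ) [FiniteDimensional (ZMod p) N]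
  (emb : N →+ Matrix (Fin 2) (Fin 2) (ResidueField 𝒪))
  (hinj : Function.Injective emb)
  (hsurj : ∀ X : Matrix (Fin 2) (Fin 2) (ResidueField 𝒪), Matrix.trace X = 0 → ∃ x : N, emb x = X)
  (hact : ∀ (σ : S53_helper35.GQ) (x : N),
    emb (N.ρ σ x) = toMatRes ρbar b σ * emb x * toMatRes ρbar b σ⁻¹)
  (hdloc : ∀ q : Nat.Primes,
    IsDiscrete (levelQ (q : ℕ)) (Rep.res (localGaloisToGlobal (q : ℕ)) N))

include hinj hsurj hact in
/-- **(R4)** the binder `hlocSmin` of `CoreAsm.selmerBounds_base_of_nodes`, from the frozen `hmin`. -/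
theorem hlocSmin_of_hmin [CharP (ResidueField 𝒪) p] (hp2 : p ≠ 2) (Smin : Finset ℕ)
    (hmin : ∀ q : ℕ, q.Prime → q ≠ p → (q ∈ Smin ↔ ¬ ρbar.IsUnramifiedAt q)) :
    ∀ q : Nat.Primes, (q : ℕ) ∈ Smin → (q : ℕ) ≠ p →
      @LocalCond 𝒪 _ _ ρbar b p _ N emb (q : ℕ) _ (hdloc q)
        (fun ρ => ρ.IsUnipotentOnInertiaAt (q : ℕ)) 0 := by
  intro q hq hqp
  haveI := hdloc q
  exact localCond_unipotent ρbar b p N emb hinj hsurj hact hp2 (q : ℕ) (Ne.symm hqp)
    ((hmin (q : ℕ) q.2 hqp).1 hq)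

include hinj in
/-- **(R5)** the binder `hlocUnr` of `CoreAsm.selmerBounds_base_of_nodes` (at EVERY prime). -/
theorem hlocUnr_all :
    ∀ q : Nat.Primes, @LocalCond 𝒪 _ _ ρbar b p _ N emb (q : ℕ) _ (hdloc q)
      (fun ρ => ρ.IsUnramifiedAt (q : ℕ)) 0 := by
  intro q
  haveI := hdloc q
  exact localCond_unramified ρbar b p N emb hinj (q : ℕ)

end Fermat.Agent.GP.Loc.SminHlc
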