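/-
GATE-P / S56 [P-LOC] shared brick S56-LOC-GENGQ (helper29, [P-LOC] sub-owner).

**`Gq q = ⟨Frob⟩ · Iq q` modulo every open subgroup**, in the pinned local model
(`Gq q = Gal(ℚ̄_q/ℚ_q)`, `levelQ q` = all open subgroups, `Iq q` = preimage of the FROZEN inertia group
of `padicPlace q`, `PadicPlace.lean`).

* `exists_frobQ`   : `∃ F : Gq q, (padicPlace q).IsFrobeniusAt (localGaloisToGlobal q F) q`;
* `exists_mem_Iq_map_eq` : every element of the frozen inertia group is the image of an element of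
  `Iq q`;
* **`gen_Gq`**     : `F` as above, `U ∈ (levelQ q).sets`, `d : Gq q` `⟹`
  `∃ n : ℕ, ∃ i ∈ Iq q, ∃ u ∈ U, d = F ^ n * i * u`
  (`gen_Gq_int` : the same with `n : ℤ`) — the `hgen` input of helper40
  `UnrCount.card_unrH1_le` / `eq_cob_of_apply_frob` and of helper32 `card_unrSub_le`.

Proof: transport helper67 `FrobGen.exists_eq_pow_mul_mul` along `Gq q ≃ D_P` (helper69 Krasner).
-/
import Fermat.Agent.GP.Loc.PadicPlace
import Fermat.Agent.GP.Loc.FrobGen

set_option autoImplicit false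

open scoped Pointwise

namespace Fermat.Agent.GP.Loc.GenGq

open Fermat.Agent.GC.Local.KR Fermat.Agent.GC.Places Fermat.Agent.GC.Prof
open Fermat.Agent.GP.Loc.PadicPlace

local notation "Qb" => AlgebraicClosure ℚ

variable (q : ℕ) [Fact q.Prime]

/-- every element of the decomposition group of `padicPlace q` comes from `Gq q`. -/
theorem exists_map_eq_of_mem_decomposition {σ : Qb ≃ₐ[ℚ] Qb}
    (hσ : σ ∈ (padicPlace q).decompositionSubgroup ℚ) :
    ∃ g : Gq q, localGaloisToGlobal q g = σ := by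
  rw [← range_localGaloisToGlobal_eq q] at hσ
  exact hσ

/-- every element of the FROZEN inertia group of `padicPlace q` is the image of an element of
`Iq q`. -/
theorem exists_mem_Iq_map_eq {τ : Qb ≃ₐ[ℚ] Qb}
    (hτ : τ ∈ (padicPlace q).inertiaSubgroupIn ℚ) :
    ∃ i ∈ Iq q, localGaloisToGlobal q i = τ := by
  obtain ⟨i, hi⟩ := exists_map_eq_of_mem_decomposition q
    (Fermat.Agent.S05.mem_decompositionSubgroup_of_mem_inertiaSubgroupIn hτ)
  exact ⟨i, (mem_Iq_iff q i).2 (hi ▸ hτ), hi⟩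

/-- **a Frobenius element of `Gq q`.** -/
theorem exists_frobQ :
    ∃ F : Gq q, (padicPlace q).IsFrobeniusAt (localGaloisToGlobal q F) q := by
  obtain ⟨φ, hφ⟩ := Fermat.Agent.Common_helper32.exists_isFrobeniusAt_of_liesOver (padicPlace q) q
    (Fact.out : q.Prime) (padicPlace_liesOverPrime q)
  obtain ⟨F, hF⟩ := exists_map_eq_of_mem_decomposition q hφ.mem_decompositionSubgroup
  exact ⟨F, hF ▸ hφ⟩

/-- **GEN**: modulo every open subgroup, `Gq q` is generated by a Frobenius element and `Iq q`. -/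
theorem gen_Gq {F : Gq q} (hF : (padicPlace q).IsFrobeniusAt (localGaloisToGlobal q F) q)
    {U : Subgroup (Gq q)} (hU : U ∈ (levelQ q).sets) (d : Gq q) :
    ∃ n : ℕ, ∃ i ∈ Iq q, ∃ u ∈ U, d = F ^ n * i * u := by
  obtain ⟨L, hL, hLU⟩ := exists_level_of_mem_levelQ q hU
  -- an open normal subgroup of `G_ℚ` inside `Gal(ℚ̄/L)`
  set H : Subgroup (Qb ≃ₐ[ℚ] Qb) := L.fixingSubgroup with hH
  have hopen : IsOpen (H : Set (Qb ≃ₐ[ℚ] Qb)) := IntermediateField.fixingSubgroup_isOpen L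
  have hclosed : IsClosed (H : Set (Qb ≃ₐ[ℚ] Qb)) := Subgroup.isClosed_of_isOpen H hopen
  have : Finite ((Qb ≃ₐ[ℚ] Qb) ⧸ H) := Subgroup.quotient_finite_of_isOpen H hopen
  have : H.FiniteIndex := Subgroup.finiteIndex_of_finite_quotient
  have hopen₀ : IsOpen (H.normalCore : Set (Qb ≃ₐ[ℚ] Qb)) :=
    Subgroup.isOpen_of_isClosed_of_finiteIndex _ (H.normalCore_isClosed hclosed)
  obtain ⟨n, τ, hτ, h, hh, hσ⟩ := FrobGen.exists_eq_pow_mul_mul (padicPlace q)
    (Fact.out : q.Prime) (padicPlace_liesOverPrime q) hF H.normalCore inferInstance hopen₀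
    (localGaloisToGlobal_mem_decompositionSubgroup q d)
  obtain ⟨i, hi, rfl⟩ := exists_mem_Iq_map_eq q hτ
  refine ⟨n, i, hi, (F ^ n * i)⁻¹ * d, hLU _ ?_, by rw [mul_inv_cancel_left]⟩
  have hru : localGaloisToGlobal q ((F ^ n * i)⁻¹ * d) = h := by
    rw [map_mul, map_inv, map_mul, map_pow, hσ, inv_mul_cancel_left]
  rw [hru]
  have hhH : h ∈ H := H.normalCore_le hh
  intro x hx
  exact (IntermediateField.mem_fixingSubgroup_iff L h).1 hhH x hx

/-- **GEN**, integer-exponent form (the `hgen` shape of helper32's `card_unrSub_le`). -/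
theorem gen_Gq_int {F : Gq q} (hF : (padicPlace q).IsFrobeniusAt (localGaloisToGlobal q F) q)
    {U : Subgroup (Gq q)} (hU : U ∈ (levelQ q).sets) (d : Gq q) :
    ∃ n : ℤ, ∃ i ∈ Iq q, ∃ u ∈ U, d = F ^ n * i * u := by
  obtain ⟨n, i, hi, u, hu, h⟩ := gen_Gq q hF hU d
  exact ⟨n, i, hi, u, hu, by rw [zpow_natCast]; exact h⟩

/-- packaged: there is ONE element `F` of `Gq q` generating modulo every open subgroup. -/
theorem exists_gen_Gq :
    ∃ F : Gq q, (padicPlace q).IsFrobeniusAt (localGaloisToGlobal q F) q ∧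
      ∀ U ∈ (levelQ q).sets, ∀ d : Gq q, ∃ n : ℤ, ∃ i ∈ Iq q, ∃ u ∈ U, d = F ^ n * i * u := by
  obtain ⟨F, hF⟩ := exists_frobQ q
  exact ⟨F, hF, fun U hU d => gen_Gq_int q hF hU d⟩

end Fermat.Agent.GP.Loc.GenGq
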