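/-
GATE-P / S56 [P-LOC] node `S56-LOC-H1OMEGA` (helper72), part A.

The local cohomology at `p` of `k(ω)` (`ω` = the mod `p` cyclotomic character) in the PINNED model
`Hlc (levelQ p)` over `Gq p = Gal(PadicAlgCl p / ℚ_p)`:

* `padic_eq_one_of_pow_prime_eq_one` : an odd prime `p`, `x : ℚ_[p]`, `x ^ p = 1 ⟹ x = 1`
  (`ℚ_p` contains no non-trivial `p`-th root of unity; not on main before);
* `card_rootsOfUnity_padic` : `#μ_p(ℚ_p) = 1`;
* `card_hlc_{zero,one,two}_chiQ` : `#H⁰ = 1`, `#H¹ = p ^ 2`, `#H² = p` for `F_p(ω)` over `G_p`;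
* `card_hlc_{zero,one,two}_of_cyclo` : for EVERY finite-dimensional `W : Rep (ZMod p) (Gq p)` on
  which `g` acts by the scalar `ω(g)` (e.g. `W = k(ω)`, `d = dim_{F_p} W = [k : F_p]`):
  `#H⁰ = 1`, `#H¹ = p ^ (2 d)`, `#H² = p ^ d`  (so `#H¹(G_p, k(ω)) = (#k) ^ 2`).
-/
import Fermat.Agent.GC.Places.LocalNumLam
import Fermat.Agent.GC.Prof.Prod

set_option autoImplicit false

noncomputable section

open CategoryTheory

namespace Fermat.Agent.GP.Loc.H1Omega

open Fermat.Agent.GC.Prof Fermat.Agent.GC.Places Fermat.Agent.GC.Local.KR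
  Fermat.Agent.GC.Local.Abs Fermat.Agent.GC.Local.LocalNum ExtCitation

/-! ### `ℚ_p` has no non-trivial `p`-th roots of unity (`p` odd) -/

section Roots

variable {p : ℕ} [Fact p.Prime]

/-- In `ℤ_p`, `p` odd: `z ^ p = 1 ⟹ z = 1`. -/
theorem padicInt_eq_one_of_pow_prime_eq_one (hp2 : p ≠ 2) {z : ℤ_[p]} (hz : z ^ p = 1) :
    z = 1 := by
  have hp : p.Prime := Fact.out
  have hres : PadicInt.toZMod z = 1 := by
    have h := congrArg (PadicInt.toZMod (p := p)) hz
    rw [map_pow, map_one, ZMod.pow_card] at h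
    exact h
  have hmem : z - 1 ∈ Ideal.span {(p : ℤ_[p])} := by
    rw [← PadicInt.maximalIdeal_eq_span_p, ← PadicInt.ker_toZMod, RingHom.mem_ker, map_sub, hres,
      map_one, sub_self]
  obtain ⟨t, ht⟩ := Ideal.mem_span_singleton'.1 hmem
  have hzt : z = 1 + (p : ℤ_[p]) * t := by
    rw [mul_comm, ht]; ring
  have hdvd := odd_sq_dvd_geom_sum₂_sub (R := ℤ_[p]) (p := p) 1 t (hp.odd_of_ne_two hp2)
  simp only [one_pow, mul_one] at hdvd
  rw [← hzt] at hdvd
  obtain ⟨c, hc⟩ := hdvd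
  have hgeom : (∑ i ∈ Finset.range p, z ^ i) * (z - 1) = 0 := by
    rw [geom_sum_mul, hz, sub_self]
  rcases mul_eq_zero.1 hgeom with h | h
  · exfalso
    have h0 : (p : ℤ_[p]) * (1 + (p : ℤ_[p]) * c) = 0 := by
      rw [← h]; linear_combination (-1 : ℤ_[p]) * hc
    rcases mul_eq_zero.1 h0 with h1 | h1
    · exact (by exact_mod_cast hp.ne_zero : (p : ℤ_[p]) ≠ 0) h1
    · have h2 := congrArg (PadicInt.toZMod (p := p)) h1
      rw [map_add, map_mul, map_one, map_natCast, ZMod.natCast_self, zero_mul, add_zero,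
        map_zero] at h2
      exact one_ne_zero h2
  · exact sub_eq_zero.1 h

/-- In `ℚ_p`, `p` odd: `x ^ p = 1 ⟹ x = 1`. -/
theorem padic_eq_one_of_pow_prime_eq_one (hp2 : p ≠ 2) {x : ℚ_[p]} (hx : x ^ p = 1) : x = 1 := by
  have hp : p.Prime := Fact.out
  have hn : ‖x‖ = 1 := by
    have h : ‖x‖ ^ p = 1 := by rw [← norm_pow, hx, norm_one]
    exact (pow_eq_one_iff_of_nonneg (norm_nonneg x) hp.ne_zero).1 h
  let z : ℤ_[p] := ⟨x, hn.le⟩
  have hz : z ^ p = 1 := by
    apply Subtype.ext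
    rw [PadicInt.coe_pow, PadicInt.coe_one]
    exact hx
  have h1 : z = 1 := padicInt_eq_one_of_pow_prime_eq_one hp2 hz
  have h2 : (z : ℚ_[p]) = ((1 : ℤ_[p]) : ℚ_[p]) := congrArg Subtype.val h1
  rw [PadicInt.coe_one] at h2
  exact h2

/-- `#μ_p(ℚ_p) = 1` for `p` odd. -/
theorem card_rootsOfUnity_padic (hp2 : p ≠ 2) : Nat.card (rootsOfUnity p ℚ_[p]) = 1 := by
  rw [Subgroup.card_eq_one, Subgroup.eq_bot_iff_forall]
  intro u hu
  have h1 : ((u : ℚ_[p]ˣ) : ℚ_[p]) ^ p = 1 := by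
    have := (mem_rootsOfUnity p u).1 hu
    rw [← Units.val_pow_eq_pow_val, this, Units.val_one]
  exact Units.ext (padic_eq_one_of_pow_prime_eq_one hp2 h1)

end Roots

/-! ### `F_p(ω)` over `G_p` -/

section ChiQ

variable (p : ℕ) [Fact p.Prime]

/-- `#H⁰(G_p, F_p(ω)) = 1`, `p` odd. -/
theorem card_hlc_zero_chiQ (hp2 : p ≠ 2) :
    Nat.card (@Hlc (ZMod p) (Gq p) _ _ (levelQ p) (chiRep (chiQ p p))
      (isDiscrete_chiRep_chiQ p p) 0) = 1 := by
  rw [Nat.card_congr (HlcChiMuQ p p 0).toEquiv]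
  exact (base_card_hlc_zero p p).trans (card_rootsOfUnity_padic hp2)

/-- `#H¹(G_p, F_p(ω)) = p ^ 2`, `p` odd. -/
theorem card_hlc_one_chiQ (hp2 : p ≠ 2) :
    Nat.card (@Hlc (ZMod p) (Gq p) _ _ (levelQ p) (chiRep (chiQ p p))
      (isDiscrete_chiRep_chiQ p p) 1) = p ^ 2 := by
  rw [Nat.card_congr (HlcChiMuQ p p 1).toEquiv]
  have := base_card_hlc_one p p
  rw [card_rootsOfUnity_padic hp2, if_pos rfl, mul_one] at this
  rw [this, sq]

/-- `#H²(G_p, F_p(ω)) = p`. -/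
theorem card_hlc_two_chiQ :
    Nat.card (@Hlc (ZMod p) (Gq p) _ _ (levelQ p) (chiRep (chiQ p p))
      (isDiscrete_chiRep_chiQ p p) 2) = p := by
  rw [Nat.card_congr (HlcChiMuQ p p 2).toEquiv]
  exact base_card_hlc_two p p

end ChiQ

/-! ### Representations on which `G_p` acts through the scalar `ω` -/

section Cyclo

variable (p : ℕ) [Fact p.Prime]
variable (W : Rep.{0} (ZMod p) (Gq p))

/-- `g` acts on `W` by the scalar `ω(g)`. -/
def IsCyclo : Prop :=
  ∀ (g : Gq p) (w : W), W.ρ g w = ((chiQ p p g : (ZMod p)ˣ) : ZMod p) • w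

variable {p W} {ι : Type}

/-- The `i`-th coordinate `W ⟶ F_p(ω)` in a basis of `W`. -/
def coordHom (hW : IsCyclo p W) (b : Module.Basis ι (ZMod p) W) (i : ι) :
    W ⟶ chiRep (chiQ p p) :=
  Rep.ofHom (ρ := W.ρ) (σ := (chiRep (chiQ p p)).ρ)
    (LinearMap.intertwiningMap_of_isIntertwiningMap W.ρ (chiRep (chiQ p p)).ρ (b.coord i) (by
      intro g w
      rw [hW g w, map_smul, chiRep_ρ_apply, smul_eq_mul]))

/-- The inclusion `F_p(ω) ⟶ W`, `a ↦ a • b i`. -/
def inclHom (hW : IsCyclo p W) (b : Module.Basis ι (ZMod p) W) (i : ι) :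
    chiRep (chiQ p p) ⟶ W :=
  Rep.ofHom (ρ := (chiRep (chiQ p p)).ρ) (σ := W.ρ)
    (LinearMap.intertwiningMap_of_isIntertwiningMap (chiRep (chiQ p p)).ρ W.ρ
      (LinearMap.toSpanSingleton (ZMod p) W (b i)) (by
      intro g a
      rw [hW g, chiRep_ρ_apply, LinearMap.toSpanSingleton_apply, LinearMap.toSpanSingleton_apply,
        mul_smul]))

lemma coordHom_apply (hW : IsCyclo p W) (b : Module.Basis ι (ZMod p) W) (i : ι) (w : W) :
    (coordHom hW b i).hom w = b.coord i w := rfl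

lemma inclHom_apply (hW : IsCyclo p W) (b : Module.Basis ι (ZMod p) W) (i : ι) (a : ZMod p) :
    (inclHom hW b i).hom a = a • b i := rfl

lemma coord_incl_total [Fintype ι] (hW : IsCyclo p W) (b : Module.Basis ι (ZMod p) W) :
    ∑ i, coordHom hW b i ≫ inclHom hW b i = 𝟙 W := by
  apply Rep.hom_ext
  refine DFunLike.ext _ _ fun w => ?_
  simp only [Rep.sum_hom, Representation.IntertwiningMap.sum_apply]
  show ∑ i, (inclHom hW b i).hom ((coordHom hW b i).hom w) = w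
  exact b.sum_repr w

lemma incl_coord_self (hW : IsCyclo p W) (b : Module.Basis ι (ZMod p) W) (i : ι) :
    inclHom hW b i ≫ coordHom hW b i = 𝟙 _ := by
  apply Rep.hom_ext
  refine DFunLike.ext _ _ fun a => ?_
  show (coordHom hW b i).hom ((inclHom hW b i).hom a) = a
  rw [inclHom_apply, coordHom_apply, map_smul, Module.Basis.coord_apply, Module.Basis.repr_self,
    Finsupp.single_eq_same, smul_eq_mul, mul_one]

lemma incl_coord_ne (hW : IsCyclo p W) (b : Module.Basis ι (ZMod p) W) (i j : ι) (hij : i ≠ j) :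
    inclHom hW b i ≫ coordHom hW b j = 0 := by
  apply Rep.hom_ext
  refine DFunLike.ext _ _ fun a => ?_
  show (coordHom hW b j).hom ((inclHom hW b i).hom a) = 0
  rw [inclHom_apply, coordHom_apply, map_smul, Module.Basis.coord_apply, Module.Basis.repr_self,
    Finsupp.single_eq_of_ne hij.symm, smul_zero]

/-- A cyclotomic-scalar representation of finite dimension is discrete. -/
theorem isDiscrete_of_isCyclo (hW : IsCyclo p W) [FiniteDimensional (ZMod p) W] :
    IsDiscrete (levelQ p) W := by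
  have : IsDiscrete (levelQ p) (chiRep (chiQ p p)) := isDiscrete_chiRep_chiQ p p
  exact IsDiscrete.of_decomp (coordHom hW (Module.finBasis (ZMod p) W))
    (inclHom hW (Module.finBasis (ZMod p) W)) (coord_incl_total hW _)

/-- `#Hⁿ(G_p, W) = (#Hⁿ(G_p, F_p(ω))) ^ d`, `d = dim W`. -/
theorem card_hlc_of_isCyclo (hW : IsCyclo p W) [FiniteDimensional (ZMod p) W]
    [IsDiscrete (levelQ p) W] (n : ℕ) :
    Nat.card (Hlc (levelQ p) W n) =
      Nat.card (@Hlc (ZMod p) (Gq p) _ _ (levelQ p) (chiRep (chiQ p p))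
        (isDiscrete_chiRep_chiQ p p) n) ^ Module.finrank (ZMod p) W := by
  have : IsDiscrete (levelQ p) (chiRep (chiQ p p)) := isDiscrete_chiRep_chiQ p p
  have h := card_Hlc_decomp (levelQ p) (coordHom hW (Module.finBasis (ZMod p) W))
    (inclHom hW (Module.finBasis (ZMod p) W)) (coord_incl_total hW _)
    (incl_coord_self hW _) (incl_coord_ne hW _) n
  rw [h, Finset.prod_const, Finset.card_univ, Fintype.card_fin]

/-- `#H⁰(G_p, W) = 1` (`p` odd). -/
theorem card_hlc_zero_of_isCyclo (hp2 : p ≠ 2) (hW : IsCyclo p W) [FiniteDimensional (ZMod p) W]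
    [IsDiscrete (levelQ p) W] : Nat.card (Hlc (levelQ p) W 0) = 1 := by
  rw [card_hlc_of_isCyclo hW 0, card_hlc_zero_chiQ p hp2, one_pow]

/-- **`#H¹(G_p, W) = p ^ (2 d)`** (`p` odd), i.e. `#H¹(G_p, k(ω)) = (#k) ^ 2`. -/
theorem card_hlc_one_of_isCyclo (hp2 : p ≠ 2) (hW : IsCyclo p W) [FiniteDimensional (ZMod p) W]
    [IsDiscrete (levelQ p) W] :
    Nat.card (Hlc (levelQ p) W 1) = p ^ (2 * Module.finrank (ZMod p) W) := by
  rw [card_hlc_of_isCyclo hW 1, card_hlc_one_chiQ p hp2, ← pow_mul]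

/-- `#H²(G_p, W) = p ^ d`. -/
theorem card_hlc_two_of_isCyclo (hW : IsCyclo p W) [FiniteDimensional (ZMod p) W]
    [IsDiscrete (levelQ p) W] :
    Nat.card (Hlc (levelQ p) W 2) = p ^ Module.finrank (ZMod p) W := by
  rw [card_hlc_of_isCyclo hW 2, card_hlc_two_chiQ p]

end Cyclo

end Fermat.Agent.GP.Loc.H1Omega
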