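/-
GATE-P (S56, zero-regret) / [P-LOC] leaf S56-LOC-SORD-HLC, model-independent core (helper79).

Quotient / cardinality forms of the count of `GP/Loc/StrictOrdDim.lean`, for the adapter to the
pinned `Hlc` model (where `H¹` is only an `F_p`-space while the cocycle functions form `k`-spaces):

* `cobN r g` : the `k`-space of `f : D → k` with `nval g f` the coboundary of a trace-zero matrix;
* `two_le_finrank_cobN_add` : `2 ≤ dim cobN + dim (ad⁰)^D` (`r` upper triangular in the basis `g`);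
* `finrank_quotient_le` : `cobN ≤ ZN`, `dim ZN ≤ 3` ⟹ `dim (ZN / cobN) ≤ dim (ad⁰)^D + 1`;
* `card_quotient_le` : the same as `#(ZN / cobN) ≤ #(ad⁰)^D · #k` for a finite field `k`.
Mathlib only.
-/
import Fermat.Agent.GP.Loc.StrictOrdDim

set_option autoImplicit false

namespace Fermat.Agent.GP.Loc.StrictOrdDim

open Matrix Module

variable {D : Type*} [Group D] {k : Type*} [Field k]

/-- trace-zero matrices -/
def sl2Sub (k : Type*) [Field k] : Submodule k (Matrix (Fin 2) (Fin 2) k) :=
  LinearMap.ker (Matrix.traceLinearMap (Fin 2) k k)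

theorem mem_sl2Sub {X : Matrix (Fin 2) (Fin 2) k} : X ∈ sl2Sub k ↔ X.trace = 0 := by
  rw [sl2Sub, LinearMap.mem_ker, Matrix.traceLinearMap_apply]

/-- the functions `f : D → k` such that `nval g f` is the coboundary of a trace-zero matrix -/
def cobN (r : D →* Matrix (Fin 2) (Fin 2) k) (g : GL (Fin 2) k) : Submodule k (D → k) :=
  ((sl2Sub k).map (cob r)).comap (nval g)

theorem mem_cobN {r : D →* Matrix (Fin 2) (Fin 2) k} {g : GL (Fin 2) k} {f : D → k} :
    f ∈ cobN r g ↔ ∃ X : Matrix (Fin 2) (Fin 2) k, X.trace = 0 ∧ nval g f = cob r X := by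
  rw [cobN, Submodule.mem_comap, Submodule.mem_map]
  constructor
  · rintro ⟨X, hX, h⟩
    exact ⟨X, mem_sl2Sub.1 hX, h.symm⟩
  · rintro ⟨X, hX, h⟩
    exact ⟨X, mem_sl2Sub.2 hX, h.symm⟩

omit [Group D] in
theorem nval_injective (g : GL (Fin 2) k) : Function.Injective (nval (D := D) g) := by
  intro f f' h
  funext σ
  have h1 := congrFun h σ
  rw [nval_apply, nval_apply] at h1
  have h2 : ((g⁻¹ : GL (Fin 2) k) : Matrix (Fin 2) (Fin 2) k) * (g : Matrix (Fin 2) (Fin 2) k)
      = 1 := by rw [← Units.val_mul, inv_mul_cancel, Units.val_one]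
  have key : ∀ c : k, ((g⁻¹ : GL (Fin 2) k) : Matrix (Fin 2) (Fin 2) k) *
      (c • ((g : Matrix (Fin 2) (Fin 2) k) * E12 k *
        ((g⁻¹ : GL (Fin 2) k) : Matrix (Fin 2) (Fin 2) k))) * (g : Matrix (Fin 2) (Fin 2) k) =
      c • E12 k := by
    intro c
    rw [Matrix.mul_smul, Matrix.smul_mul]
    congr 1
    calc ((g⁻¹ : GL (Fin 2) k) : Matrix (Fin 2) (Fin 2) k) * ((g : Matrix (Fin 2) (Fin 2) k) *
          E12 k * ((g⁻¹ : GL (Fin 2) k) : Matrix (Fin 2) (Fin 2) k)) *
          (g : Matrix (Fin 2) (Fin 2) k)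
        = (((g⁻¹ : GL (Fin 2) k) : Matrix (Fin 2) (Fin 2) k) * (g : Matrix (Fin 2) (Fin 2) k)) *
          E12 k * (((g⁻¹ : GL (Fin 2) k) : Matrix (Fin 2) (Fin 2) k) *
          (g : Matrix (Fin 2) (Fin 2) k)) := by simp only [Matrix.mul_assoc]
      _ = E12 k := by rw [h2, Matrix.one_mul, Matrix.mul_one]
  have h3 : f σ • E12 k = f' σ • E12 k := by rw [← key (f σ), ← key (f' σ), h1]
  have := congrFun (congrFun h3 0) 1
  simpa [E12] using this

instance finiteDimensional_cobN (r : D →* Matrix (Fin 2) (Fin 2) k) (g : GL (Fin 2) k) :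
    FiniteDimensional k (cobN r g) := by
  have hfd : FiniteDimensional k ((sl2Sub k).map (cob r)) := inferInstance
  let φ : cobN r g →ₗ[k] (sl2Sub k).map (cob r) :=
    ((nval g) ∘ₗ (cobN r g).subtype).codRestrict _ (fun x => x.2)
  have hφ : Function.Injective φ := by
    intro x y hxy
    have : nval g (x : D → k) = nval g (y : D → k) := congrArg Subtype.val hxy
    exact Subtype.ext (nval_injective g this)
  exact FiniteDimensional.of_injective φ hφ

/-- **`2 ≤ dim cobN + dim (ad⁰)^D`**. -/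
theorem two_le_finrank_cobN_add (r : D →* Matrix (Fin 2) (Fin 2) k) (g : GL (Fin 2) k)
    (hut : ∀ σ, conjBy g r σ 1 0 = 0) :
    2 ≤ finrank k (cobN r g) + finrank k (inv0 r) := by
  have hmem : ∀ ut : k × k, fB g r ut ∈ cobN r g := fun ut =>
    mem_cobN.2 ⟨bor g ut, trace_bor g ut, (cob_bor g r hut ut).symm⟩
  set Φ : (k × k) →ₗ[k] cobN r g := (fB g r).codRestrict (cobN r g) hmem with hΦ
  have hkerle : finrank k (LinearMap.ker Φ) ≤ finrank k (inv0 r) := by
    have hin : ∀ x : LinearMap.ker Φ, bor g (x : k × k) ∈ inv0 r := by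
      rintro ⟨ut, hut'⟩
      have h0 : fB g r ut = 0 := by
        have := congrArg Subtype.val (LinearMap.mem_ker.1 hut')
        simpa [hΦ] using this
      have hc : cob r (bor g ut) = 0 := by rw [cob_bor g r hut ut, h0, map_zero]
      exact ⟨trace_bor g ut, comm_of_cob_eq_zero hc⟩
    let ι : LinearMap.ker Φ →ₗ[k] inv0 r :=
      ((bor g) ∘ₗ (LinearMap.ker Φ).subtype).codRestrict (inv0 r) hin
    have hι : Function.Injective ι := by
      intro x y hxy
      have : bor g (x : k × k) = bor g (y : k × k) := congrArg Subtype.val hxy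
      exact Subtype.ext (bor_injective g this)
    exact LinearMap.finrank_le_finrank_of_injective hι
  have h2 := LinearMap.finrank_range_add_finrank_ker Φ
  have h3 : finrank k (LinearMap.range Φ) ≤ finrank k (cobN r g) := Submodule.finrank_le _
  have h4 : finrank k (k × k) = 2 := by
    rw [Module.finrank_prod, Module.finrank_self]
  omega

/-- **`dim (ZN / cobN) ≤ dim (ad⁰)^D + 1`** when `cobN ≤ ZN` and `dim ZN ≤ 3`. -/
theorem finrank_quotient_le (r : D →* Matrix (Fin 2) (Fin 2) k) (g : GL (Fin 2) k)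
    (hut : ∀ σ, conjBy g r σ 1 0 = 0)
    (ZN : Submodule k (D → k)) [Module.Finite k ZN] (h3 : finrank k ZN ≤ 3)
    (hle : cobN r g ≤ ZN) :
    finrank k (ZN ⧸ (cobN r g).comap ZN.subtype) ≤ finrank k (inv0 r) + 1 := by
  have h1 := Submodule.finrank_quotient_add_finrank ((cobN r g).comap ZN.subtype)
  have h2 : finrank k ((cobN r g).comap ZN.subtype) = finrank k (cobN r g) :=
    (Submodule.comapSubtypeEquivOfLe hle).finrank_eq
  have h4 := two_le_finrank_cobN_add r g hut
  omega

/-- The cardinality form: `#(ZN / cobN) ≤ #(ad⁰)^D · #k` for a finite field `k`. -/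
theorem card_quotient_le [Finite k] (r : D →* Matrix (Fin 2) (Fin 2) k) (g : GL (Fin 2) k)
    (hut : ∀ σ, conjBy g r σ 1 0 = 0)
    (ZN : Submodule k (D → k)) [Module.Finite k ZN] (h3 : finrank k ZN ≤ 3)
    (hle : cobN r g ≤ ZN) :
    Nat.card (ZN ⧸ (cobN r g).comap ZN.subtype) ≤ Nat.card (inv0 r) * Nat.card k := by
  have h := finrank_quotient_le r g hut ZN h3 hle
  rw [Module.natCard_eq_pow_finrank (K := k) (V := ZN ⧸ (cobN r g).comap ZN.subtype),
    Module.natCard_eq_pow_finrank (K := k) (V := inv0 r), ← pow_succ]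
  exact Nat.pow_le_pow_right Nat.card_pos h

end Fermat.Agent.GP.Loc.StrictOrdDim
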