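/-
GATE-P (S56, zero-regret) / [P-LOC] leaf S56-LOC-SORD-HLC, abstract local part (helper79).

The strict-ordinary local condition `L_p^{SO}` inside `Hlc 𝒰 M 1` for ANY local model
`(Γ, 𝒰, M, R, emb)`:
* `Γ` a group with level system `𝒰` (pinned: `Γ = Gq p`, `𝒰 = levelQ p`),
* `M : Rep (ZMod p) Γ` discrete (pinned: `Rep.res (localGaloisToGlobal p) N`, `N = ad⁰ρ̄`),
* `R : Γ →* M₂(k)` (pinned: `(toMatRes ρbar b).comp (localGaloisToGlobal p)`), upper triangular in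
  the basis `g₀` (`hut`),
* `emb : M →+ M₂(k)` injective, onto the trace-zero matrices (at least), intertwining `M.ρ` with
  conjugation by `R` — helper11's MODEL BINDERS (`GP/Tan/SelmerGlobal.lean`).

`ZNω 𝒰 R g₀` : the `k`-space of level-constant `χ`-cocycles `f : Γ → k`, `χ = R₀₀/R₁₁` in the
basis `g₀`;  `LpSO` : the `F_p`-subspace of `Hlc 𝒰 M 1` of the classes of the cocycles
`γ ↦ emb⁻¹(f γ • g₀E₁₂g₀⁻¹)`, `f ∈ ZNω`.

* **`card_LpSO_le`** : `#ZNω ≤ #k ^ 3` ⟹ `#LpSO ≤ #Hlc 𝒰 M 0 * #k`  (= `dim L_p ≤ h⁰ + 1`);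
* **`mem_LpSO_of_emb_eq`** : a level-constant cocycle `w` with
  `emb (w γ) = f γ • g₀E₁₂g₀⁻¹ + (X - R γ X R γ⁻¹)` (the output shape of
  `StrictOrdCocycle.strictOrd_tanCocycle`) has its class in `LpSO`.
-/
import Fermat.Agent.GC.Prof.LowMap
import Fermat.Agent.GP.Loc.StrictOrdDimCard

set_option autoImplicit false

namespace Fermat.Agent.GP.Loc.StrictOrdHlc

open Fermat.Agent.GC.Prof groupCohomology Matrix Module
open Fermat.Agent.GP.Loc.StrictOrdDim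

noncomputable section

variable {p : ℕ} [Fact p.Prime]
variable {Γ : Type} [Group Γ] (𝒰 : LevelSystem Γ)
variable {k : Type} [Field k]
variable (R : Γ →* Matrix (Fin 2) (Fin 2) k) (g₀ : GL (Fin 2) k)

/-- `N₀ = g₀ E₁₂ g₀⁻¹`. -/
def N0 : Matrix (Fin 2) (Fin 2) k :=
  (g₀ : Matrix (Fin 2) (Fin 2) k) * E12 k * ((g₀⁻¹ : GL (Fin 2) k) : Matrix (Fin 2) (Fin 2) k)

/-- the coefficient of `N₀`: `Y ↦ (g₀⁻¹ Y g₀)₀₁`. -/
def coef (Y : Matrix (Fin 2) (Fin 2) k) : k :=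
  (((g₀⁻¹ : GL (Fin 2) k) : Matrix (Fin 2) (Fin 2) k) * Y * (g₀ : Matrix (Fin 2) (Fin 2) k)) 0 1

theorem g_mul_inv : (g₀ : Matrix (Fin 2) (Fin 2) k) *
    ((g₀⁻¹ : GL (Fin 2) k) : Matrix (Fin 2) (Fin 2) k) = 1 := by
  rw [← Units.val_mul, mul_inv_cancel, Units.val_one]

theorem inv_mul_g : ((g₀⁻¹ : GL (Fin 2) k) : Matrix (Fin 2) (Fin 2) k) *
    (g₀ : Matrix (Fin 2) (Fin 2) k) = 1 := by
  rw [← Units.val_mul, inv_mul_cancel, Units.val_one]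

theorem coef_smul_N0 (c : k) : coef g₀ (c • N0 g₀) = c := by
  unfold coef N0
  rw [Matrix.mul_smul, Matrix.smul_mul]
  have : ((g₀⁻¹ : GL (Fin 2) k) : Matrix (Fin 2) (Fin 2) k) * ((g₀ : Matrix (Fin 2) (Fin 2) k) *
      E12 k * ((g₀⁻¹ : GL (Fin 2) k) : Matrix (Fin 2) (Fin 2) k)) *
      (g₀ : Matrix (Fin 2) (Fin 2) k) = E12 k := by
    calc ((g₀⁻¹ : GL (Fin 2) k) : Matrix (Fin 2) (Fin 2) k) * ((g₀ : Matrix (Fin 2) (Fin 2) k) *
          E12 k * ((g₀⁻¹ : GL (Fin 2) k) : Matrix (Fin 2) (Fin 2) k)) *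
          (g₀ : Matrix (Fin 2) (Fin 2) k)
        = (((g₀⁻¹ : GL (Fin 2) k) : Matrix (Fin 2) (Fin 2) k) * (g₀ : Matrix (Fin 2) (Fin 2) k)) *
          E12 k * (((g₀⁻¹ : GL (Fin 2) k) : Matrix (Fin 2) (Fin 2) k) *
          (g₀ : Matrix (Fin 2) (Fin 2) k)) := by simp only [Matrix.mul_assoc]
      _ = E12 k := by rw [inv_mul_g, Matrix.one_mul, Matrix.mul_one]
  rw [this]
  simp [E12]

theorem trace_smul_N0 (c : k) : (c • N0 g₀).trace = 0 := by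
  unfold N0
  rw [Matrix.trace_smul, Matrix.trace_mul_cycle, inv_mul_g, Matrix.one_mul, Matrix.trace_fin_two]
  simp [E12]

omit [Group Γ] in
theorem nval_eq (f : Γ → k) (γ : Γ) : nval g₀ f γ = f γ • N0 g₀ := rfl

/-- the character `χ = R₀₀ / R₁₁` in the basis `g₀`. -/
def chi (γ : Γ) : k := conjBy g₀ R γ 0 0 * conjBy g₀ R γ⁻¹ 1 1

/-- `T E₁₂ T' = (T₀₀ T'₁₁) • E₁₂` for `T` upper triangular with inverse `T'`. -/
theorem conj_E12_of_upper {T T' : Matrix (Fin 2) (Fin 2) k} (hTT' : T * T' = 1)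
    (h10 : T 1 0 = 0) : T * E12 k * T' = (T 0 0 * T' 1 1) • E12 k := by
  have e11 : T 1 1 * T' 1 1 = 1 := by
    have := congrFun (congrFun hTT' 1) 1
    simpa [Matrix.mul_apply, Fin.sum_univ_two, h10] using this
  have e10 : T 1 1 * T' 1 0 = 0 := by
    have := congrFun (congrFun hTT' 1) 0
    simpa [Matrix.mul_apply, Fin.sum_univ_two, h10] using this
  have hT11 : T 1 1 ≠ 0 := by
    intro h
    rw [h, zero_mul] at e11
    exact zero_ne_one e11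
  have e10' : T' 1 0 = 0 := by
    rcases mul_eq_zero.1 e10 with h | h
    · exact absurd h hT11
    · exact h
  ext i j
  fin_cases i <;> fin_cases j <;>
    simp [E12, Matrix.mul_apply, Fin.sum_univ_two, h10, e10']

theorem R_eq (γ : Γ) : R γ = (g₀ : Matrix (Fin 2) (Fin 2) k) * conjBy g₀ R γ *
    ((g₀⁻¹ : GL (Fin 2) k) : Matrix (Fin 2) (Fin 2) k) := by
  unfold conjBy
  calc R γ = ((g₀ : Matrix (Fin 2) (Fin 2) k) *
        ((g₀⁻¹ : GL (Fin 2) k) : Matrix (Fin 2) (Fin 2) k)) * R γ *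
        ((g₀ : Matrix (Fin 2) (Fin 2) k) *
          ((g₀⁻¹ : GL (Fin 2) k) : Matrix (Fin 2) (Fin 2) k)) := by
        rw [g_mul_inv, Matrix.one_mul, Matrix.mul_one]
    _ = _ := by simp only [Matrix.mul_assoc]

/-- `R γ N₀ R γ⁻¹ = χ(γ) N₀`. -/
theorem conj_N0 (hut : ∀ γ, conjBy g₀ R γ 1 0 = 0) (γ : Γ) :
    R γ * N0 g₀ * R γ⁻¹ = chi R g₀ γ • N0 g₀ := by
  have key := conj_E12_of_upper (conjBy_mul_inv g₀ R γ) (hut γ)
  conv_lhs => rw [R_eq R g₀ γ, R_eq R g₀ γ⁻¹]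
  unfold N0 chi
  calc (g₀ : Matrix (Fin 2) (Fin 2) k) * conjBy g₀ R γ *
        ((g₀⁻¹ : GL (Fin 2) k) : Matrix (Fin 2) (Fin 2) k) * ((g₀ : Matrix (Fin 2) (Fin 2) k) *
        E12 k * ((g₀⁻¹ : GL (Fin 2) k) : Matrix (Fin 2) (Fin 2) k)) *
        ((g₀ : Matrix (Fin 2) (Fin 2) k) * conjBy g₀ R γ⁻¹ *
        ((g₀⁻¹ : GL (Fin 2) k) : Matrix (Fin 2) (Fin 2) k))
      = (g₀ : Matrix (Fin 2) (Fin 2) k) * (conjBy g₀ R γ *
        (((g₀⁻¹ : GL (Fin 2) k) : Matrix (Fin 2) (Fin 2) k) * (g₀ : Matrix (Fin 2) (Fin 2) k)) *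
        E12 k * (((g₀⁻¹ : GL (Fin 2) k) : Matrix (Fin 2) (Fin 2) k) *
        (g₀ : Matrix (Fin 2) (Fin 2) k)) * conjBy g₀ R γ⁻¹) *
        ((g₀⁻¹ : GL (Fin 2) k) : Matrix (Fin 2) (Fin 2) k) := by simp only [Matrix.mul_assoc]
    _ = _ := by
        rw [inv_mul_g, Matrix.mul_one, Matrix.mul_one, key, Matrix.mul_smul, Matrix.smul_mul]

/-- The `k`-space of level-constant `χ`-cocycles `Γ → k`. -/
def ZNω : Submodule k (Γ → k) where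
  carrier := {f | IsLC₁ 𝒰 f ∧ ∀ γ δ, f (γ * δ) = f γ + chi R g₀ γ * f δ}
  add_mem' := by
    rintro f f' ⟨h1, h2⟩ ⟨h1', h2'⟩
    refine ⟨h1.add h1', fun γ δ => ?_⟩
    simp only [Pi.add_apply, h2 γ δ, h2' γ δ]
    ring
  zero_mem' := ⟨IsLC₁.const (0 : k), fun γ δ => by simp⟩
  smul_mem' := by
    rintro c f ⟨h1, h2⟩
    refine ⟨h1.comp (fun x => c • x), fun γ δ => ?_⟩
    simp only [Pi.smul_apply, smul_eq_mul, h2 γ δ]
    ring

theorem mem_ZNω {f : Γ → k} :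
    f ∈ ZNω 𝒰 R g₀ ↔ IsLC₁ 𝒰 f ∧ ∀ γ δ, f (γ * δ) = f γ + chi R g₀ γ * f δ := Iff.rfl

section Model

variable (M : Rep (ZMod p) Γ) [IsDiscrete 𝒰 M]
variable (emb : M →+ Matrix (Fin 2) (Fin 2) k)

/-- MODEL BINDERS (helper11's shape, localised). -/
structure ModelHyp : Prop where
  hinj : Function.Injective emb
  hsurj : ∀ X : Matrix (Fin 2) (Fin 2) k, X.trace = 0 → ∃ x : M, emb x = X
  hact : ∀ (γ : Γ) (x : M), emb (M.ρ γ x) = R γ * emb x * R γ⁻¹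
  hut : ∀ γ, conjBy g₀ R γ 1 0 = 0

variable {M emb R g₀}

/-- a preimage under `emb` of a trace-zero matrix. -/
def liftN (h : ModelHyp R g₀ M emb) (X : Matrix (Fin 2) (Fin 2) k) (hX : X.trace = 0) : M :=
  (h.hsurj X hX).choose

theorem emb_liftN (h : ModelHyp R g₀ M emb) (X : Matrix (Fin 2) (Fin 2) k) (hX : X.trace = 0) :
    emb (liftN h X hX) = X := (h.hsurj X hX).choose_spec

/-- the cocycle `γ ↦ emb⁻¹ (f γ • N₀)`. -/
def zOf (h : ModelHyp R g₀ M emb) (f : Γ → k) : Γ → M :=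
  fun γ => liftN h (f γ • N0 g₀) (trace_smul_N0 g₀ (f γ))

theorem emb_zOf (h : ModelHyp R g₀ M emb) (f : Γ → k) (γ : Γ) :
    emb (zOf h f γ) = f γ • N0 g₀ := emb_liftN h _ _

variable {𝒰}

omit [IsDiscrete 𝒰 M] in
/-- a level-constant cocycle whose values are multiples of `N₀` comes from `ZNω`. -/
theorem mem_ZNω_of_emb (h : ModelHyp R g₀ M emb) {w : Γ → M} (hw : w ∈ lcCocycles₁ 𝒰 M)
    {f : Γ → k} (hf : ∀ γ, emb (w γ) = f γ • N0 g₀) : f ∈ ZNω 𝒰 R g₀ := by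
  have hfw : f = (fun x : M => coef g₀ (emb x)) ∘ w := by
    funext γ
    show f γ = coef g₀ (emb (w γ))
    rw [hf, coef_smul_N0]
  refine ⟨?_, fun γ δ => ?_⟩
  · rw [hfw]
    exact IsLC₁.comp hw.2 _
  · have hc := (mem_cocycles₁_iff w).1 hw.1 γ δ
    have h1 := congrArg emb hc
    rw [map_add, h.hact, hf, hf, hf, Matrix.mul_smul, Matrix.smul_mul, conj_N0 R g₀ h.hut γ,
      smul_smul, ← add_smul] at h1
    have h2 := congrArg (coef g₀) h1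
    rw [coef_smul_N0, coef_smul_N0] at h2
    rw [h2]
    ring

theorem zOf_mem (h : ModelHyp R g₀ M emb) {f : Γ → k} (hf : f ∈ ZNω 𝒰 R g₀) :
    zOf h f ∈ lcCocycles₁ 𝒰 M := by
  refine (mem_lcCocycles₁_iff 𝒰 M _).2 ⟨?_, ?_⟩
  · rw [mem_cocycles₁_iff]
    intro γ δ
    apply h.hinj
    rw [map_add, h.hact, emb_zOf, emb_zOf, emb_zOf, Matrix.mul_smul, Matrix.smul_mul,
      conj_N0 R g₀ h.hut γ, smul_smul, ← add_smul, hf.2 γ δ]
    congr 1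
    ring
  · have : zOf h f = (fun c : k => liftN h (c • N0 g₀) (trace_smul_N0 g₀ c)) ∘ f := rfl
    rw [this]
    exact IsLC₁.comp hf.1 _

theorem zOf_add (h : ModelHyp R g₀ M emb) (f f' : Γ → k) :
    zOf h (f + f') = zOf h f + zOf h f' := by
  funext γ
  apply h.hinj
  rw [Pi.add_apply, map_add, emb_zOf, emb_zOf, emb_zOf, Pi.add_apply, add_smul]

theorem zOf_zero (h : ModelHyp R g₀ M emb) : zOf h (0 : Γ → k) = 0 := by
  funext γ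
  apply h.hinj
  rw [emb_zOf, Pi.zero_apply, zero_smul, Pi.zero_apply, map_zero]

variable (𝒰)

/-- the class map `ZNω → Hlc 𝒰 M 1`. -/
def classMap (h : ModelHyp R g₀ M emb) : ZNω 𝒰 R g₀ →+ Hlc 𝒰 M 1 where
  toFun f := Hlc1π 𝒰 M ⟨zOf h f.1, zOf_mem h f.2⟩
  map_zero' := by
    have : (⟨zOf h (0 : ZNω 𝒰 R g₀).1, zOf_mem h (0 : ZNω 𝒰 R g₀).2⟩ : lcCocycles₁ 𝒰 M) = 0 :=
      Subtype.ext (zOf_zero h)
    rw [this, map_zero]
  map_add' f f' := by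
    have : (⟨zOf h (f + f').1, zOf_mem h (f + f').2⟩ : lcCocycles₁ 𝒰 M) =
        ⟨zOf h f.1, zOf_mem h f.2⟩ + ⟨zOf h f'.1, zOf_mem h f'.2⟩ :=
      Subtype.ext (zOf_add h f.1 f'.1)
    rw [this, map_add]

/-- **The strict-ordinary local condition** `L_p^{SO} ⊆ Hlc 𝒰 M 1`. -/
def LpSO (h : ModelHyp R g₀ M emb) : Submodule (ZMod p) (Hlc 𝒰 M 1) :=
  AddSubgroup.toZModSubmodule p (classMap 𝒰 h).range

theorem mem_LpSO (h : ModelHyp R g₀ M emb) {x : Hlc 𝒰 M 1} :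
    x ∈ LpSO 𝒰 h ↔ ∃ f : ZNω 𝒰 R g₀, classMap 𝒰 h f = x := Iff.rfl

/-- the coboundary of `x`, `γ ↦ ρ γ x - x`, has `emb`-values `cob R (-emb x)`. -/
theorem emb_d₀₁ (h : ModelHyp R g₀ M emb) (x : M) (γ : Γ) :
    emb ((d₀₁ M).hom x γ) = cob R (-emb x) γ := by
  rw [d₀₁_hom_apply, map_sub, h.hact, cob_apply]
  simp only [Matrix.mul_neg, Matrix.neg_mul]
  abel

/-- **Membership.** A level-constant cocycle `w` with
`emb (w γ) = f γ • N₀ + (X - R γ X R γ⁻¹)`, `tr X = 0`, has its class in `LpSO`. -/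
theorem mem_LpSO_of_emb_eq (h : ModelHyp R g₀ M emb) (w : lcCocycles₁ 𝒰 M) (f : Γ → k)
    (X : Matrix (Fin 2) (Fin 2) k) (hX : X.trace = 0)
    (hw : ∀ γ, emb ((w : Γ → M) γ) = nval g₀ f γ + cob R X γ) :
    Hlc1π 𝒰 M w ∈ LpSO 𝒰 h := by
  have hX' : (-X).trace = 0 := by rw [Matrix.trace_neg, hX, neg_zero]
  set x₀ : M := liftN h (-X) hX' with hx₀
  have hx₀e : emb x₀ = -X := emb_liftN h _ _
  -- the coboundary of `x₀`
  have hb : (d₀₁ M).hom x₀ ∈ coboundaries₁ M := ⟨x₀, rfl⟩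
  have hbl : (d₀₁ M).hom x₀ ∈ lcCocycles₁ 𝒰 M := coboundaries₁_le_lcCocycles₁ 𝒰 M hb
  set w' : lcCocycles₁ 𝒰 M := w - ⟨_, hbl⟩ with hw'
  have hw'e : ∀ γ, emb ((w' : Γ → M) γ) = f γ • N0 g₀ := by
    intro γ
    show emb ((w : Γ → M) γ - (d₀₁ M).hom x₀ γ) = _
    rw [map_sub, hw γ, emb_d₀₁ h, hx₀e, neg_neg, nval_eq]
    abel
  have hfZ : f ∈ ZNω 𝒰 R g₀ := mem_ZNω_of_emb h w'.2 hw'e
  have hzw : (⟨zOf h f, zOf_mem h hfZ⟩ : lcCocycles₁ 𝒰 M) = w' := by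
    apply Subtype.ext
    funext γ
    apply h.hinj
    rw [emb_zOf]
    exact (hw'e γ).symm
  refine (mem_LpSO 𝒰 h).2 ⟨⟨f, hfZ⟩, ?_⟩
  show Hlc1π 𝒰 M ⟨zOf h f, zOf_mem h hfZ⟩ = _
  rw [hzw, hw', map_sub, (Hlc1π_eq_zero_iff 𝒰 M ⟨_, hbl⟩).2 hb, sub_zero]

/-! ### The count -/

/-- `cobN ≤ ZNω`. -/
theorem cobN_le_ZNω (h : ModelHyp R g₀ M emb) : cobN R g₀ ≤ ZNω 𝒰 R g₀ := by
  intro f hf
  obtain ⟨X, hX, hfX⟩ := mem_cobN.1 hf
  have hX' : (-X).trace = 0 := by rw [Matrix.trace_neg, hX, neg_zero]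
  set x₀ : M := liftN h (-X) hX'
  have hx₀e : emb x₀ = -X := emb_liftN h _ _
  have hb : (d₀₁ M).hom x₀ ∈ coboundaries₁ M := ⟨x₀, rfl⟩
  have hbl : (d₀₁ M).hom x₀ ∈ lcCocycles₁ 𝒰 M := coboundaries₁_le_lcCocycles₁ 𝒰 M hb
  refine mem_ZNω_of_emb h hbl (fun γ => ?_)
  rw [emb_d₀₁ h, hx₀e, neg_neg, ← nval_eq, hfX]

/-- the class of `f ∈ cobN` vanishes. -/
theorem classMap_eq_zero_of_mem_cobN (h : ModelHyp R g₀ M emb) (f : ZNω 𝒰 R g₀)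
    (hf : f.1 ∈ cobN R g₀) : classMap 𝒰 h f = 0 := by
  obtain ⟨X, hX, hfX⟩ := mem_cobN.1 hf
  have hX' : (-X).trace = 0 := by rw [Matrix.trace_neg, hX, neg_zero]
  set x₀ : M := liftN h (-X) hX'
  have hx₀e : emb x₀ = -X := emb_liftN h _ _
  show Hlc1π 𝒰 M ⟨zOf h f.1, zOf_mem h f.2⟩ = 0
  rw [Hlc1π_eq_zero_iff]
  refine ⟨x₀, ?_⟩
  funext γ
  apply h.hinj
  show emb ((d₀₁ M).hom x₀ γ) = emb (zOf h f.1 γ)
  rw [emb_d₀₁ h, hx₀e, neg_neg, emb_zOf, ← nval_eq, hfX]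

/-- `#(ad⁰)^Γ ≤ #H⁰`. -/
theorem card_inv0_le [Finite k] (h : ModelHyp R g₀ M emb) :
    Nat.card (inv0 R) ≤ Nat.card (Hlc 𝒰 M 0) := by
  have hfinM : Finite M := Finite.of_injective emb h.hinj
  rw [Nat.card_congr (Hlc0Equiv 𝒰 M).toEquiv]
  let φ : inv0 R → M.ρ.invariants := fun X =>
    ⟨liftN h X.1 X.2.1, fun γ => by
      apply h.hinj
      rw [h.hact, emb_liftN]
      have hc := X.2.2 γ
      have hrr : R γ * R γ⁻¹ = 1 := by rw [← map_mul, mul_inv_cancel, map_one]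
      calc R γ * X.1 * R γ⁻¹ = X.1 * (R γ * R γ⁻¹) := by rw [hc, Matrix.mul_assoc]
        _ = X.1 := by rw [hrr, Matrix.mul_one]⟩
  have hφ : Function.Injective φ := by
    intro X Y hXY
    have h1 : liftN h X.1 X.2.1 = liftN h Y.1 Y.2.1 := congrArg Subtype.val hXY
    have h2 := congrArg emb h1
    rw [emb_liftN, emb_liftN] at h2
    exact Subtype.ext h2
  exact Nat.card_le_card_of_injective φ hφ

/-- **`#L_p^{SO} ≤ #H⁰(Γ, M) · #k`**, given the single cohomological input `#ZNω ≤ #k ^ 3`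
(`= #H¹(Γ, k(χ)) · #B¹ = #k² · #k` for `χ = ω`). -/
theorem card_LpSO_le [Finite k] (h : ModelHyp R g₀ M emb) [Finite (ZNω 𝒰 R g₀)]
    (hZ : Nat.card (ZNω 𝒰 R g₀) ≤ Nat.card k ^ 3) :
    Nat.card (LpSO (p := p) 𝒰 h) ≤ Nat.card (Hlc 𝒰 M 0) * Nat.card k := by
  classical
  have hkpos : 0 < Nat.card k := Nat.card_pos
  set Ψ := classMap 𝒰 h with hΨ
  -- `#range * #ker = #ZNω`
  have h1 : Nat.card Ψ.ker * Nat.card Ψ.range = Nat.card (ZNω 𝒰 R g₀) := by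
    rw [← AddSubgroup.index_ker, AddSubgroup.card_mul_index]
  -- `#cobN ≤ #ker`
  have h2 : Nat.card (cobN R g₀) ≤ Nat.card Ψ.ker := by
    let φ : cobN R g₀ → Ψ.ker := fun f =>
      ⟨⟨f.1, cobN_le_ZNω 𝒰 h f.2⟩, classMap_eq_zero_of_mem_cobN 𝒰 h _ f.2⟩
    have hφ : Function.Injective φ := by
      intro f f' hff'
      have : (φ f).1.1 = (φ f').1.1 := by rw [hff']
      exact Subtype.ext this
    exact Nat.card_le_card_of_injective φ hφ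
  -- `#k ^ 2 ≤ #cobN * #inv0`
  have h3 : Nat.card k ^ 2 ≤ Nat.card (cobN R g₀) * Nat.card (inv0 R) := by
    rw [Module.natCard_eq_pow_finrank (K := k) (V := cobN R g₀),
      Module.natCard_eq_pow_finrank (K := k) (V := inv0 R), ← pow_add]
    exact Nat.pow_le_pow_right hkpos (two_le_finrank_cobN_add R g₀ h.hut)
  have h4 := card_inv0_le (p := p) 𝒰 h
  have hL : Nat.card (LpSO (p := p) 𝒰 h) = Nat.card Ψ.range := rfl
  rw [hL]
  -- combine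
  have h5 : Nat.card Ψ.range * Nat.card k ^ 2 ≤
      (Nat.card (Hlc 𝒰 M 0) * Nat.card k) * Nat.card k ^ 2 := by
    calc Nat.card Ψ.range * Nat.card k ^ 2
        ≤ Nat.card Ψ.range * (Nat.card (cobN R g₀) * Nat.card (inv0 R)) :=
          Nat.mul_le_mul_left _ h3
      _ ≤ Nat.card Ψ.range * (Nat.card Ψ.ker * Nat.card (inv0 R)) :=
          Nat.mul_le_mul_left _ (Nat.mul_le_mul_right _ h2)
      _ = Nat.card (ZNω 𝒰 R g₀) * Nat.card (inv0 R) := by rw [← h1]; ring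
      _ ≤ Nat.card k ^ 3 * Nat.card (Hlc 𝒰 M 0) := Nat.mul_le_mul hZ h4
      _ = (Nat.card (Hlc 𝒰 M 0) * Nat.card k) * Nat.card k ^ 2 := by ring
  exact Nat.le_of_mul_le_mul_right h5 (pow_pos hkpos 2)

end Model

end

end Fermat.Agent.GP.Loc.StrictOrdHlc
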