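/-
GATE-P / S56 [P-LOC] node `S56-LOC-H1OMEGA` (helper72), part A′: the COCYCLE form of part A.

* `card_lcCocycles₁_le` (any level system): `#Z¹_lc(G, M) ≤ #H¹_lc(G, M) · #M`;
* `cycloRep p k` : `k(ω)` as a `Rep (ZMod p) (Gq p)` (`k` any `ZMod p`-algebra), `IsCyclo`;
* `mem_lcCocycles₁_cycloRep_iff` : level-constant `1`-cocycles of `k(ω)` are the level-constant
  functions `f : Gq p → k` with `f (γ δ) = f γ + ω(γ) f δ`;
* **`card_ZNω_le`** : the single cohomological input `hZ` of helper79's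
  `StrictOrdHlc.card_LpSO_le`, in the pinned model: if `χ = R₀₀/R₁₁` is the mod `p` cyclotomic
  character then `#ZNω (levelQ p) R g₀ ≤ #k ^ 3` (`= #H¹(G_p, k(ω)) · #B¹ = #k² · #k`), together
  with the finiteness `finite_ZNω`.
-/
import Fermat.Agent.GP.Loc.H1Omega
import Fermat.Agent.GP.Loc.StrictOrdHlc

set_option autoImplicit false

noncomputable section

open CategoryTheory

namespace Fermat.Agent.GP.Loc.H1OmegaCocycle

open Fermat.Agent.GC.Prof Fermat.Agent.GC.Places Fermat.Agent.GC.Local.KR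
  Fermat.Agent.GC.Local.Abs ExtCitation groupCohomology Fermat.Agent.GP.Loc.H1Omega

/-! ### `#Z¹ ≤ #H¹ · #M` -/

section General

variable {k G : Type} [CommRing k] [Group G] (𝒰 : LevelSystem G) (M : Rep.{0} k G)
  [IsDiscrete 𝒰 M]

/-- The `1`-coboundaries of a finite module are finite, of cardinality at most `#M`. -/
theorem card_coboundaries₁_le [Finite M] :
    Finite (coboundaries₁ M) ∧ Nat.card (coboundaries₁ M) ≤ Nat.card M := by
  have hs : Function.Surjective (LinearMap.rangeRestrict (d₀₁ M).hom) :=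
    LinearMap.surjective_rangeRestrict _
  have hfin : Finite (coboundaries₁ M) := Finite.of_surjective _ hs
  exact ⟨hfin, Nat.card_le_card_of_surjective _ hs⟩

/-- `#Z¹_lc(G, M) ≤ #H¹_lc(G, M) · #M`, and `Z¹_lc` is finite. -/
theorem card_lcCocycles₁_le [Finite M] [Finite (Hlc 𝒰 M 1)] :
    Finite (lcCocycles₁ 𝒰 M) ∧
      Nat.card (lcCocycles₁ 𝒰 M) ≤ Nat.card (Hlc 𝒰 M 1) * Nat.card M := by
  obtain ⟨hBfin, hB⟩ := card_coboundaries₁_le M
  set Ψ : lcCocycles₁ 𝒰 M →+ Hlc 𝒰 M 1 := (Hlc1π 𝒰 M).toAddMonoidHom with hΨ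
  have hsurj : Function.Surjective Ψ := Hlc1π_surjective 𝒰 M
  -- the kernel injects into the coboundaries
  let φ : Ψ.ker → coboundaries₁ M := fun z =>
    ⟨(z.1 : G → M), (Hlc1π_eq_zero_iff 𝒰 M z.1).1 z.2⟩
  have hφ : Function.Injective φ := by
    intro z z' h
    have h1 := congrArg Subtype.val h
    exact Subtype.ext (Subtype.ext h1)
  have hkfin : Finite Ψ.ker := Finite.of_injective φ hφ
  have hk : Nat.card Ψ.ker ≤ Nat.card M :=
    (Nat.card_le_card_of_injective φ hφ).trans hB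
  have hidx : Ψ.ker.index = Nat.card (Hlc 𝒰 M 1) := by
    rw [AddSubgroup.index_ker, AddMonoidHom.range_eq_top.2 hsurj]
    exact Nat.card_congr (Equiv.Set.univ _)
  have hcard : Nat.card Ψ.ker * Ψ.ker.index = Nat.card (lcCocycles₁ 𝒰 M) :=
    AddSubgroup.card_mul_index _
  have hfin : Finite (lcCocycles₁ 𝒰 M) := by
    apply Nat.finite_of_card_ne_zero
    rw [← hcard, hidx]
    exact (Nat.mul_pos Nat.card_pos Nat.card_pos).ne'
  refine ⟨hfin, ?_⟩
  rw [← hcard, hidx, mul_comm]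
  exact Nat.mul_le_mul_left _ hk

end General

/-! ### `k(ω)` over `G_p` -/

section Cyclo

variable (p : ℕ) [Fact p.Prime] (k : Type) [Field k] [Algebra (ZMod p) k]

/-- The scalar `ω(γ) ∈ F_p ⊆ k`. -/
def omegaK (γ : Gq p) : k := algebraMap (ZMod p) k ((chiQ p p γ : (ZMod p)ˣ) : ZMod p)

/-- `G_p` acts on `k` through the mod `p` cyclotomic character. -/
def cycloRho : Representation (ZMod p) (Gq p) k where
  toFun γ := ((chiQ p p γ : (ZMod p)ˣ) : ZMod p) • LinearMap.id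
  map_one' := by
    rw [map_one, Units.val_one, one_smul]; rfl
  map_mul' γ δ := by
    rw [map_mul, Units.val_mul]
    ext x
    show (((chiQ p p γ : (ZMod p)ˣ) : ZMod p) * ((chiQ p p δ : (ZMod p)ˣ) : ZMod p)) • x =
      ((chiQ p p γ : (ZMod p)ˣ) : ZMod p) • (((chiQ p p δ : (ZMod p)ˣ) : ZMod p) • x)
    rw [mul_smul]

/-- `k(ω)` as a representation of `G_p` over `F_p`. -/
def cycloRep : Rep.{0} (ZMod p) (Gq p) := Rep.of (cycloRho p k)

lemma cycloRep_ρ_apply (γ : Gq p) (x : k) :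
    (cycloRep p k).ρ γ x = omegaK p k γ * x := by
  show ((chiQ p p γ : (ZMod p)ˣ) : ZMod p) • x = _
  rw [Algebra.smul_def]; rfl

theorem isCyclo_cycloRep : IsCyclo p (cycloRep p k) := fun _ _ => rfl

instance [Finite k] : FiniteDimensional (ZMod p) (cycloRep p k) :=
  inferInstanceAs (FiniteDimensional (ZMod p) k)

instance [Finite k] : IsDiscrete (levelQ p) (cycloRep p k) :=
  isDiscrete_of_isCyclo (isCyclo_cycloRep p k)

/-- Level-constant `1`-cocycles of `k(ω)`, in function form. -/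
theorem mem_lcCocycles₁_cycloRep_iff [Finite k] (f : Gq p → (cycloRep p k)) :
    f ∈ lcCocycles₁ (levelQ p) (cycloRep p k) ↔
      IsLC₁ (levelQ p) f ∧ ∀ γ δ, f (γ * δ) = f γ + (cycloRep p k).ρ γ (f δ) := by
  rw [mem_lcCocycles₁_iff, and_comm]
  refine and_congr Iff.rfl ?_
  rw [mem_cocycles₁_iff]
  refine forall_congr' fun γ => forall_congr' fun δ => ?_
  rw [add_comm]

/-- `#Z¹_lc(G_p, k(ω)) ≤ #k ^ 3` (`p` odd). -/
theorem card_lcCocycles₁_cycloRep_le (hp2 : p ≠ 2) [Finite k] :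
    Finite (lcCocycles₁ (levelQ p) (cycloRep p k)) ∧
      Nat.card (lcCocycles₁ (levelQ p) (cycloRep p k)) ≤ Nat.card k ^ 3 := by
  have hk : Nat.card k = p ^ Module.finrank (ZMod p) k := by
    rw [Module.natCard_eq_pow_finrank (K := ZMod p) (V := k), Nat.card_zmod]
  have h1 : Nat.card (Hlc (levelQ p) (cycloRep p k) 1) = Nat.card k ^ 2 := by
    rw [card_hlc_one_of_isCyclo hp2 (isCyclo_cycloRep p k), hk, ← pow_mul, mul_comm]
    rfl
  have hfin1 : Finite (Hlc (levelQ p) (cycloRep p k) 1) := by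
    apply Nat.finite_of_card_ne_zero
    rw [h1]
    exact (pow_pos Nat.card_pos 2).ne'
  have hfinM : Finite (cycloRep p k) := inferInstanceAs (Finite k)
  obtain ⟨hfin, hle⟩ := card_lcCocycles₁_le (levelQ p) (cycloRep p k)
  refine ⟨hfin, hle.trans ?_⟩
  rw [h1]
  have : Nat.card (cycloRep p k) = Nat.card k := rfl
  rw [this, ← pow_succ]

end Cyclo

/-! ### The binder `hZ` of `StrictOrdHlc.card_LpSO_le` in the pinned model -/

section Binder

open Fermat.Agent.GP.Loc.StrictOrdHlc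

variable {p : ℕ} [Fact p.Prime] {k : Type} [Field k] [Algebra (ZMod p) k]
  (R : Gq p →* Matrix (Fin 2) (Fin 2) k) (g₀ : GL (Fin 2) k)

/-- If `χ = R₀₀/R₁₁` is the mod `p` cyclotomic character, `ZNω` is the space of level-constant
`1`-cocycles of `k(ω)`. -/
def ZNωEquiv [Finite k]
    (hχ : ∀ γ, chi R g₀ γ = algebraMap (ZMod p) k ((chiQ p p γ : (ZMod p)ˣ) : ZMod p)) :
    ZNω (levelQ p) R g₀ ≃ lcCocycles₁ (levelQ p) (cycloRep p k) where
  toFun f := ⟨f.1, (mem_lcCocycles₁_cycloRep_iff p k f.1).2 ⟨f.2.1, fun γ δ => by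
    rw [cycloRep_ρ_apply]
    exact (f.2.2 γ δ).trans (by rw [hχ γ]; rfl)⟩⟩
  invFun z := ⟨z.1, ((mem_lcCocycles₁_cycloRep_iff p k z.1).1 z.2).1, fun γ δ => by
    have h := ((mem_lcCocycles₁_cycloRep_iff p k z.1).1 z.2).2 γ δ
    rw [hχ γ]
    exact h.trans (congrArg (fun t : k => (show k from z.1 γ) + t)
      (cycloRep_ρ_apply p k γ (z.1 δ)))⟩
  left_inv _ := rfl
  right_inv _ := rfl

/-- **The cohomological input of `card_LpSO_le`**: `#ZNω ≤ #k ^ 3` in the pinned model at `p`. -/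
theorem card_ZNω_le (hp2 : p ≠ 2) [Finite k]
    (hχ : ∀ γ, chi R g₀ γ = algebraMap (ZMod p) k ((chiQ p p γ : (ZMod p)ˣ) : ZMod p)) :
    Finite (ZNω (levelQ p) R g₀) ∧ Nat.card (ZNω (levelQ p) R g₀) ≤ Nat.card k ^ 3 := by
  obtain ⟨hfin, hle⟩ := card_lcCocycles₁_cycloRep_le p k hp2
  exact ⟨Finite.of_equiv _ (ZNωEquiv R g₀ hχ).symm,
    (Nat.card_congr (ZNωEquiv R g₀ hχ)).le.trans hle⟩

end Binder

end Fermat.Agent.GP.Loc.H1OmegaCocycle
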