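/-
GATE-P (S56, zero-regret) / [P-LOC] leaf S56-LOC-SORD (helper79).

The STRICT-ORDINARY local condition at `p` (first conjunct of the frozen S56) on a coefficient
ring `A` of characteristic `p` (e.g. `A = k[ε]`): the frozen predicates
`GaloisRepAdic.DetIsCyclotomic` + `GaloisRepAdic.IsStrictOrdinaryAt` force the two diagonal
characters of `ρ|_{D_P}` to be `ω·ψ` and `ψ` with `ψ : D_P → {±1}` -- in particular they are
"constant" (integer casts), so they do NOT deform, and a `k[ε]`-lift differs from its reduction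
by an `N`-valued cocycle (upper right corner only).

Mathlib + Prelude only; orphan.
-/
import Mathlib
import Fermat.Prelude.Def_GaloisRep_StrictOrdinary

set_option autoImplicit false

namespace Fermat.Agent.GP.Loc.StrictOrd

open IsLocalRing

local notation "GQ" => (AlgebraicClosure ℚ ≃ₐ[ℚ] AlgebraicClosure ℚ)

/-! ### The mod `p` cyclotomic exponent -/

/-- An exponent by which `σ` acts on the `p`-th roots of unity is prime to `p`. -/
theorem coprime_of_cyc_exp (p : ℕ) [Fact p.Prime] (σ : GQ) {a : ℕ}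
    (hspec : ∀ μ : AlgebraicClosure ℚ, μ ^ p = 1 → σ μ = μ ^ a) : a.Coprime p := by
  have : NeZero p := ⟨(Fact.out : p.Prime).ne_zero⟩
  have : NeZero ((p : ℕ) : ℚ) := ⟨by exact_mod_cast (Fact.out : p.Prime).ne_zero⟩
  obtain ⟨ζ, hζ⟩ := HasEnoughRootsOfUnity.exists_primitiveRoot (AlgebraicClosure ℚ) p
  rw [Nat.coprime_comm, (Fact.out : p.Prime).coprime_iff_not_dvd]
  intro hdvd
  obtain ⟨c, hc⟩ := hdvd
  have h1 : σ ζ = 1 := by
    rw [hspec ζ hζ.pow_eq_one, hc, pow_mul, hζ.pow_eq_one, one_pow]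
  have h2 : ζ = 1 := by
    have : σ ζ = σ 1 := by rw [h1, map_one]
    exact σ.injective this
  have h3 := hζ.pow_ne_one_of_pos_of_lt (one_ne_zero) (Fact.out : p.Prime).one_lt
  exact h3 (by rw [h2, one_pow])

/-- Every `σ ∈ G_ℚ` acts on the `p`-th roots of unity of `ℚ̄` by `μ ↦ μ ^ a` for some natural
number `a` prime to `p`. -/
theorem exists_cyc_exp (p : ℕ) [Fact p.Prime] (σ : GQ) :
    ∃ a : ℕ, a.Coprime p ∧ ∀ μ : AlgebraicClosure ℚ, μ ^ p = 1 → σ μ = μ ^ a := by
  have : NeZero p := ⟨(Fact.out : p.Prime).ne_zero⟩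
  have : NeZero ((p : ℕ) : ℚ) := ⟨by exact_mod_cast (Fact.out : p.Prime).ne_zero⟩
  set g : AlgebraicClosure ℚ ≃+* AlgebraicClosure ℚ := (σ : AlgebraicClosure ℚ ≃+* AlgebraicClosure ℚ)
    with hg
  set a : ℕ := (modularCyclotomicCharacter.toFun p g).val with ha
  have hspec : ∀ μ : AlgebraicClosure ℚ, μ ^ p = 1 → σ μ = μ ^ a := by
    intro μ hμ
    have hu : IsUnit μ := IsUnit.of_pow_eq_one hμ (NeZero.ne p)
    have hmem : hu.unit ∈ rootsOfUnity p (AlgebraicClosure ℚ) := by
      rw [mem_rootsOfUnity]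
      ext
      simpa using hμ
    have h := modularCyclotomicCharacter.toFun_spec g (n := p) ⟨hu.unit, hmem⟩
    simp only [IsUnit.unit_spec, Units.val_pow_eq_pow_val] at h
    exact h
  exact ⟨a, coprime_of_cyc_exp p σ hspec, hspec⟩

/-! ### Two facts on local rings of characteristic `p` -/

variable {A : Type} [CommRing A] [IsLocalRing A]

omit [IsLocalRing A] in
/-- If `p = 0` in `A`, every natural number prime to `p` is a unit of `A`. -/
theorem isUnit_natCast_of_coprime {p : ℕ} (hpA : (p : A) = 0) {a : ℕ} (ha : a.Coprime p) :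
    IsUnit (a : A) := by
  have h : IsCoprime (a : ℤ) (p : ℤ) := Nat.isCoprime_iff_coprime.2 ha
  obtain ⟨u, v, huv⟩ := h
  have h1 : ((u * a + v * p : ℤ) : A) = 1 := by rw [huv]; simp
  push_cast at h1
  rw [hpA, mul_zero, add_zero] at h1
  exact IsUnit.of_mul_eq_one _ (by rw [mul_comm]; exact h1)

/-- In a local ring in which `2` is a unit, `z * z = 1` forces `z = 1 ∨ z = -1`. -/
theorem eq_one_or_neg_one_of_mul_self (h2 : IsUnit (2 : A)) {z : A} (hz : z * z = 1) :
    z = 1 ∨ z = -1 := by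
  have hsum : (z + 1) + (1 - z) = 2 := by ring
  have hprod : (z + 1) * (1 - z) = 0 := by
    have : (z + 1) * (1 - z) = 1 - z * z := by ring
    rw [this, hz, sub_self]
  rcases IsLocalRing.isUnit_or_isUnit_of_isUnit_add (hsum ▸ h2) with h | h
  · left
    have := h.mul_right_eq_zero.1 hprod
    exact (sub_eq_zero.1 this).symm
  · right
    have := h.mul_left_eq_zero.1 hprod
    exact eq_neg_of_add_eq_zero_left this

/-! ### The structure theorem -/

omit [IsLocalRing A] in
/-- The determinant of an endomorphism which is upper triangular in a basis `b` of a free module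
of rank two. -/
theorem det_of_upper {V : Type} [AddCommGroup V] [Module A V] (b : Module.Basis (Fin 2) A V)
    (f : V →ₗ[A] V) {x z β : A} (h0 : f (b 0) = x • b 0) (h1 : f (b 1) = z • b 1 + β • b 0) :
    LinearMap.det f = x * z := by
  rw [← LinearMap.det_toMatrix b, Matrix.det_fin_two]
  simp only [LinearMap.toMatrix_apply, h0, h1, map_smul, map_add, Module.Basis.repr_self,
    Finsupp.smul_apply, Finsupp.add_apply, Finsupp.single_apply]
  simp

/-- **Structure of a strict-ordinary representation in characteristic `p`.**  Let `A` be a local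
ring with `p = 0` (`p` odd), `ρ` a `GaloisRepAdic A` with cyclotomic determinant which is strictly
ordinary at `p` (the frozen predicates), `P` a place of `ℚ̄` over `p`.  Then there is a basis
`b` of `ρ.V` in which `ρ|_{D_P}` is upper triangular with diagonal `(a·s, s)`, `s = ±1`, `a` the
mod-`p` cyclotomic exponent of `σ`, and `ρ|_{I_P}` is unipotent. -/
theorem strictOrd_diag (p : ℕ) [Fact p.Prime] (hp2 : p ≠ 2) (hpA : (p : A) = 0)
    (ρ : GaloisRepAdic A) (hdet : ρ.DetIsCyclotomic p) (hso : ρ.IsStrictOrdinaryAt p)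
    (P : ValuationSubring (AlgebraicClosure ℚ)) (hP : P.LiesOverPrime p) :
    ∃ b : Module.Basis (Fin 2) A ρ.V,
      (∀ σ ∈ P.decompositionSubgroup ℚ, ∀ a : ℕ,
        (∀ μ : AlgebraicClosure ℚ, μ ^ p = 1 → σ μ = μ ^ a) →
        ∃ s : ℤ, (s = 1 ∨ s = -1) ∧ ∃ β : A,
          ρ.ρ σ (b 0) = ((a : A) * (s : A)) • b 0 ∧
          ρ.ρ σ (b 1) = (s : A) • b 1 + β • b 0) ∧
      (∀ σ ∈ P.inertiaSubgroupIn ℚ, ∃ β : A,
          ρ.ρ σ (b 0) - b 0 ∈ Submodule.span A {b 0} ∧ ρ.ρ σ (b 1) = b 1 + β • b 0) := by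
  obtain ⟨L, ⟨b, hL⟩, -, hI, hchar⟩ := hso.2 P hP
  have h2 : IsUnit (2 : A) := by
    have h2p : (2 : ℕ).Coprime p := by
      rw [Nat.coprime_comm, (Fact.out : p.Prime).coprime_iff_not_dvd]
      intro h
      exact hp2 ((Nat.prime_dvd_prime_iff_eq (Fact.out : p.Prime) Nat.prime_two).1 h)
    simpa using isUnit_natCast_of_coprime hpA h2p
  have hspan0 : ∀ n : ℕ, 0 < n → Ideal.span {((p ^ n : ℕ) : A)} = ⊥ := by
    intro n hn
    rw [Ideal.span_singleton_eq_bot]
    push_cast
    rw [hpA, zero_pow hn.ne']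
  have hb0 : b 0 ∈ L := by rw [hL]; exact Submodule.mem_span_singleton_self _
  refine ⟨b, ?_, ?_⟩
  · intro σ hσ a ha
    obtain ⟨x, z, hx, hz, hcyc⟩ := hchar σ hσ
    have ha1 : ∀ μ : AlgebraicClosure ℚ, μ ^ p ^ 1 = 1 → σ μ = μ ^ a := by
      intro μ hμ; rw [pow_one] at hμ; exact ha μ hμ
    -- `x = a z`
    have hxz : x = (a : A) * z := by
      have := hcyc 1 a ha1
      rw [hspan0 1 one_pos, Ideal.mem_bot, sub_eq_zero] at this
      exact this
    -- the shape of `ρ σ` in the basis `b`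
    have h0 : ρ.ρ σ (b 0) = x • b 0 := hx _ hb0
    obtain ⟨β, hβ⟩ : ∃ β : A, ρ.ρ σ (b 1) = z • b 1 + β • b 0 := by
      have := hz (b 1)
      rw [hL, Submodule.mem_span_singleton] at this
      obtain ⟨β, hβ⟩ := this
      exact ⟨β, by rw [hβ]; abel⟩
    -- `x z = a`
    have hdetσ : x * z = (a : A) := by
      have := hdet.2 1 σ a ha1
      rw [hspan0 1 one_pos, Ideal.mem_bot, sub_eq_zero, det_of_upper b _ h0 hβ] at this
      exact this
    have hau : IsUnit (a : A) := isUnit_natCast_of_coprime hpA (coprime_of_cyc_exp p σ ha)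
    have hzz : z * z = 1 := by
      have : (a : A) * (z * z) = (a : A) * 1 := by
        rw [mul_one, ← mul_assoc, ← hxz, hdetσ]
      exact hau.mul_left_cancel this
    rcases eq_one_or_neg_one_of_mul_self h2 hzz with h | h
    · refine ⟨1, Or.inl rfl, β, ?_, ?_⟩
      · rw [h0, hxz, h]; simp
      · rw [hβ, h]; simp
    · refine ⟨-1, Or.inr rfl, β, ?_, ?_⟩
      · rw [h0, hxz, h]; simp
      · rw [hβ, h]; simp
  · intro σ hσ
    have h1 := hI σ hσ (b 1)
    rw [hL, Submodule.mem_span_singleton] at h1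
    obtain ⟨β, hβ⟩ := h1
    refine ⟨β, ?_, by rw [hβ]; abel⟩
    have h0 := hI σ hσ (b 0)
    rwa [hL] at h0

end Fermat.Agent.GP.Loc.StrictOrd
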