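/-
GATE-P (S56, zero-regret) / [P-LOC] leaf S56-LOC-SORD part 2 (helper79).

The tangent cocycle of a STRICT-ORDINARY `k[ε]`-lift is `N`-valued on `D_P` up to a coboundary.

Language: helper11's `GP/Tan/Cocycle.lean` (`tanCocycle r σ = rsnd r σ * rfst r σ⁻¹` for
`r : GQ →* M₂(k[ε])`), helper35's `MatDict` (`ofMat`, `MatCont`), helper72's matrix form of the
strict-ordinary shape (`StrictOrdShape.strictOrd_toMatrix`, twin of my `StrictOrd.strictOrd_diag`),
helper26's `exists_mem_inertia_apply_zeta` (the mod `p` cyclotomic character is onto on inertia at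
`p`: this makes the strict-ordinary line of `ρ̄|D_P` UNIQUE, so the local condition does not depend
on the lift), and `cob`/`nval`/`conjBy`/`E12` of `GP/Loc/StrictOrdDim.lean` (part 3, the dimension
count).

* `tanCocycle_conj` : for `Pm ∈ GL₂(k[ε])`,
  `tanCocycle r σ = ḡ (msnd T · mfst T') ḡ⁻¹ + (X - r̄ σ X r̄ σ⁻¹)`, `T = Pm⁻¹ r σ Pm`,
  `T' = Pm⁻¹ r σ⁻¹ Pm`, `ḡ = Pm mod ε`, `X = (ε-part of Pm) ḡ⁻¹`.
* `exists_inertia_sq` : some `σ ∈ I_P` acts on `μ_p` by squaring (`p` odd).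
* `strictOrd_tanCocycle_adapted` : the shape in the (lift-dependent) adapted basis.
* **`strictOrd_tanCocycle`** : for ANY fixed `g₀ ∈ GL₂(k)` such that `g₀⁻¹ r̄|D_P g₀` is upper
  triangular with lower right entry `1` on `I_P`:
  `∃ f X, tr X = 0 ∧ ∀ σ ∈ D_P, tanCocycle r σ = nval g₀ f σ + cob r̄ X σ`.
* `strictOrd_tanCocycle_restrict` : the same as an identity of functions on `↥D_P`.
* `exists_flag_of_strictOrd` : such a `g₀` exists as soon as one strict-ordinary lift exists.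
-/
import Fermat.Agent.GP.Tan.Cocycle
import Fermat.Agent.GP.Loc.StrictOrdShape
import Fermat.Agent.GL.Local.TameZeta
import Fermat.Agent.GP.Loc.StrictOrdDim

set_option autoImplicit false

namespace Fermat.Agent.GP.Loc.StrictOrdCocycle

open Fermat.Agent.S53_helper35 Fermat.Agent.GP.Tan.Cocycle Matrix
open Fermat.Agent.GP.Loc.StrictOrdDim

variable {k : Type} [Field k]

/-- conjugation changes the tangent cocycle by conjugation + a coboundary -/
theorem tanCocycle_conj (r : GQ →* Matrix (Fin 2) (Fin 2) (DualNumber k))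
    (Pm Pm' : Matrix (Fin 2) (Fin 2) (DualNumber k)) (h1 : Pm * Pm' = 1) (h2 : Pm' * Pm = 1)
    (σ : GQ) :
    tanCocycle r σ = mfst Pm * (msnd (Pm' * r σ * Pm) * mfst (Pm' * r σ⁻¹ * Pm)) * mfst Pm' +
      (msnd Pm * mfst Pm' - rfst r σ * (msnd Pm * mfst Pm') * rfst r σ⁻¹) := by
  have g1 : mfst Pm * mfst Pm' = 1 := by rw [← mfst_mul, h1, mfst_one]
  have g2 : mfst Pm' * mfst Pm = 1 := by rw [← mfst_mul, h2, mfst_one]
  have hrr : r σ * r σ⁻¹ = 1 := by rw [← map_mul, mul_inv_cancel, map_one]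
  -- `R Pm = Pm T`
  have hT : r σ * Pm = Pm * (Pm' * r σ * Pm) := by
    rw [← Matrix.mul_assoc, ← Matrix.mul_assoc, h1, Matrix.one_mul]
  have hT' : r σ⁻¹ * Pm = Pm * (Pm' * r σ⁻¹ * Pm) := by
    rw [← Matrix.mul_assoc, ← Matrix.mul_assoc, h1, Matrix.one_mul]
  have hTT : (Pm' * r σ * Pm) * (Pm' * r σ⁻¹ * Pm) = 1 := by
    calc (Pm' * r σ * Pm) * (Pm' * r σ⁻¹ * Pm) = Pm' * (r σ * (Pm * Pm') * r σ⁻¹) * Pm := by
          simp only [Matrix.mul_assoc]
      _ = 1 := by rw [h1, Matrix.mul_one, hrr, Matrix.mul_one, h2]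
  set T := Pm' * r σ * Pm with hTdef
  set T' := Pm' * r σ⁻¹ * Pm with hT'def
  have e1 := congrArg msnd hT
  rw [msnd_mul, msnd_mul] at e1
  have e3 := congrArg mfst hT'
  rw [mfst_mul, mfst_mul] at e3
  have e5 : mfst T * mfst T' = 1 := by rw [← mfst_mul, hTT, mfst_one]
  -- (4) g' R₀' = T₀' g'
  have e4 : mfst Pm' * mfst (r σ⁻¹) = mfst T' * mfst Pm' := by
    calc mfst Pm' * mfst (r σ⁻¹) = mfst Pm' * (mfst (r σ⁻¹) * mfst Pm) * mfst Pm' := by
          rw [Matrix.mul_assoc, Matrix.mul_assoc, g1, Matrix.mul_one]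
      _ = mfst Pm' * (mfst Pm * mfst T') * mfst Pm' := by rw [e3]
      _ = mfst T' * mfst Pm' := by
          rw [← Matrix.mul_assoc, g2, Matrix.one_mul]
  have e1' : msnd (r σ) * mfst Pm = mfst Pm * msnd T + msnd Pm * mfst T - mfst (r σ) * msnd Pm := by
    rw [← e1]; abel
  show rsnd r σ * rfst r σ⁻¹ = _
  rw [rfst_apply, rfst_apply]
  show msnd (r σ) * mfst (r σ⁻¹) = _
  calc msnd (r σ) * mfst (r σ⁻¹) = (msnd (r σ) * mfst Pm) * (mfst Pm' * mfst (r σ⁻¹)) := by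
        rw [Matrix.mul_assoc, ← Matrix.mul_assoc (mfst Pm), g1, Matrix.one_mul]
    _ = (mfst Pm * msnd T + msnd Pm * mfst T - mfst (r σ) * msnd Pm) * (mfst T' * mfst Pm') := by
        rw [e1', e4]
    _ = mfst Pm * (msnd T * mfst T') * mfst Pm' + msnd Pm * (mfst T * mfst T') * mfst Pm'
          - mfst (r σ) * msnd Pm * (mfst T' * mfst Pm') := by
        rw [Matrix.sub_mul, Matrix.add_mul]
        simp only [Matrix.mul_assoc]
    _ = _ := by
        rw [e5, Matrix.mul_one, ← e4]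
        simp only [Matrix.mul_assoc]
        abel

/-- an inertia element at `p` acting on `μ_p` by squaring -/
theorem exists_inertia_sq (p : ℕ) [Fact p.Prime] (hp2 : p ≠ 2)
    (P : ValuationSubring (AlgebraicClosure ℚ)) (hP : P.LiesOverPrime p) :
    ∃ σ ∈ P.inertiaSubgroupIn ℚ, ∀ μ : AlgebraicClosure ℚ, μ ^ p = 1 → σ μ = μ ^ 2 := by
  have hp : p.Prime := Fact.out
  have : NeZero p := ⟨hp.ne_zero⟩
  have : NeZero ((p : ℕ) : ℚ) := ⟨by exact_mod_cast hp.ne_zero⟩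
  obtain ⟨ζ, hζ⟩ := HasEnoughRootsOfUnity.exists_primitiveRoot (AlgebraicClosure ℚ) p
  have h2 : ¬ p ∣ 2 := by
    intro h
    have := (Nat.prime_dvd_prime_iff_eq hp Nat.prime_two).1 h
    exact hp2 this
  obtain ⟨σ, hσ, hσζ⟩ :=
    Fermat.Agent.GL.Local.InertiaField.exists_mem_inertia_apply_zeta P hp hP hζ h2
  refine ⟨σ, hσ, fun μ hμ => ?_⟩
  obtain ⟨i, -, rfl⟩ := hζ.eq_pow_of_pow_eq_one hμ
  rw [map_pow, hσζ, ← pow_mul, ← pow_mul, mul_comm]

theorem natCast_dualNumber_eq_zero {p : ℕ} (hpk : (p : k) = 0) : (p : DualNumber k) = 0 := by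
  ext
  · simpa using hpk
  · simp


/-- the local shape of the tangent cocycle of a strict-ordinary lift, in the (lift-dependent)
adapted basis `g` -/
theorem strictOrd_tanCocycle_adapted (p : ℕ) [Fact p.Prime] (hp2 : p ≠ 2) (hpk : (p : k) = 0)
    (r : GQ →* Matrix (Fin 2) (Fin 2) (DualNumber k)) (hr : MatCont r)
    (hdet : (ofMat r hr).DetIsCyclotomic p) (hso : (ofMat r hr).IsStrictOrdinaryAt p)
    (P : ValuationSubring (AlgebraicClosure ℚ)) (hP : P.LiesOverPrime p) :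
    ∃ (g g' X : Matrix (Fin 2) (Fin 2) k), g * g' = 1 ∧ g' * g = 1 ∧
      (∀ σ ∈ P.decompositionSubgroup ℚ, (g' * rfst r σ * g) 1 0 = 0) ∧
      (∀ σ ∈ P.inertiaSubgroupIn ℚ, (g' * rfst r σ * g) 1 1 = 1) ∧
      (∀ σ ∈ P.inertiaSubgroupIn ℚ, ∀ a : ℕ,
        (∀ μ : AlgebraicClosure ℚ, μ ^ p = 1 → σ μ = μ ^ a) → (g' * rfst r σ * g) 0 0 = (a : k)) ∧
      ∀ σ ∈ P.decompositionSubgroup ℚ, ∃ t : k,
        tanCocycle r σ = t • (g * E12 k * g') + (X - rfst r σ * X * rfst r σ⁻¹) := by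
  have hp : p.Prime := Fact.out
  obtain ⟨b, hD, -, -⟩ := Fermat.Agent.GP.Loc.StrictOrdShape.strictOrd_toMatrix hp hp2
    (natCast_dualNumber_eq_zero hpk) (ofMat r hr) hdet hso P hP
  set e := ofMatBasis r hr with he
  set Pm : Matrix (Fin 2) (Fin 2) (DualNumber k) := e.toMatrix b with hPm
  set Pm' : Matrix (Fin 2) (Fin 2) (DualNumber k) := b.toMatrix e with hPm'
  have h1 : Pm * Pm' = 1 := Module.Basis.toMatrix_mul_toMatrix_flip e b
  have h2 : Pm' * Pm = 1 := Module.Basis.toMatrix_mul_toMatrix_flip b e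
  have hconj : ∀ σ : GQ, Pm' * r σ * Pm = LinearMap.toMatrix b b ((ofMat r hr).ρ σ) := by
    intro σ
    have h := basis_toMatrix_mul_linearMap_toMatrix_mul_basis_toMatrix b e b e ((ofMat r hr).ρ σ)
    rw [← h]
    have : LinearMap.toMatrix e e ((ofMat r hr).ρ σ) = r σ := by
      have := congrArg (fun f => f σ) (toMat_ofMat r hr)
      simpa [toMat_apply] using this
    rw [this]
  have g1 : mfst Pm * mfst Pm' = 1 := by rw [← mfst_mul, h1, mfst_one]
  have g2 : mfst Pm' * mfst Pm = 1 := by rw [← mfst_mul, h2, mfst_one]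
  have hred : ∀ σ : GQ, mfst Pm' * rfst r σ * mfst Pm = mfst (Pm' * r σ * Pm) := by
    intro σ
    rw [mfst_mul, mfst_mul, rfst_apply]
  refine ⟨mfst Pm, mfst Pm', msnd Pm * mfst Pm', g1, g2, ?_, ?_, ?_, ?_⟩
  · intro σ hσ
    obtain ⟨z, β, -, -, ⟨a, ha⟩, hm⟩ := hD σ hσ
    rw [hred, hconj, hm a ha]
    simp
  · intro σ hσ
    have hσD := Fermat.Agent.GP.Loc.StrictOrdShape.mem_decomposition_of_mem_inertiaIn hσ
    obtain ⟨z, β, -, hz1, ⟨a, ha⟩, hm⟩ := hD σ hσD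
    rw [hred, hconj, hm a ha, hz1 hσ]
    simp
  · intro σ hσ a ha
    have hσD := Fermat.Agent.GP.Loc.StrictOrdShape.mem_decomposition_of_mem_inertiaIn hσ
    obtain ⟨z, β, -, hz1, -, hm⟩ := hD σ hσD
    rw [hred, hconj, hm a ha, hz1 hσ]
    simp
  · intro σ hσ
    have hσ' : σ⁻¹ ∈ P.decompositionSubgroup ℚ := inv_mem hσ
    obtain ⟨z, β, hz, -, ⟨a, ha⟩, hm⟩ := hD σ hσ
    obtain ⟨z', β', -, -, ⟨a', ha'⟩, hm'⟩ := hD σ⁻¹ hσ'
    refine ⟨β.snd * z'.fst, ?_⟩
    rw [tanCocycle_conj r Pm Pm' h1 h2 σ, hconj, hconj, hm a ha, hm' a' ha']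
    congr 1
    have hzs : z.snd = 0 := by
      rcases hz with rfl | rfl <;> simp
    have key : msnd (!![(a : DualNumber k) * z, β; 0, z]) *
        mfst (!![(a' : DualNumber k) * z', β'; 0, z']) = (β.snd * z'.fst) • E12 k := by
      ext i j
      fin_cases i <;> fin_cases j <;>
        simp [E12, Matrix.mul_apply, Fin.sum_univ_two, hzs]
    rw [key, Matrix.mul_smul, Matrix.smul_mul]

/-- two flags -/
theorem upper_of_two_flags {T0 T U : Matrix (Fin 2) (Fin 2) k} (hTU : T0 * U = U * T)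
    (h010 : T0 1 0 = 0) (h011 : T0 1 1 = 1) (h10 : T 1 0 = 0) (h00 : T 0 0 = 2) : U 1 0 = 0 := by
  have := congrFun (congrFun hTU 1) 0
  simp only [Matrix.mul_apply, Fin.sum_univ_two, h010, h011, h10, h00] at this
  linear_combination (-1 : k) * this

/-- conjugating `E₁₂` by an upper triangular matrix -/
theorem upper_conj_E12 {U U' : Matrix (Fin 2) (Fin 2) k} (hUU' : U * U' = 1) (h10 : U 1 0 = 0) :
    U * E12 k * U' = (U 0 0 * U' 1 1) • E12 k := by
  have e11 : U 1 1 * U' 1 1 = 1 := by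
    have := congrFun (congrFun hUU' 1) 1
    simpa [Matrix.mul_apply, Fin.sum_univ_two, h10] using this
  have e10 : U 1 1 * U' 1 0 = 0 := by
    have := congrFun (congrFun hUU' 1) 0
    simpa [Matrix.mul_apply, Fin.sum_univ_two, h10] using this
  have hU11 : U 1 1 ≠ 0 := by
    intro h
    rw [h, zero_mul] at e11
    exact zero_ne_one e11
  have e10' : U' 1 0 = 0 := by
    rcases mul_eq_zero.1 e10 with h | h
    · exact absurd h hU11
    · exact h
  ext i j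
  fin_cases i <;> fin_cases j <;>
    simp [E12, Matrix.mul_apply, Fin.sum_univ_two, h10, e10']


theorem strictOrd_tanCocycle (p : ℕ) [Fact p.Prime] (hp2 : p ≠ 2) (hpk : (p : k) = 0)
    (r : GQ →* Matrix (Fin 2) (Fin 2) (DualNumber k)) (hr : MatCont r)
    (hdet : (ofMat r hr).DetIsCyclotomic p) (hso : (ofMat r hr).IsStrictOrdinaryAt p)
    (P : ValuationSubring (AlgebraicClosure ℚ)) (hP : P.LiesOverPrime p)
    (g₀ : GL (Fin 2) k)
    (h₀D : ∀ σ ∈ P.decompositionSubgroup ℚ, conjBy g₀ (rfst r) σ 1 0 = 0)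
    (h₀I : ∀ σ ∈ P.inertiaSubgroupIn ℚ, conjBy g₀ (rfst r) σ 1 1 = 1) :
    ∃ (f : GQ → k) (X : Matrix (Fin 2) (Fin 2) k), X.trace = 0 ∧
      ∀ σ ∈ P.decompositionSubgroup ℚ,
        tanCocycle r σ = nval g₀ f σ + cob (rfst r) X σ := by
  classical
  have hp : p.Prime := Fact.out
  obtain ⟨g, g', X, hgg', hg'g, hD, hI, hIa, hloc⟩ :=
    strictOrd_tanCocycle_adapted p hp2 hpk r hr hdet hso P hP
  obtain ⟨σ₀, hσ₀, hσ₀2⟩ := exists_inertia_sq p hp2 P hP
  have hσ₀D := Fermat.Agent.GP.Loc.StrictOrdShape.mem_decomposition_of_mem_inertiaIn hσ₀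
  have hG1 : (g₀ : Matrix (Fin 2) (Fin 2) k) * ((g₀⁻¹ : GL (Fin 2) k) : Matrix (Fin 2) (Fin 2) k) = 1 := by
    rw [← Units.val_mul, mul_inv_cancel, Units.val_one]
  have hG2 : ((g₀⁻¹ : GL (Fin 2) k) : Matrix (Fin 2) (Fin 2) k) * (g₀ : Matrix (Fin 2) (Fin 2) k) = 1 := by
    rw [← Units.val_mul, inv_mul_cancel, Units.val_one]
  set G : Matrix (Fin 2) (Fin 2) k := (g₀ : Matrix (Fin 2) (Fin 2) k) with hG
  set G' : Matrix (Fin 2) (Fin 2) k := ((g₀⁻¹ : GL (Fin 2) k) : Matrix (Fin 2) (Fin 2) k) with hG'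
  set U : Matrix (Fin 2) (Fin 2) k := G' * g with hU
  set U' : Matrix (Fin 2) (Fin 2) k := g' * G with hU'
  have hUU' : U * U' = 1 := by
    calc U * U' = G' * ((g * g') * G) := by simp only [hU, hU', Matrix.mul_assoc]
      _ = 1 := by rw [hgg', Matrix.one_mul, hG2]
  have hU10 : U 1 0 = 0 := by
    refine upper_of_two_flags (T0 := conjBy g₀ (rfst r) σ₀) (T := g' * rfst r σ₀ * g) ?_
      (h₀D σ₀ hσ₀D) (h₀I σ₀ hσ₀) (hD σ₀ hσ₀D) ?_
    · unfold conjBy
      calc G' * rfst r σ₀ * G * U = G' * rfst r σ₀ * ((G * G') * g) := by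
            simp only [hU, Matrix.mul_assoc]
        _ = G' * ((g * g') * rfst r σ₀) * g := by
            rw [hG1, hgg', Matrix.one_mul, Matrix.one_mul, Matrix.mul_assoc]
        _ = U * (g' * rfst r σ₀ * g) := by simp only [hU, Matrix.mul_assoc]
    · have := hIa σ₀ hσ₀ 2 hσ₀2
      rw [this]; norm_num
  have hconj : g * E12 k * g' = (U 0 0 * U' 1 1) • (G * E12 k * G') := by
    have e1 : g = G * U := by
      rw [hU, ← Matrix.mul_assoc, hG1, Matrix.one_mul]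
    have e2 : g' = U' * G' := by
      rw [hU', Matrix.mul_assoc, hG1, Matrix.mul_one]
    calc g * E12 k * g' = G * (U * E12 k * U') * G' := by
          conv_lhs => rw [e1, e2]
          simp only [Matrix.mul_assoc]
      _ = _ := by rw [upper_conj_E12 hUU' hU10, Matrix.mul_smul, Matrix.smul_mul]
  -- trace-zero normalisation
  have h2 : IsUnit (2 : k) :=
    Fermat.Agent.GP.Loc.StrictOrdShape.isUnit_two_of_odd_prime hp hp2 hpk
  have h2' : (2 : k) ≠ 0 := h2.ne_zero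
  set X' : Matrix (Fin 2) (Fin 2) k := X - (X.trace / 2) • (1 : Matrix (Fin 2) (Fin 2) k) with hX'
  have hX'tr : X'.trace = 0 := by
    rw [hX', Matrix.trace_sub, Matrix.trace_smul, Matrix.trace_one, Fintype.card_fin]
    simp only [smul_eq_mul, Nat.cast_ofNat]
    field_simp
    ring
  have hcob : ∀ σ : GQ, X' - rfst r σ * X' * rfst r σ⁻¹ = X - rfst r σ * X * rfst r σ⁻¹ := by
    intro σ
    have hrr : rfst r σ * rfst r σ⁻¹ = 1 := rfst_mul_inv r σ
    rw [hX', Matrix.mul_sub, Matrix.sub_mul, Matrix.mul_smul, Matrix.smul_mul, Matrix.mul_one, hrr]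
    abel
  refine ⟨fun σ => if h : σ ∈ P.decompositionSubgroup ℚ then
    (hloc σ h).choose * (U 0 0 * U' 1 1) else 0, X', hX'tr, fun σ hσ => ?_⟩
  have hspec := (hloc σ hσ).choose_spec
  rw [nval_apply, cob_apply, hcob σ]
  simp only [dif_pos hσ]
  generalize (hloc σ hσ).choose = t at hspec ⊢
  rw [hspec, hconj, smul_smul]

/-- The same as an identity of functions on `↥D_P`, in the language of
`GP/Loc/StrictOrdDim.lean`. -/
theorem strictOrd_tanCocycle_restrict (p : ℕ) [Fact p.Prime] (hp2 : p ≠ 2) (hpk : (p : k) = 0)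
    (r : GQ →* Matrix (Fin 2) (Fin 2) (DualNumber k)) (hr : MatCont r)
    (hdet : (ofMat r hr).DetIsCyclotomic p) (hso : (ofMat r hr).IsStrictOrdinaryAt p)
    (P : ValuationSubring (AlgebraicClosure ℚ)) (hP : P.LiesOverPrime p)
    (g₀ : GL (Fin 2) k)
    (h₀D : ∀ σ ∈ P.decompositionSubgroup ℚ, conjBy g₀ (rfst r) σ 1 0 = 0)
    (h₀I : ∀ σ ∈ P.inertiaSubgroupIn ℚ, conjBy g₀ (rfst r) σ 1 1 = 1) :
    ∃ (f : ↥(P.decompositionSubgroup ℚ) → k) (X : Matrix (Fin 2) (Fin 2) k), X.trace = 0 ∧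
      (fun σ : ↥(P.decompositionSubgroup ℚ) => tanCocycle r σ) =
        nval g₀ f + cob ((rfst r).comp (P.decompositionSubgroup ℚ).subtype) X := by
  obtain ⟨f, X, hX, h⟩ := strictOrd_tanCocycle p hp2 hpk r hr hdet hso P hP g₀ h₀D h₀I
  refine ⟨fun σ => f σ, X, hX, ?_⟩
  funext σ
  have := h σ σ.2
  rw [this]
  rfl

/-- A basis `g₀` as in `strictOrd_tanCocycle` exists as soon as ONE strict-ordinary lift with
cyclotomic determinant exists. -/
theorem exists_flag_of_strictOrd (p : ℕ) [Fact p.Prime] (hp2 : p ≠ 2) (hpk : (p : k) = 0)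
    (r : GQ →* Matrix (Fin 2) (Fin 2) (DualNumber k)) (hr : MatCont r)
    (hdet : (ofMat r hr).DetIsCyclotomic p) (hso : (ofMat r hr).IsStrictOrdinaryAt p)
    (P : ValuationSubring (AlgebraicClosure ℚ)) (hP : P.LiesOverPrime p) :
    ∃ g₀ : GL (Fin 2) k,
      (∀ σ ∈ P.decompositionSubgroup ℚ, conjBy g₀ (rfst r) σ 1 0 = 0) ∧
      (∀ σ ∈ P.inertiaSubgroupIn ℚ, conjBy g₀ (rfst r) σ 1 1 = 1) := by
  obtain ⟨g, g', X, hgg', hg'g, hD, hI, -, -⟩ :=
    strictOrd_tanCocycle_adapted p hp2 hpk r hr hdet hso P hP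
  refine ⟨⟨g, g', hgg', hg'g⟩, fun σ hσ => ?_, fun σ hσ => ?_⟩
  · exact hD σ hσ
  · exact hI σ hσ

end Fermat.Agent.GP.Loc.StrictOrdCocycle
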