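/-
GATE-P (S56, zero-regret) / [P-LOC] leaf S56-LOC-SORD, complement (helper79).

The frozen predicate `GaloisRepAdic.IsStrictOrdinaryAt` is invariant under `GaloisRepAdic.IsEquiv`
(so the strict-ordinary condition of a lift can be read on a matrix model `ofMat r`).
Mathlib + Prelude only; orphan.
-/
import Mathlib
import Fermat.Prelude.Def_GaloisRep_StrictOrdinary

set_option autoImplicit false

namespace Fermat.Agent.GP.Loc.StrictOrdEquiv

variable {A : Type} [CommRing A] [IsLocalRing A]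

/-- Transport of `IsStrictOrdinaryAt` along an equivalence of representations. -/
theorem isStrictOrdinaryAt_of_equiv {ρ ρ' : GaloisRepAdic A} (e : GaloisRepAdic.Equiv ρ ρ')
    {p : ℕ} (h : ρ.IsStrictOrdinaryAt p) : ρ'.IsStrictOrdinaryAt p := by
  refine ⟨h.1, fun P hP => ?_⟩
  obtain ⟨L, ⟨b, hb⟩, hD, hI, hx⟩ := h.2 P hP
  have hcomm : ∀ σ v, ρ'.ρ σ (e.toLinearEquiv v) = e.toLinearEquiv (ρ.ρ σ v) :=
    fun σ v => (e.map_apply σ v).symm
  have hsurj : ∀ v' : ρ'.V, ∃ v : ρ.V, e.toLinearEquiv v = v' :=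
    fun v' => ⟨e.toLinearEquiv.symm v', e.toLinearEquiv.apply_symm_apply v'⟩
  refine ⟨L.map (e.toLinearEquiv : ρ.V →ₗ[A] ρ'.V), ⟨b.map e.toLinearEquiv, ?_⟩, ?_, ?_, ?_⟩
  · rw [hb, Submodule.map_span, Set.image_singleton]
    rfl
  · rintro σ hσ _ ⟨v, hv, rfl⟩
    refine ⟨ρ.ρ σ v, hD σ hσ v hv, ?_⟩
    exact (hcomm σ v).symm
  · intro σ hσ v'
    obtain ⟨v, rfl⟩ := hsurj v'
    refine ⟨ρ.ρ σ v - v, hI σ hσ v, ?_⟩
    show e.toLinearEquiv (ρ.ρ σ v - v) = _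
    rw [map_sub, hcomm]
  · intro σ hσ
    obtain ⟨x, z, h1, h2, h3⟩ := hx σ hσ
    refine ⟨x, z, ?_, ?_, h3⟩
    · rintro _ ⟨w, hw, rfl⟩
      show ρ'.ρ σ (e.toLinearEquiv w) = x • e.toLinearEquiv w
      rw [hcomm, h1 w hw, map_smul]
    · intro v'
      obtain ⟨v, rfl⟩ := hsurj v'
      refine ⟨ρ.ρ σ v - z • v, h2 v, ?_⟩
      show e.toLinearEquiv (ρ.ρ σ v - z • v) = _
      rw [map_sub, map_smul, hcomm]

/-- `IsStrictOrdinaryAt` is invariant under `IsEquiv`. -/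
theorem isStrictOrdinaryAt_of_isEquiv {ρ ρ' : GaloisRepAdic A} (h : ρ.IsEquiv ρ') {p : ℕ}
    (hso : ρ.IsStrictOrdinaryAt p) : ρ'.IsStrictOrdinaryAt p := by
  obtain ⟨e⟩ := h
  exact isStrictOrdinaryAt_of_equiv e hso

end Fermat.Agent.GP.Loc.StrictOrdEquiv
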