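/-
GATE-P (S56, zero-regret) / [P-LOC] leaf S56-LOC-SORD, consumer form (helper79).

The strict-ordinary local condition at `p` for first-order lifts in the FROZEN shapes:
`k = ResidueField 𝒪`, `ρ : GaloisRepAdic k[ε]` with `DetIsCyclotomic p` and `IsStrictOrdinaryAt p`
(two of the conjuncts of `GaloisRep.strictOrdinaryCondition`), any matrix model `r` of `ρ` reducing
to `toMatRes ρbar b` (helper11 `exists_matrix_of_residual`), a flag basis `g₀` of `ρbar|D_P`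
(depending only on `ρbar`, `b`, `P`):

  `∃ f X, tr X = 0 ∧ ∀ σ ∈ D_P, tanCocycle r σ = nval g₀ f σ + cob (toMatRes ρbar b) X σ`.

Also for the tangent cocycles `tangentCocycle DQ b φ` of a deformation ring.
-/
import Fermat.Agent.GP.Loc.StrictOrdCocycle
import Fermat.Agent.GP.Loc.StrictOrdEquiv

set_option autoImplicit false

namespace Fermat.Agent.GP.Loc.StrictOrdLift

open IsLocalRing Fermat.Agent.S53_helper35 Fermat.Agent.GP.Tan.Cocycle Matrix
open Fermat.Agent.GP.Loc.StrictOrdDim Fermat.Agent.GP.Loc.StrictOrdCocycle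
open Fermat.Agent.GP.Loc.StrictOrdEquiv

variable {𝒪 : Type} [CommRing 𝒪] [IsLocalRing 𝒪]

theorem natCast_residueField_eq_zero {p : ℕ} (hp𝒪 : (p : 𝒪) ∈ maximalIdeal 𝒪) :
    (p : ResidueField 𝒪) = 0 := by
  have : (p : ResidueField 𝒪) = residue 𝒪 (p : 𝒪) := by rw [map_natCast]
  rw [this]
  exact (residue_eq_zero_iff _).2 hp𝒪

/-- **Strict-ordinary first-order lifts have `N`-valued local cocycle at `p`** (frozen shapes). -/
theorem strictOrd_lift_cocycle (p : ℕ) [Fact p.Prime] (hp2 : p ≠ 2)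
    (hp𝒪 : (p : 𝒪) ∈ maximalIdeal 𝒪)
    (ρbar : ResidualGaloisRep (ResidueField 𝒪))
    (b : Module.Basis (Fin 2) (ResidueField 𝒪) ρbar.V)
    (P : ValuationSubring (AlgebraicClosure ℚ)) (hP : P.LiesOverPrime p)
    (g₀ : GL (Fin 2) (ResidueField 𝒪))
    (h₀D : ∀ σ ∈ P.decompositionSubgroup ℚ, conjBy g₀ (toMatRes ρbar b) σ 1 0 = 0)
    (h₀I : ∀ σ ∈ P.inertiaSubgroupIn ℚ, conjBy g₀ (toMatRes ρbar b) σ 1 1 = 1)
    (ρ : GaloisRepAdic (DualNumber (ResidueField 𝒪)))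
    (hdet : ρ.DetIsCyclotomic p) (hso : ρ.IsStrictOrdinaryAt p)
    (r : GQ →* Matrix (Fin 2) (Fin 2) (DualNumber (ResidueField 𝒪))) (hr : MatCont r)
    (he : ρ.IsEquiv (ofMat r hr)) (hfst : rfst r = toMatRes ρbar b) :
    ∃ (f : GQ → ResidueField 𝒪) (X : Matrix (Fin 2) (Fin 2) (ResidueField 𝒪)), X.trace = 0 ∧
      ∀ σ ∈ P.decompositionSubgroup ℚ,
        tanCocycle r σ = nval g₀ f σ + cob (toMatRes ρbar b) X σ := by
  have hdet' : (ofMat r hr).DetIsCyclotomic p := detIsCyclotomic_of_isEquiv he hdet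
  have hso' : (ofMat r hr).IsStrictOrdinaryAt p := isStrictOrdinaryAt_of_isEquiv he hso
  have := strictOrd_tanCocycle p hp2 (natCast_residueField_eq_zero hp𝒪) r hr hdet' hso' P hP g₀
    (by rw [hfst]; exact h₀D) (by rw [hfst]; exact h₀I)
  rw [hfst] at this
  exact this

section Tangent

open Fermat.Agent.GP.Tan.UnivInj

variable {𝒪 : Type} [CommRing 𝒪] [IsDomain 𝒪] [IsDiscreteValuationRing 𝒪]
  [IsAdicComplete (maximalIdeal 𝒪) 𝒪]
  {ρbar : ResidualGaloisRep (ResidueField 𝒪)}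
  {𝒟 : ∀ ⦃A : Type⦄ [CommRing A] [IsLocalRing A] [Algebra 𝒪 A], GaloisRepAdic A → Prop}
  (DQ : GaloisRep.DeformationRingData 𝒪 ρbar 𝒟)
  (b : Module.Basis (Fin 2) (ResidueField 𝒪) ρbar.V)

/-- The same for the tangent cocycle of a tangent vector `φ : R → k[ε]` of a deformation ring whose
first-order deformation `tangentRep DQ φ` is strict ordinary with cyclotomic determinant. -/
theorem strictOrd_tangentCocycle (p : ℕ) [Fact p.Prime] (hp2 : p ≠ 2)
    (hp𝒪 : (p : 𝒪) ∈ maximalIdeal 𝒪)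
    (P : ValuationSubring (AlgebraicClosure ℚ)) (hP : P.LiesOverPrime p)
    (g₀ : GL (Fin 2) (ResidueField 𝒪))
    (h₀D : ∀ σ ∈ P.decompositionSubgroup ℚ, conjBy g₀ (toMatRes ρbar b) σ 1 0 = 0)
    (h₀I : ∀ σ ∈ P.inertiaSubgroupIn ℚ, conjBy g₀ (toMatRes ρbar b) σ 1 1 = 1)
    (φ : DQ.R →ₐ[𝒪] DualNumber (ResidueField 𝒪))
    (hdet : (tangentRep DQ φ).DetIsCyclotomic p) (hso : (tangentRep DQ φ).IsStrictOrdinaryAt p) :
    ∃ (f : GQ → ResidueField 𝒪) (X : Matrix (Fin 2) (Fin 2) (ResidueField 𝒪)), X.trace = 0 ∧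
      ∀ σ ∈ P.decompositionSubgroup ℚ,
        tangentCocycle DQ b φ σ = nval g₀ f σ + cob (toMatRes ρbar b) X σ :=
  strictOrd_lift_cocycle p hp2 hp𝒪 ρbar b P hP g₀ h₀D h₀I (tangentRep DQ φ) hdet hso
    (tangentMat DQ b φ) (matCont_tangentMat DQ b φ) (tangentRep_isEquiv_tangentMat DQ b φ)
    (rfst_tangentMat DQ b φ)

end Tangent

end Fermat.Agent.GP.Loc.StrictOrdLift
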