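/-
GATE-P (S56, zero-regret) / [P-LOC] leaf S56-LOC-SORD-HLC, the cohomological input (helper79).

Discharges the hypothesis `#ZNω ≤ #k ^ 3` of `StrictOrdHlc.card_LpSO_le` in the pinned model from
helper72's `H1Omega.card_hlc_one_of_isCyclo` (`#H¹(G_p, k(ω)) = (#k)²`):

if `R|D_P` (`P = padicPlace p`) is upper triangular in the basis `g₀` with diagonal `(a·z, z)`
(`a` = any cyclotomic exponent: the FULL strict-ordinary flag, `exists_flag_full`), then the
character `chi (R ∘ loc) g₀` is the mod `p` cyclotomic character `chiQ p p`, `ZNω` is the space of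
level-constant cocycles of `k(ω)`, and `#ZNω = #H¹ · #B¹ ≤ (#k)² · #k`.
-/
import Fermat.Agent.GP.Loc.H1Omega
import Fermat.Agent.GP.Loc.StrictOrdHlc
import Fermat.Agent.GP.Loc.StrictOrdLift
import Fermat.Agent.GP.Loc.PadicPlace

set_option autoImplicit false

namespace Fermat.Agent.GP.Loc.StrictOrdH1Omega

open Fermat.Agent.GC.Prof Fermat.Agent.GC.Places Fermat.Agent.GC.Local.KR ExtCitation
  groupCohomology Matrix Module
open Fermat.Agent.GP.Loc.StrictOrdDim Fermat.Agent.GP.Loc.StrictOrdHlc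
open Fermat.Agent.GP.Loc.H1Omega

noncomputable section

local notation "Qb" => AlgebraicClosure ℚ
local notation "GQ" => (AlgebraicClosure ℚ ≃ₐ[ℚ] AlgebraicClosure ℚ)

variable {p : ℕ} [Fact p.Prime]

/-- the value of the prelude's `cycloChar p` is a cyclotomic exponent. -/
theorem cycloChar_exponent (σ : GQ) (μ : Qb) (hμ : μ ^ p = 1) :
    σ μ = μ ^ ((cycloChar p σ : (ZMod p)ˣ) : ZMod p).val := by
  have hp : p.Prime := Fact.out
  have hu : IsUnit μ := IsUnit.of_pow_eq_one hμ hp.ne_zero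
  have ht : hu.unit ^ p = 1 := by
    ext
    simpa using hμ
  have := cycloChar_spec p σ ht
  simpa using this

variable {k : Type} [Field k] [Algebra (ZMod p) k]

/-- `k(ω)` as a representation of `Gq p` over `F_p`. -/
def omegaRho : Representation (ZMod p) (Gq p) k where
  toFun γ := ((chiQ p p γ : (ZMod p)ˣ) : ZMod p) • (LinearMap.id : k →ₗ[ZMod p] k)
  map_one' := by
    rw [map_one, Units.val_one, one_smul]
    rfl
  map_mul' γ δ := by
    rw [map_mul, Units.val_mul]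
    ext x
    simp only [LinearMap.smul_apply, LinearMap.id_coe, id_eq, Module.End.mul_apply, mul_smul]

/-- `k(ω)`. -/
def omegaRep (p : ℕ) [Fact p.Prime] (k : Type) [Field k] [Algebra (ZMod p) k] :
    Rep (ZMod p) (Gq p) := Rep.of (omegaRho (p := p) (k := k))

theorem omegaRep_ρ (γ : Gq p) (x : k) :
    (omegaRep p k).ρ γ x = ((chiQ p p γ : (ZMod p)ˣ) : ZMod p) • x := rfl

theorem isCyclo_omegaRep : IsCyclo p (omegaRep p k) := fun _ _ => rfl

section Count

variable [Finite k]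

instance finiteDimensional_omegaRep : FiniteDimensional (ZMod p) (omegaRep p k) :=
  inferInstanceAs (FiniteDimensional (ZMod p) k)

instance isDiscrete_omegaRep : IsDiscrete (levelQ p) (omegaRep p k) :=
  isDiscrete_of_isCyclo isCyclo_omegaRep

theorem card_eq_pow_finrank : Nat.card k = p ^ finrank (ZMod p) k := by
  rw [Module.natCard_eq_pow_finrank (K := ZMod p) (V := k), Nat.card_zmod]

/-- `#Z¹_lc(G_p, k(ω)) ≤ (#k)³`. -/
theorem card_lcCocycles₁_omegaRep_le (hp2 : p ≠ 2) :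
    Finite (lcCocycles₁ (levelQ p) (omegaRep p k)) ∧
      Nat.card (lcCocycles₁ (levelQ p) (omegaRep p k)) ≤ Nat.card k ^ 3 := by
  classical
  have hp : p.Prime := Fact.out
  set W := omegaRep p k with hW
  set Ψ : lcCocycles₁ (levelQ p) W →+ Hlc (levelQ p) W 1 :=
    (Hlc1π (levelQ p) W).toAddMonoidHom with hΨ
  have hH1 : Nat.card (Hlc (levelQ p) W 1) = p ^ (2 * finrank (ZMod p) k) :=
    card_hlc_one_of_isCyclo hp2 isCyclo_omegaRep
  have hrange : Nat.card Ψ.range = p ^ (2 * finrank (ZMod p) k) := by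
    have : Ψ.range = ⊤ := AddMonoidHom.range_eq_top.2 (Hlc1π_surjective (levelQ p) W)
    rw [this, ← hH1]
    exact Nat.card_congr (Equiv.Set.univ _)
  -- the kernel is a quotient of `W`
  have hfinW : Finite W := inferInstanceAs (Finite k)
  let φ : W → Ψ.ker := fun x =>
    ⟨⟨(d₀₁ W).hom x, coboundaries₁_le_lcCocycles₁ (levelQ p) W ⟨x, rfl⟩⟩,
      (Hlc1π_eq_zero_iff (levelQ p) W _).2 ⟨x, rfl⟩⟩
  have hφ : Function.Surjective φ := by
    rintro ⟨z, hz⟩
    obtain ⟨x, hx⟩ := (Hlc1π_eq_zero_iff (levelQ p) W z).1 hz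
    exact ⟨x, Subtype.ext (Subtype.ext hx)⟩
  have hfinK : Finite Ψ.ker := Finite.of_surjective φ hφ
  have hker : Nat.card Ψ.ker ≤ Nat.card k := Nat.card_le_card_of_surjective φ hφ
  have hmul : Nat.card Ψ.ker * Nat.card Ψ.range = Nat.card (lcCocycles₁ (levelQ p) W) := by
    rw [← AddSubgroup.index_ker, AddSubgroup.card_mul_index]
  have hpos : 0 < Nat.card Ψ.ker := Nat.card_pos
  have hne : Nat.card (lcCocycles₁ (levelQ p) W) ≠ 0 := by
    rw [← hmul, hrange]
    exact Nat.mul_ne_zero hpos.ne' (pow_ne_zero _ hp.ne_zero)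
  refine ⟨Nat.finite_of_card_ne_zero hne, ?_⟩
  rw [← hmul, hrange, card_eq_pow_finrank (p := p) (k := k)]
  calc Nat.card Ψ.ker * p ^ (2 * finrank (ZMod p) k)
      ≤ p ^ finrank (ZMod p) k * p ^ (2 * finrank (ZMod p) k) := by
        apply Nat.mul_le_mul_right
        rw [← card_eq_pow_finrank (p := p) (k := k)]
        exact hker
    _ = (p ^ finrank (ZMod p) k) ^ 3 := by ring

end Count

/-! ### The character of a full flag is cyclotomic -/

section Flag

variable (R : GQ →* Matrix (Fin 2) (Fin 2) k) (g₀ : GL (Fin 2) k)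

/-- The FULL strict-ordinary flag condition on `D_P`, `P = padicPlace p`. -/
structure FullFlag : Prop where
  upper : ∀ σ ∈ (padicPlace p).decompositionSubgroup ℚ, conjBy g₀ R σ 1 0 = 0
  diag : ∀ σ ∈ (padicPlace p).decompositionSubgroup ℚ, ∀ a : ℕ,
    (∀ μ : Qb, μ ^ p = 1 → σ μ = μ ^ a) → conjBy g₀ R σ 0 0 = (a : k) * conjBy g₀ R σ 1 1

variable {R g₀}

theorem chi_eq_of_fullFlag (h : FullFlag (p := p) R g₀) (γ : Gq p) :
    chi (R.comp (localGaloisToGlobal p)) g₀ γ =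
      algebraMap (ZMod p) k ((chiQ p p γ : (ZMod p)ˣ) : ZMod p) := by
  have hγ := localGaloisToGlobal_mem_decompositionSubgroup p γ
  have hup : conjBy g₀ (R.comp (localGaloisToGlobal p)) γ 1 0 = 0 := h.upper _ hγ
  have hdiag := h.diag _ hγ _ (cycloChar_exponent (p := p) (localGaloisToGlobal p γ))
  have hmul := conjBy_mul_inv g₀ (R.comp (localGaloisToGlobal p)) γ
  have e11 : conjBy g₀ (R.comp (localGaloisToGlobal p)) γ 1 1 *
      conjBy g₀ (R.comp (localGaloisToGlobal p)) γ⁻¹ 1 1 = 1 := by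
    have := congrFun (congrFun hmul 1) 1
    simpa [Matrix.mul_apply, Fin.sum_univ_two, hup] using this
  have hcast : ((((cycloChar p (localGaloisToGlobal p γ) : (ZMod p)ˣ) : ZMod p).val : ℕ) : k) =
      algebraMap (ZMod p) k ((chiQ p p γ : (ZMod p)ˣ) : ZMod p) := by
    rw [← map_natCast (algebraMap (ZMod p) k), ZMod.natCast_zmod_val]
    rfl
  unfold chi
  have hd : conjBy g₀ (R.comp (localGaloisToGlobal p)) γ 0 0 =
      ((((cycloChar p (localGaloisToGlobal p γ) : (ZMod p)ˣ) : ZMod p).val : ℕ) : k) *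
        conjBy g₀ (R.comp (localGaloisToGlobal p)) γ 1 1 := hdiag
  rw [hd, mul_assoc, e11, mul_one, hcast]

/-- retyping `Gq p → k` as `Gq p → k(ω)` (the carrier of `omegaRep p k` IS `k`). -/
def toOmega (f : Gq p → k) : Gq p → (omegaRep p k) := f

/-- `ZNω` for a full flag is the space of level-constant cocycles of `k(ω)`. -/
theorem mem_ZNω_iff_of_fullFlag (h : FullFlag (p := p) R g₀) (f : Gq p → k) :
    f ∈ ZNω (levelQ p) (R.comp (localGaloisToGlobal p)) g₀ ↔
      toOmega f ∈ lcCocycles₁ (levelQ p) (omegaRep p k) := by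
  constructor
  · rintro ⟨h1, h2⟩
    refine ⟨(mem_cocycles₁_iff (A := omegaRep p k) (toOmega f)).2 fun γ δ => ?_, h1⟩
    show f (γ * δ) = ((chiQ p p γ : (ZMod p)ˣ) : ZMod p) • f δ + f γ
    rw [h2 γ δ, chi_eq_of_fullFlag h γ, Algebra.smul_def, add_comm]
  · rintro ⟨h2, h1⟩
    refine ⟨h1, fun γ δ => ?_⟩
    have := (mem_cocycles₁_iff (A := omegaRep p k) (toOmega f)).1 h2 γ δ
    have h3 : f (γ * δ) = ((chiQ p p γ : (ZMod p)ˣ) : ZMod p) • f δ + f γ := this
    rw [h3, chi_eq_of_fullFlag h γ, Algebra.smul_def, add_comm]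

/-- **The cohomological input**: `#ZNω ≤ (#k)³` for a full flag. -/
theorem card_ZNω_le [Finite k] (hp2 : p ≠ 2) (h : FullFlag (p := p) R g₀) :
    Finite (ZNω (levelQ p) (R.comp (localGaloisToGlobal p)) g₀) ∧
      Nat.card (ZNω (levelQ p) (R.comp (localGaloisToGlobal p)) g₀) ≤ Nat.card k ^ 3 := by
  obtain ⟨hfin, hcard⟩ := card_lcCocycles₁_omegaRep_le (p := p) (k := k) hp2
  let e : ZNω (levelQ p) (R.comp (localGaloisToGlobal p)) g₀ →
      lcCocycles₁ (levelQ p) (omegaRep p k) :=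
    fun f => ⟨toOmega f.1, (mem_ZNω_iff_of_fullFlag h f.1).1 f.2⟩
  have he : Function.Injective e := by
    intro f f' hff
    apply Subtype.ext
    have := congrArg Subtype.val hff
    exact this
  exact ⟨Finite.of_injective e he, (Nat.card_le_card_of_injective e he).trans hcard⟩

end Flag

/-! ### A full flag exists as soon as one strict-ordinary lift exists -/

section Exists

open Fermat.Agent.S53_helper35 Fermat.Agent.GP.Tan.Cocycle Fermat.Agent.GP.Loc.StrictOrdCocycle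

variable {k : Type} [Field k]

/-- the adapted basis of ONE strict-ordinary lift `r` (cyclotomic determinant) gives a flag basis
`g₀` of `r̄|D_P` with all three properties: upper triangular on `D_P`, lower right entry `1` on
`I_P`, diagonal `(a z, z)` on `D_P` (`a` any cyclotomic exponent). -/
theorem exists_fullFlag_of_strictOrd (p : ℕ) [Fact p.Prime] (hp2 : p ≠ 2) (hpk : (p : k) = 0)
    (r : S53_helper35.GQ →* Matrix (Fin 2) (Fin 2) (DualNumber k)) (hr : MatCont r)
    (hdet : (ofMat r hr).DetIsCyclotomic p) (hso : (ofMat r hr).IsStrictOrdinaryAt p)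
    (P : ValuationSubring (AlgebraicClosure ℚ)) (hP : P.LiesOverPrime p) :
    ∃ g₀ : GL (Fin 2) k,
      (∀ σ ∈ P.decompositionSubgroup ℚ, conjBy g₀ (rfst r) σ 1 0 = 0) ∧
      (∀ σ ∈ P.inertiaSubgroupIn ℚ, conjBy g₀ (rfst r) σ 1 1 = 1) ∧
      (∀ σ ∈ P.decompositionSubgroup ℚ, ∀ a : ℕ,
        (∀ μ : AlgebraicClosure ℚ, μ ^ p = 1 → σ μ = μ ^ a) →
          conjBy g₀ (rfst r) σ 0 0 = (a : k) * conjBy g₀ (rfst r) σ 1 1) := by
  have hp : p.Prime := Fact.out
  obtain ⟨b, hD, -, -⟩ := Fermat.Agent.GP.Loc.StrictOrdShape.strictOrd_toMatrix hp hp2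
    (natCast_dualNumber_eq_zero hpk) (ofMat r hr) hdet hso P hP
  set e := ofMatBasis r hr with he
  set Pm : Matrix (Fin 2) (Fin 2) (DualNumber k) := e.toMatrix b with hPm
  set Pm' : Matrix (Fin 2) (Fin 2) (DualNumber k) := b.toMatrix e with hPm'
  have h1 : Pm * Pm' = 1 := Module.Basis.toMatrix_mul_toMatrix_flip e b
  have h2 : Pm' * Pm = 1 := Module.Basis.toMatrix_mul_toMatrix_flip b e
  have hconj : ∀ σ : S53_helper35.GQ,
      Pm' * r σ * Pm = LinearMap.toMatrix b b ((ofMat r hr).ρ σ) := by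
    intro σ
    have h := basis_toMatrix_mul_linearMap_toMatrix_mul_basis_toMatrix b e b e ((ofMat r hr).ρ σ)
    rw [← h]
    have : LinearMap.toMatrix e e ((ofMat r hr).ρ σ) = r σ := by
      have := congrArg (fun f => f σ) (toMat_ofMat r hr)
      simpa [toMat_apply] using this
    rw [this]
  have g1 : mfst Pm * mfst Pm' = 1 := by rw [← mfst_mul, h1, mfst_one]
  have g2 : mfst Pm' * mfst Pm = 1 := by rw [← mfst_mul, h2, mfst_one]
  have hred : ∀ σ : S53_helper35.GQ,
      mfst Pm' * rfst r σ * mfst Pm = mfst (Pm' * r σ * Pm) := by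
    intro σ
    rw [mfst_mul, mfst_mul, rfst_apply]
  refine ⟨⟨mfst Pm, mfst Pm', g1, g2⟩, fun σ hσ => ?_, fun σ hσ => ?_, fun σ hσ a ha => ?_⟩
  · obtain ⟨z, β, -, -, ⟨a, ha⟩, hm⟩ := hD σ hσ
    show (mfst Pm' * rfst r σ * mfst Pm) 1 0 = 0
    rw [hred, hconj, hm a ha]
    simp
  · have hσD := Fermat.Agent.GP.Loc.StrictOrdShape.mem_decomposition_of_mem_inertiaIn hσ
    obtain ⟨z, β, -, hz1, ⟨a, ha⟩, hm⟩ := hD σ hσD
    show (mfst Pm' * rfst r σ * mfst Pm) 1 1 = 1
    rw [hred, hconj, hm a ha, hz1 hσ]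
    simp
  · obtain ⟨z, β, -, -, -, hm⟩ := hD σ hσ
    show (mfst Pm' * rfst r σ * mfst Pm) 0 0 = (a : k) * (mfst Pm' * rfst r σ * mfst Pm) 1 1
    rw [hred, hconj, hm a ha]
    simp

end Exists

section Frozen

open IsLocalRing Fermat.Agent.S53_helper35 Fermat.Agent.GP.Tan.Cocycle
  Fermat.Agent.GP.Loc.StrictOrdCocycle Fermat.Agent.GP.Loc.StrictOrdEquiv
  Fermat.Agent.GP.Loc.StrictOrdLift

variable {𝒪 : Type} [CommRing 𝒪] [IsLocalRing 𝒪]

/-- **A full flag of `ρ̄|D_P`, `P = padicPlace p`, from ONE strict-ordinary lift** (frozen shapes: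
`t` a matrix lift with `rfst t = toMatRes ρbar b`, equivalent to a `ρ` which is strictly ordinary
at `p` with cyclotomic determinant). -/
theorem exists_fullFlag_of_lift (p : ℕ) [Fact p.Prime] (hp2 : p ≠ 2)
    (hp𝒪 : (p : 𝒪) ∈ maximalIdeal 𝒪)
    (ρbar : ResidualGaloisRep (ResidueField 𝒪))
    (b : Module.Basis (Fin 2) (ResidueField 𝒪) ρbar.V)
    (ρ : GaloisRepAdic (DualNumber (ResidueField 𝒪)))
    (hdet : ρ.DetIsCyclotomic p) (hso : ρ.IsStrictOrdinaryAt p)
    (t : S53_helper35.GQ →* Matrix (Fin 2) (Fin 2) (DualNumber (ResidueField 𝒪)))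
    (ht : MatCont t) (he : ρ.IsEquiv (ofMat t ht)) (hfst : rfst t = toMatRes ρbar b) :
    ∃ g₀ : GL (Fin 2) (ResidueField 𝒪), FullFlag (p := p) (toMatRes ρbar b) g₀ ∧
      ∀ σ ∈ (padicPlace p).inertiaSubgroupIn ℚ, conjBy g₀ (toMatRes ρbar b) σ 1 1 = 1 := by
  have hdet' : (ofMat t ht).DetIsCyclotomic p := detIsCyclotomic_of_isEquiv he hdet
  have hso' : (ofMat t ht).IsStrictOrdinaryAt p := isStrictOrdinaryAt_of_isEquiv he hso
  obtain ⟨g₀, hD, hI, hDa⟩ := exists_fullFlag_of_strictOrd p hp2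
    (natCast_residueField_eq_zero hp𝒪) t ht hdet' hso' (padicPlace p)
    (Fermat.Agent.GP.Loc.PadicPlace.padicPlace_liesOverPrime p)
  rw [hfst] at hD hI hDa
  exact ⟨g₀, ⟨hD, hDa⟩, hI⟩

end Frozen


end

end Fermat.Agent.GP.Loc.StrictOrdH1Omega
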