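/-
GATE-P (S56, zero-regret) / [P-LOC] leaf S56-LOC-SORD-HLC, pinned model (helper79).

The strict-ordinary local condition at `v` (with `(v : ℕ) = p`) in the PINNED Selmer model of
`GP/GW/Model.lean` (`Hloc S N v 1 = Hlc ((locDataQ S).𝒰v v) (Rep.res ((locDataQ S).r v) N) 1`),
for ANY coefficient object `N` with helper11's MODEL BINDERS `(emb, hinj, hsurj, hact)` w.r.t. a
matrix form `R` of `ρ̄` (e.g. helper94's `adBar` with `Ad0.emb`), and a flag basis `g₀` of
`R|D_P`, `P = padicPlace v`.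

* `LpSOv`                : `Submodule (ZMod p) (Hlc (levelQ v) (Rep.res (localGaloisToGlobal v) N) 1)`;
* `card_LpSOv_le`        : `#ZNω ≤ #k^3` ⟹ `#LpSOv ≤ #H⁰_v(N) · #k`;
* `locRes_mem_LpSOv`     : a global level-constant cocycle `z` with
  `emb (z σ) = nval g₀ f σ + cob R X σ` on `D_P` has `locRes z v ∈ LpSOv`;
* `locRes_mem_LpSOv_of_lift` : the same for `emb ∘ z = tanCocycle t`, `t` a matrix lift equivalent
  to a strict-ordinary `ρ` with cyclotomic determinant (frozen predicates).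
-/
import Fermat.Agent.GP.Loc.StrictOrdHlc
import Fermat.Agent.GP.Loc.StrictOrdLift
import Fermat.Agent.GP.Loc.PadicPlace
import Fermat.Agent.GC.PT.LocDataQ

set_option autoImplicit false

namespace Fermat.Agent.GP.Loc.StrictOrdHlcPinned

open Fermat.Agent.GC.Prof Fermat.Agent.GC.Prof.Cone Fermat.Agent.GC.PT.LocDataQ
  Fermat.Agent.GC.C0 Fermat.Agent.GC.Places Fermat.Agent.GC.Local.KR
  groupCohomology Matrix IsLocalRing CategoryTheory
open Fermat.Agent.GP.Loc.StrictOrdDim Fermat.Agent.GP.Loc.StrictOrdHlc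
open Fermat.Agent.S53_helper35 Fermat.Agent.GP.Tan.Cocycle

noncomputable section

local instance factPrimeOfPrimes_h79 (q : Nat.Primes) : Fact ((q : ℕ).Prime) := ⟨q.2⟩

/-- the residue characteristic of the place `v` of `locDataQ S`. -/
abbrev qOf (S : Finset Nat.Primes) (v : (locDataQ S).ι) : ℕ :=
  ((Subtype.val (p := fun q => q ∈ S) v : Nat.Primes) : ℕ)

instance fact_qOf (S : Finset Nat.Primes) (v : (locDataQ S).ι) : Fact (qOf S v).Prime :=
  ⟨(Subtype.val (p := fun q => q ∈ S) v).2⟩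

variable {p : ℕ} [Fact p.Prime] (S : Finset Nat.Primes)
variable {k : Type} [Field k]
variable (R : Fermat.Agent.GC.C0.GQ →* Matrix (Fin 2) (Fin 2) k)
variable (N : Rep (ZMod p) Fermat.Agent.GC.C0.GQ) [IsDiscrete (levelS S) N]
variable (emb : N →+ Matrix (Fin 2) (Fin 2) k)
variable (v : (locDataQ S).ι) (g₀ : GL (Fin 2) k)

/-- The global MODEL BINDERS (helper11's shape) + the flag condition on `D_P`, `P = padicPlace v`. -/
structure GlobalHyp : Prop where
  hinj : Function.Injective emb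
  hsurj : ∀ X : Matrix (Fin 2) (Fin 2) k, X.trace = 0 → ∃ x : N, emb x = X
  hact : ∀ (σ : Fermat.Agent.GC.C0.GQ) (x : N), emb (N.ρ σ x) = R σ * emb x * R σ⁻¹
  hflag : ∀ σ ∈ (padicPlace (qOf S v)).decompositionSubgroup ℚ,
    conjBy g₀ R σ 1 0 = 0

variable {S R N emb v g₀}

omit [IsDiscrete (levelS S) N] in
/-- the local model hypotheses at `v`. -/
theorem GlobalHyp.local (h : GlobalHyp S R N emb v g₀) :
    ModelHyp (R.comp ((locDataQ S).r v)) g₀ (Rep.res ((locDataQ S).r v) N) emb where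
  hinj := h.hinj
  hsurj := h.hsurj
  hact γ x := by
    have := h.hact ((locDataQ S).r v γ) x
    have e2 : (R.comp ((locDataQ S).r v)) γ⁻¹ = R ((locDataQ S).r v γ)⁻¹ := by
      show R ((locDataQ S).r v γ⁻¹) = _
      rw [map_inv]
    rw [e2]
    exact this
  hut γ := h.hflag _ (localGaloisToGlobal_mem_decompositionSubgroup _ γ)

/-- **The strict-ordinary local condition at `v` in the pinned model.** -/
def LpSOv (h : GlobalHyp S R N emb v g₀) :
    Submodule (ZMod p) (Hlc ((locDataQ S).𝒰v v) (Rep.res ((locDataQ S).r v) N) 1) :=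
  LpSO ((locDataQ S).𝒰v v) h.local

/-- `#LpSOv ≤ #H⁰_v(N) · #k` given `#ZNω ≤ #k ^ 3`. -/
theorem card_LpSOv_le [Finite k] (h : GlobalHyp S R N emb v g₀)
    [Finite (ZNω ((locDataQ S).𝒰v v) (R.comp ((locDataQ S).r v)) g₀)]
    (hZ : Nat.card (ZNω ((locDataQ S).𝒰v v) (R.comp ((locDataQ S).r v)) g₀) ≤ Nat.card k ^ 3) :
    Nat.card (LpSOv h) ≤
      Nat.card (Hlc ((locDataQ S).𝒰v v) (Rep.res ((locDataQ S).r v) N) 0) * Nat.card k :=
  card_LpSO_le ((locDataQ S).𝒰v v) h.local hZ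

/-- restriction of a global level-constant cocycle to `G_v`, as a local level-constant cocycle. -/
theorem locRes_Hlc1π (z : lcCocycles₁ (levelS S) N) :
    locRes (locDataQ S) N 1 (Hlc1π (levelS S) N z) v =
      Hlc1π ((locDataQ S).𝒰v v) (Rep.res ((locDataQ S).r v) N)
        ⟨fun γ => (z : Fermat.Agent.GC.C0.GQ → N) ((locDataQ S).r v γ),
          pull_mem_lcCocycles₁ ((locDataQ S).cont v) (𝟙 (Rep.res ((locDataQ S).r v) N)) z⟩ := by
  rw [locRes_apply]
  exact HlcPull_Hlc1π ((locDataQ S).cont v) (𝟙 (Rep.res ((locDataQ S).r v) N)) z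

/-- **Membership (cocycle form).** -/
theorem locRes_mem_LpSOv (h : GlobalHyp S R N emb v g₀) (z : lcCocycles₁ (levelS S) N)
    (f : Fermat.Agent.GC.C0.GQ → k) (X : Matrix (Fin 2) (Fin 2) k) (hX : X.trace = 0)
    (hz : ∀ σ ∈ (padicPlace (qOf S v)).decompositionSubgroup ℚ,
      emb ((z : Fermat.Agent.GC.C0.GQ → N) σ) = nval g₀ f σ + cob R X σ) :
    locRes (locDataQ S) N 1 (Hlc1π (levelS S) N z) v ∈ LpSOv h := by
  rw [locRes_Hlc1π]
  refine mem_LpSO_of_emb_eq ((locDataQ S).𝒰v v) h.local _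
    (fun γ => f ((locDataQ S).r v γ)) X hX (fun γ => ?_)
  have := hz _ (localGaloisToGlobal_mem_decompositionSubgroup (qOf S v) γ)
  rw [nval_apply, cob_apply] at this
  have e2 : (R.comp ((locDataQ S).r v)) γ⁻¹ = R ((locDataQ S).r v γ)⁻¹ := by
    show R ((locDataQ S).r v γ⁻¹) = _
    rw [map_inv]
  rw [nval_apply, cob_apply, e2]
  exact this

end

noncomputable section Lift

local instance factPrimeOfPrimes_h79' (q : Nat.Primes) : Fact ((q : ℕ).Prime) := ⟨q.2⟩

variable {p : ℕ} [Fact p.Prime] {S : Finset Nat.Primes}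
variable {𝒪 : Type} [CommRing 𝒪] [IsLocalRing 𝒪]
variable {ρbar : ResidualGaloisRep (ResidueField 𝒪)}
variable {b : Module.Basis (Fin 2) (ResidueField 𝒪) ρbar.V}
variable {N : Rep (ZMod p) Fermat.Agent.GC.C0.GQ} [IsDiscrete (levelS S) N]
variable {emb : N →+ Matrix (Fin 2) (Fin 2) (ResidueField 𝒪)}
variable {v : (locDataQ S).ι} {g₀ : GL (Fin 2) (ResidueField 𝒪)}

/-- **Membership (frozen form).** `t` a matrix lift with `rfst t = toMatRes ρbar b`, equivalent to
a `ρ` which is strictly ordinary at `p` with cyclotomic determinant; `z` the global cocycle with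
`emb ∘ z = tanCocycle t`; `v` the place of `S` over `p`; `g₀` a flag basis of `ρ̄|D_P` with lower
right entry `1` on `I_P` (`P = padicPlace p`). Then `locRes z v ∈ LpSOv`. -/
theorem locRes_mem_LpSOv_of_lift (hp2 : p ≠ 2) (hp𝒪 : (p : 𝒪) ∈ maximalIdeal 𝒪)
    (hvp : qOf S v = p)
    (h : GlobalHyp S (toMatRes ρbar b) N emb v g₀)
    (h₀I : ∀ σ ∈ (padicPlace (qOf S v)).inertiaSubgroupIn ℚ,
      conjBy g₀ (toMatRes ρbar b) σ 1 1 = 1)
    (ρ : GaloisRepAdic (DualNumber (ResidueField 𝒪)))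
    (hdet : ρ.DetIsCyclotomic p) (hso : ρ.IsStrictOrdinaryAt p)
    (t : S53_helper35.GQ →* Matrix (Fin 2) (Fin 2) (DualNumber (ResidueField 𝒪))) (ht : MatCont t)
    (he : ρ.IsEquiv (ofMat t ht)) (hfst : rfst t = toMatRes ρbar b)
    (z : lcCocycles₁ (levelS S) N)
    (hz : ∀ σ, emb ((z : Fermat.Agent.GC.C0.GQ → N) σ) = tanCocycle t σ) :
    locRes (locDataQ S) N 1 (Hlc1π (levelS S) N z) v ∈ LpSOv h := by
  have hP : (padicPlace (qOf S v)).LiesOverPrime p := by
    have := Fermat.Agent.GP.Loc.PadicPlace.padicPlace_liesOverPrime (qOf S v)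
    show ((p : ℕ) : AlgebraicClosure ℚ) ∈ (padicPlace (qOf S v)).nonunits
    have e : ((p : ℕ) : AlgebraicClosure ℚ) = ((qOf S v : ℕ) : AlgebraicClosure ℚ) := by rw [hvp]
    rw [e]
    exact this
  obtain ⟨f, X, hX, hfX⟩ := Fermat.Agent.GP.Loc.StrictOrdLift.strictOrd_lift_cocycle p hp2 hp𝒪
    ρbar b (padicPlace (qOf S v)) hP g₀ h.hflag h₀I ρ hdet hso t ht he hfst
  refine locRes_mem_LpSOv h z f X hX (fun σ hσ => ?_)
  rw [hz σ]
  exact hfX σ hσ

end Lift

end Fermat.Agent.GP.Loc.StrictOrdHlcPinned
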