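/-
GATE-P (S56, zero-regret) / [P-LOC] leaf S56-LOC-SORD-HLC, the CONTRACT (helper79).

helper35's `LocalCond` contract (board 4222, `GP/Core/LocalCond.lean`) at `q = p`, STRICT case, in
UNFOLDED form (so that this file does not depend on the `GP/Core` drafts; the statement below is
`LocalCond ρbar b p N emb p (fun ρ => ρ.DetIsCyclotomic p ∧ ρ.IsStrictOrdinaryAt p) d` after
`unfold LocalCond LocalMem`):

  `∃ L ⊆ H¹(G_p, N)`, `Module.Finite L`, `dim_{F_p} L ≤ h⁰(G_p, N) + d`  (`#k = p ^ d`),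
  and for every continuous matrix lift `t` of `r̄ = toMatRes ρbar b` to `k[ε]` equivalent to some
  `ρ` with `ρ.DetIsCyclotomic p ∧ ρ.IsStrictOrdinaryAt p`, every level-constant local cocycle
  `z : G_p → N` with `emb (z τ) = tanCocycle t (localGaloisToGlobal p τ)` has its class in `L`.

`L` = `LpSO` of `StrictOrdHlc.lean` for a FULL flag `g₀` of `r̄|D_P` (`StrictOrdH1Omega.lean`) if
some such lift exists, `L = ⊥` otherwise.  Inputs: helper11's MODEL BINDERS `(hinj, hsurj, hact)`.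
-/
import Fermat.Agent.GP.Loc.StrictOrdH1Omega

set_option autoImplicit false

namespace Fermat.Agent.GP.Loc.StrictOrdLocalCond

open Fermat.Agent.GC.Prof Fermat.Agent.GC.Places Fermat.Agent.GC.Local.KR
  groupCohomology Matrix Module IsLocalRing
open Fermat.Agent.GP.Loc.StrictOrdDim Fermat.Agent.GP.Loc.StrictOrdHlc
open Fermat.Agent.GP.Loc.StrictOrdH1Omega
open Fermat.Agent.S53_helper35 Fermat.Agent.GP.Tan.Cocycle

noncomputable section

variable {p : ℕ} [Fact p.Prime]
variable {k : Type} [Field k]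
variable {R : S53_helper35.GQ →* Matrix (Fin 2) (Fin 2) k}
variable {N : Rep (ZMod p) S53_helper35.GQ}
variable {emb : N →+ Matrix (Fin 2) (Fin 2) k}
variable {g₀ : GL (Fin 2) k}

/-- the local MODEL hypotheses on `Gq p` from helper11's global MODEL BINDERS and a flag. -/
theorem modelHyp_of_global (hinj : Function.Injective emb)
    (hsurj : ∀ X : Matrix (Fin 2) (Fin 2) k, X.trace = 0 → ∃ x : N, emb x = X)
    (hact : ∀ (σ : S53_helper35.GQ) (x : N), emb (N.ρ σ x) = R σ * emb x * R σ⁻¹)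
    (hflag : ∀ σ ∈ (padicPlace p).decompositionSubgroup ℚ, conjBy g₀ R σ 1 0 = 0) :
    ModelHyp (R.comp (localGaloisToGlobal p)) g₀ (Rep.res (localGaloisToGlobal p) N) emb where
  hinj := hinj
  hsurj := hsurj
  hact γ x := by
    have := hact (localGaloisToGlobal p γ) x
    have e2 : (R.comp (localGaloisToGlobal p)) γ⁻¹ = R (localGaloisToGlobal p γ)⁻¹ := by
      show R (localGaloisToGlobal p γ⁻¹) = _
      rw [map_inv]
    rw [e2]
    exact this
  hut γ := hflag _ (localGaloisToGlobal_mem_decompositionSubgroup p γ)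

variable [IsDiscrete (levelQ p) (Rep.res (localGaloisToGlobal p) N)]

/-- **The count in `F_p`-dimensions**: for a full flag,
`dim L_p^{SO} ≤ h⁰(G_p, N) + d` where `#k = p ^ d`. -/
theorem finrank_LpSO_le [Finite k] (hp2 : p ≠ 2) (hpk : (p : k) = 0)
    (hfull : FullFlag (p := p) R g₀)
    (h : ModelHyp (R.comp (localGaloisToGlobal p)) g₀ (Rep.res (localGaloisToGlobal p) N) emb)
    (d : ℕ) (hk : Nat.card k = p ^ d) :
    Module.Finite (ZMod p) (LpSO (p := p) (levelQ p) h) ∧
      finrank (ZMod p) (LpSO (p := p) (levelQ p) h) ≤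
        finrank (ZMod p) (Hlc (levelQ p) (Rep.res (localGaloisToGlobal p) N) 0) + d := by
  classical
  have hp : p.Prime := Fact.out
  have : CharP k p := (CharP.charP_iff_prime_eq_zero hp).2 hpk
  let _ : Algebra (ZMod p) k := ZMod.algebra k p
  obtain ⟨hfinZ, hZ⟩ := card_ZNω_le (p := p) (k := k) hp2 hfull
  have hcard := card_LpSO_le (p := p) (levelQ p) h hZ
  -- finiteness of `L` and of `H⁰`
  have hfinL : Finite (LpSO (p := p) (levelQ p) h) := by
    have : Finite (classMap (p := p) (levelQ p) h).range :=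
      Finite.of_surjective (classMap (p := p) (levelQ p) h).rangeRestrict
        (classMap (p := p) (levelQ p) h).rangeRestrict_surjective
    exact this
  have hfinM : Finite (Rep.res (localGaloisToGlobal p) N) := Finite.of_injective emb h.hinj
  have hfinH0 : Finite (Hlc (levelQ p) (Rep.res (localGaloisToGlobal p) N) 0) := by
    have : Finite ((Rep.res (localGaloisToGlobal p) N).ρ.invariants) :=
      Finite.of_injective _ Subtype.val_injective
    exact Finite.of_equiv _ (Hlc0Equiv (levelQ p) (Rep.res (localGaloisToGlobal p) N)).symm.toEquiv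
  have hmfL : Module.Finite (ZMod p) (LpSO (p := p) (levelQ p) h) := Module.Finite.of_finite
  have hmfH0 : Module.Finite (ZMod p) (Hlc (levelQ p) (Rep.res (localGaloisToGlobal p) N) 0) :=
    Module.Finite.of_finite
  refine ⟨hmfL, ?_⟩
  rw [Module.natCard_eq_pow_finrank (K := ZMod p) (V := LpSO (p := p) (levelQ p) h),
    Module.natCard_eq_pow_finrank (K := ZMod p)
      (V := Hlc (levelQ p) (Rep.res (localGaloisToGlobal p) N) 0), Nat.card_zmod, hk,
    ← pow_add] at hcard
  exact (Nat.pow_le_pow_iff_right hp.one_lt).1 hcard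

end

noncomputable section Contract

variable {𝒪 : Type} [CommRing 𝒪] [IsLocalRing 𝒪]
variable (ρbar : ResidualGaloisRep (ResidueField 𝒪))
variable (b : Module.Basis (Fin 2) (ResidueField 𝒪) ρbar.V)
variable (p : ℕ) [Fact p.Prime]
variable (N : Rep (ZMod p) S53_helper35.GQ)
variable (emb : N →+ Matrix (Fin 2) (Fin 2) (ResidueField 𝒪))

/-- **helper35's `LocalCond` at `q = p`, strict case** (unfolded form):
`LocalCond ρbar b p N emb p (fun ρ => ρ.DetIsCyclotomic p ∧ ρ.IsStrictOrdinaryAt p) d`. -/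
theorem localCond_strictOrd [Finite (ResidueField 𝒪)]
    [IsDiscrete (levelQ p) (Rep.res (localGaloisToGlobal p) N)]
    (hp2 : p ≠ 2) (hp𝒪 : (p : 𝒪) ∈ maximalIdeal 𝒪)
    (hinj : Function.Injective emb)
    (hsurj : ∀ X : Matrix (Fin 2) (Fin 2) (ResidueField 𝒪), X.trace = 0 → ∃ x : N, emb x = X)
    (hact : ∀ (σ : S53_helper35.GQ) (x : N),
      emb (N.ρ σ x) = toMatRes ρbar b σ * emb x * toMatRes ρbar b σ⁻¹)
    (d : ℕ) (hk : Nat.card (ResidueField 𝒪) = p ^ d) :
    ∃ L : Submodule (ZMod p) (Hlc (levelQ p) (Rep.res (localGaloisToGlobal p) N) 1),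
      Module.Finite (ZMod p) L ∧
      Module.finrank (ZMod p) L ≤
        Module.finrank (ZMod p) (Hlc (levelQ p) (Rep.res (localGaloisToGlobal p) N) 0) + d ∧
      ∀ (t : S53_helper35.GQ →* Matrix (Fin 2) (Fin 2) (DualNumber (ResidueField 𝒪)))
        (ht : MatCont t), rfst t = toMatRes ρbar b →
        (∃ ρ : GaloisRepAdic (DualNumber (ResidueField 𝒪)),
          (ρ.DetIsCyclotomic p ∧ ρ.IsStrictOrdinaryAt p) ∧ ρ.IsEquiv (ofMat t ht)) →
        ∀ z : lcCocycles₁ (levelQ p) (Rep.res (localGaloisToGlobal p) N),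
          (∀ τ : Gq p, emb ((z : Gq p → N) τ) = tanCocycle t (localGaloisToGlobal p τ)) →
            Hlc1π (levelQ p) (Rep.res (localGaloisToGlobal p) N) z ∈ L := by
  classical
  by_cases hex : ∃ (t : S53_helper35.GQ →* Matrix (Fin 2) (Fin 2) (DualNumber (ResidueField 𝒪)))
      (ht : MatCont t), rfst t = toMatRes ρbar b ∧
      ∃ ρ : GaloisRepAdic (DualNumber (ResidueField 𝒪)),
        (ρ.DetIsCyclotomic p ∧ ρ.IsStrictOrdinaryAt p) ∧ ρ.IsEquiv (ofMat t ht)
  · obtain ⟨t₀, ht₀, hfst₀, ρ₀, ⟨hdet₀, hso₀⟩, he₀⟩ := hex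
    obtain ⟨g₀, hfull, h₀I⟩ := exists_fullFlag_of_lift p hp2 hp𝒪 ρbar b ρ₀ hdet₀ hso₀ t₀ ht₀ he₀
      hfst₀
    have hmodel := modelHyp_of_global (p := p) (R := toMatRes ρbar b) (N := N) (emb := emb)
      (g₀ := g₀) hinj hsurj hact hfull.upper
    obtain ⟨hfin, hrank⟩ := finrank_LpSO_le (p := p) hp2
      (Fermat.Agent.GP.Loc.StrictOrdLift.natCast_residueField_eq_zero hp𝒪) hfull hmodel d hk
    refine ⟨LpSO (p := p) (levelQ p) hmodel, hfin, hrank, ?_⟩
    rintro t ht hfst ⟨ρ, ⟨hdet, hso⟩, he⟩ z hz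
    obtain ⟨f, X, hX, hfX⟩ := Fermat.Agent.GP.Loc.StrictOrdLift.strictOrd_lift_cocycle p hp2 hp𝒪
      ρbar b (padicPlace p) (Fermat.Agent.GP.Loc.PadicPlace.padicPlace_liesOverPrime p) g₀
      hfull.upper h₀I ρ hdet hso t ht he hfst
    refine mem_LpSO_of_emb_eq (levelQ p) hmodel z (fun γ => f (localGaloisToGlobal p γ)) X hX
      (fun γ => ?_)
    have := hfX _ (localGaloisToGlobal_mem_decompositionSubgroup p γ)
    rw [nval_apply, cob_apply] at this
    have e2 : ((toMatRes ρbar b).comp (localGaloisToGlobal p)) γ⁻¹ =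
        toMatRes ρbar b (localGaloisToGlobal p γ)⁻¹ := by
      show toMatRes ρbar b (localGaloisToGlobal p γ⁻¹) = _
      rw [map_inv]
    rw [nval_apply, cob_apply, e2, hz γ]
    exact this
  · refine ⟨⊥, inferInstance, ?_, ?_⟩
    · rw [finrank_bot]
      exact Nat.zero_le _
    · rintro t ht hfst hρ
      exact absurd ⟨t, ht, hfst, hρ⟩ hex

end Contract

end Fermat.Agent.GP.Loc.StrictOrdLocalCond
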