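/-
GATE-P / S56 [P-LOC] (helper91): `TWLocalH1` in GENERATOR form, for the glue with helper67's
`GP/Loc/TameKummer.exists_tame_generator` (no `TameHyp`, no finiteness, `D` any group).

Hypotheses on a family of cocycles `c : ι → D → M` (`I` acting trivially on `M`), for one `τ₀ ∈ I`:
* `hgen  : ∀ τ ∈ I, ∃ j : ℕ, ∀ i, c i τ = j • c i τ₀`   (one value generates, same `j` for all `i`);
* `hconj : ∀ i, c i (φ * τ₀ * φ⁻¹) = q • c i τ₀`          (tame relation at the generator).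
Both are the two conclusions of `exists_tame_generator` for `f σ := fun i => c i σ`.

* `exists_linearCombination_vanishing_of_generator` : `dim H¹/H¹_ur ≤ dim M^{φ = q}` (dependence form);
* `exists_combination_vanishing_of_generator` : matrix form for `ad⁰`, `r̄ φ` with distinct
  eigenvalues, `q = 1` in `k`: two trace-zero cocycles have a combination vanishing on `I`.
The unramified part is `TWLocalH1.eq_coboundary_of_unramified` (`D = ⟨φ⟩ I`, any group).
-/
import Fermat.Agent.GP.Loc.TWLocalH1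

set_option autoImplicit false

namespace Fermat.Agent.GP.Loc.TWLocalH1

universe u v w

section Gen

variable {k : Type w} [CommRing k] {D : Type u} [Group D] {M : Type v} [AddCommGroup M]
  [Module k M]

/-- **`dim H¹(D, M) / H¹_ur(D, M) ≤ dim M^{φ = q}`**, generator form. -/
theorem exists_linearCombination_vanishing_of_generator (ρ : Representation k D M)
    (I : Subgroup D) (hI : ∀ σ ∈ I, ρ σ = 1) (φ τ₀ : D) (hτ₀ : τ₀ ∈ I) (q : ℕ)
    {ι : Type*} [Fintype ι] (c : ι → D → M)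
    (hc : ∀ j σ τ, c j (σ * τ) = c j σ + ρ σ (c j τ))
    (hgen : ∀ τ ∈ I, ∃ n : ℕ, ∀ j, c j τ = n • c j τ₀)
    (hconj : ∀ j, c j (φ * τ₀ * φ⁻¹) = q • c j τ₀)
    (N : Submodule k M) (hcN : ∀ j, c j τ₀ ∈ N)
    (hdep : ∀ s : ι → M, (∀ j, s j ∈ N) → (∀ j, ρ φ (s j) = q • s j) →
      ¬ LinearIndependent k s) :
    ∃ a : ι → k, (∃ j, a j ≠ 0) ∧ ∀ σ ∈ I, ∑ j, a j • c j σ = 0 := by
  have h3 : ¬ LinearIndependent k fun j => c j τ₀ := by
    refine hdep _ hcN (fun j => ?_)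
    rw [← cocycle_conj ρ (c j) (hc j) φ (hI τ₀ hτ₀), hconj j]
  rw [Fintype.not_linearIndependent_iff] at h3
  obtain ⟨a, ha, hne⟩ := h3
  refine ⟨a, hne, fun σ hσ => ?_⟩
  obtain ⟨n, hn⟩ := hgen σ hσ
  calc ∑ j, a j • c j σ = n • ∑ j, a j • c j τ₀ := by
        rw [Finset.smul_sum]
        refine Finset.sum_congr rfl fun j _ => ?_
        rw [hn j, smul_comm]
    _ = 0 := by rw [ha, smul_zero]

end Gen

section MatrixGen

open Matrix Polynomial

variable {k : Type w} [Field k] {D : Type u} [Group D]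

/-- **The ramified part of `H¹(G_q, ad⁰ρ̄)` at a Taylor–Wiles prime is at most one-dimensional**,
generator form (`D` any group). -/
theorem exists_combination_vanishing_of_generator (rbar : D →* Matrix (Fin 2) (Fin 2) k)
    (I : Subgroup D) (hI : ∀ σ ∈ I, rbar σ = 1) (φ τ₀ : D) (hτ₀ : τ₀ ∈ I) (q : ℕ)
    (hq : (q : k) = 1) {α β : k} (hαβ : α ≠ β)
    (hchar : (rbar φ).charpoly = (X - C α) * (X - C β))
    (c₁ c₂ : D → Matrix (Fin 2) (Fin 2) k)
    (hc₁ : ∀ σ τ, c₁ (σ * τ) = c₁ σ + rbar σ * c₁ τ * rbar σ⁻¹)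
    (hc₂ : ∀ σ τ, c₂ (σ * τ) = c₂ σ + rbar σ * c₂ τ * rbar σ⁻¹)
    (hgen : ∀ τ ∈ I, ∃ n : ℕ, c₁ τ = n • c₁ τ₀ ∧ c₂ τ = n • c₂ τ₀)
    (hconj₁ : c₁ (φ * τ₀ * φ⁻¹) = q • c₁ τ₀) (hconj₂ : c₂ (φ * τ₀ * φ⁻¹) = q • c₂ τ₀)
    (htr₁ : (c₁ τ₀).trace = 0) (htr₂ : (c₂ τ₀).trace = 0) :
    ∃ a₁ a₂ : k, (a₁ ≠ 0 ∨ a₂ ≠ 0) ∧ ∀ σ ∈ I, a₁ • c₁ σ + a₂ • c₂ σ = 0 := by
  obtain ⟨htrA, hdetA⟩ := trace_det_of_charpoly hαβ hchar
  have hdisc : (rbar φ).trace ^ 2 - 4 * (rbar φ).det ≠ 0 := by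
    rw [htrA, hdetA]
    intro h
    have h1 : (α - β) ^ 2 = 0 := by linear_combination h
    exact hαβ (sub_eq_zero.1 ((pow_eq_zero_iff (two_ne_zero)).1 h1))
  have hinv : rbar φ⁻¹ * rbar φ = 1 := by rw [← map_mul, inv_mul_cancel, map_one]
  have hdep : ∀ s : Fin 2 → Matrix (Fin 2) (Fin 2) k,
      (∀ j, s j ∈ LinearMap.ker (Matrix.traceLinearMap (Fin 2) k k)) →
      (∀ j, adRep rbar φ (s j) = q • s j) → ¬ LinearIndependent k s := by
    intro s hs1 hs2
    have hyj : ∀ j, ∃ y : k, s j = y • ((2 : k) • rbar φ -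
        (rbar φ).trace • (1 : Matrix (Fin 2) (Fin 2) k)) := by
      intro j
      refine exists_smul_of_commute_of_trace_eq_zero (rbar φ) (s j) hdisc ?_ (hs1 j)
      have h1 := hs2 j
      rw [adRep_apply, ← Nat.cast_smul_eq_nsmul k, hq, one_smul] at h1
      have h2 := congrArg (fun Y => Y * rbar φ) h1
      simp only [Matrix.mul_assoc, hinv, Matrix.mul_one] at h2
      exact h2
    obtain ⟨y₀, hy₀⟩ := hyj 0
    obtain ⟨y₁, hy₁⟩ := hyj 1
    rw [Fintype.not_linearIndependent_iff]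
    by_cases h0 : y₀ = 0
    · refine ⟨![1, 0], ?_, 0, by simp⟩
      rw [Fin.sum_univ_two, hy₀, h0]
      simp
    · refine ⟨![y₁, -y₀], ?_, 1, by simpa using h0⟩
      rw [Fin.sum_univ_two, hy₀, hy₁]
      simp only [Matrix.cons_val_zero, Matrix.cons_val_one, smul_smul]
      rw [← add_smul]
      have : y₁ * y₀ + -y₀ * y₁ = 0 := by ring
      rw [this, zero_smul]
  obtain ⟨a, ⟨j, hj⟩, ha⟩ := exists_linearCombination_vanishing_of_generator (k := k)
    (adRep rbar) I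
    (fun σ hσ => by
      ext X : 1
      rw [adRep_apply, hI σ hσ, hI σ⁻¹ (I.inv_mem hσ), Matrix.one_mul, Matrix.mul_one,
        Module.End.one_apply])
    φ τ₀ hτ₀ q
    (fun j => if j = 0 then c₁ else c₂)
    (fun j σ τ => by
      by_cases hj : j = 0
      · simp only [hj, if_true, adRep_apply]; exact hc₁ σ τ
      · simp only [hj, if_false, adRep_apply]; exact hc₂ σ τ)
    (fun τ hτ => by
      obtain ⟨n, h1, h2⟩ := hgen τ hτ
      refine ⟨n, fun j => ?_⟩
      by_cases hj : j = 0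
      · simp only [hj, if_true]; exact h1
      · simp only [hj, if_false]; exact h2)
    (fun j => by
      by_cases hj : j = 0
      · simp only [hj, if_true]; exact hconj₁
      · simp only [hj, if_false]; exact hconj₂)
    (LinearMap.ker (Matrix.traceLinearMap (Fin 2) k k))
    (fun j => by
      by_cases hj : j = 0
      · simp only [hj, if_true]; exact htr₁
      · simp only [hj, if_false]; exact htr₂)
    hdep
  refine ⟨a 0, a 1, ?_, fun σ hσ => ?_⟩
  · fin_cases j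
    · exact Or.inl hj
    · exact Or.inr hj
  · have := ha σ hσ
    rw [Fin.sum_univ_two] at this
    simpa using this

end MatrixGen

end Fermat.Agent.GP.Loc.TWLocalH1
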