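/-
GATE-P / S56 [P-LOC] (helper91): `TameRel` ⟹ `TWLocalH1.TameHyp`, and the finite-level local bound at
a Taylor–Wiles prime with the DVR hypotheses plugged in.

`O` a DVR of residue characteristic `q`, `D` a finite group acting faithfully on `O`, `I ⊴ D` acting
trivially on the residue field, `φ ∈ D` acting by `x ↦ x ^ q` on the residue field, `p ≠ q`.
-/
import Fermat.Agent.GP.Loc.TameRel
import Fermat.Agent.GP.Loc.TWLocalH1

set_option autoImplicit false

namespace Fermat.Agent.GP.Loc.TWLocalTame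

open IsLocalRing Fermat.Agent.GP.Loc.TameRel Fermat.Agent.GP.Loc.TWLocalH1

universe u v w

variable {O : Type*} [CommRing O] [IsDomain O] [IsDiscreteValuationRing O]
variable {D : Type u} [Group D] [Finite D] [MulSemiringAction D O] [FaithfulSMul D O]

/-- The tame hypothesis of `TWLocalH1` holds for a finite-level decomposition group. -/
theorem tameHyp_of_dvr (q : ℕ) [Fact q.Prime] (hchar : (q : O) ∈ maximalIdeal O)
    (p : ℕ) [Fact p.Prime] (hpq : p ≠ q)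
    (I : Subgroup D) [I.Normal] (hI : ∀ s ∈ I, ∀ x : O, s • x - x ∈ maximalIdeal O)
    (φ : D) (hφ : ∀ x : O, φ • x - x ^ q ∈ maximalIdeal O) : TameHyp.{u, v} p q I φ := by
  intro H _ f hf
  obtain ⟨h1, -, h3⟩ := map_conj_eq_pow q hchar p hpq I hI φ hφ f hf
  exact ⟨h1, h3⟩

open Polynomial in
/-- **Finite-level local bound at a Taylor–Wiles prime**: two trace-zero cocycles of a finite-level
decomposition group for the adjoint action of `r̄` (unramified, `r̄ φ` with distinct eigenvalues,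
`q = 1` in `k`) have a nontrivial linear combination vanishing on inertia. -/
theorem exists_combination_vanishing {k : Type w} [Field k]
    (q : ℕ) [Fact q.Prime] (hchar : (q : O) ∈ maximalIdeal O)
    (p : ℕ) [Fact p.Prime] (hpq : p ≠ q)
    (I : Subgroup D) [I.Normal] (hI : ∀ s ∈ I, ∀ x : O, s • x - x ∈ maximalIdeal O)
    (φ : D) (hφ : ∀ x : O, φ • x - x ^ q ∈ maximalIdeal O)
    (rbar : D →* Matrix (Fin 2) (Fin 2) k)
    (hIr : ∀ σ ∈ I, rbar σ = 1) (hp : (p : k) = 0) (hq : (q : k) = 1)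
    {α β : k} (hαβ : α ≠ β) (hcharpoly : (rbar φ).charpoly = (X - C α) * (X - C β))
    (c₁ c₂ : D → Matrix (Fin 2) (Fin 2) k)
    (hc₁ : ∀ σ τ, c₁ (σ * τ) = c₁ σ + rbar σ * c₁ τ * rbar σ⁻¹)
    (hc₂ : ∀ σ τ, c₂ (σ * τ) = c₂ σ + rbar σ * c₂ τ * rbar σ⁻¹)
    (htr₁ : ∀ σ ∈ I, (c₁ σ).trace = 0) (htr₂ : ∀ σ ∈ I, (c₂ σ).trace = 0) :
    ∃ a₁ a₂ : k, (a₁ ≠ 0 ∨ a₂ ≠ 0) ∧ ∀ σ ∈ I, a₁ • c₁ σ + a₂ • c₂ σ = 0 :=
  exists_combination_vanishing_of_charpoly (tameHyp_of_dvr q hchar p hpq I hI φ hφ) rbar hIr hp hq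
    hαβ hcharpoly c₁ c₂ hc₁ hc₂ htr₁ htr₂

end Fermat.Agent.GP.Loc.TWLocalTame
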