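/-
GATE-P / S56 [P-LOC] node S56-LOC-TWQ-HLC, part 2 (helper80): THE TAYLOR–WILES LOCAL TERM IN THE
`finrank` SHAPE OF THE CORE CONTRACT (helper35 4222, line `q ∈ Q (TW)`):

  `Module.Finite (ZMod p) H¹ ∧ finrank (ZMod p) H¹ ≤ finrank (ZMod p) H⁰ + d`,  `Nat.card k = p ^ d`,

for `Hⁱ := Hlc (levelQ q) (Rep.res (localGaloisToGlobal q) N) i`, `N := adRep p R 1` resp.
`adBar p ρbar b`.  Card form = `GP/Loc/TWQHlc.lean`; finiteness = helper68 `GP/GW/LocFin.lean`.

* `finrank_le_of_card_le` : Mathlib-only, `#V ≤ #W · p ^ d ⟹ finrank V ≤ finrank W + d` over `ZMod p`;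
* `finrank_Hlc_one_adRep_le`, **`finrank_Hlc_one_adBar_le`** (frozen-hypothesis form),
  `finrank_Hlc_one_adBar_le_of_levelS`.
-/
import Mathlib
import Fermat.Agent.GP.Loc.TWQHlc
import Fermat.Agent.GP.GW.LocFin

set_option autoImplicit false

open CategoryTheory groupCohomology

noncomputable section

namespace Fermat.Agent.GP.Loc.TWQHlcFin

open Fermat.Agent.GC.Prof Fermat.Agent.GC.Places Fermat.Agent.GC.Local.KR
open Fermat.Agent.GP.Bridge.Ad0 Fermat.Agent.S53_helper35 Fermat.Agent.GP.Loc.TWQHlc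

local notation "Qb" => AlgebraicClosure ℚ
local notation "GQ" => (AlgebraicClosure ℚ ≃ₐ[ℚ] AlgebraicClosure ℚ)

/-- from cardinalities to `𝔽_p`-dimensions. -/
theorem finrank_le_of_card_le {p : ℕ} [Fact p.Prime] {V W : Type*} [AddCommGroup V]
    [Module (ZMod p) V] [AddCommGroup W] [Module (ZMod p) W] [Module.Finite (ZMod p) V]
    [Module.Finite (ZMod p) W] {d : ℕ} (h : Nat.card V ≤ Nat.card W * p ^ d) :
    Module.finrank (ZMod p) V ≤ Module.finrank (ZMod p) W + d := by
  have hp : p.Prime := Fact.out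
  rw [Module.natCard_eq_pow_finrank (K := ZMod p) (V := V),
    Module.natCard_eq_pow_finrank (K := ZMod p) (V := W), Nat.card_zmod, ← pow_add] at h
  exact (Nat.pow_le_pow_iff_right hp.one_lt).mp h

section Main

open Matrix Polynomial Fermat.Agent.GP.GW.LocFin

variable (q : ℕ) [Fact q.Prime] (p : ℕ) [Fact p.Prime] {k : Type} [Field k] [Algebra (ZMod p) k]
  [Finite k]

/-- **The Taylor–Wiles local term for `adRep p R 1`, `finrank` form.** -/
theorem finrank_Hlc_one_adRep_le (R : GQ →* Matrix (Fin 2) (Fin 2) k) {d : ℕ}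
    (hk : Nat.card k = p ^ d) (hpq : p ≠ q) (hqp : p ∣ q - 1)
    [IsDiscrete (levelQ q) (Rep.res (localGaloisToGlobal q) (adRep p R 1))]
    (hunr : ∀ τ ∈ (padicPlace q).inertiaSubgroupIn ℚ, R τ = 1)
    {φ : GQ} (hφ : (padicPlace q).IsFrobeniusAt φ q) {α β : k} (hαβ : α ≠ β)
    (hchar : (R φ).charpoly = (X - C α) * (X - C β)) :
    Module.Finite (ZMod p) (Hlc (levelQ q) (Rep.res (localGaloisToGlobal q) (adRep p R 1)) 1) ∧
      Module.finrank (ZMod p) (Hlc (levelQ q) (Rep.res (localGaloisToGlobal q) (adRep p R 1)) 1) ≤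
        Module.finrank (ZMod p)
          (Hlc (levelQ q) (Rep.res (localGaloisToGlobal q) (adRep p R 1)) 0) + d := by
  have hfd : FiniteDimensional (ZMod p) (Rep.res (localGaloisToGlobal q) (adRep p R 1)) :=
    inferInstanceAs (FiniteDimensional (ZMod p) (adRep p R 1))
  have h1 := finiteDimensional_hlc q p (Rep.res (localGaloisToGlobal q) (adRep p R 1)) 1
    (by norm_num)
  have h0 := finiteDimensional_hlc q p (Rep.res (localGaloisToGlobal q) (adRep p R 1)) 0
    (by norm_num)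
  refine ⟨h1, finrank_le_of_card_le ?_⟩
  rw [← hk]
  exact card_Hlc_one_adRep_le q p R hpq hqp hunr hφ hαβ hchar

variable (ρbar : ResidualGaloisRep k) (b : Module.Basis (Fin 2) k ρbar.V)

/-- **The Taylor–Wiles local term for `ad⁰ρ̄` in the shape of the CORE contract** (`q ∈ Q`):
`H¹(G_q, ad⁰ρ̄)` is finite and `h¹ ≤ h⁰ + d`, `#k = p ^ d`, from the frozen hypotheses. -/
theorem finrank_Hlc_one_adBar_le {d : ℕ} (hk : Nat.card k = p ^ d) (hpq : p ≠ q)
    (hqp : p ∣ q - 1)
    [IsDiscrete (levelQ q) (Rep.res (localGaloisToGlobal q) (adBar p ρbar b))]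
    (hunr : ρbar.IsUnramifiedAt q)
    (hF : ∀ (A : ValuationSubring Qb) (τ : GQ), A.LiesOverPrime q → A.IsFrobeniusAt τ q →
      ∃ α β : k, α ≠ β ∧ LinearMap.charpoly (ρbar.ρ τ) = (X - C α) * (X - C β)) :
    Module.Finite (ZMod p)
        (Hlc (levelQ q) (Rep.res (localGaloisToGlobal q) (adBar p ρbar b)) 1) ∧
      Module.finrank (ZMod p)
          (Hlc (levelQ q) (Rep.res (localGaloisToGlobal q) (adBar p ρbar b)) 1) ≤
        Module.finrank (ZMod p)
          (Hlc (levelQ q) (Rep.res (localGaloisToGlobal q) (adBar p ρbar b)) 0) + d := by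
  have hfd : FiniteDimensional (ZMod p) (Rep.res (localGaloisToGlobal q) (adBar p ρbar b)) :=
    inferInstanceAs (FiniteDimensional (ZMod p) (adBar p ρbar b))
  have h1 := finiteDimensional_hlc q p (Rep.res (localGaloisToGlobal q) (adBar p ρbar b)) 1
    (by norm_num)
  have h0 := finiteDimensional_hlc q p (Rep.res (localGaloisToGlobal q) (adBar p ρbar b)) 0
    (by norm_num)
  refine ⟨h1, finrank_le_of_card_le ?_⟩
  rw [← hk]
  exact card_Hlc_one_adBar_le q p ρbar b hpq hqp hunr hF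

/-- convenience form: discreteness supplied from `ρ̄` unramified outside a finite set `S`. -/
theorem finrank_Hlc_one_adBar_le_of_levelS (S : Finset Nat.Primes)
    (hur : ∀ q' : Nat.Primes, q' ∉ S → ρbar.IsUnramifiedAt (q' : ℕ)) {d : ℕ}
    (hk : Nat.card k = p ^ d) (hpq : p ≠ q) (hqp : p ∣ q - 1) (hunr : ρbar.IsUnramifiedAt q)
    (hF : ∀ (A : ValuationSubring Qb) (τ : GQ), A.LiesOverPrime q → A.IsFrobeniusAt τ q →
      ∃ α β : k, α ≠ β ∧ LinearMap.charpoly (ρbar.ρ τ) = (X - C α) * (X - C β)) :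
    haveI := isDiscrete_adBar p ρbar b S hur
    haveI := isDiscrete_res_localGaloisToGlobal S q (adBar p ρbar b)
    Module.Finite (ZMod p)
        (Hlc (levelQ q) (Rep.res (localGaloisToGlobal q) (adBar p ρbar b)) 1) ∧
      Module.finrank (ZMod p)
          (Hlc (levelQ q) (Rep.res (localGaloisToGlobal q) (adBar p ρbar b)) 1) ≤
        Module.finrank (ZMod p)
          (Hlc (levelQ q) (Rep.res (localGaloisToGlobal q) (adBar p ρbar b)) 0) + d := by
  have := isDiscrete_adBar p ρbar b S hur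
  have := isDiscrete_res_localGaloisToGlobal S q (adBar p ρbar b)
  exact finrank_Hlc_one_adBar_le q p ρbar b hk hpq hqp hunr hF

end Main

end Fermat.Agent.GP.Loc.TWQHlcFin
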