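/-
GATE-P / S56 [P-LOC] leaf S56-LOC-TWQ part (A) (helper67): the TAME KUMMER LEMMA in the function
model, on the frozen `A.inertiaSubgroupIn ℚ` / `A.decompositionSubgroup ℚ` (`A | q` a valuation
subring of `ℚ̄`), for a prime `p ≠ q` and `w ∈ ℚ̄` with `w ^ p = q`.

* `exists_resolvent` : Lagrange resolvent (Hilbert 90 by hand): a character `ψ` of a subgroup
  `I ≤ G_ℚ` with `I`-fixed values, constant modulo an open subgroup, is `τ ↦ τ α / α`.
* `exists_zpow_eq_of_character` : every such character of `I_A` with values in `μ_p` is a power of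
  the Kummer character `τ ↦ τ w / w`.
* `kummer_pow`, `kummer_mul`, `kummer_inv`, `kummer_pow_apply`, `kummer_conj`
  (`t(σ τ σ⁻¹) = σ (t τ)`), `exists_mem_inertia_apply_root` (the Kummer character is onto `μ_p`).
* **`eq_zero_of_apply_eq`** : `f : G_ℚ → M` (`p • M = 0`) additive on `I_A` and constant modulo an
  open subgroup vanishes on `{τ ∈ I_A | τ w = w}`.
* `apply_eq_nsmul` : `t(τ) = t(τ₀) ^ j ⟹ f τ = j • f τ₀`;
  **`apply_conj_eq_nsmul`** : `σ ∈ D_A`, `σ = (·)^a` on `μ_p` `⟹ f (σ τ σ⁻¹) = a • f τ`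
  (the decomposition group acts on the tame `p`-quotient through the mod `p` cyclotomic character).
* `exists_tame_generator` : packaged form with a generator `τ₀`, `τ₀ w = ζ w`.

Proof of the core: the resolvent `α` satisfies `τ α = ψ τ • α`, so `α ^ p` is inertia-fixed, hence
`= qⁿ · unit` (helper26 `exists_zpow_unit_of_fixed`); `β = α / wⁿ` is a unit of `A` with `β ^ p`
inertia-fixed, so `τ β / β ∈ μ_p` is `≡ 1 mod 𝔪_A`, hence `= 1` (`p ≠ q`); so `ψ τ = (τ w / w)ⁿ`.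
No Kummer theory of fields, no infinite Galois correspondence beyond `Gal(ℚ̄/ℚ̄^H) = H`, `H` open.
-/
import Mathlib
import Fermat.Agent.GL.Local.InertiaFieldBase

set_option autoImplicit false

open scoped Pointwise
open Fermat.Agent.Common_helper32 Fermat.Agent.S13.Global
open Fermat.Agent.GL.Local.InertiaField

namespace Fermat.Agent.GP.Loc.TameKummer

/-! ### Lagrange resolvent at a finite level -/

section Resolvent

variable (I H : Subgroup GQ)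

/-- **Lagrange resolvent / Hilbert 90 by hand.**  A character `ψ` of a subgroup `I ≤ G_ℚ` with
`I`-fixed nonzero values which is constant modulo an open subgroup `H` is of the form
`τ ↦ τ α / α`. -/
theorem exists_resolvent (hopen : IsOpen (H : Set GQ))
    (ψ : GQ → Qb) (hψ0 : ∀ σ ∈ I, ψ σ ≠ 0)
    (hψfix : ∀ σ ∈ I, ∀ τ ∈ I, τ (ψ σ) = ψ σ)
    (hmul : ∀ σ ∈ I, ∀ τ ∈ I, ψ (σ * τ) = ψ σ * ψ τ)
    (hlev : ∀ σ ∈ I, ∀ h ∈ H, h ∈ I → ψ (σ * h) = ψ σ) :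
    ∃ α : Qb, α ≠ 0 ∧ ∀ τ ∈ I, τ α = ψ τ * α := by
  classical
  have : Finite (GQ ⧸ H) := Subgroup.quotient_finite_of_isOpen H hopen
  have : H.FiniteIndex := Subgroup.finiteIndex_of_finite_quotient
  have : (H.subgroupOf I).FiniteIndex := inferInstance
  have : Finite (↥I ⧸ H.subgroupOf I) := Subgroup.finite_quotient_of_finiteIndex
  have : Fintype (↥I ⧸ H.subgroupOf I) := Fintype.ofFinite _
  let F : IntermediateField ℚ Qb := IntermediateField.fixedField H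
  -- representatives
  let rep : (↥I ⧸ H.subgroupOf I) → ↥I := fun C => Quotient.out C
  have hrep : ∀ C, ((rep C : ↥I) : ↥I ⧸ H.subgroupOf I) = C := fun C => QuotientGroup.out_eq' C
  -- the characters
  let χ : (↥I ⧸ H.subgroupOf I) → (F →* Qb) := fun C =>
    ((((rep C : ↥I) : GQ) : Qb ≃ₐ[ℚ] Qb).toAlgHom.comp F.val : F →ₐ[ℚ] Qb)
  have hχ : ∀ C (y : F), χ C y = ((rep C : ↥I) : GQ) (y : Qb) := fun C y => rfl
  have hinj : Function.Injective χ := by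
    intro C C' h
    have h1 : ∀ y : F, ((rep C : ↥I) : GQ) (y : Qb) = ((rep C' : ↥I) : GQ) (y : Qb) := by
      intro y
      rw [← hχ, ← hχ, h]
    have h2 : ((rep C : ↥I) : GQ)⁻¹ * ((rep C' : ↥I) : GQ) ∈ F.fixingSubgroup := by
      rw [IntermediateField.mem_fixingSubgroup_iff]
      intro y hy
      have := h1 ⟨y, hy⟩
      show ((rep C : ↥I) : GQ)⁻¹ (((rep C' : ↥I) : GQ) y) = y
      rw [← this]
      exact (((rep C : ↥I) : GQ)).symm_apply_apply y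
    rw [fixingSubgroup_fixedField_of_isOpen H hopen] at h2
    have h3 : (rep C)⁻¹ * rep C' ∈ H.subgroupOf I := by
      rw [Subgroup.mem_subgroupOf]
      simpa using h2
    rw [← hrep C, ← hrep C']
    exact QuotientGroup.eq.mpr h3
  have hli : LinearIndependent Qb (fun C => (χ C : F → Qb)) :=
    (linearIndependent_monoidHom F Qb).comp χ hinj
  rw [Fintype.linearIndependent_iff] at hli
  -- a point where the resolvent does not vanish
  have hex : ∃ y : F, ∑ C, (ψ ((rep C : ↥I) : GQ))⁻¹ * ((rep C : ↥I) : GQ) (y : Qb) ≠ 0 := by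
    by_contra hcon
    push Not at hcon
    have h0 := hli (fun C => (ψ ((rep C : ↥I) : GQ))⁻¹) (by
      funext y
      simp only [Finset.sum_apply, Pi.smul_apply, smul_eq_mul, Pi.zero_apply]
      exact hcon y) ((1 : ↥I) : ↥I ⧸ H.subgroupOf I)
    exact inv_ne_zero (hψ0 _ (rep _).2) h0
  obtain ⟨y, hy⟩ := hex
  refine ⟨_, hy, ?_⟩
  intro τ hτ
  rw [map_sum, Finset.mul_sum]
  let e : (↥I ⧸ H.subgroupOf I) ≃ (↥I ⧸ H.subgroupOf I) := MulAction.toPerm (⟨τ, hτ⟩ : ↥I)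
  rw [← Equiv.sum_comp e (fun C => ψ τ * ((ψ ((rep C : ↥I) : GQ))⁻¹ * ((rep C : ↥I) : GQ) (y : Qb)))]
  refine Finset.sum_congr rfl fun C _ => ?_
  -- compare `τ * rep C` with `rep (τ • C)`
  have hcl : ((rep (e C))⁻¹ * ((⟨τ, hτ⟩ : ↥I) * rep C)) ∈ H.subgroupOf I := by
    rw [← QuotientGroup.eq, hrep]
    show (⟨τ, hτ⟩ : ↥I) • C = _
    conv_lhs => rw [← hrep C]
    rfl
  rw [Subgroup.mem_subgroupOf] at hcl
  set h : GQ := ((rep (e C) : ↥I) : GQ)⁻¹ * (τ * ((rep C : ↥I) : GQ)) with hh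
  have hhH : h ∈ H := by simpa using hcl
  have hhI : h ∈ I := I.mul_mem (I.inv_mem (rep (e C)).2) (I.mul_mem hτ (rep C).2)
  have hprod : τ * ((rep C : ↥I) : GQ) = ((rep (e C) : ↥I) : GQ) * h := by
    rw [hh, mul_inv_cancel_left]
  have h1 : ψ τ * ψ ((rep C : ↥I) : GQ) = ψ ((rep (e C) : ↥I) : GQ) := by
    rw [← hmul τ hτ _ (rep C).2, hprod, hlev _ (rep (e C)).2 h hhH hhI]
  have h2 : τ (((rep C : ↥I) : GQ) (y : Qb)) = ((rep (e C) : ↥I) : GQ) (y : Qb) := by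
    have : τ (((rep C : ↥I) : GQ) (y : Qb)) = (τ * ((rep C : ↥I) : GQ)) (y : Qb) := rfl
    rw [this, hprod]
    show ((rep (e C) : ↥I) : GQ) (h (y : Qb)) = _
    congr 1
    exact y.2 ⟨h, hhH⟩
  rw [map_mul, map_inv₀, hψfix _ (rep C).2 τ hτ, h2, ← h1, mul_inv]
  have hτ0 := hψ0 τ hτ
  field_simp

end Resolvent

/-! ### The tame Kummer character -/

section Core

variable (A : ValuationSubring Qb) {q : ℕ} (hq : q.Prime) (hA : (q : Qb) ∈ A.nonunits)
variable {p : ℕ} (hp : p.Prime) (hpq : p ≠ q)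

include hq hp hpq in
theorem not_dvd_of_ne : ¬ q ∣ p := fun h =>
  hpq ((Nat.prime_dvd_prime_iff_eq hq hp).mp h).symm

include hq hA hp hpq in
/-- `p`-th roots of unity are fixed by the inertia group at `q ≠ p`. -/
theorem apply_rootOfUnity_of_mem_inertia {ζ : Qb} (hζ : ζ ^ p = 1) {τ : GQ}
    (hτ : τ ∈ A.inertiaSubgroupIn ℚ) : τ ζ = ζ :=
  (mem_inertiaField_iff A ζ).mp
    (rootOfUnity_mem_inertiaField A hq hA (not_dvd_of_ne hq hp hpq) hζ) τ hτ

include hq hA hp hpq in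
/-- **Tame Kummer lemma, character form.**  Every character of the inertia group `I_A` (`A | q`)
with values in the `p`-th roots of unity (`p ≠ q`) which is constant modulo an open subgroup is a
power of the Kummer character `τ ↦ τ w / w`, `w ^ p = q`. -/
theorem exists_zpow_eq_of_character (ψ : GQ → Qb)
    (hψp : ∀ σ ∈ A.inertiaSubgroupIn ℚ, ψ σ ^ p = 1)
    (hmul : ∀ σ ∈ A.inertiaSubgroupIn ℚ, ∀ τ ∈ A.inertiaSubgroupIn ℚ, ψ (σ * τ) = ψ σ * ψ τ)
    (hlev : ∃ H : Subgroup GQ, IsOpen (H : Set GQ) ∧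
      ∀ σ ∈ A.inertiaSubgroupIn ℚ, ∀ h ∈ H, h ∈ A.inertiaSubgroupIn ℚ → ψ (σ * h) = ψ σ)
    (w : Qb) (hw : w ^ p = (q : Qb)) :
    ∃ n : ℤ, ∀ τ ∈ A.inertiaSubgroupIn ℚ, ψ τ = (τ w / w) ^ n := by
  have hp0 : p ≠ 0 := hp.ne_zero
  have hq0 : (q : Qb) ≠ 0 := by exact_mod_cast hq.ne_zero
  have hw0 : w ≠ 0 := by
    intro h0
    rw [h0, zero_pow hp0] at hw
    exact hq0 hw.symm
  obtain ⟨H, hopen, hlev⟩ := hlev
  have hψ0 : ∀ σ ∈ A.inertiaSubgroupIn ℚ, ψ σ ≠ 0 := by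
    intro σ hσ h0
    have := hψp σ hσ
    rw [h0, zero_pow hp0] at this
    exact zero_ne_one this
  obtain ⟨α, hα0, hα⟩ := exists_resolvent (A.inertiaSubgroupIn ℚ) H hopen ψ hψ0
    (fun σ hσ τ hτ => apply_rootOfUnity_of_mem_inertia A hq hA hp hpq (hψp σ hσ) hτ) hmul hlev
  -- `α ^ p` is fixed by inertia
  have hαp : ∀ τ ∈ A.inertiaSubgroupIn ℚ, τ (α ^ p) = α ^ p := by
    intro τ hτ
    rw [map_pow, hα τ hτ, mul_pow, hψp τ hτ, one_mul]
  obtain ⟨n, hn1, hn2⟩ := exists_zpow_unit_of_fixed A hq hA (α ^ p) (pow_ne_zero p hα0) hαp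
  refine ⟨n, ?_⟩
  -- `β = α / w ^ n` is a unit of `A` whose `p`-th power is fixed by inertia
  set β : Qb := α / w ^ n with hβ
  have hwn0 : w ^ n ≠ 0 := zpow_ne_zero n hw0
  have hβ0 : β ≠ 0 := div_ne_zero hα0 hwn0
  have hβp : β ^ p = α ^ p / (q : Qb) ^ n := by
    rw [hβ, div_pow, ← zpow_natCast (w ^ n) p, ← zpow_mul, mul_comm, zpow_mul, zpow_natCast, hw]
  have hβA : β ∈ A := by
    rw [← A.valuation_le_one_iff]
    have h1 : A.valuation β ^ p ≤ 1 := by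
      rw [← map_pow, hβp, A.valuation_le_one_iff]
      exact hn1
    exact (pow_le_one_iff_of_nonneg zero_le hp0).mp h1
  have hβinvA : β⁻¹ ∈ A := by
    rw [← A.valuation_le_one_iff]
    have h1 : A.valuation β⁻¹ ^ p ≤ 1 := by
      rw [← map_pow, inv_pow, hβp, A.valuation_le_one_iff]
      exact hn2
    exact (pow_le_one_iff_of_nonneg zero_le hp0).mp h1
  have hβfix : ∀ τ ∈ A.inertiaSubgroupIn ℚ, τ β = β := by
    intro τ hτ
    have h1 : τ β - β ∈ A.nonunits :=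
      Fermat.Agent.S05.apply_sub_mem_nonunits_of_mem_inertiaSubgroupIn hτ hβA
    have h2 : τ β / β - 1 ∈ A.nonunits := by
      have : τ β / β - 1 = (τ β - β) * β⁻¹ := by
        field_simp
      rw [this]
      exact Fermat.Agent.S05.mul_mem_nonunits_of_mem h1 hβinvA
    have h3 : (τ β / β) ^ p = 1 := by
      rw [div_pow, ← map_pow, hβp, map_div₀, map_zpow₀, map_natCast, ← hβp, hαp τ hτ]
      rw [hβp]
      have : α ^ p / (q : Qb) ^ n ≠ 0 := by
        rw [← hβp]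
        exact pow_ne_zero p hβ0
      exact div_self this
    have h4 := rootOfUnity_eq_one_of_sub_one_mem_nonunits A hq hA
      (not_dvd_of_ne hq hp hpq) h3 h2
    rwa [div_eq_one_iff_eq hβ0] at h4
  intro τ hτ
  have hα' : α = β * w ^ n := by
    rw [hβ, div_mul_cancel₀ _ hwn0]
  have h1 : τ α = β * (τ w) ^ n := by
    conv_lhs => rw [hα']
    rw [map_mul, map_zpow₀, hβfix τ hτ]
  rw [hα τ hτ] at h1
  have h2 : ψ τ * (β * w ^ n) = β * (τ w) ^ n := by rw [← hα']; exact h1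
  rw [div_zpow]
  rw [eq_div_iff hwn0]
  have h3 : β * (ψ τ * w ^ n) = β * (τ w) ^ n := by rw [← h2]; ring
  exact mul_left_cancel₀ hβ0 h3

end Core

/-! ### The Kummer character `τ ↦ τ w / w` -/

section Kummer

variable (A : ValuationSubring Qb) {q : ℕ} (hq : q.Prime) (hA : (q : Qb) ∈ A.nonunits)
variable {p : ℕ} (hp : p.Prime) (hpq : p ≠ q)
variable (w : Qb) (hw : w ^ p = (q : Qb))

include hq hp hw in
theorem root_ne_zero : w ≠ 0 := by
  intro h0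
  rw [h0, zero_pow hp.ne_zero] at hw
  exact hq.ne_zero (by exact_mod_cast hw.symm)

include hq hp hw in
theorem kummer_pow (τ : GQ) : (τ w / w) ^ p = 1 := by
  have hw0 := root_ne_zero hq hp w hw
  rw [div_pow, ← map_pow, hw, map_natCast]
  exact div_self (by exact_mod_cast hq.ne_zero)

include hq hA hp hpq hw in
theorem kummer_mul {σ τ : GQ} (hσ : σ ∈ A.inertiaSubgroupIn ℚ) :
    (σ * τ) w / w = (σ w / w) * (τ w / w) := by
  have hw0 := root_ne_zero hq hp w hw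
  have h1 : σ (τ w / w) = τ w / w :=
    apply_rootOfUnity_of_mem_inertia A hq hA hp hpq (kummer_pow hq hp w hw τ) hσ
  have h2 : (σ * τ) w = σ (τ w) := rfl
  rw [h2]
  rw [map_div₀] at h1
  have hσw0 : σ w ≠ 0 := (map_ne_zero _).mpr hw0
  field_simp
  field_simp at h1
  linear_combination h1

include hq hA hp hpq hw in
theorem kummer_pow_apply {σ : GQ} (hσ : σ ∈ A.inertiaSubgroupIn ℚ) (j : ℕ) :
    (σ ^ j) w / w = (σ w / w) ^ j := by
  induction j with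
  | zero => simp [div_self (root_ne_zero hq hp w hw)]
  | succ j ih =>
    rw [pow_succ', kummer_mul A hq hA hp hpq w hw hσ, ih, pow_succ']

include hq hA hp hpq hw in
theorem kummer_inv {σ : GQ} (hσ : σ ∈ A.inertiaSubgroupIn ℚ) :
    σ⁻¹ w / w = (σ w / w)⁻¹ := by
  have h := kummer_mul A hq hA hp hpq w hw (τ := σ⁻¹) hσ
  rw [mul_inv_cancel] at h
  have h1 : (1 : GQ) w / w = 1 := div_self (root_ne_zero hq hp w hw)
  rw [h1] at h
  exact eq_inv_of_mul_eq_one_right h.symm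

include hq hA hp hpq hw in
/-- conjugation acts on the Kummer character through the Galois action on `μ_p`. -/
theorem kummer_conj (σ : GQ) {τ : GQ} (hτ : τ ∈ A.inertiaSubgroupIn ℚ) :
    (σ * τ * σ⁻¹) w / w = σ (τ w / w) := by
  have hw0 := root_ne_zero hq hp w hw
  set ξ : Qb := σ⁻¹ w / w with hξ
  have hξp : ξ ^ p = 1 := kummer_pow hq hp w hw σ⁻¹
  have hτξ : τ ξ = ξ := apply_rootOfUnity_of_mem_inertia A hq hA hp hpq hξp hτ
  have h1 : σ⁻¹ w = ξ * w := by rw [hξ, div_mul_cancel₀ _ hw0]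
  have h2 : (σ * τ * σ⁻¹) w = σ (τ (σ⁻¹ w)) := rfl
  have h3 : σ (ξ * w) = w := by
    rw [← h1]
    show (σ * σ⁻¹) w = w
    rw [mul_inv_cancel]
    rfl
  rw [h2, h1, map_mul, hτξ, map_div₀]
  have h4 : τ w = (τ w / w) * w := by rw [div_mul_cancel₀ _ hw0]
  have h5 : σ (ξ * τ w) = σ (τ w / w) * σ (ξ * w) := by
    conv_lhs => rw [h4]
    rw [← map_mul]
    congr 1
    ring
  rw [h5, h3, map_div₀, mul_div_assoc, div_self hw0, mul_one]

include hq hA hp hw in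
/-- the Kummer character is onto `μ_p`. -/
theorem exists_mem_inertia_apply_root {ζ : Qb} (hζ : ζ ^ p = 1) (hpq : p ≠ q) :
    ∃ τ ∈ A.inertiaSubgroupIn ℚ, τ w = ζ * w := by
  have hw0 := root_ne_zero hq hp w hw
  have hnot : w ∉ inertiaField A := fun h =>
    not_exists_pow_eq_q A hq hA hp.two_le h hw
  rw [mem_inertiaField_iff] at hnot
  push Not at hnot
  obtain ⟨τ, hτ, hτw⟩ := hnot
  have hξp := kummer_pow hq hp w hw τ
  have hξ1 : τ w / w ≠ 1 := by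
    intro h
    rw [div_eq_one_iff_eq hw0] at h
    exact hτw h
  have hprim : IsPrimitiveRoot (τ w / w) p :=
    isPrimitiveRoot_of_mem_nthRootsFinset hp
      ((Polynomial.mem_nthRootsFinset hp.pos 1).mpr hξp) hξ1
  have : NeZero p := ⟨hp.ne_zero⟩
  obtain ⟨j, -, hj⟩ := hprim.eq_pow_of_pow_eq_one hζ
  refine ⟨τ ^ j, Subgroup.pow_mem _ hτ j, ?_⟩
  have := kummer_pow_apply A hq hA hp hpq w hw hτ j
  rw [hj, div_eq_iff hw0] at this
  exact this

end Kummer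

/-- a nonzero element of a group killed by `p` is detected by a homomorphism to `ZMod p`. -/
theorem exists_addMonoidHom_ne_zero {p : ℕ} (hp : p.Prime) {M : Type*} [AddCommGroup M]
    (hpM : ∀ m : M, p • m = 0) {m : M} (hne : m ≠ 0) : ∃ φ : M →+ ZMod p, φ m ≠ 0 := by
  have : Fact p.Prime := ⟨hp⟩
  let inst : Module (ZMod p) M := AddCommGroup.zmodModule hpM
  have hfree : Module.Free (ZMod p) M := Module.Free.of_divisionRing (ZMod p) M
  have hproj : Module.Projective (ZMod p) M :=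
    @Module.Projective.of_free (ZMod p) _ M _ inst hfree
  obtain ⟨φ, hφ⟩ := @Module.Projective.exists_dual_ne_zero M _ (ZMod p) _ inst hproj m hne
  exact ⟨φ.toAddMonoidHom, hφ⟩

/-! ### Additive form: homomorphisms from inertia to `p`-torsion groups -/

section Additive

variable (A : ValuationSubring Qb) {q : ℕ} (hq : q.Prime) (hA : (q : Qb) ∈ A.nonunits)
variable {p : ℕ} (hp : p.Prime) (hpq : p ≠ q)
variable (w : Qb) (hw : w ^ p = (q : Qb))

include hq hA hp hpq hw in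
/-- **Tame Kummer lemma**, `ZMod p`-valued form. -/
theorem eq_zero_of_apply_eq_zmod (f : GQ → ZMod p)
    (hadd : ∀ σ ∈ A.inertiaSubgroupIn ℚ, ∀ τ ∈ A.inertiaSubgroupIn ℚ, f (σ * τ) = f σ + f τ)
    (hlev : ∃ H : Subgroup GQ, IsOpen (H : Set GQ) ∧
      ∀ σ ∈ A.inertiaSubgroupIn ℚ, ∀ h ∈ H, h ∈ A.inertiaSubgroupIn ℚ → f (σ * h) = f σ)
    {τ : GQ} (hτ : τ ∈ A.inertiaSubgroupIn ℚ) (hτw : τ w = w) : f τ = 0 := by
  have : NeZero (p : ℚ) := ⟨by exact_mod_cast hp.ne_zero⟩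
  have : NeZero p := ⟨hp.ne_zero⟩
  obtain ⟨ζ, hζ⟩ := HasEnoughRootsOfUnity.exists_primitiveRoot Qb p
  obtain ⟨H, hopen, hlev⟩ := hlev
  obtain ⟨n, hn⟩ := exists_zpow_eq_of_character A hq hA hp hpq (fun σ => ζ ^ (f σ).val)
    (fun σ _ => by rw [← pow_mul, mul_comm, pow_mul, hζ.pow_eq_one, one_pow])
    (fun σ hσ τ hτ => by
      rw [hadd σ hσ τ hτ, ZMod.val_add, ← pow_add]
      exact (pow_eq_pow_mod _ hζ.pow_eq_one).symm)
    ⟨H, hopen, fun σ hσ h hh hhI => by rw [hlev σ hσ h hh hhI]⟩ w hw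
  have h1 := hn τ hτ
  rw [hτw, div_self (root_ne_zero hq hp w hw), one_zpow] at h1
  have h2 : p ∣ (f τ).val := (hζ.pow_eq_one_iff_dvd _).mp h1
  have h3 : (f τ).val = 0 := Nat.eq_zero_of_dvd_of_lt h2 (ZMod.val_lt _)
  exact (ZMod.val_eq_zero _).mp h3

include hq hA hp hpq hw in
/-- **Tame Kummer lemma.**  `A | q`, `p ≠ q`, `w ^ p = q`.  A map `f` from `G_ℚ` to a group killed
by `p` which is additive on the inertia group `I_A` and constant modulo an open subgroup vanishes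
at every `τ ∈ I_A` fixing `w`. -/
theorem eq_zero_of_apply_eq {M : Type*} [AddCommGroup M] (hpM : ∀ m : M, p • m = 0) (f : GQ → M)
    (hadd : ∀ σ ∈ A.inertiaSubgroupIn ℚ, ∀ τ ∈ A.inertiaSubgroupIn ℚ, f (σ * τ) = f σ + f τ)
    (hlev : ∃ H : Subgroup GQ, IsOpen (H : Set GQ) ∧
      ∀ σ ∈ A.inertiaSubgroupIn ℚ, ∀ h ∈ H, h ∈ A.inertiaSubgroupIn ℚ → f (σ * h) = f σ)
    {τ : GQ} (hτ : τ ∈ A.inertiaSubgroupIn ℚ) (hτw : τ w = w) : f τ = 0 := by
  by_contra hne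
  obtain ⟨φ, hφ⟩ := exists_addMonoidHom_ne_zero hp hpM hne
  apply hφ
  obtain ⟨H, hopen, hlev⟩ := hlev
  exact eq_zero_of_apply_eq_zmod A hq hA hp hpq w hw (fun σ => φ (f σ))
    (fun σ hσ τ hτ => by rw [hadd σ hσ τ hτ, map_add])
    ⟨H, hopen, fun σ hσ h hh hhI => by rw [hlev σ hσ h hh hhI]⟩ hτ hτw

include hq hA hp hpq hw in
/-- `f` is determined by the Kummer character: `t(τ) = t(τ₀) ^ j ⟹ f τ = j • f τ₀`. -/
theorem apply_eq_nsmul {M : Type*} [AddCommGroup M] (hpM : ∀ m : M, p • m = 0) (f : GQ → M)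
    (hadd : ∀ σ ∈ A.inertiaSubgroupIn ℚ, ∀ τ ∈ A.inertiaSubgroupIn ℚ, f (σ * τ) = f σ + f τ)
    (hlev : ∃ H : Subgroup GQ, IsOpen (H : Set GQ) ∧
      ∀ σ ∈ A.inertiaSubgroupIn ℚ, ∀ h ∈ H, h ∈ A.inertiaSubgroupIn ℚ → f (σ * h) = f σ)
    {τ₀ τ : GQ} (hτ₀ : τ₀ ∈ A.inertiaSubgroupIn ℚ) (hτ : τ ∈ A.inertiaSubgroupIn ℚ) (j : ℕ)
    (hj : τ w / w = (τ₀ w / w) ^ j) : f τ = j • f τ₀ := by
  have hw0 := root_ne_zero hq hp w hw
  have hf1 : f 1 = 0 := by
    have := hadd 1 (Subgroup.one_mem _) 1 (Subgroup.one_mem _)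
    rw [mul_one] at this
    exact left_eq_add.mp this
  have hpow : ∀ j : ℕ, f (τ₀ ^ j) = j • f τ₀ := by
    intro j
    induction j with
    | zero => simp [hf1]
    | succ j ih => rw [pow_succ, hadd _ (Subgroup.pow_mem _ hτ₀ j) _ hτ₀, ih, succ_nsmul]
  set σ : GQ := τ * (τ₀ ^ j)⁻¹ with hσdef
  have hτ₀j : τ₀ ^ j ∈ A.inertiaSubgroupIn ℚ := Subgroup.pow_mem _ hτ₀ j
  have hσ : σ ∈ A.inertiaSubgroupIn ℚ := Subgroup.mul_mem _ hτ (Subgroup.inv_mem _ hτ₀j)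
  have hσw : σ w / w = 1 := by
    rw [hσdef, kummer_mul A hq hA hp hpq w hw hτ, kummer_inv A hq hA hp hpq w hw hτ₀j,
      kummer_pow_apply A hq hA hp hpq w hw hτ₀, hj]
    have : (τ₀ w / w) ^ j ≠ 0 :=
      pow_ne_zero _ (div_ne_zero ((map_ne_zero _).mpr hw0) hw0)
    exact mul_inv_cancel₀ this
  rw [div_eq_one_iff_eq hw0] at hσw
  have h0 := eq_zero_of_apply_eq A hq hA hp hpq w hw hpM f hadd hlev hσ hσw
  have hτeq : τ = σ * τ₀ ^ j := by rw [hσdef, inv_mul_cancel_right]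
  rw [hτeq, hadd σ hσ _ hτ₀j, h0, zero_add, hpow]

/-- the decomposition group normalises the inertia group. -/
theorem conj_mem_inertia {σ τ : GQ} (hσ : σ ∈ A.decompositionSubgroup ℚ)
    (hτ : τ ∈ A.inertiaSubgroupIn ℚ) : σ * τ * σ⁻¹ ∈ A.inertiaSubgroupIn ℚ := by
  unfold ValuationSubring.inertiaSubgroupIn at hτ ⊢
  rw [Subgroup.mem_map] at hτ ⊢
  obtain ⟨i', hi', hii⟩ := hτ
  have hn : (A.inertiaSubgroup ℚ).Normal := by
    unfold ValuationSubring.inertiaSubgroup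
    exact MonoidHom.normal_ker _
  have h1 := hn.conj_mem i' hi' ⟨σ, hσ⟩
  refine ⟨_, h1, ?_⟩
  rw [map_mul, map_mul, map_inv, hii]
  rfl

include hq hA hp hpq hw in
/-- **the decomposition group acts on the tame `p`-quotient through the mod `p` cyclotomic
character**: if `σ ∈ D_A` acts on `μ_p` by `μ ↦ μ ^ a` then `f (σ τ σ⁻¹) = a • f τ`. -/
theorem apply_conj_eq_nsmul {M : Type*} [AddCommGroup M] (hpM : ∀ m : M, p • m = 0) (f : GQ → M)
    (hadd : ∀ σ ∈ A.inertiaSubgroupIn ℚ, ∀ τ ∈ A.inertiaSubgroupIn ℚ, f (σ * τ) = f σ + f τ)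
    (hlev : ∃ H : Subgroup GQ, IsOpen (H : Set GQ) ∧
      ∀ σ ∈ A.inertiaSubgroupIn ℚ, ∀ h ∈ H, h ∈ A.inertiaSubgroupIn ℚ → f (σ * h) = f σ)
    {σ τ : GQ} (hσ : σ ∈ A.decompositionSubgroup ℚ) (hτ : τ ∈ A.inertiaSubgroupIn ℚ) (a : ℕ)
    (ha : ∀ μ : Qb, μ ^ p = 1 → σ μ = μ ^ a) : f (σ * τ * σ⁻¹) = a • f τ := by
  apply apply_eq_nsmul A hq hA hp hpq w hw hpM f hadd hlev hτ (conj_mem_inertia A hσ hτ) a
  rw [kummer_conj A hq hA hp hpq w hw σ hτ]
  exact ha _ (kummer_pow hq hp w hw τ)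

end Additive

/-! ### Packaged form -/

section Packaged

variable (A : ValuationSubring Qb) {q : ℕ} (hq : q.Prime) (hA : (q : Qb) ∈ A.nonunits)
variable {p : ℕ} (hp : p.Prime) (hpq : p ≠ q)
variable (w : Qb) (hw : w ^ p = (q : Qb))

include hq hp hw in
/-- every element of `G_ℚ` multiplies `w` by a power of a given primitive `p`-th root of unity. -/
theorem exists_apply_root_eq {ζ : Qb} (hζ : IsPrimitiveRoot ζ p) (τ : GQ) :
    ∃ j < p, τ w = ζ ^ j * w := by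
  have : NeZero p := ⟨hp.ne_zero⟩
  obtain ⟨j, hj, hjw⟩ := hζ.eq_pow_of_pow_eq_one (kummer_pow hq hp w hw τ)
  refine ⟨j, hj, ?_⟩
  rw [hjw, div_mul_cancel₀ _ (root_ne_zero hq hp w hw)]

include hq hA hp hpq hw in
/-- **Tame Kummer lemma, packaged.**  There is a "generator of the tame `p`-quotient" `τ₀ ∈ I_A`,
`τ₀ w = ζ w`, such that every `f` as in `eq_zero_of_apply_eq` satisfies `f τ = j • f τ₀` whenever
`τ ∈ I_A`, `τ w = ζ ^ j w`; moreover `f (σ τ₀ σ⁻¹) = a • f τ₀` for `σ ∈ D_A` acting on `μ_p` by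
`μ ↦ μ ^ a`. -/
theorem exists_tame_generator {ζ : Qb} (hζ : IsPrimitiveRoot ζ p) :
    ∃ τ₀ ∈ A.inertiaSubgroupIn ℚ, τ₀ w = ζ * w ∧
      ∀ {M : Type*} [AddCommGroup M] (_ : ∀ m : M, p • m = 0) (f : GQ → M)
        (_ : ∀ σ ∈ A.inertiaSubgroupIn ℚ, ∀ τ ∈ A.inertiaSubgroupIn ℚ, f (σ * τ) = f σ + f τ)
        (_ : ∃ H : Subgroup GQ, IsOpen (H : Set GQ) ∧
          ∀ σ ∈ A.inertiaSubgroupIn ℚ, ∀ h ∈ H, h ∈ A.inertiaSubgroupIn ℚ → f (σ * h) = f σ),
        (∀ τ ∈ A.inertiaSubgroupIn ℚ, ∀ j : ℕ, τ w = ζ ^ j * w → f τ = j • f τ₀) ∧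
        (∀ σ ∈ A.decompositionSubgroup ℚ, ∀ a : ℕ, (∀ μ : Qb, μ ^ p = 1 → σ μ = μ ^ a) →
          f (σ * τ₀ * σ⁻¹) = a • f τ₀) := by
  have hw0 := root_ne_zero hq hp w hw
  obtain ⟨τ₀, hτ₀, hτ₀w⟩ := exists_mem_inertia_apply_root A hq hA hp w hw hζ.pow_eq_one hpq
  refine ⟨τ₀, hτ₀, hτ₀w, ?_⟩
  intro M _ hpM f hadd hlev
  refine ⟨fun τ hτ j hj => ?_, fun σ hσ a ha => ?_⟩
  · apply apply_eq_nsmul A hq hA hp hpq w hw hpM f hadd hlev hτ₀ hτ j
    rw [hj, hτ₀w, mul_div_assoc, div_self hw0, mul_one, mul_div_assoc, div_self hw0, mul_one]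
  · exact apply_conj_eq_nsmul A hq hA hp hpq w hw hpM f hadd hlev hσ hτ₀ a ha

end Packaged

end Fermat.Agent.GP.Loc.TameKummer
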