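/-
GATE-P / S56 [P-LOC] S56-LOC-UNRCOUNT part 2 (helper40): `#H¹_unr(G_q, M) ≤ #H⁰(G_q, M)` in the
PINNED `Hlc` model (`GP/GW/Model.lean`).

* abstract layer (`𝒰 : LevelSystem G`, `M : Rep k G` discrete, `I ⊴ G`):
  `unrCocycles 𝒰 M I` (level-constant cocycles vanishing on `I`), `unrH1 𝒰 M I ⊆ Hlc 𝒰 M 1`,
  `mem_unrH1_of_coboundary_on` (a cocycle which is `i ↦ i m − m` on `I` has an unramified class),
  `card_unrH1_le` : (GEN) `⟹ #unrH1 ≤ #Hlc⁰` (from the finite core `GP/Loc/UnrCount.lean`);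
* concrete layer at `q`: `Iq q ⊴ Gq q` (the FROZEN inertia group of `padicPlace q`, pulled back
  along `localGaloisToGlobal q`), `natCast_mem_nonunits_padicPlace`, `exists_frobenius`,
  `gen_Iq` (GEN, from helper67's `FrobGen.exists_eq_pow_mul_mul` + Krasner `levelQ = levelOf`),
  `unrLocQ q M`, `card_unrLocQ_le`, `finrank_unrLocQ_le`;
* model layer: `unrLoc S M v ⊆ Hlc ((locDataQ S).𝒰v v) (Rep.res ((locDataQ S).r v) M) 1`
  (`= Hloc S M v 1` of `GP/GW/Model.lean`), `finrank_unrLoc_le`, and the membership criterion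
  `locRes_mem_unrLoc` for the class of a GLOBAL level-constant cocycle that is a coboundary on the
  frozen inertia group `(padicPlace v).inertiaSubgroupIn ℚ`.
-/
import Fermat.Agent.GP.Loc.UnrCount
import Fermat.Agent.GP.Loc.FrobGen
import Fermat.Agent.GC.PT.LocDataQ
import Fermat.Agent.GC.Prof.Low
import Fermat.Agent.GC.Prof.LowMap
import Fermat.Agent.Common_helper32.FrobeniusExists

set_option autoImplicit false

open Fermat.Agent.GC.Prof groupCohomology

noncomputable section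

namespace Fermat.Agent.GP.Loc.UnrCountQ

universe u

section Abstract

variable {k G : Type u} [CommRing k] [Group G] (𝒰 : LevelSystem G) (M : Rep.{u} k G)
  (I : Subgroup G)

/-- level-constant `1`-cocycles vanishing on `I` -/
def unrCocycles : Submodule k (lcCocycles₁ 𝒰 M) where
  carrier := {z | ∀ i ∈ I, (z : G → M) i = 0}
  add_mem' {a b} ha hb i hi := by
    show (a : G → M) i + (b : G → M) i = 0
    rw [ha i hi, hb i hi, add_zero]
  zero_mem' i _ := rfl
  smul_mem' c a ha i hi := by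
    show c • (a : G → M) i = 0
    rw [ha i hi, smul_zero]

theorem mem_unrCocycles (z : lcCocycles₁ 𝒰 M) :
    z ∈ unrCocycles 𝒰 M I ↔ ∀ i ∈ I, (z : G → M) i = 0 := Iff.rfl

variable [IsDiscrete 𝒰 M]

/-- the unramified classes: images in `Hlc¹` of the level-constant cocycles vanishing on `I` -/
def unrH1 : Submodule k (Hlc 𝒰 M 1) := (unrCocycles 𝒰 M I).map (Hlc1π 𝒰 M)

theorem mem_unrH1 (x : Hlc 𝒰 M 1) :
    x ∈ unrH1 𝒰 M I ↔ ∃ z : lcCocycles₁ 𝒰 M, (∀ i ∈ I, (z : G → M) i = 0) ∧ Hlc1π 𝒰 M z = x := by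
  rw [unrH1, Submodule.mem_map]
  rfl

/-- a class is unramified iff it is represented by a level-constant cocycle which is a coboundary
`i ↦ i m − m` on `I` (for SOME `m`) — the shape produced by the tangent-space leaves. -/
theorem mem_unrH1_of_coboundary_on (z : lcCocycles₁ 𝒰 M) (m : M)
    (hm : ∀ i ∈ I, (z : G → M) i = M.ρ i m - m) : Hlc1π 𝒰 M z ∈ unrH1 𝒰 M I := by
  have hcob : (d₀₁ M).hom m ∈ lcCocycles₁ 𝒰 M :=
    coboundaries₁_le_lcCocycles₁ 𝒰 M ⟨m, rfl⟩
  rw [mem_unrH1]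
  refine ⟨z - ⟨(d₀₁ M).hom m, hcob⟩, fun i hi => ?_, ?_⟩
  · show (z : G → M) i - (d₀₁ M).hom m i = 0
    rw [hm i hi, d₀₁_hom_apply, sub_self]
  · rw [map_sub, sub_eq_self, Hlc1π_eq_zero_iff]
    exact ⟨m, rfl⟩

theorem coe_mem_unrZ {z : lcCocycles₁ 𝒰 M} (hz : z ∈ unrCocycles 𝒰 M I) :
    (z : G → M) ∈ UnrCount.unrZ M.ρ I 𝒰.sets 𝒰.directed 𝒰.nonempty := by
  obtain ⟨hc, U, hU, hlc⟩ := (mem_lcCocycles₁_iff 𝒰 M _).1 z.2
  refine ⟨fun d e => ?_, hz, U, hU, fun d u hu => hlc d u hu⟩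
  rw [(mem_cocycles₁_iff _).1 hc d e, add_comm]

variable [I.Normal]

theorem invD_eq_invariants : UnrCount.invD M.ρ = M.ρ.invariants := by
  ext m
  rfl

omit [I.Normal] in
/-- under (GEN) the unramified classes inject into the finite group `unrZ / unrB` of the core. -/
theorem exists_injective_unrH1 [Finite M] (F : G)
    (hgen : ∀ U ∈ 𝒰.sets, ∀ d : G, ∃ n : ℤ, ∃ i ∈ I, ∃ u ∈ U, d = F ^ n * i * u) :
    Finite (↥(UnrCount.unrZ M.ρ I 𝒰.sets 𝒰.directed 𝒰.nonempty) ⧸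
        (UnrCount.unrB M.ρ I).comap (UnrCount.unrZ M.ρ I 𝒰.sets 𝒰.directed 𝒰.nonempty).subtype) ∧
      ∃ f : ↥(unrH1 𝒰 M I) → (↥(UnrCount.unrZ M.ρ I 𝒰.sets 𝒰.directed 𝒰.nonempty) ⧸
        (UnrCount.unrB M.ρ I).comap (UnrCount.unrZ M.ρ I 𝒰.sets 𝒰.directed 𝒰.nonempty).subtype),
        Function.Injective f := by
  classical
  set Z := UnrCount.unrZ M.ρ I 𝒰.sets 𝒰.directed 𝒰.nonempty with hZ
  set B' : Submodule k ↥Z := (UnrCount.unrB M.ρ I).comap Z.subtype with hB'
  -- `Z` is finite: evaluation at `F` is injective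
  have hfinZ : Finite ↥Z := by
    refine Finite.of_injective (fun c : ↥Z => (c : G → M) F) ?_
    intro c c' h
    replace h : (c : G → M) F = (c' : G → M) F := h
    have h0 : ((c - c' : ↥Z) : G → M) = 0 :=
      UnrCount.eq_zero_of_apply_frob (ρ := M.ρ) F hgen (c - c').2.1 (c - c').2.2.1 (c - c').2.2.2
        (by
          show (c : G → M) F - (c' : G → M) F = 0
          rw [h, sub_self])
    exact sub_eq_zero.1 (Subtype.ext h0)
  have hfinQ : Finite (↥Z ⧸ B') :=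
    Finite.of_surjective (Submodule.mkQ B') (Submodule.mkQ_surjective B')
  refine ⟨hfinQ, ?_⟩
  -- choose representatives
  have hrep : ∀ x : ↥(unrH1 𝒰 M I), ∃ z : lcCocycles₁ 𝒰 M,
      z ∈ unrCocycles 𝒰 M I ∧ Hlc1π 𝒰 M z = x := fun x => by
    obtain ⟨z, hz, hzx⟩ := (Submodule.mem_map).1 x.2
    exact ⟨z, hz, hzx⟩
  choose rep hrep1 hrep2 using hrep
  refine ⟨fun x => Submodule.mkQ B' ⟨(rep x : G → M), coe_mem_unrZ 𝒰 M I (hrep1 x)⟩, ?_⟩
  intro x y hxy
  have hmem : (⟨(rep x : G → M), coe_mem_unrZ 𝒰 M I (hrep1 x)⟩ : ↥Z) -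
      ⟨(rep y : G → M), coe_mem_unrZ 𝒰 M I (hrep1 y)⟩ ∈ B' := by
    rw [← Submodule.Quotient.mk_eq_zero, Submodule.Quotient.mk_sub, sub_eq_zero]
    exact hxy
  obtain ⟨m, -, hm⟩ := hmem
  have hcob : ((rep x - rep y : lcCocycles₁ 𝒰 M) : G → M) ∈ coboundaries₁ M := by
    refine ⟨m, ?_⟩
    funext g
    have := congrFun hm g
    rw [d₀₁_hom_apply]
    exact this
  have h0 : Hlc1π 𝒰 M (rep x - rep y) = 0 := (Hlc1π_eq_zero_iff 𝒰 M _).2 hcob
  rw [map_sub, sub_eq_zero, hrep2, hrep2] at h0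
  exact Subtype.ext h0

omit [I.Normal] in
/-- under (GEN) there are finitely many unramified classes. -/
theorem finite_unrH1 [Finite M] (F : G)
    (hgen : ∀ U ∈ 𝒰.sets, ∀ d : G, ∃ n : ℤ, ∃ i ∈ I, ∃ u ∈ U, d = F ^ n * i * u) :
    Finite ↥(unrH1 𝒰 M I) := by
  obtain ⟨hfin, f, hf⟩ := exists_injective_unrH1 𝒰 M I F hgen
  exact Finite.of_injective f hf

/-- `Hlc⁰` of a finite module is finite. -/
theorem finite_Hlc_zero [Finite M] : Finite (Hlc 𝒰 M 0) :=
  Finite.of_injective (fun x => ((Hlc0Equiv 𝒰 M x : M.ρ.invariants) : M))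
    (fun _ _ h => (Hlc0Equiv 𝒰 M).injective (Subtype.ext h))

/-- **`#H¹_unr ≤ #H⁰`** in the `Hlc` model, from (GEN). -/
theorem card_unrH1_le [Finite M] (F : G)
    (hgen : ∀ U ∈ 𝒰.sets, ∀ d : G, ∃ n : ℤ, ∃ i ∈ I, ∃ u ∈ U, d = F ^ n * i * u) :
    Nat.card ↥(unrH1 𝒰 M I) ≤ Nat.card (Hlc 𝒰 M 0) := by
  obtain ⟨hfin, f, hf⟩ := exists_injective_unrH1 𝒰 M I F hgen
  have hdisc : ∀ m : M, ∃ U ∈ 𝒰.sets, ∀ u ∈ U, M.ρ u m = m := fun m =>
    IsDiscrete.exists_fix (𝒰 := 𝒰) m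
  have h1 := Nat.card_le_card_of_injective f hf
  have h2 := UnrCount.card_unrH1_le M.ρ I 𝒰.sets 𝒰.directed 𝒰.nonempty F hgen hdisc
  have h3 : Nat.card ↥(UnrCount.invD M.ρ) = Nat.card (Hlc 𝒰 M 0) := by
    rw [invD_eq_invariants]
    exact (Nat.card_congr (Hlc0Equiv 𝒰 M).toEquiv).symm
  exact h1.trans (h2.trans h3.le)

end Abstract

section Concrete

open Fermat.Agent.GC.Places Fermat.Agent.GC.Local.KR Fermat.Agent.GC.C0
  Fermat.Agent.GC.PT.LocDataQ

variable (q : ℕ) [Fact q.Prime]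

/-- the inertia subgroup of `G_{ℚ_q}`: the frozen inertia group at `padicPlace q`, pulled back
along `localGaloisToGlobal q`. -/
def Iq : Subgroup (Gq q) :=
  ((padicPlace q).inertiaSubgroupIn ℚ).comap (localGaloisToGlobal q)

theorem mem_Iq (τ : Gq q) :
    τ ∈ Iq q ↔ localGaloisToGlobal q τ ∈ (padicPlace q).inertiaSubgroupIn ℚ := Iff.rfl

theorem conj_mem_inertiaSubgroupIn' {A : ValuationSubring Qbar} {σ τ : GQ}
    (hσ : σ ∈ A.decompositionSubgroup ℚ) (hτ : τ ∈ A.inertiaSubgroupIn ℚ) :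
    σ * τ * σ⁻¹ ∈ A.inertiaSubgroupIn ℚ := by
  unfold ValuationSubring.inertiaSubgroupIn at hτ ⊢
  rw [Subgroup.mem_map] at hτ ⊢
  obtain ⟨i', hi', hii⟩ := hτ
  have hn : (A.inertiaSubgroup ℚ).Normal := by
    unfold ValuationSubring.inertiaSubgroup
    exact MonoidHom.normal_ker _
  have h1 := hn.conj_mem i' hi' ⟨σ, hσ⟩
  refine ⟨_, h1, ?_⟩
  rw [← hii]
  rfl

instance Iq_normal : (Iq q).Normal := by
  refine ⟨fun i hi g => ?_⟩
  rw [mem_Iq] at hi ⊢
  rw [map_mul, map_mul, map_inv]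
  exact conj_mem_inertiaSubgroupIn' (localGaloisToGlobal_mem_decompositionSubgroup q g) hi

/-- `padicPlace q` lies over `q`. -/
theorem natCast_mem_nonunits_padicPlace : (q : Qbar) ∈ (padicPlace q).nonunits := by
  have hq0 : (q : Qbar) ≠ 0 := by exact_mod_cast (Fact.out : q.Prime).ne_zero
  rw [Fermat.Agent.S05.mem_nonunits_iff_inv_notMem hq0, mem_padicPlace_iff_norm, map_inv₀,
    map_natCast, norm_inv, norm_natCast_self, inv_inv, not_le]
  exact_mod_cast (Fact.out : q.Prime).one_lt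

theorem padicPlace_liesOverPrime' : (padicPlace q).LiesOverPrime q :=
  natCast_mem_nonunits_padicPlace q

/-- a Frobenius element of `G_{ℚ_q}`: its image is a frozen Frobenius at `padicPlace q`. -/
theorem exists_frobenius :
    ∃ F : Gq q, (padicPlace q).IsFrobeniusAt (localGaloisToGlobal q F) q := by
  obtain ⟨φ, hφ⟩ := Fermat.Agent.Common_helper32.exists_isFrobeniusAt_of_liesOver (padicPlace q) q Fact.out
    (natCast_mem_nonunits_padicPlace q)
  have hmem : φ ∈ (localGaloisToGlobal q).range := by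
    rw [range_localGaloisToGlobal_eq]
    exact hφ.mem_decompositionSubgroup
  obtain ⟨F, rfl⟩ := hmem
  exact ⟨F, hφ⟩

/-- **(GEN)** for `G_{ℚ_q}`: modulo every open subgroup, `G_{ℚ_q}` is generated by a Frobenius and
inertia. -/
theorem gen_Iq {F : Gq q} (hF : (padicPlace q).IsFrobeniusAt (localGaloisToGlobal q F) q) :
    ∀ U ∈ (levelQ q).sets, ∀ d : Gq q, ∃ n : ℤ, ∃ i ∈ Iq q, ∃ u ∈ U, d = F ^ n * i * u := by
  intro U hU d
  obtain ⟨U', ⟨V, hV, rfl⟩, hle⟩ := isContHom_levelOf_levelQ q U hU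
  obtain ⟨V', ⟨L, hL, rfl⟩, hV'le, hV'n, -⟩ := levelAll.normal_below V hV
  have := hL
  have hopen : IsOpen ((L.fixingSubgroup : Subgroup GQ) : Set GQ) :=
    IntermediateField.fixingSubgroup_isOpen L
  obtain ⟨n, τ, hτ, h, hh, hd⟩ := Fermat.Agent.GP.Loc.FrobGen.exists_eq_pow_mul_mul
    (padicPlace q) Fact.out (natCast_mem_nonunits_padicPlace q) hF L.fixingSubgroup hV'n hopen
    (localGaloisToGlobal_mem_decompositionSubgroup q d)
  have hτr : τ ∈ (localGaloisToGlobal q).range := by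
    rw [range_localGaloisToGlobal_eq]
    exact Fermat.Agent.S05.mem_decompositionSubgroup_of_mem_inertiaSubgroupIn hτ
  obtain ⟨i, rfl⟩ := hτr
  have hhr : h ∈ (localGaloisToGlobal q).range := by
    have : h = (localGaloisToGlobal q (F ^ n * i))⁻¹ * localGaloisToGlobal q d := by
      rw [hd, map_mul, map_pow]
      group
    rw [this]
    exact Subgroup.mul_mem _ (Subgroup.inv_mem _ ⟨_, rfl⟩) ⟨_, rfl⟩
  obtain ⟨u, rfl⟩ := hhr
  refine ⟨(n : ℤ), i, hτ, u, hle (hV'le hh), ?_⟩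
  apply localGaloisToGlobal_injective q
  rw [zpow_natCast, map_mul, map_mul, map_pow]
  exact hd

end Concrete

section Finrank

/-- cardinality comparison gives dimension comparison over a finite field. -/
theorem finrank_le_of_card_le {k V W : Type*} [Field k] [Finite k] [AddCommGroup V] [Module k V]
    [AddCommGroup W] [Module k W] [Finite V] [Finite W] (h : Nat.card V ≤ Nat.card W) :
    Module.finrank k V ≤ Module.finrank k W := by
  rw [Module.natCard_eq_pow_finrank (K := k) (V := V),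
    Module.natCard_eq_pow_finrank (K := k) (V := W)] at h
  exact (Nat.pow_le_pow_iff_right Finite.one_lt_card).1 h

end Finrank

section LocalQ

open Fermat.Agent.GC.Places Fermat.Agent.GC.Local.KR Fermat.Agent.GC.C0
  Fermat.Agent.GC.PT.LocDataQ

variable (q : ℕ) [Fact q.Prime]

section

variable {k : Type} [CommRing k] (M : Rep k (Gq q)) [IsDiscrete (levelQ q) M]

/-- the unramified classes in `H¹(G_{ℚ_q}, M)` (pinned model). -/
def unrLocQ : Submodule k (Hlc (levelQ q) M 1) := unrH1 (levelQ q) M (Iq q)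

theorem mem_unrLocQ (x : Hlc (levelQ q) M 1) :
    x ∈ unrLocQ q M ↔ ∃ z : lcCocycles₁ (levelQ q) M,
      (∀ i ∈ Iq q, (z : Gq q → M) i = 0) ∧ Hlc1π (levelQ q) M z = x :=
  mem_unrH1 (levelQ q) M (Iq q) x

/-- the class of a level-constant cocycle which is a coboundary `i ↦ i m − m` on inertia is
unramified. -/
theorem Hlc1π_mem_unrLocQ (z : lcCocycles₁ (levelQ q) M) (m : M)
    (hm : ∀ i ∈ Iq q, (z : Gq q → M) i = M.ρ i m - m) :
    Hlc1π (levelQ q) M z ∈ unrLocQ q M :=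
  mem_unrH1_of_coboundary_on (levelQ q) M (Iq q) z m hm

theorem finite_unrLocQ [Finite M] : Finite ↥(unrLocQ q M) := by
  obtain ⟨F, hF⟩ := exists_frobenius q
  exact finite_unrH1 (levelQ q) M (Iq q) F (gen_Iq q hF)

/-- **`#H¹_unr(G_q, M) ≤ #H⁰(G_q, M)`**. -/
theorem card_unrLocQ_le [Finite M] :
    Nat.card ↥(unrLocQ q M) ≤ Nat.card (Hlc (levelQ q) M 0) := by
  obtain ⟨F, hF⟩ := exists_frobenius q
  exact card_unrH1_le (levelQ q) M (Iq q) F (gen_Iq q hF)

end

/-- **`dim H¹_unr(G_q, M) ≤ dim H⁰(G_q, M)`** over a finite field. -/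
theorem finrank_unrLocQ_le {k : Type} [Field k] [Finite k] (M : Rep k (Gq q))
    [IsDiscrete (levelQ q) M] [Finite M] :
    Module.finrank k ↥(unrLocQ q M) ≤ Module.finrank k (Hlc (levelQ q) M 0) := by
  have := finite_unrLocQ q M
  have := finite_Hlc_zero (levelQ q) M
  exact finrank_le_of_card_le (card_unrLocQ_le q M)

end LocalQ

section Model

open Fermat.Agent.GC.Places Fermat.Agent.GC.Local.KR Fermat.Agent.GC.C0
  Fermat.Agent.GC.PT.LocDataQ Fermat.Agent.GC.Prof.Cone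

/-- The residue characteristic of a member of `S` is prime. -/
local instance factPrimeOfPrimes' (q : Nat.Primes) : Fact ((q : ℕ).Prime) := ⟨q.2⟩

variable (S : Finset Nat.Primes)

/-- the residue characteristic of `v ∈ S`. -/
abbrev qOf (v : (locDataQ S).ι) : Nat.Primes := (show ↥S from v).1

section

variable {k : Type} [CommRing k] (M : Rep k GQ) [IsDiscrete (levelS S) M]

/-- discreteness of the restriction to `G_{ℚ_v}`, in the unfolded spelling. -/
instance isDiscrete_res_localGaloisToGlobal (v : (locDataQ S).ι) :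
    IsDiscrete (levelQ (qOf S v)) (Rep.res (localGaloisToGlobal (qOf S v)) M) :=
  LocalData.isDiscrete_res (locDataQ S) v M

/-- the unramified local condition at `v ∈ S` in the pinned model
(`Hlc ((locDataQ S).𝒰v v) (Rep.res ((locDataQ S).r v) M) 1 = Hloc S M v 1` of `GP/GW/Model.lean`). -/
def unrLoc (v : (locDataQ S).ι) :
    Submodule k (Hlc ((locDataQ S).𝒰v v) (Rep.res ((locDataQ S).r v) M) 1) :=
  unrLocQ (qOf S v) (Rep.res (localGaloisToGlobal (qOf S v)) M)

theorem unrLoc_eq (v : (locDataQ S).ι) :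
    unrLoc S M v = unrLocQ (qOf S v) (Rep.res (localGaloisToGlobal (qOf S v)) M) := rfl

/-- **membership criterion**: the localisation at `v` of the class of a GLOBAL level-constant
cocycle `z` which is a coboundary `σ ↦ σ m − m` on the frozen inertia group of `padicPlace v`
lies in `unrLoc S M v`. -/
theorem locRes_mem_unrLoc (v : (locDataQ S).ι) (z : lcCocycles₁ (levelS S) M) (m : M)
    (hm : ∀ σ ∈ (padicPlace (qOf S v)).inertiaSubgroupIn ℚ, (z : GQ → M) σ = M.ρ σ m - m) :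
    locRes (locDataQ S) M 1 (Hlc1π (levelS S) M z) v ∈ unrLoc S M v := by
  rw [locRes_apply]
  unfold HlcRes
  rw [HlcPull_Hlc1π]
  refine Hlc1π_mem_unrLocQ (qOf S v) (Rep.res (localGaloisToGlobal (qOf S v)) M) _ m ?_
  intro i hi
  exact hm _ hi

theorem finite_unrLoc [Finite M] (v : (locDataQ S).ι) : Finite ↥(unrLoc S M v) :=
  finite_unrLocQ (qOf S v) (Rep.res (localGaloisToGlobal (qOf S v)) M)

/-- **`#L_v^{unr} ≤ #H⁰(G_v, M)`**. -/
theorem card_unrLoc_le [Finite M] (v : (locDataQ S).ι) :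
    Nat.card ↥(unrLoc S M v) ≤
      Nat.card (Hlc ((locDataQ S).𝒰v v) (Rep.res ((locDataQ S).r v) M) 0) :=
  card_unrLocQ_le (qOf S v) (Rep.res (localGaloisToGlobal (qOf S v)) M)

end

/-- **`dim L_v^{unr} ≤ h⁰(G_v, M)`** over a finite field (`k = ZMod p` in the pinned model). -/
theorem finrank_unrLoc_le {k : Type} [Field k] [Finite k] (M : Rep k GQ) [IsDiscrete (levelS S) M]
    [Finite M] (v : (locDataQ S).ι) :
    Module.finrank k ↥(unrLoc S M v) ≤
      Module.finrank k (Hlc ((locDataQ S).𝒰v v) (Rep.res ((locDataQ S).r v) M) 0) :=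
  finrank_unrLocQ_le (qOf S v) (Rep.res (localGaloisToGlobal (qOf S v)) M)

end Model

end Fermat.Agent.GP.Loc.UnrCountQ

end
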